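import Mathlib
import Fermat.Prelude.Def_ModularCurve_X0ModL

/-!
# S28: shared definitions for the reversed tower (WP4/WP5 interface)

* `Jd K d`      : the series `J(q^d)` over `K` (total in `d`; junk value `J` for `d = 0`);
* `FF K N m`    : the field `K(J(q^(m*d)) : d ∣ N)` inside `LaurentSeries K`;
* `polyAt Φ y`  : the polynomial `Φ(X, y)` for `Φ ∈ ℤ[Y][X]` (outer variable `X`, inner variable `Y`);
* `ModEq p`     : the modular equation of level `p` as pure integral data (interface WP5 → WP4);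
* `BaseCase p`  : `J(q^p) ∉ K(J(q))` for every field `K` in which `p ≠ 0`.
-/

set_option autoImplicit false

open ModularCurve Polynomial

namespace Fermat.Agent.S28.TD

noncomputable section

/-- The series `J(q^d)` with coefficients in `K`; for `d = 0` the junk value `J(q)`. -/
def Jd (K : Type*) [CommRing K] (d : ℕ) : LaurentSeries K :=
  if h : d = 0 then jqModC K else haveI : NeZero d := ⟨h⟩; qExpand K d (jqModC K)

theorem Jd_eq (K : Type*) [CommRing K] (d : ℕ) [NeZero d] : Jd K d = qExpand K d (jqModC K) := by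
  unfold Jd
  rw [dif_neg (NeZero.ne d)]

theorem Jd_eq_jqNModC (K : Type*) [CommRing K] (d : ℕ) [NeZero d] : Jd K d = jqNModC K d :=
  Jd_eq K d

@[simp] theorem Jd_one (K : Type*) [CommRing K] : Jd K 1 = jqModC K := by
  rw [Jd_eq K 1, qExpand_one_apply]

theorem Jd_rat (d : ℕ) [NeZero d] : Jd ℚ d = qExpand ℚ d jq := Jd_eq ℚ d

theorem coeffMap_Jd {K K' : Type*} [CommRing K] [CommRing K'] (f : K →+* K') (d : ℕ) :
    coeffMap f (Jd K d) = Jd K' d := by
  by_cases h : d = 0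
  · subst h
    simp only [Jd, dif_pos]
    exact coeffMap_jqModC f
  · haveI : NeZero d := ⟨h⟩
    rw [Jd_eq K d, Jd_eq K' d, coeffMap_qExpand, coeffMap_jqModC]

theorem qExpand_Jd (K : Type*) [CommRing K] (m : ℕ) [NeZero m] (d : ℕ) (hd : d ≠ 0) :
    qExpand K m (Jd K d) = Jd K (m * d) := by
  haveI : NeZero d := ⟨hd⟩
  haveI : NeZero (m * d) := ⟨Nat.mul_ne_zero (NeZero.ne m) hd⟩
  rw [Jd_eq K d, Jd_eq K (m * d), qExpand_qExpand]

/-- The field `K(J(q^(m*d)) : d ∣ N)` inside `LaurentSeries K` (= image of the full modular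
function field of level `N` under `q ↦ q^m`). -/
def FF (K : Type*) [Field K] (N m : ℕ) : IntermediateField K (LaurentSeries K) :=
  IntermediateField.adjoin K ((fun d => Jd K (m * d)) '' {d | d ∣ N})

theorem Jd_mem_FF (K : Type*) [Field K] {N m d : ℕ} (hd : d ∣ N) : Jd K (m * d) ∈ FF K N m :=
  IntermediateField.subset_adjoin K _ ⟨d, hd, rfl⟩

theorem FF_rat_one (N : ℕ) [NeZero N] : FF ℚ N 1 = modularFunctionFieldFull N := by
  unfold FF modularFunctionFieldFull
  congr 1
  ext x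
  constructor
  · rintro ⟨d, hd, rfl⟩
    have hd0 : d ≠ 0 := fun h => NeZero.ne N (by simpa [h] using hd)
    haveI : NeZero d := ⟨hd0⟩
    exact ⟨d, ⟨hd0⟩, hd, by simp only [one_mul]; exact Jd_rat d⟩
  · rintro ⟨d, hne, hd, rfl⟩
    exact ⟨d, hd, by simp only [one_mul]; exact Jd_rat d⟩

/-- The polynomial `Φ(X, y) ∈ S[X]` for `Φ ∈ ℤ[Y][X]`: outer variable `X`, inner variable `Y`
evaluated at `y`. -/
def polyAt {S : Type*} [CommRing S] (Φ : Polynomial (Polynomial ℤ)) (y : S) : Polynomial S :=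
  Φ.map (Polynomial.eval₂RingHom (Int.castRingHom S) y)

theorem polyAt_map {S S' : Type*} [CommRing S] [CommRing S'] (φ : S →+* S')
    (Φ : Polynomial (Polynomial ℤ)) (y : S) : (polyAt Φ y).map φ = polyAt Φ (φ y) := by
  unfold polyAt
  rw [Polynomial.map_map]
  congr 1
  refine Polynomial.ringHom_ext (fun a => ?_) ?_
  · simp
  · simp

theorem polyAt_monic {S : Type*} [CommRing S] {Φ : Polynomial (Polynomial ℤ)} (hΦ : Φ.Monic)
    (y : S) : (polyAt Φ y).Monic := hΦ.map _

theorem polyAt_natDegree {S : Type*} [CommRing S] [Nontrivial S] {Φ : Polynomial (Polynomial ℤ)}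
    (hΦ : Φ.Monic) (y : S) : (polyAt Φ y).natDegree = Φ.natDegree := hΦ.natDegree_map _

/-- `φ (Φ(x, y)) = Φ(φ x, φ y)` for every ring homomorphism `φ`. -/
theorem map_eval_polyAt {S S' : Type*} [CommRing S] [CommRing S'] (φ : S →+* S')
    (Φ : Polynomial (Polynomial ℤ)) (x y : S) :
    φ ((polyAt Φ y).eval x) = (polyAt Φ (φ y)).eval (φ x) := by
  rw [← polyAt_map, Polynomial.eval_map, Polynomial.eval₂_at_apply]

/-- The modular equation of prime level `p`, as integral data without roots of unity: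
a monic `Φ ∈ ℤ[Y][X]` of `X`-degree `p + 1` with `Φ(J(q), J(q^p)) = 0` and `Φ(J(q^p), J(q)) = 0`
in `ℤ((q))`. -/
structure ModEq (p : ℕ) : Type where
  Φ : Polynomial (Polynomial ℤ)
  monic : Φ.Monic
  natDegree_eq : Φ.natDegree = p + 1
  rel₁ : (polyAt Φ (Jd ℤ p)).eval (Jd ℤ 1) = 0
  rel₂ : (polyAt Φ (Jd ℤ 1)).eval (Jd ℤ p) = 0

/-- `Φ(J(q^m), J(q^(m*p))) = 0` over every commutative ring and for every `m ≥ 1`. -/
theorem ModEq.rel₁' {p : ℕ} (D : ModEq p) (hp : p ≠ 0) (K : Type*) [CommRing K] (m : ℕ)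
    (hm : m ≠ 0) : (polyAt D.Φ (Jd K (m * p))).eval (Jd K m) = 0 := by
  haveI : NeZero m := ⟨hm⟩
  have h1 := congrArg (coeffMap (Int.castRingHom K)) D.rel₁
  rw [map_eval_polyAt, coeffMap_Jd, coeffMap_Jd, map_zero] at h1
  have h2 := congrArg (qExpand K m) h1
  rwa [map_eval_polyAt, qExpand_Jd K m p hp, qExpand_Jd K m 1 one_ne_zero, mul_one, map_zero]
    at h2

/-- `Φ(J(q^(m*p)), J(q^m)) = 0` over every commutative ring and for every `m ≥ 1`. -/
theorem ModEq.rel₂' {p : ℕ} (D : ModEq p) (hp : p ≠ 0) (K : Type*) [CommRing K] (m : ℕ)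
    (hm : m ≠ 0) : (polyAt D.Φ (Jd K m)).eval (Jd K (m * p)) = 0 := by
  haveI : NeZero m := ⟨hm⟩
  have h1 := congrArg (coeffMap (Int.castRingHom K)) D.rel₂
  rw [map_eval_polyAt, coeffMap_Jd, coeffMap_Jd, map_zero] at h1
  have h2 := congrArg (qExpand K m) h1
  rwa [map_eval_polyAt, qExpand_Jd K m p hp, qExpand_Jd K m 1 one_ne_zero, mul_one, map_zero]
    at h2

/-- The base case of level `p`: `J(q^p) ∉ K(J(q))` for every field `K` in which `p ≠ 0`. -/
def BaseCase (p : ℕ) : Prop :=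
  ∀ (K : Type) [Field K], (p : K) ≠ 0 → Jd K p ∉ IntermediateField.adjoin K {Jd K 1}

end

end Fermat.Agent.S28.TD
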