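/-
S28 / D3 (design v1 of helper22, report 539): the VALUATION INDEPENDENCE lemma (V).

If `x ∈ K((t))` is nonzero of order `u` and `c₀, …, c_{n-1}` are series "in `t ^ M`"
(i.e. in `Set.range (qExpand K M)`) such that the residues `u * i mod M` (`i < n`) are pairwise
distinct, then `∑ c i * x ^ i = 0` forces all `c i = 0`: the nonzero terms have pairwise
different orders.  Typical use: `x = J(q^m)` (order `-m`), `M = m * p`, `n = p`.

No roots of unity, no automorphisms, any characteristic.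
-/
import Mathlib
import Fermat.Prelude.Def_ModularCurve_JqCoeff
import Fermat.Prelude.Thm_ModularCurve_coeff_jqModC_neg_one
import Fermat.Prelude.Thm_ModularCurve_coeff_jqModC_pow_of_lt
import Fermat.Agent.S28.TowerDefs

set_option autoImplicit false

open ModularCurve Polynomial

namespace Fermat.Agent.S28.ValInd

variable {K : Type*} [Field K]

/-- A series with a nonzero coefficient at `u` and no coefficient below `u` has order `u`. -/
theorem order_eq_of_coeff {x : LaurentSeries K} {u : ℤ} (h1 : x.coeff u ≠ 0)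
    (h2 : ∀ k : ℤ, k < u → x.coeff k = 0) : x.order = u := by
  refine le_antisymm (HahnSeries.order_le_of_coeff_ne_zero h1) ?_
  by_contra hlt
  have hx : x ≠ 0 := HahnSeries.ne_zero_of_coeff_ne_zero h1
  exact (HahnSeries.coeff_order_eq_zero.not.mpr hx) (h2 _ (not_le.mp hlt))

/-- The order of a nonzero series in `t ^ M` is divisible by `M`. -/
theorem dvd_order_of_mem_range (M : ℕ) [NeZero M] {c : LaurentSeries K}
    (hc : c ∈ Set.range (qExpand K M)) (h0 : c ≠ 0) : (M : ℤ) ∣ c.order := by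
  obtain ⟨f, rfl⟩ := hc
  by_contra h
  exact (HahnSeries.coeff_order_eq_zero.not.mpr h0) (qExpand_coeff_of_not_dvd M f h)

/-- The order of a nonzero series supported on multiples of `M` is divisible by `M`. -/
theorem dvd_order_of_supp (M : ℕ) {c : LaurentSeries K}
    (hc : ∀ k : ℤ, ¬ (M : ℤ) ∣ k → c.coeff k = 0) (h0 : c ≠ 0) : (M : ℤ) ∣ c.order := by
  by_contra h
  exact (HahnSeries.coeff_order_eq_zero.not.mpr h0) (hc _ h)

/-- **(V), raw form, support version.**  `x ≠ 0` of order `u`; if `M ∣ u * (i - j)` forces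
`i = j` for `i, j < n`, then `1, x, …, x^(n-1)` satisfy no nontrivial relation with coefficients
supported on multiples of `M`. -/
theorem eq_zero_of_sum_mul_pow_eq_zero_of_supp (M : ℕ) (n : ℕ) {x : LaurentSeries K}
    (hx : x ≠ 0)
    (hinj : ∀ i j : ℕ, i < n → j < n → (M : ℤ) ∣ x.order * ((i : ℤ) - j) → i = j)
    (c : ℕ → LaurentSeries K)
    (hc : ∀ i, i < n → ∀ k : ℤ, ¬ (M : ℤ) ∣ k → (c i).coeff k = 0)
    (hsum : ∑ i ∈ Finset.range n, c i * x ^ i = 0) : ∀ i, i < n → c i = 0 := by
  classical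
  by_contra hne
  push Not at hne
  obtain ⟨i₁, hi₁n, hi₁⟩ := hne
  set S : Finset ℕ := (Finset.range n).filter (fun i => c i ≠ 0) with hS
  have hSne : S.Nonempty := ⟨i₁, by simp [hS, hi₁n, hi₁]⟩
  -- the order of the `i`-th term
  have hord : ∀ i, c i ≠ 0 → (c i * x ^ i).order = (c i).order + (i : ℤ) * x.order := by
    intro i hi
    rw [HahnSeries.order_mul hi (pow_ne_zero i hx), HahnSeries.order_pow, nsmul_eq_mul]
  obtain ⟨i₀, hi₀S, hmin⟩ := S.exists_min_image (fun i => (c i * x ^ i).order) hSne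
  have hi₀n : i₀ < n := by
    have := (Finset.mem_filter.mp hi₀S).1
    exact Finset.mem_range.mp this
  have hi₀ : c i₀ ≠ 0 := (Finset.mem_filter.mp hi₀S).2
  set v : ℤ := (c i₀ * x ^ i₀).order with hv
  have hcoeff : (∑ i ∈ Finset.range n, c i * x ^ i).coeff v = (c i₀ * x ^ i₀).coeff v := by
    rw [HahnSeries.coeff_sum]
    refine Finset.sum_eq_single i₀ ?_ ?_
    · intro i hin hii₀
      have hin' : i < n := Finset.mem_range.mp hin
      by_cases hci : c i = 0
      · rw [hci, zero_mul, HahnSeries.coeff_zero]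
      · apply HahnSeries.coeff_eq_zero_of_lt_order
        have hle : v ≤ (c i * x ^ i).order := hmin i (by simp [hS, hin', hci])
        refine lt_of_le_of_ne hle ?_
        intro heq
        apply hii₀
        apply hinj i i₀ hin' hi₀n
        rw [hv, hord i₀ hi₀, hord i hci] at heq
        obtain ⟨a, ha⟩ := dvd_order_of_supp M (hc i hin') hci
        obtain ⟨b, hb⟩ := dvd_order_of_supp M (hc i₀ hi₀n) hi₀
        refine ⟨b - a, ?_⟩
        rw [ha, hb] at heq
        linear_combination -heq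
    · intro h
      exact absurd (Finset.mem_range.mpr hi₀n) h
  rw [hsum, HahnSeries.coeff_zero] at hcoeff
  exact (HahnSeries.coeff_order_eq_zero.not.mpr (mul_ne_zero hi₀ (pow_ne_zero i₀ hx))) hcoeff.symm

/-- **(V), raw form.**  `x ≠ 0` of order `u`; if `M ∣ u * (i - j)` forces `i = j` for `i, j < n`,
then `1, x, …, x^(n-1)` satisfy no nontrivial relation with coefficients in
`Set.range (qExpand K M)`. -/
theorem eq_zero_of_sum_mul_pow_eq_zero (M : ℕ) [NeZero M] (n : ℕ) {x : LaurentSeries K}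
    (hx : x ≠ 0)
    (hinj : ∀ i j : ℕ, i < n → j < n → (M : ℤ) ∣ x.order * ((i : ℤ) - j) → i = j)
    (c : ℕ → LaurentSeries K) (hc : ∀ i, i < n → c i ∈ Set.range (qExpand K M))
    (hsum : ∑ i ∈ Finset.range n, c i * x ^ i = 0) : ∀ i, i < n → c i = 0 :=
  eq_zero_of_sum_mul_pow_eq_zero_of_supp M n hx hinj c
    (fun i hi k hk => by
      obtain ⟨f, hf⟩ := hc i hi
      rw [← hf]
      exact qExpand_coeff_of_not_dvd M f hk) hsum

/-- The arithmetic condition of `eq_zero_of_sum_mul_pow_eq_zero` for order `-m`, `M = m * p`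
and `n = p`. -/
theorem inj_cond_of_order_eq_neg {m p : ℕ} (hm : 0 < m) {u : ℤ} (hu : u = -(m : ℤ))
    (i j : ℕ) (hi : i < p) (hj : j < p)
    (h : ((m * p : ℕ) : ℤ) ∣ u * ((i : ℤ) - j)) : i = j := by
  subst hu
  obtain ⟨a, ha⟩ := h
  have hm' : (m : ℤ) ≠ 0 := by exact_mod_cast hm.ne'
  have h2 : (i : ℤ) - j = (p : ℤ) * (-a) := by
    have : (m : ℤ) * ((i : ℤ) - j) = (m : ℤ) * ((p : ℤ) * (-a)) := by
      push_cast at ha
      linear_combination -ha
    exact mul_left_cancel₀ hm' this
  have hi' : (i : ℤ) < p := by exact_mod_cast hi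
  have hj' : (j : ℤ) < p := by exact_mod_cast hj
  have hi0 : (0 : ℤ) ≤ i := Int.natCast_nonneg i
  have hj0 : (0 : ℤ) ≤ j := Int.natCast_nonneg j
  have ha0 : -a = 0 := by
    by_contra hne
    rcases lt_or_gt_of_ne hne with hlt | hgt
    · have : (p : ℤ) * (-a) ≤ (p : ℤ) * (-1) := by
        apply mul_le_mul_of_nonneg_left _ (by omega)
        omega
      omega
    · have : (p : ℤ) * 1 ≤ (p : ℤ) * (-a) := by
        apply mul_le_mul_of_nonneg_left _ (by omega)
        omega
      omega
  rw [ha0, mul_zero] at h2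
  omega

/-- **(V)** for a series of order `-m` and coefficients in `t ^ (m * p)`. -/
theorem eq_zero_of_sum_mul_pow_eq_zero_of_order {m p : ℕ} [NeZero m] [NeZero p]
    {x : LaurentSeries K} (hx : x ≠ 0) (hord : x.order = -(m : ℤ))
    (c : ℕ → LaurentSeries K) (hc : ∀ i, i < p → c i ∈ Set.range (qExpand K (m * p)))
    (hsum : ∑ i ∈ Finset.range p, c i * x ^ i = 0) : ∀ i, i < p → c i = 0 :=
  eq_zero_of_sum_mul_pow_eq_zero (m * p) p hx
    (fun i j hi hj h => inj_cond_of_order_eq_neg (Nat.pos_of_ne_zero (NeZero.ne m)) hord i j hi hj h)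
    c hc hsum

/-! ### Polynomial forms -/

/-- **(V), polynomial form.**  `A` any commutative ring mapping into the series in `t ^ M`:
a polynomial of degree `< n` over `A` vanishing at `x` has all coefficients mapping to `0`. -/
theorem coeff_eq_zero_of_aeval_eq_zero {A : Type*} [CommRing A] [Algebra A (LaurentSeries K)]
    (M : ℕ) [NeZero M] (n : ℕ) {x : LaurentSeries K} (hx : x ≠ 0)
    (hinj : ∀ i j : ℕ, i < n → j < n → (M : ℤ) ∣ x.order * ((i : ℤ) - j) → i = j)
    (hA : ∀ a : A, algebraMap A (LaurentSeries K) a ∈ Set.range (qExpand K M))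
    (f : Polynomial A) (hf : f.natDegree < n) (h0 : aeval x f = 0) (i : ℕ) :
    algebraMap A (LaurentSeries K) (f.coeff i) = 0 := by
  by_cases hi : i < n
  · refine eq_zero_of_sum_mul_pow_eq_zero M n hx hinj
      (fun i => algebraMap A (LaurentSeries K) (f.coeff i)) (fun i _ => hA _) ?_ i hi
    rw [← h0, aeval_eq_sum_range' hf]
    exact Finset.sum_congr rfl fun i _ => by rw [Algebra.smul_def]
  · rw [coeff_eq_zero_of_natDegree_lt (lt_of_lt_of_le hf (not_lt.mp hi)), map_zero]

/-- **(V), polynomial form over a field** `E` mapping into the series in `t ^ M`: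
a polynomial of degree `< n` over `E` vanishing at `x` is zero. -/
theorem eq_zero_of_aeval_eq_zero {E : Type*} [Field E] [Algebra E (LaurentSeries K)]
    (M : ℕ) [NeZero M] (n : ℕ) {x : LaurentSeries K} (hx : x ≠ 0)
    (hinj : ∀ i j : ℕ, i < n → j < n → (M : ℤ) ∣ x.order * ((i : ℤ) - j) → i = j)
    (hE : ∀ a : E, algebraMap E (LaurentSeries K) a ∈ Set.range (qExpand K M))
    (f : Polynomial E) (hf : f.natDegree < n) (h0 : aeval x f = 0) : f = 0 := by
  ext i
  rw [coeff_zero]
  exact (algebraMap E (LaurentSeries K)).injective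
    (by rw [coeff_eq_zero_of_aeval_eq_zero M n hx hinj hE f hf h0 i, map_zero])

/-- **(V), minimal polynomial form**: `n ≤ deg (minpoly E x)`. -/
theorem le_natDegree_minpoly {E : Type*} [Field E] [Algebra E (LaurentSeries K)]
    (M : ℕ) [NeZero M] (n : ℕ) {x : LaurentSeries K} (hx : x ≠ 0)
    (hinj : ∀ i j : ℕ, i < n → j < n → (M : ℤ) ∣ x.order * ((i : ℤ) - j) → i = j)
    (hE : ∀ a : E, algebraMap E (LaurentSeries K) a ∈ Set.range (qExpand K M))
    (hint : IsIntegral E x) : n ≤ (minpoly E x).natDegree := by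
  by_contra hlt
  exact minpoly.ne_zero hint
    (eq_zero_of_aeval_eq_zero M n hx hinj hE _ (not_le.mp hlt) (minpoly.aeval E x))

/-- **(V), linear independence form** over a field `E` mapping into the series in `t ^ M`. -/
theorem linearIndependent_pow {E : Type*} [Field E] [Algebra E (LaurentSeries K)]
    (M : ℕ) [NeZero M] (n : ℕ) {x : LaurentSeries K} (hx : x ≠ 0)
    (hinj : ∀ i j : ℕ, i < n → j < n → (M : ℤ) ∣ x.order * ((i : ℤ) - j) → i = j)
    (hE : ∀ a : E, algebraMap E (LaurentSeries K) a ∈ Set.range (qExpand K M)) :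
    LinearIndependent E (fun i : Fin n => x ^ (i : ℕ)) := by
  rw [Fintype.linearIndependent_iff]
  intro g hg i
  have key := eq_zero_of_sum_mul_pow_eq_zero M n hx hinj
    (fun i => if h : i < n then algebraMap E (LaurentSeries K) (g ⟨i, h⟩) else 0)
    (fun i hi => by simp only [dif_pos hi]; exact hE _) ?_ i i.2
  · simp only [dif_pos i.2, Fin.eta] at key
    exact (algebraMap E (LaurentSeries K)).injective (by rw [key, map_zero])
  · rw [← hg, Finset.sum_range]
    exact Finset.sum_congr rfl fun j _ => by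
      simp only [dif_pos j.2, Fin.eta]
      rw [Algebra.smul_def]

/-! ### The case `x = J(q^m)` -/

/-- `J(q^m)` has a coefficient `1` at `-m` and nothing below. -/
theorem jqNModC_coeff_neg (m : ℕ) [NeZero m] : (jqNModC K m).coeff (-(m : ℤ)) = 1 := by
  have h := qExpand_coeff_mul (R := K) m (jqModC K) (-1)
  rw [show (m : ℤ) * (-1) = -(m : ℤ) by ring] at h
  rw [jqNModC, h, coeff_jqModC_neg_one]

theorem jqNModC_coeff_of_lt (m : ℕ) [NeZero m] {k : ℤ} (hk : k < -(m : ℤ)) :
    (jqNModC K m).coeff k = 0 := by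
  by_cases hd : (m : ℤ) ∣ k
  · obtain ⟨a, rfl⟩ := hd
    rw [jqNModC, qExpand_coeff_mul]
    have hm : (0 : ℤ) < m := by exact_mod_cast Nat.pos_of_ne_zero (NeZero.ne m)
    have ha : a < -((1 : ℕ) : ℤ) := by
      by_contra hge
      have : (m : ℤ) * (-1) ≤ (m : ℤ) * a := by
        apply mul_le_mul_of_nonneg_left _ hm.le
        push_cast at hge
        omega
      omega
    have h := coeff_jqModC_pow_of_lt K (b := 1) ha
    rwa [pow_one] at h
  · exact qExpand_coeff_of_not_dvd m _ hd

theorem jqNModC_ne_zero (m : ℕ) [NeZero m] : jqNModC K m ≠ 0 :=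
  HahnSeries.ne_zero_of_coeff_ne_zero (g := -(m : ℤ)) (by rw [jqNModC_coeff_neg]; exact one_ne_zero)

theorem order_jqNModC (m : ℕ) [NeZero m] : (jqNModC K m).order = -(m : ℤ) :=
  order_eq_of_coeff (by rw [jqNModC_coeff_neg]; exact one_ne_zero)
    (fun _ hk => jqNModC_coeff_of_lt m hk)

/-- **(V) for `J(q^m)`**, raw form: no nontrivial relation `∑_{i<p} c i * J(q^m)^i = 0` with
coefficients in `t ^ (m * p)`. -/
theorem jqNModC_eq_zero_of_sum (m p : ℕ) [NeZero m] [NeZero p]
    (c : ℕ → LaurentSeries K) (hc : ∀ i, i < p → c i ∈ Set.range (qExpand K (m * p)))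
    (hsum : ∑ i ∈ Finset.range p, c i * jqNModC K m ^ i = 0) : ∀ i, i < p → c i = 0 :=
  eq_zero_of_sum_mul_pow_eq_zero_of_order (jqNModC_ne_zero m) (order_jqNModC m) c hc hsum

/-- **(V) for `J(q^m)`**, polynomial form over a field `E` of series in `t ^ (m * p)`. -/
theorem jqNModC_eq_zero_of_aeval {E : Type*} [Field E] [Algebra E (LaurentSeries K)]
    (m p : ℕ) [NeZero m] [NeZero p]
    (hE : ∀ a : E, algebraMap E (LaurentSeries K) a ∈ Set.range (qExpand K (m * p)))
    (f : Polynomial E) (hf : f.natDegree < p) (h0 : aeval (jqNModC K m) f = 0) : f = 0 :=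
  eq_zero_of_aeval_eq_zero (m * p) p (jqNModC_ne_zero m)
    (fun i j hi hj h => inj_cond_of_order_eq_neg (Nat.pos_of_ne_zero (NeZero.ne m))
      (order_jqNModC m) i j hi hj h) hE f hf h0

/-- **(V) for `J(q^m)`**: the minimal polynomial over a field `E` of series in `t ^ (m * p)`
has degree at least `p`. -/
theorem jqNModC_le_natDegree_minpoly {E : Type*} [Field E] [Algebra E (LaurentSeries K)]
    (m p : ℕ) [NeZero m] [NeZero p]
    (hE : ∀ a : E, algebraMap E (LaurentSeries K) a ∈ Set.range (qExpand K (m * p)))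
    (hint : IsIntegral E (jqNModC K m)) : p ≤ (minpoly E (jqNModC K m)).natDegree :=
  le_natDegree_minpoly (m * p) p (jqNModC_ne_zero m)
    (fun i j hi hj h => inj_cond_of_order_eq_neg (Nat.pos_of_ne_zero (NeZero.ne m))
      (order_jqNModC m) i j hi hj h) hE hint

/-- **(V) for `J(q^m)`**: `1, J(q^m), …, J(q^m)^(p-1)` are linearly independent over any field
`E` of series in `t ^ (m * p)`. -/
theorem jqNModC_linearIndependent_pow {E : Type*} [Field E] [Algebra E (LaurentSeries K)]
    (m p : ℕ) [NeZero m] [NeZero p]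
    (hE : ∀ a : E, algebraMap E (LaurentSeries K) a ∈ Set.range (qExpand K (m * p))) :
    LinearIndependent E (fun i : Fin p => jqNModC K m ^ (i : ℕ)) :=
  linearIndependent_pow (m * p) p (jqNModC_ne_zero m)
    (fun i j hi hj h => inj_cond_of_order_eq_neg (Nat.pos_of_ne_zero (NeZero.ne m))
      (order_jqNModC m) i j hi hj h) hE

/-- **(V) for `J(q)`** (`m = 1`): polynomial form over a field `E` of series in `t ^ p`. -/
theorem jqModC_eq_zero_of_aeval {E : Type*} [Field E] [Algebra E (LaurentSeries K)]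
    (p : ℕ) [NeZero p]
    (hE : ∀ a : E, algebraMap E (LaurentSeries K) a ∈ Set.range (qExpand K p))
    (f : Polynomial E) (hf : f.natDegree < p) (h0 : aeval (jqModC K) f = 0) : f = 0 := by
  have hE' : ∀ a : E, algebraMap E (LaurentSeries K) a ∈ Set.range (qExpand K (1 * p)) := by
    intro a
    obtain ⟨b, hb⟩ := hE a
    exact ⟨b, by rw [← hb]; exact qExpand_congr (one_mul p) b⟩
  have h0' : aeval (jqNModC K 1) f = 0 := by rw [jqNModC_one]; exact h0
  exact jqNModC_eq_zero_of_aeval 1 p hE' f hf h0'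

/-- **(V) for `J(q)`** (`m = 1`): minimal polynomial degree bound. -/
theorem jqModC_le_natDegree_minpoly {E : Type*} [Field E] [Algebra E (LaurentSeries K)]
    (p : ℕ) [NeZero p]
    (hE : ∀ a : E, algebraMap E (LaurentSeries K) a ∈ Set.range (qExpand K p))
    (hint : IsIntegral E (jqModC K)) : p ≤ (minpoly E (jqModC K)).natDegree := by
  by_contra hlt
  exact minpoly.ne_zero hint
    (jqModC_eq_zero_of_aeval p hE _ (not_le.mp hlt) (minpoly.aeval E (jqModC K)))

/-! ### The exact statements of task D3 (route T), in terms of `TD.Jd` / `TD.FF` -/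

/-- `TD.Jd K m = jqNModC K m` has order `-m`. -/
theorem order_Jd (m : ℕ) (hm : m ≠ 0) : (TD.Jd K m).order = -(m : ℤ) := by
  have : NeZero m := ⟨hm⟩
  rw [TD.Jd_eq_jqNModC]
  exact order_jqNModC m

theorem Jd_ne_zero (m : ℕ) (hm : m ≠ 0) : TD.Jd K m ≠ 0 := by
  have : NeZero m := ⟨hm⟩
  rw [TD.Jd_eq_jqNModC]
  exact jqNModC_ne_zero m

/-- **(V)** (task D3): if the series `c t` (`t < p`) are supported on multiples of `m * p` and
`∑ t, c t * J(q^m) ^ t = 0`, then all `c t` vanish. -/
theorem valInd (K : Type*) [Field K] (m p : ℕ) (hm : m ≠ 0) (hp : p ≠ 0)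
    (c : Fin p → LaurentSeries K)
    (hc : ∀ t (k : ℤ), ¬ ((m * p : ℕ) : ℤ) ∣ k → (c t).coeff k = 0)
    (h : ∑ t, c t * TD.Jd K m ^ (t : ℕ) = 0) : ∀ t, c t = 0 := by
  have _hp := hp
  intro t
  have key := eq_zero_of_sum_mul_pow_eq_zero_of_supp (m * p) p (Jd_ne_zero (K := K) m hm)
    (fun i j hi hj hd => inj_cond_of_order_eq_neg (Nat.pos_of_ne_zero hm)
      (order_Jd (K := K) m hm) i j hi hj hd)
    (fun i => if hi : i < p then c ⟨i, hi⟩ else 0)
    (fun i hi k hk => by simp only [dif_pos hi]; exact hc _ k hk) ?_ t t.2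
  · simpa only [dif_pos t.2, Fin.eta] using key
  · rw [← h, Finset.sum_range]
    exact Finset.sum_congr rfl fun j _ => by simp only [dif_pos j.2, Fin.eta]

/-- Every element of `TD.FF K N e = K(J(q^(e*d)) : d ∣ N)` is a series in `q^e`
(`N ≠ 0` is needed: for `N = 0` the junk generator `Jd K (e * 0) = J(q)` is present). -/
theorem mem_range_of_mem_FF (K : Type*) [Field K] {N e : ℕ} (hN : N ≠ 0) [NeZero e]
    {y : LaurentSeries K} (hy : y ∈ TD.FF K N e) : y ∈ Set.range (qExpand K e) := by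
  have hle : TD.FF K N e ≤ (qExpandAlgHomC K e).fieldRange := by
    unfold TD.FF
    rw [IntermediateField.adjoin_le_iff]
    rintro x ⟨d, hd, rfl⟩
    have hd0 : d ≠ 0 := by
      rintro rfl
      exact hN (Nat.eq_zero_of_zero_dvd hd)
    exact ⟨TD.Jd K d, TD.qExpand_Jd K e d hd0⟩
  obtain ⟨f, hf⟩ := hle hy
  exact ⟨f, hf⟩

/-- Support lemma (task D3; with the necessary extra hypothesis `N ≠ 0`): elements of
`TD.FF K N e` are supported on multiples of `e`. -/
theorem coeff_eq_zero_of_mem_FF (K : Type*) [Field K] {N e : ℕ} (hN : N ≠ 0) (he : e ≠ 0)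
    {y : LaurentSeries K} (hy : y ∈ TD.FF K N e) {k : ℤ} (hk : ¬ (e : ℤ) ∣ k) :
    y.coeff k = 0 := by
  have : NeZero e := ⟨he⟩
  obtain ⟨f, rfl⟩ := mem_range_of_mem_FF K hN hy
  exact qExpand_coeff_of_not_dvd e f hk

/-- **(V)** with coefficients in `TD.FF K N' (m * p)`: the form consumed by the steps with
`p ∣ N'` (and by the cofactor argument). -/
theorem valInd_FF (K : Type*) [Field K] (N' m p : ℕ) (hN' : N' ≠ 0) (hm : m ≠ 0) (hp : p ≠ 0)
    (c : Fin p → LaurentSeries K) (hc : ∀ t, c t ∈ TD.FF K N' (m * p))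
    (h : ∑ t, c t * TD.Jd K m ^ (t : ℕ) = 0) : ∀ t, c t = 0 :=
  valInd K m p hm hp c
    (fun t _ hk => coeff_eq_zero_of_mem_FF K hN' (Nat.mul_ne_zero hm hp) (hc t) hk) h

end Fermat.Agent.S28.ValInd
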