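/-
S28 / D4 (design v1 of helper22, report 539; task 112): the CORE of the mod-`ℓ` step of the
reversed tower.

For a prime `p` invertible in the field `κ`, `N' ≠ 0`, `m ≠ 0`: if `J(q^p) ∉ κ(J(q^d) : d ∣ N')`,
then `1, J(q^m), …, J(q^m)^p` are linearly independent over `κ(J(q^(m p d)) : d ∣ N')`
(`step_core`); the case `N' = 1` with the base case as input is `step_base`.

Proof: by valuation independence (V) the minimal polynomial of `x = J(q^m)` over
`E = FF κ N' (m p)` has degree `≥ p`; a nontrivial relation of degree `≤ p` forces degree `= p`,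
so `Φ(X, J(q^(m p))) = minpoly · (X - α)` with `α ∈ E`, a series in `q^(m p)`.  By the root list
(over the algebraic closure of `κ`) the only root of `Φ(X, J(q^(m p)))` which is a series in
`q^(m p)` is `J(q^(m p²))`; hence `J(q^(m p²)) ∈ E` and, un-substituting `q^(m p) ↦ q`,
`J(q^p) ∈ FF κ N' 1`.
-/
import Mathlib
import Fermat.Agent.S28.TowerDefs
import Fermat.Agent.S28.ValInd
import Fermat.Agent.S28.Kummer.Roots

set_option autoImplicit false

open ModularCurve Polynomial

namespace Fermat.Agent.S28.StepCore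

noncomputable section

/-! ### The fields `FF K N m` as images under `q ↦ q^e` -/

/-- `FF K N (e * m)` is the image of `FF K N m` under the substitution `q ↦ q^e`. -/
theorem FF_map (K : Type*) [Field K] {N m : ℕ} (hN : N ≠ 0) (hm : m ≠ 0) (e : ℕ) [NeZero e] :
    (TD.FF K N m).map (qExpandAlgHomC K e) = TD.FF K N (e * m) := by
  unfold TD.FF
  rw [IntermediateField.adjoin_map]
  congr 1
  ext x
  constructor
  · rintro ⟨y, ⟨d, hd, rfl⟩, rfl⟩
    have hd0 : d ≠ 0 := fun h0 => hN (by simpa [h0] using hd)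
    refine ⟨d, hd, ?_⟩
    show TD.Jd K (e * m * d) = qExpand K e (TD.Jd K (m * d))
    rw [TD.qExpand_Jd K e (m * d) (Nat.mul_ne_zero hm hd0), mul_assoc]
  · rintro ⟨d, hd, rfl⟩
    have hd0 : d ≠ 0 := fun h0 => hN (by simpa [h0] using hd)
    refine ⟨TD.Jd K (m * d), ⟨d, hd, rfl⟩, ?_⟩
    show qExpand K e (TD.Jd K (m * d)) = TD.Jd K (e * m * d)
    rw [TD.qExpand_Jd K e (m * d) (Nat.mul_ne_zero hm hd0), mul_assoc]

/-- `FF K N e` is the image of `FF K N 1` under the substitution `q ↦ q^e`. -/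
theorem FF_map_one (K : Type*) [Field K] {N : ℕ} (hN : N ≠ 0) (e : ℕ) [NeZero e] :
    (TD.FF K N 1).map (qExpandAlgHomC K e) = TD.FF K N e := by
  rw [FF_map K hN one_ne_zero e, mul_one]

/-- Elements of `FF K N e` are series in `q^e`. -/
theorem mem_range_of_mem_FF (K : Type*) [Field K] {N : ℕ} (hN : N ≠ 0) (e : ℕ) [NeZero e]
    {y : LaurentSeries K} (hy : y ∈ TD.FF K N e) : y ∈ Set.range (qExpand K e) := by
  rw [← FF_map_one K hN e] at hy
  obtain ⟨z, -, rfl⟩ := hy
  exact ⟨z, rfl⟩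

/-- Un-substitution: `J(q^(e d)) ∈ FF K N e` implies `J(q^d) ∈ FF K N 1`. -/
theorem Jd_mem_FF_one_of_mem (K : Type*) [Field K] {N : ℕ} (hN : N ≠ 0) (e : ℕ) [NeZero e]
    {d : ℕ} (hd : d ≠ 0) (h : TD.Jd K (e * d) ∈ TD.FF K N e) : TD.Jd K d ∈ TD.FF K N 1 := by
  rw [← FF_map_one K hN e] at h
  obtain ⟨z, hz, hz'⟩ := h
  have h2 : qExpand K e z = qExpand K e (TD.Jd K d) := by
    rw [TD.qExpand_Jd K e d hd]
    exact hz'
  rw [← qExpand_injective e h2]
  exact hz

/-- `FF K 1 e = K(J(q^e))`. -/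
theorem FF_one_left (K : Type*) [Field K] (e : ℕ) :
    TD.FF K 1 e = IntermediateField.adjoin K {TD.Jd K e} := by
  unfold TD.FF
  congr 1
  ext x
  constructor
  · rintro ⟨d, hd, rfl⟩
    have hd1 : d = 1 := Nat.dvd_one.mp hd
    subst hd1
    show TD.Jd K (e * 1) ∈ _
    rw [mul_one]
    exact Set.mem_singleton _
  · intro hx
    rw [Set.mem_singleton_iff] at hx
    refine ⟨1, dvd_rfl, ?_⟩
    show TD.Jd K (e * 1) = x
    rw [hx, mul_one]

/-! ### From `TD.ModEq` to the root-list input -/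

/-- `TD.ModEq p` gives the `ζ`-free modular equation data used for the root lists. -/
def toKummer {p : ℕ} [NeZero p] (D : TD.ModEq p) : Kummer.ModEqData p where
  Φ := D.Φ
  monic := D.monic
  natDegree_eq := D.natDegree_eq
  rel₁ := by
    have h := D.rel₂
    rw [TD.Jd_one, TD.Jd_eq_jqNModC] at h
    rw [← Kummer.eval_specialize]
    exact h
  rel₂ := by
    have h := D.rel₁
    rw [TD.Jd_one, TD.Jd_eq_jqNModC] at h
    rw [← Kummer.eval_specialize]
    exact h

@[simp] theorem toKummer_Φ {p : ℕ} [NeZero p] (D : TD.ModEq p) : (toKummer D).Φ = D.Φ := rfl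

theorem polyAt_eq_specialize {S : Type*} [CommRing S] (Φ : Polynomial (Polynomial ℤ)) (y : S) :
    TD.polyAt Φ y = Kummer.specialize Φ y := rfl

/-! ### The roots of `Φ(X, J(q^(m p)))` which are series in `q^(m p)` -/

/-- Over a field with a primitive `p`-th root of unity: the only root of `Φ(X, J(q^(m p)))`
which is a series in `q^(m p)` is `J(q^(m p²))`. -/
theorem root_eq_of_mem_range {L : Type*} [Field L] {p : ℕ} (hp : 1 < p) (D : TD.ModEq p)
    {ζ : Lˣ} (hζ : IsPrimitiveRoot ζ p) (m : ℕ) [NeZero m] [NeZero p] {α : LaurentSeries L}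
    (hα : α ∈ Set.range (qExpand L (m * p)))
    (h0 : (TD.polyAt D.Φ (TD.Jd L (m * p))).eval α = 0) : α = TD.Jd L (m * p * p) := by
  have hJ : TD.Jd L (m * p) = Kummer.JJ ((1 : Lˣ) ^ p) (m * p) := by
    rw [one_pow, Kummer.JJ_one, TD.Jd_eq_jqNModC]
  rw [polyAt_eq_specialize, hJ, ← toKummer_Φ D,
    (toKummer D).specialize_eq_prod hp hζ (1 : Lˣ) m, Polynomial.eval_prod,
    Finset.prod_eq_zero_iff] at h0
  obtain ⟨i, -, hi⟩ := h0
  rw [Polynomial.eval_sub, Polynomial.eval_X, Polynomial.eval_C, sub_eq_zero] at hi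
  rcases i with _ | b
  · rw [hi]
    show Kummer.JJ (((1 : Lˣ) ^ p) ^ p) (m * p * p) = _
    rw [one_pow, one_pow, Kummer.JJ_one, TD.Jd_eq_jqNModC]
  · exfalso
    have hi' : α = Kummer.JJ (ζ ^ (b : ℕ) * 1) m := hi
    obtain ⟨f, rfl⟩ := hα
    have hm : 0 < m := Nat.pos_of_ne_zero (NeZero.ne m)
    have hnd : ¬ ((m * p : ℕ) : ℤ) ∣ (-(m : ℤ)) := by
      rw [Int.dvd_neg, Int.natCast_dvd_natCast]
      intro hdvd
      have := Nat.le_of_dvd hm hdvd
      nlinarith
    have h1 := qExpand_coeff_of_not_dvd (m * p) f hnd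
    rw [hi', Kummer.JJ_coeff_neg] at h1
    exact Units.ne_zero _ h1

theorem coeffMap_injective_of_injective {R S : Type*} [CommRing R] [CommRing S] (f : R →+* S)
    (hf : Function.Injective f) : Function.Injective (coeffMap f) := by
  intro x y hxy
  ext k
  apply hf
  rw [← coeffMap_coeff, ← coeffMap_coeff, hxy]

/-- Over any field `κ` with `(p : κ) ≠ 0`: the only root of `Φ(X, J(q^(m p)))` which is a series
in `q^(m p)` is `J(q^(m p²))`. -/
theorem root_eq_of_mem_range' {κ : Type*} [Field κ] {p : ℕ} (hp : p.Prime) (hpκ : (p : κ) ≠ 0)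
    (D : TD.ModEq p) (m : ℕ) [NeZero m] [NeZero p] {α : LaurentSeries κ}
    (hα : α ∈ Set.range (qExpand κ (m * p)))
    (h0 : (TD.polyAt D.Φ (TD.Jd κ (m * p))).eval α = 0) : α = TD.Jd κ (m * p * p) := by
  set L := AlgebraicClosure κ with hL
  set ι : κ →+* L := algebraMap κ L with hι
  have hpL : (p : L) ≠ 0 := by
    intro h
    apply hpκ
    apply (algebraMap κ L).injective
    rw [map_natCast, map_zero]
    exact h
  have : NeZero (p : L) := ⟨hpL⟩
  obtain ⟨ζ₀, hζ₀⟩ := HasEnoughRootsOfUnity.exists_primitiveRoot L p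
  have hζ₀ne : ζ₀ ≠ 0 := hζ₀.ne_zero hp.ne_zero
  let ζ : Lˣ := Units.mk0 ζ₀ hζ₀ne
  have hζ : IsPrimitiveRoot ζ p := by
    have : (ζ : L) = ζ₀ := rfl
    exact IsPrimitiveRoot.coe_units_iff.mp (by rw [this]; exact hζ₀)
  have h1 := congrArg (coeffMap ι) h0
  rw [TD.map_eval_polyAt, TD.coeffMap_Jd, map_zero] at h1
  have hα' : coeffMap ι α ∈ Set.range (qExpand L (m * p)) := by
    obtain ⟨f, rfl⟩ := hα
    exact ⟨coeffMap ι f, (coeffMap_qExpand ι (m * p) f).symm⟩
  have h2 := root_eq_of_mem_range hp.one_lt D hζ m hα' h1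
  rw [← TD.coeffMap_Jd ι] at h2
  exact coeffMap_injective_of_injective ι (algebraMap κ L).injective h2

/-! ### The core step -/

/-- **Core of the mod-`ℓ` step.**  If `J(q^p) ∉ κ(J(q^d) : d ∣ N')`, then `1, J(q^m), …, J(q^m)^p`
satisfy no nontrivial linear relation over `κ(J(q^(m p d)) : d ∣ N')`. -/
theorem step_core (κ : Type*) [Field κ] (N' p m : ℕ) (hN' : N' ≠ 0) (hm : m ≠ 0) (hp : p.Prime)
    (hpκ : (p : κ) ≠ 0) (D : TD.ModEq p) (hnot : TD.Jd κ p ∉ TD.FF κ N' 1)
    (c : Fin (p + 1) → LaurentSeries κ) (hc : ∀ t, c t ∈ TD.FF κ N' (m * p))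
    (h : ∑ t, c t * TD.Jd κ m ^ (t : ℕ) = 0) : ∀ t, c t = 0 := by
  classical
  have : NeZero m := ⟨hm⟩
  have : NeZero p := ⟨hp.ne_zero⟩
  set E := TD.FF κ N' (m * p) with hE
  set x : LaurentSeries κ := TD.Jd κ m with hx
  have hxJ : x = jqNModC κ m := TD.Jd_eq_jqNModC κ m
  -- coefficients of `E` are series in `q^(m p)`
  have hEr : ∀ a : E, algebraMap E (LaurentSeries κ) a ∈ Set.range (qExpand κ (m * p)) :=
    fun a => mem_range_of_mem_FF κ hN' (m * p) a.2
  -- the relation as a polynomial over `E`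
  set f : Polynomial E := ∑ t : Fin (p + 1), Polynomial.monomial (t : ℕ) (⟨c t, hc t⟩ : E)
    with hf
  have hfx : aeval x f = 0 := by
    rw [hf, map_sum, ← h]
    refine Finset.sum_congr rfl fun t _ => ?_
    rw [Polynomial.aeval_monomial]
    rfl
  have hfcoeff : ∀ t : Fin (p + 1), f.coeff (t : ℕ) = (⟨c t, hc t⟩ : E) := by
    intro t
    rw [hf, Polynomial.finsetSum_coeff]
    rw [Finset.sum_eq_single t]
    · rw [Polynomial.coeff_monomial, if_pos rfl]
    · intro s _ hst
      rw [Polynomial.coeff_monomial, if_neg]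
      intro heq
      exact hst (Fin.ext heq)
    · intro hn
      exact absurd (Finset.mem_univ t) hn
  have hfdeg : f.natDegree ≤ p := by
    rw [hf]
    refine Polynomial.natDegree_sum_le_of_forall_le _ _ fun t _ => ?_
    exact (Polynomial.natDegree_monomial_le _).trans (Nat.lt_succ_iff.mp t.2)
  -- it suffices to show `f = 0`
  suffices hf0 : f = 0 by
    intro t
    have := hfcoeff t
    rw [hf0, Polynomial.coeff_zero] at this
    exact congrArg Subtype.val this.symm
  by_contra hfne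
  -- the polynomial `Φ(X, J(q^(m p)))` over `E`
  have hyE : TD.Jd κ (m * p) ∈ E := by
    have := TD.Jd_mem_FF κ (N := N') (m := m * p) (d := 1) (one_dvd N')
    rwa [mul_one] at this
  set y : E := ⟨TD.Jd κ (m * p), hyE⟩ with hy
  set P : Polynomial E := TD.polyAt D.Φ y with hP
  have hPmonic : P.Monic := TD.polyAt_monic D.monic y
  have hPdeg : P.natDegree = p + 1 := by
    rw [hP, TD.polyAt_natDegree D.monic, D.natDegree_eq]
  have hPmap : P.map (algebraMap E (LaurentSeries κ)) = TD.polyAt D.Φ (TD.Jd κ (m * p)) := by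
    rw [hP, TD.polyAt_map]
    rfl
  have hPx : aeval x P = 0 := by
    rw [Polynomial.aeval_def, ← Polynomial.eval_map, hPmap]
    exact D.rel₁' hp.ne_zero κ m hm
  have hint : IsIntegral E x := ⟨P, hPmonic, hPx⟩
  -- degree of the minimal polynomial
  have hge : p ≤ (minpoly E x).natDegree := by
    rw [hxJ]
    exact ValInd.jqNModC_le_natDegree_minpoly m p hEr (by rw [← hxJ]; exact hint)
  have hle : (minpoly E x).natDegree ≤ p :=
    (Polynomial.natDegree_le_of_dvd (minpoly.dvd E x hfx) hfne).trans hfdeg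
  have hdeg : (minpoly E x).natDegree = p := le_antisymm hle hge
  -- the cofactor
  obtain ⟨g, hg⟩ := minpoly.dvd E x hPx
  have hg0 : g ≠ 0 := by
    rintro rfl
    rw [mul_zero] at hg
    exact hPmonic.ne_zero hg
  have hgdeg : g.natDegree = 1 := by
    have h1 := congrArg Polynomial.natDegree hg
    rw [Polynomial.natDegree_mul (minpoly.ne_zero hint) hg0, hPdeg, hdeg] at h1
    omega
  have hgdeg' : g.degree = 1 := by
    rw [Polynomial.degree_eq_natDegree hg0, hgdeg]
    rfl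
  obtain ⟨α, hα⟩ := Polynomial.exists_root_of_degree_eq_one hgdeg'
  have hPα : P.eval α = 0 := by
    rw [hg, Polynomial.eval_mul, hα.eq_zero, mul_zero]
  have hPα' : (TD.polyAt D.Φ (TD.Jd κ (m * p))).eval (α : LaurentSeries κ) = 0 := by
    rw [← hPmap, Polynomial.eval_map, ← Polynomial.aeval_def]
    have := congrArg (algebraMap E (LaurentSeries κ)) hPα
    rw [map_zero] at this
    rw [← this]
    exact (Polynomial.aeval_algebraMap_apply (LaurentSeries κ) α P)
  have hαJ : (α : LaurentSeries κ) = TD.Jd κ (m * p * p) :=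
    root_eq_of_mem_range' hp hpκ D m (hEr α) hPα'
  apply hnot
  apply Jd_mem_FF_one_of_mem κ hN' (m * p) hp.ne_zero
  rw [← hαJ]
  exact α.2

/-- **The case `N' = 1`**: from the base case `J(q^p) ∉ κ(J(q))`, the series
`1, J(q^m), …, J(q^m)^p` are linearly independent over `κ(J(q^(m p)))`. -/
theorem step_base (κ : Type) [Field κ] (p m : ℕ) (hm : m ≠ 0) (hp : p.Prime) (hpκ : (p : κ) ≠ 0)
    (D : TD.ModEq p) (hBC : TD.BaseCase p) (c : Fin (p + 1) → LaurentSeries κ)
    (hc : ∀ t, c t ∈ IntermediateField.adjoin κ {TD.Jd κ (m * p)})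
    (h : ∑ t, c t * TD.Jd κ m ^ (t : ℕ) = 0) : ∀ t, c t = 0 := by
  refine step_core κ 1 p m one_ne_zero hm hp hpκ D ?_ c ?_ h
  · rw [FF_one_left]
    exact hBC κ hpκ
  · intro t
    rw [FF_one_left]
    exact hc t

end

end Fermat.Agent.S28.StepCore
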