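import Mathlib

/-
S28 (Igusa), work package WP3: the abstract tower lemma and the saturation lemma.

Setting: a field `L`, a subring `B` ("Gauss ring"), an element `π` and a residue map
`red : B →+* k` into a field with kernel `π B`.
* `coeff_mem_of_sum_mem`, `ind_of_red`, `exists_repr` : the core of the tower step.
* `Good`, `Good.base`, `Good.step` : the invariant carried along a tower of simple extensions
  `F ⊆ F(x)` and its propagation.
* `mem_of_isIntegral` : `B` is integrally closed in `B[1/π]`.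
* `isIntegral_of_isIntegral_pi_mul`, `Good.isIntegral_of_isIntegral_pi_mul` : saturation.
* `ind_of_irreducible` : the residue-degree hypothesis from an irreducible polynomial.
-/

namespace Fermat.Agent.S28.Tower

open Polynomial

variable {L : Type*} [Field L]

section Core

variable {B : Subring L} {π : L}

/-- Core of the tower lemma: if the powers `1, x, …, x^(n-1)` are independent "modulo `π`" over
`F ∩ B`, then a combination `∑ c t * x ^ t` with coefficients in `F` can only lie in `B` when all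
the coefficients lie in `B`. -/
theorem coeff_mem_of_sum_mem (hπ : π ∈ B) (hπ0 : π ≠ 0) {F : Subfield L} (hπF : π ∈ F)
    (hF : ∀ y ∈ F, ∃ N : ℕ, π ^ N * y ∈ B) {x : L} {n : ℕ}
    (hind : ∀ c : Fin n → L, (∀ t, c t ∈ F) → (∀ t, c t ∈ B) →
      (∃ z ∈ B, ∑ t, c t * x ^ (t : ℕ) = π * z) → ∀ t, ∃ z ∈ B, c t = π * z)
    (c : Fin n → L) (hcF : ∀ t, c t ∈ F) (hy : ∑ t, c t * x ^ (t : ℕ) ∈ B) :
    ∀ t, c t ∈ B := by
  have hN : ∃ N : ℕ, ∀ t, π ^ N * c t ∈ B := by
    choose N hN using fun t => hF (c t) (hcF t)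
    refine ⟨Finset.univ.sup N, fun t => ?_⟩
    have hle : N t ≤ Finset.univ.sup N := Finset.le_sup (Finset.mem_univ t)
    obtain ⟨d, hd⟩ := Nat.exists_eq_add_of_le hle
    rw [hd, pow_add, mul_comm (π ^ N t), mul_assoc]
    exact B.mul_mem (B.pow_mem hπ d) (hN t)
  obtain ⟨N, hN⟩ := hN
  induction N with
  | zero => simpa using hN
  | succ N ih =>
    apply ih
    intro t
    have h1 : ∀ t, π ^ (N + 1) * c t ∈ F := fun t => F.mul_mem (F.pow_mem hπF _) (hcF t)
    have h2 : ∃ z ∈ B, ∑ t, (π ^ (N + 1) * c t) * x ^ (t : ℕ) = π * z := by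
      refine ⟨π ^ N * ∑ t, c t * x ^ (t : ℕ), B.mul_mem (B.pow_mem hπ N) hy, ?_⟩
      rw [Finset.mul_sum, Finset.mul_sum]
      refine Finset.sum_congr rfl fun t _ => ?_
      ring
    obtain ⟨z, hzB, hz⟩ := hind (fun t => π ^ (N + 1) * c t) h1 hN h2 t
    have : π ^ N * c t = z := by
      apply mul_left_cancel₀ hπ0
      rw [← hz]
      ring
    rw [this]
    exact hzB

variable {k : Type*} [Field k] (red : B →+* k)

/-- The independence hypothesis of `coeff_mem_of_sum_mem` follows from linear independence of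
the powers of the reduction of `x` over (a field containing) the residue field of `F ∩ B`. -/
theorem ind_of_red (hker : ∀ y : B, red y = 0 ↔ ∃ z : B, (y : L) = π * z)
    {F : Subfield L} {κ : Subfield k} (hκ : ∀ y : B, (y : L) ∈ F → red y ∈ κ)
    {x : L} (hx : x ∈ B) {n : ℕ}
    (hind' : ∀ c : Fin n → k, (∀ t, c t ∈ κ) →
      ∑ t, c t * (red ⟨x, hx⟩) ^ (t : ℕ) = 0 → ∀ t, c t = 0)
    (c : Fin n → L) (hcF : ∀ t, c t ∈ F) (hcB : ∀ t, c t ∈ B)
    (hz : ∃ z ∈ B, ∑ t, c t * x ^ (t : ℕ) = π * z) (t : Fin n) : ∃ z ∈ B, c t = π * z := by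
  obtain ⟨z, hzB, hz⟩ := hz
  have h0 : red (∑ t, (⟨c t, hcB t⟩ : B) * (⟨x, hx⟩ : B) ^ (t : ℕ)) = 0 := by
    rw [hker]
    refine ⟨⟨z, hzB⟩, ?_⟩
    rw [← hz]
    simp
  rw [map_sum] at h0
  simp only [map_mul, map_pow] at h0
  have h1 := hind' (fun t => red ⟨c t, hcB t⟩) (fun t => hκ _ (hcF t)) h0 t
  obtain ⟨w, hw⟩ := (hker _).mp h1
  exact ⟨w, w.2, hw⟩

end Core

section Repr

/-- If `x ^ n` is an `F`-combination of lower powers of `x`, every element of the field generated
by `F` and `x` is an `F`-combination of `1, x, …, x^(n-1)`. -/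
theorem exists_repr {F : Subfield L} {x : L} {n : ℕ}
    (hdeg : ∃ a : Fin n → L, (∀ t, a t ∈ F) ∧ x ^ n = ∑ t, a t * x ^ (t : ℕ))
    {y : L} (hy : y ∈ Subfield.closure ((F : Set L) ∪ {x})) :
    ∃ c : Fin n → L, (∀ t, c t ∈ F) ∧ y = ∑ t, c t * x ^ (t : ℕ) := by
  obtain ⟨a, haF, ha⟩ := hdeg
  -- the monic polynomial `g = X^n - ∑ a_t X^t` over `F`
  set r : (↥F)[X] := ∑ t : Fin n, C (⟨a t, haF t⟩ : F) * X ^ (t : ℕ) with hr
  have hrdeg : r.degree < n := Polynomial.degree_sum_fin_lt _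
  set g : (↥F)[X] := X ^ n - r with hg
  have hgm : g.Monic := Polynomial.monic_X_pow_sub hrdeg
  have hgx : aeval x g = 0 := by
    rw [hg, map_sub, map_pow, aeval_X, hr, map_sum, ha, sub_eq_zero]
    refine Finset.sum_congr rfl fun t _ => ?_
    rw [map_mul, aeval_C, map_pow, aeval_X]
    rfl
  have hgdeg : g.natDegree = n := by
    apply Polynomial.natDegree_eq_of_degree_eq_some
    rw [hg, Polynomial.degree_sub_eq_left_of_degree_lt
      (by rw [Polynomial.degree_X_pow]; exact hrdeg), Polynomial.degree_X_pow]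
  have hxint : IsIntegral (↥F) x := ⟨g, hgm, hgx⟩
  have hle : Subfield.closure ((F : Set L) ∪ {x}) ≤
      (IntermediateField.adjoin (↥F) ({x} : Set L)).toSubfield := by
    rw [Subfield.closure_le]
    rintro z (hz | hz)
    · exact (IntermediateField.adjoin (↥F) ({x} : Set L)).algebraMap_mem ⟨z, hz⟩
    · exact IntermediateField.subset_adjoin _ _ hz
  have hy1 : y ∈ (IntermediateField.adjoin (↥F) ({x} : Set L)).toSubalgebra := hle hy
  rw [IntermediateField.adjoin_simple_toSubalgebra_of_isAlgebraic hxint.isAlgebraic,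
    Algebra.adjoin_singleton_eq_range_aeval] at hy1
  obtain ⟨p, hp⟩ := hy1
  have hp' : aeval x (p %ₘ g) = y := by
    have h := congrArg (aeval x) (Polynomial.modByMonic_add_div p g)
    rw [map_add, map_mul, hgx, zero_mul, add_zero] at h
    rw [h]
    exact hp
  have hdlt : (p %ₘ g).natDegree < n ∨ n = 0 := by
    rcases Nat.eq_zero_or_pos n with h0 | hpos
    · exact Or.inr h0
    · left
      have := Polynomial.natDegree_modByMonic_lt p hgm (by
        intro h1
        have := congrArg Polynomial.natDegree h1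
        rw [hgdeg, Polynomial.natDegree_one] at this
        omega)
      rwa [hgdeg] at this
  rcases hdlt with hdlt | h0
  · refine ⟨fun t => (((p %ₘ g).coeff t : F) : L), fun t => ((p %ₘ g).coeff t).2, ?_⟩
    rw [← hp', Polynomial.aeval_eq_sum_range' hdlt, Finset.sum_range]
    refine Finset.sum_congr rfl fun t _ => ?_
    rw [Algebra.smul_def]
    rfl
  · -- `n = 0` is impossible: `1 = x ^ 0 = 0`
    exfalso
    subst h0
    simp at ha

end Repr


section Chain

variable {B : Subring L} {π : L} {k : Type*} [Field k]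

/-- Uniform exponent for finitely many elements of `B[1/π]`. -/
theorem exists_uniform_pow (hπ : π ∈ B) {n : ℕ} (c : Fin n → L)
    (hc : ∀ t, ∃ N : ℕ, π ^ N * c t ∈ B) : ∃ N : ℕ, ∀ t, π ^ N * c t ∈ B := by
  choose N hN using hc
  refine ⟨Finset.univ.sup N, fun t => ?_⟩
  have hle : N t ≤ Finset.univ.sup N := Finset.le_sup (Finset.mem_univ t)
  obtain ⟨d, hd⟩ := Nat.exists_eq_add_of_le hle
  rw [hd, pow_add, mul_comm (π ^ N t), mul_assoc]
  exact B.mul_mem (B.pow_mem hπ d) (hN t)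

/-- The invariant carried along the tower: `F` is a subfield of `L` inside `B[1/π]`, containing
`π`, whose residue field (image of `F ∩ B` under `red`) lies in `κ`, and such that `F ∩ B` is
integral over the subring `A`. -/
structure Good (B : Subring L) (π : L) (red : B →+* k) (A : Subring L)
    (F : Subfield L) (κ : Subfield k) : Prop where
  pi_mem : π ∈ F
  bounded : ∀ y ∈ F, ∃ N : ℕ, π ^ N * y ∈ B
  red_mem : ∀ y : B, (y : L) ∈ F → red y ∈ κ
  integral : ∀ y ∈ F, y ∈ B → IsIntegral A y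

/-- Base of the tower. -/
theorem Good.base {red : B →+* k} {A : Subring L} {F : Subfield L} {κ : Subfield k}
    (hπF : π ∈ F) (hb : ∀ y ∈ F, ∃ N : ℕ, π ^ N * y ∈ B)
    (hκ : ∀ y : B, (y : L) ∈ F → red y ∈ κ) (hA : ∀ y ∈ F, y ∈ B → y ∈ A) :
    Good B π red A F κ where
  pi_mem := hπF
  bounded := hb
  red_mem := hκ
  integral y hyF hyB := isIntegral_algebraMap (R := A) (x := ⟨y, hA y hyF hyB⟩)

/-- **Tower step.** Adjoin an element `x ∈ B` of degree `≤ n` over `F` whose reduction has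
degree `≥ n` over `κ`. -/
theorem Good.step {red : B →+* k} {A : Subring L} {F : Subfield L} {κ : Subfield k}
    (h : Good B π red A F κ) (hπ : π ∈ B) (hπ0 : π ≠ 0)
    (hker : ∀ y : B, red y = 0 ↔ ∃ z : B, (y : L) = π * z)
    {x : L} (hx : x ∈ B) {n : ℕ}
    (hdeg : ∃ a : Fin n → L, (∀ t, a t ∈ F) ∧ x ^ n = ∑ t, a t * x ^ (t : ℕ))
    (hind' : ∀ c : Fin n → k, (∀ t, c t ∈ κ) →
      ∑ t, c t * (red ⟨x, hx⟩) ^ (t : ℕ) = 0 → ∀ t, c t = 0) :
    Good B π red A (Subfield.closure ((F : Set L) ∪ {x}))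
      (Subfield.closure ((κ : Set k) ∪ {red ⟨x, hx⟩})) := by
  have hcoef : ∀ c : Fin n → L, (∀ t, c t ∈ F) → ∑ t, c t * x ^ (t : ℕ) ∈ B → ∀ t, c t ∈ B :=
    fun c hcF hy => coeff_mem_of_sum_mem hπ hπ0 h.pi_mem h.bounded
      (fun c hcF hcB hz t => ind_of_red red hker h.red_mem hx hind' c hcF hcB hz t) c hcF hy
  have hFle : ∀ z ∈ F, z ∈ Subfield.closure ((F : Set L) ∪ {x}) :=
    fun z hz => Subfield.subset_closure (Or.inl hz)
  have hκle : ∀ z ∈ κ, z ∈ Subfield.closure ((κ : Set k) ∪ {red ⟨x, hx⟩}) :=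
    fun z hz => Subfield.subset_closure (Or.inl hz)
  have hxκ : red ⟨x, hx⟩ ∈ Subfield.closure ((κ : Set k) ∪ {red ⟨x, hx⟩}) :=
    Subfield.subset_closure (Or.inr rfl)
  -- `x` is integral over `A`
  have hxint : IsIntegral A x := by
    obtain ⟨a, haF, ha⟩ := hdeg
    have haB : ∀ t, a t ∈ B := hcoef a haF (by rw [← ha]; exact B.pow_mem hx n)
    have hn0 : n ≠ 0 := by
      rintro rfl
      simp at ha
    set r : L[X] := ∑ t : Fin n, C (a t) * X ^ (t : ℕ) with hr
    have hrdeg : r.degree < n := Polynomial.degree_sum_fin_lt _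
    have hgm : (X ^ n - r).Monic := Polynomial.monic_X_pow_sub hrdeg
    have hgdeg : (X ^ n - r).natDegree = n := by
      apply Polynomial.natDegree_eq_of_degree_eq_some
      rw [Polynomial.degree_sub_eq_left_of_degree_lt
        (by rw [Polynomial.degree_X_pow]; exact hrdeg), Polynomial.degree_X_pow]
    refine IsIntegral.of_aeval_monic_of_isIntegral_coeff hgm (by rw [hgdeg]; exact hn0) ?_ ?_
    · have : eval x (X ^ n - r) = 0 := by
        rw [eval_sub, eval_pow, eval_X, hr, eval_finsetSum, ha, sub_eq_zero]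
        refine Finset.sum_congr rfl fun t _ => ?_
        rw [eval_mul, eval_C, eval_pow, eval_X]
      rw [this]
      exact isIntegral_zero
    · intro i
      rw [coeff_sub, hr, finsetSum_coeff]
      refine IsIntegral.sub ?_ (IsIntegral.sum _ fun t _ => ?_)
      · rw [coeff_X_pow]
        split_ifs
        · exact isIntegral_one
        · exact isIntegral_zero
      · rw [coeff_C_mul_X_pow]
        split_ifs
        · exact h.integral _ (haF t) (haB t)
        · exact isIntegral_zero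
  refine ⟨hFle _ h.pi_mem, ?_, ?_, ?_⟩
  · intro y hy
    obtain ⟨c, hcF, rfl⟩ := exists_repr hdeg hy
    obtain ⟨N, hN⟩ := exists_uniform_pow hπ c (fun t => h.bounded _ (hcF t))
    refine ⟨N, ?_⟩
    rw [Finset.mul_sum]
    refine B.sum_mem fun t _ => ?_
    rw [← mul_assoc]
    exact B.mul_mem (hN t) (B.pow_mem hx _)
  · intro y hy
    obtain ⟨c, hcF, hyc⟩ := exists_repr hdeg hy
    have hcB : ∀ t, c t ∈ B := hcoef c hcF (by rw [← hyc]; exact y.2)
    have hy' : y = ∑ t, (⟨c t, hcB t⟩ : B) * (⟨x, hx⟩ : B) ^ (t : ℕ) := by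
      apply Subtype.ext
      rw [hyc]
      simp
    rw [hy', map_sum]
    refine Subfield.sum_mem _ fun t _ => ?_
    rw [map_mul, map_pow]
    exact Subfield.mul_mem _ (hκle _ (h.red_mem _ (hcF t))) (Subfield.pow_mem _ hxκ _)
  · intro y hy hyB
    obtain ⟨c, hcF, rfl⟩ := exists_repr hdeg hy
    have hcB : ∀ t, c t ∈ B := hcoef c hcF hyB
    exact IsIntegral.sum _ fun t _ => (h.integral _ (hcF t) (hcB t)).mul (hxint.pow _)

end Chain


section Saturation

variable {B : Subring L} {π : L}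

/-- `B` is integrally closed in `B[1/π]` (for a local `B` with maximal ideal `(π)`, `π` not a
unit). -/
theorem mem_of_isIntegral (hπ : π ∈ B) (hπ0 : π ≠ 0)
    (hinv : ∀ y ∈ B, (∀ z ∈ B, y ≠ π * z) → y⁻¹ ∈ B) (hπinv : π⁻¹ ∉ B)
    {O : Subring L} (hOB : O ≤ B) {z : L} (hz : ∃ N : ℕ, π ^ N * z ∈ B)
    (hint : IsIntegral O z) : z ∈ B := by
  classical
  by_contra hzB
  have hN0 : Nat.find hz ≠ 0 := by
    intro h0
    have := Nat.find_spec hz
    rw [h0, pow_zero, one_mul] at this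
    exact hzB this
  obtain ⟨M, hM⟩ := Nat.exists_eq_succ_of_ne_zero hN0
  set N := Nat.find hz with hNdef
  set w := π ^ N * z with hw
  have hwB : w ∈ B := Nat.find_spec hz
  -- `w ∉ π B`
  have hwπ : ∀ z' ∈ B, w ≠ π * z' := by
    intro z' hz' hwz
    have : π ^ M * z ∈ B := by
      have h1 : π ^ M * z = z' := by
        apply mul_left_cancel₀ hπ0
        rw [← hwz, hw, hM, pow_succ]
        ring
      rw [h1]
      exact hz'
    have := Nat.find_min' hz this
    omega
  have hwinv : w⁻¹ ∈ B := hinv w hwB hwπ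
  have hw0 : w ≠ 0 := by
    intro h0
    exact hwπ 0 B.zero_mem (by rw [h0, mul_zero])
  obtain ⟨g, hgm, hg⟩ := hint
  set p : L[X] := g.map (algebraMap O L) with hp
  have hpm : p.Monic := hgm.map _
  have hpz : p.eval z = 0 := by
    rw [hp, eval_map]
    exact hg
  have hpc : ∀ i, p.coeff i ∈ B := fun i => by
    rw [hp, coeff_map]
    exact hOB (g.coeff i).2
  set d := p.natDegree with hd
  set q : L[X] := p.scaleRoots (π ^ N) with hq
  have hqm : q.Monic := (Polynomial.monic_scaleRoots_iff _).mpr hpm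
  have hqd : q.natDegree = d := Polynomial.natDegree_scaleRoots _ _
  have hqw : q.eval w = 0 := by
    rw [hq, hw, Polynomial.scaleRoots_eval_mul, hpz, mul_zero]
  -- `w ^ d ∈ π B`
  have hsum : ∃ s ∈ B, ∑ i ∈ Finset.range d, q.coeff i * w ^ i = π * s := by
    refine ⟨∑ i ∈ Finset.range d, p.coeff i * π ^ (N * (d - i) - 1) * w ^ i,
      B.sum_mem fun i _ => B.mul_mem (B.mul_mem (hpc i) (B.pow_mem hπ _)) (B.pow_mem hwB _), ?_⟩
    rw [Finset.mul_sum]
    refine Finset.sum_congr rfl fun i hi => ?_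
    have hi' : i < d := Finset.mem_range.mp hi
    have hpos : N * (d - i) = (N * (d - i) - 1) + 1 := by
      have h1 : 1 ≤ N := Nat.one_le_iff_ne_zero.mpr hN0
      have h2 : 1 ≤ d - i := by omega
      have : 1 ≤ N * (d - i) := Nat.mul_le_mul h1 h2
      omega
    have hpow : π ^ (N * (d - i)) = π * π ^ (N * (d - i) - 1) := by
      conv_lhs => rw [hpos]
      exact pow_succ' _ _
    rw [hq, Polynomial.coeff_scaleRoots, ← hd, ← pow_mul, hpow]
    ring
  obtain ⟨s, hsB, hs⟩ := hsum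
  have hwd : w ^ d = -(π * s) := by
    have h := hqw
    rw [Polynomial.eval_eq_sum_range, hqd, Finset.sum_range_succ, hs, ← hqd,
      hqm.coeff_natDegree, one_mul, hqd] at h
    exact eq_neg_of_add_eq_zero_right h
  apply hπinv
  have h1 : π * (-(s * (w⁻¹) ^ d)) = 1 := by
    have : w ^ d * (w⁻¹) ^ d = 1 := by
      rw [← mul_pow, mul_inv_cancel₀ hw0, one_pow]
    rw [hwd] at this
    rw [← this]
    ring
  have h2 : π⁻¹ = -(s * (w⁻¹) ^ d) := inv_eq_of_mul_eq_one_right h1
  rw [h2]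
  exact B.neg_mem (B.mul_mem hsB (B.pow_mem hwinv _))

/-- `A ∩ π^k B = π^k A`. -/
theorem mem_of_pow_mul_mem (hπ : π ∈ B) {A : Subring L}
    (hA_sat : ∀ z ∈ B, π * z ∈ A → z ∈ A) (k : ℕ) :
    ∀ z ∈ B, π ^ k * z ∈ A → z ∈ A := by
  induction k with
  | zero => intro z _ h; simpa using h
  | succ k ih =>
    intro z hz h
    apply ih z hz
    apply hA_sat _ (B.mul_mem (B.pow_mem hπ k) hz)
    rw [← mul_assoc, ← pow_succ']
    exact h

/-- the inclusion of a subring into a subfield containing it -/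
def inclToSubfield (A : Subring L) (F : Subfield L) (h : ∀ a ∈ A, a ∈ F) : A →+* F where
  toFun a := ⟨a.1, h a.1 a.2⟩
  map_one' := rfl
  map_mul' _ _ := rfl
  map_zero' := rfl
  map_add' _ _ := rfl

/-- **Saturation lemma (abstract (Q2)).** Let `A ⊆ F₀` be integrally closed in `F₀` with
`A ∩ π B = π A`. If `y` is integral over a subring `O ⊆ F₀ ∩ B` and `π * y` is integral over `A`,
then `y` is integral over `A`. -/
theorem isIntegral_of_isIntegral_pi_mul (hπ : π ∈ B) (hπ0 : π ≠ 0)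
    (hinv : ∀ y ∈ B, (∀ z ∈ B, y ≠ π * z) → y⁻¹ ∈ B) (hπinv : π⁻¹ ∉ B)
    {F₀ : Subfield L} (hπF : π ∈ F₀) (hF₀ : ∀ y ∈ F₀, ∃ N : ℕ, π ^ N * y ∈ B)
    {A O : Subring L} (hAF : ∀ a ∈ A, a ∈ F₀) (hOF : ∀ a ∈ O, a ∈ F₀) (hOB : O ≤ B)
    (hA_ic : ∀ z ∈ F₀, IsIntegral A z → z ∈ A)
    (hA_sat : ∀ z ∈ B, π * z ∈ A → z ∈ A)
    {y : L} (hy : IsIntegral O y) (hπy : IsIntegral A (π * y)) : IsIntegral A y := by
  set φA : A →+* F₀ := inclToSubfield A F₀ hAF with hφA
  set φO : O →+* F₀ := inclToSubfield O F₀ hOF with hφO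
  have hyF : IsIntegral F₀ y :=
    hy.map_of_comp_eq φO (RingHom.id L) (by ext; rfl)
  set μ := minpoly F₀ y with hμ
  have hμm : μ.Monic := minpoly.monic hyF
  -- coefficients of `μ` lie in `B`
  have hμB : ∀ i, ((μ.coeff i : F₀) : L) ∈ B := by
    intro i
    obtain ⟨f, hfm, hf⟩ := hy
    let _ : Algebra O F₀ := φO.toAlgebra
    have hdvd : μ ∣ f.map (algebraMap O F₀) := by
      refine minpoly.dvd _ _ ?_
      rw [Polynomial.aeval_def, Polynomial.eval₂_map]
      exact hf
    have hl := integralClosure.mem_lifts_of_monic_of_dvd_map F₀ hfm hμm hdvd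
    obtain ⟨c, hc⟩ := (Polynomial.lifts_iff_coeff_lifts _).mp hl i
    have hci : IsIntegral O (μ.coeff i) := hc ▸ c.2
    exact mem_of_isIntegral hπ hπ0 hinv hπinv hOB (hF₀ _ (μ.coeff i).2)
      (hci.map_of_comp_eq (RingHom.id _) F₀.subtype (by ext; rfl))
  -- Gauss lemma over `A`
  obtain ⟨f, hfm, hf⟩ := hπy
  let _ : Algebra A F₀ := φA.toAlgebra
  set πF : F₀ := ⟨π, hπF⟩ with hπFdef
  have hπF0 : πF ≠ 0 := fun h => hπ0 (congrArg Subtype.val h)
  set f' : (↥F₀)[X] := f.map (algebraMap A F₀) with hf'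
  have hroot : aeval y (f'.scaleRoots πF⁻¹) = 0 := by
    have h := Polynomial.scaleRoots_eval₂_mul (p := f') (algebraMap F₀ L) (π * y) πF⁻¹
    have h1 : algebraMap F₀ L πF⁻¹ * (π * y) = y := by
      rw [map_inv₀]
      show π⁻¹ * (π * y) = y
      rw [← mul_assoc, inv_mul_cancel₀ hπ0, one_mul]
    rw [h1] at h
    rw [Polynomial.aeval_def, h, hf', Polynomial.eval₂_map]
    have h2 : Polynomial.eval₂ ((algebraMap F₀ L).comp (algebraMap A F₀)) (π * y) f = 0 := hf
    rw [h2, mul_zero]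
  obtain ⟨r, hr⟩ := minpoly.dvd F₀ y hroot
  have hdvd2 : μ.scaleRoots πF ∣ f' := by
    have h1 : (f'.scaleRoots πF⁻¹).scaleRoots πF = f' := by
      rw [← Polynomial.scaleRoots_mul, inv_mul_cancel₀ hπF0, Polynomial.scaleRoots_one]
    rw [← h1, hr, Polynomial.mul_scaleRoots_of_noZeroDivisors]
    exact dvd_mul_right _ _
  have hl := integralClosure.mem_lifts_of_monic_of_dvd_map F₀ hfm
    ((Polynomial.monic_scaleRoots_iff _).mpr hμm) hdvd2
  have hcoefA : ∀ i, (((μ.scaleRoots πF).coeff i : F₀) : L) ∈ A := fun i => by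
    obtain ⟨c, hc⟩ := (Polynomial.lifts_iff_coeff_lifts _).mp hl i
    have hci : IsIntegral A ((μ.scaleRoots πF).coeff i) := hc ▸ c.2
    exact hA_ic _ ((μ.scaleRoots πF).coeff i).2
      (hci.map_of_comp_eq (RingHom.id _) F₀.subtype (by ext; rfl))
  have hμA : ∀ i, ((μ.coeff i : F₀) : L) ∈ A := fun i => by
    have h := hcoefA i
    rw [Polynomial.coeff_scaleRoots] at h
    refine mem_of_pow_mul_mem hπ hA_sat (μ.natDegree - i) _ (hμB i) ?_
    rw [mul_comm]
    exact h
  have hlift : μ ∈ Polynomial.lifts φA :=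
    (Polynomial.lifts_iff_coeff_lifts _).mpr fun i => ⟨⟨_, hμA i⟩, Subtype.ext rfl⟩
  obtain ⟨q, hq, -, hqm⟩ := Polynomial.lifts_and_natDegree_eq_and_monic hlift hμm
  refine ⟨q, hqm, ?_⟩
  have h3 : Polynomial.eval₂ (algebraMap A L) y q = aeval y (q.map φA) := by
    rw [Polynomial.aeval_def, Polynomial.eval₂_map]
    rfl
  rw [h3, hq]
  exact minpoly.aeval _ _

end Saturation


section Convenience

variable {B : Subring L} {π : L} {k : Type*} [Field k]

/-- The residue-degree hypothesis `hind'` of `Good.step` follows from an irreducible polynomial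
over `κ` of degree `≥ n` vanishing at the reduction `xbar`. -/
theorem ind_of_irreducible {κ : Subfield k} {xbar : k} {g : (↥κ)[X]} (hirr : Irreducible g)
    (hroot : aeval xbar g = 0) {n : ℕ} (hn : n ≤ g.natDegree)
    (c : Fin n → k) (hc : ∀ t, c t ∈ κ) (h0 : ∑ t, c t * xbar ^ (t : ℕ) = 0) :
    ∀ t, c t = 0 := by
  set p : (↥κ)[X] := ∑ t : Fin n, C (⟨c t, hc t⟩ : κ) * X ^ (t : ℕ) with hp
  have hpdeg : p.degree < n := Polynomial.degree_sum_fin_lt _
  have hpx : aeval xbar p = 0 := by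
    rw [hp, map_sum, ← h0]
    refine Finset.sum_congr rfl fun t _ => ?_
    rw [map_mul, aeval_C, map_pow, aeval_X]
    rfl
  have hp0 : p = 0 := by
    by_contra hne
    have hg0 : g ≠ 0 := hirr.ne_zero
    have hmin : minpoly κ xbar = g * C g.leadingCoeff⁻¹ := (minpoly.eq_of_irreducible hirr hroot).symm
    have hdvd : minpoly κ xbar ∣ p := minpoly.dvd _ _ hpx
    have hle := Polynomial.natDegree_le_of_dvd hdvd hne
    rw [hmin, Polynomial.natDegree_mul_C (inv_ne_zero (Polynomial.leadingCoeff_ne_zero.mpr hg0))]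
      at hle
    have hlt : p.natDegree < n := (Polynomial.natDegree_lt_iff_degree_lt hne).mpr hpdeg
    omega
  intro t
  have hcoef : p.coeff t = ⟨c t, hc t⟩ := by
    rw [hp, Polynomial.finsetSum_coeff]
    simp only [Polynomial.coeff_C_mul_X_pow]
    rw [Finset.sum_eq_single t]
    · simp
    · intro b _ hb
      rw [if_neg]
      exact fun h => hb (Fin.ext h.symm)
    · intro h
      exact absurd (Finset.mem_univ t) h
  rw [hp0, Polynomial.coeff_zero] at hcoef
  exact (congrArg Subtype.val hcoef).symm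

/-- Final packaging: at the top of a tower over `F₀` (with `O ⊆ F₀ ∩ B` the base ring of the
invariant), the saturation property `π y` integral over `A` ⟹ `y` integral over `A` holds for
every `y ∈ F ∩ B`. -/
theorem Good.isIntegral_of_isIntegral_pi_mul {red : B →+* k} {O : Subring L} {F : Subfield L}
    {κ : Subfield k} (h : Good B π red O F κ) (hπ : π ∈ B) (hπ0 : π ≠ 0)
    (hinv : ∀ y ∈ B, (∀ z ∈ B, y ≠ π * z) → y⁻¹ ∈ B) (hπinv : π⁻¹ ∉ B)
    {F₀ : Subfield L} (hπF : π ∈ F₀) (hF₀ : ∀ y ∈ F₀, ∃ N : ℕ, π ^ N * y ∈ B)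
    {A : Subring L} (hAF : ∀ a ∈ A, a ∈ F₀) (hOF : ∀ a ∈ O, a ∈ F₀) (hOB : O ≤ B)
    (hA_ic : ∀ z ∈ F₀, IsIntegral A z → z ∈ A)
    (hA_sat : ∀ z ∈ B, π * z ∈ A → z ∈ A)
    {y : L} (hyF : y ∈ F) (hyB : y ∈ B) (hπy : IsIntegral A (π * y)) : IsIntegral A y :=
  Tower.isIntegral_of_isIntegral_pi_mul hπ hπ0 hinv hπinv hπF hF₀ hAF hOF hOB hA_ic hA_sat
    (h.integral y hyF hyB) hπy

end Convenience

end Fermat.Agent.S28.Tower
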