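import Mathlib
import Fermat.Prelude.Def_ModularCurve_IgusaScheme
import Fermat.Prelude.Def_ModularCurve_X0ModL
import Fermat.Agent.S28.Tower

/-!
# S28, WP3 (concrete part): the Gauss valuation ring of `ℚ((q))` and the base of the tower

Owner: helper72.

* `gaussRing ℓ k : Subring (LaurentSeries ℚ)`: the series `y` such that `s * y = P` for
  some series `s`, `P` with `ℤ_(ℓ)`-coefficients and `s` nonzero mod `ℓ`;
  `red ℓ k : gaussRing ℓ k →+* LaurentSeries k` the reduction (coefficientwise on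
  `ℤ_(ℓ)`-series), with kernel `ℓ * gaussRing` (`red_eq_zero_iff`).
* `good_base_jq`: the `Tower.Good` invariant for the bottom field `ℚ(j)`.
* `qExpand_jq_mem`, `red_qExpand_jq`: `j(q^d)` lies in the Gauss ring and reduces to the
  mod-`ℓ` series `j(q^d)`.
* `hQ2_fin`, `hQ2_inf`: from a `Tower.Good` invariant for the full modular function
  field, the `ℓ`-saturation statement (Q2) for the two charts of the Igusa scheme.
-/

namespace Fermat.Agent.S28.GaussBase

open HahnSeries ModularCurve Polynomial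

variable (ℓ : ℕ) [hℓ : Fact ℓ.Prime]

local notation "R" => GaloisRep.ratLocalizedAt ℓ

section RFacts

theorem mem_iff_exists (q : ℚ) : q ∈ R ↔ ∃ a b : ℤ, ¬ (ℓ : ℤ) ∣ b ∧ q = a / b := by
  constructor
  · intro hq
    have hq' : Nat.Coprime q.den ℓ := hq
    refine ⟨q.num, q.den, ?_, (Rat.num_div_den q).symm⟩
    intro hdvd
    have h1 : ℓ ∣ q.den := by exact_mod_cast hdvd
    exact (hℓ.out.coprime_iff_not_dvd.mp hq'.symm) h1
  · rintro ⟨a, b, hb, rfl⟩
    show Nat.Coprime ((a : ℚ) / b).den ℓ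
    have hden : (((a : ℚ) / b).den : ℤ) ∣ b := by
      have := Rat.den_dvd a b
      rwa [Rat.divInt_eq_div] at this
    apply Nat.Coprime.symm
    rw [hℓ.out.coprime_iff_not_dvd]
    intro h
    exact hb (dvd_trans (by exact_mod_cast h) hden)

omit hℓ in
theorem natCast_ell_mem : (ℓ : ℚ) ∈ R := natCast_mem _ ℓ

theorem ell_ne_zero : (ℓ : ℚ) ≠ 0 := by exact_mod_cast hℓ.out.ne_zero

theorem inv_mem_of_not_mul {x : ℚ} (hx : x ∈ R) (h : ∀ r ∈ R, x ≠ ℓ * r) : x⁻¹ ∈ R := by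
  obtain ⟨a, b, hb, rfl⟩ := (mem_iff_exists ℓ x).mp hx
  have ha : ¬ (ℓ : ℤ) ∣ a := by
    rintro ⟨a', rfl⟩
    refine h ((a' : ℚ) / b) ((mem_iff_exists ℓ _).mpr ⟨a', b, hb, rfl⟩) ?_
    push_cast
    ring
  rw [inv_div]
  exact (mem_iff_exists ℓ _).mpr ⟨b, a, ha, rfl⟩

theorem exists_pow_mul_mem (c : ℚ) : ∃ N : ℕ, (ℓ : ℚ) ^ N * c ∈ R := by
  obtain ⟨e, m, hm, hden⟩ := Nat.exists_eq_pow_mul_and_not_dvd c.den_ne_zero ℓ hℓ.out.ne_one
  refine ⟨e, (mem_iff_exists ℓ _).mpr ⟨c.num, m, by exact_mod_cast hm, ?_⟩⟩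
  have hm0 : (m : ℚ) ≠ 0 := by
    rintro h
    have : m = 0 := by exact_mod_cast h
    subst this
    simp at hden
  have hc : c = c.num / ((ℓ : ℚ) ^ e * m) := by
    conv_lhs => rw [← Rat.num_div_den c, hden]
    push_cast
    ring
  have hl := ell_ne_zero ℓ
  conv_lhs => rw [hc]
  push_cast
  field_simp

variable (k : Type*) [Field k] [Algebra (GaloisRep.ratLocalizedAt ℓ) k] [CharP k ℓ]

theorem algebraMap_eq_zero_iff (x : R) :
    algebraMap R k x = 0 ↔ ∃ r : R, (x : ℚ) = ℓ * r := by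
  constructor
  · intro h0
    by_contra hne
    have hinv : (x : ℚ)⁻¹ ∈ R := inv_mem_of_not_mul ℓ x.2 (fun r hr hxr => hne ⟨⟨r, hr⟩, hxr⟩)
    have hx0 : (x : ℚ) ≠ 0 := by
      intro hx
      exact hne ⟨0, by simp [hx]⟩
    have h1 : x * ⟨(x : ℚ)⁻¹, hinv⟩ = 1 := Subtype.ext (mul_inv_cancel₀ hx0)
    have h2 := congrArg (algebraMap R k) h1
    rw [map_mul, h0, zero_mul, map_one] at h2
    exact zero_ne_one h2
  · rintro ⟨r, hr⟩
    have hx : x = (ℓ : R) * r := Subtype.ext (by simpa using hr)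
    rw [hx, map_mul, map_natCast, CharP.cast_eq_zero, zero_mul]

end RFacts


section Series

/-- inclusion of `ℓ`-integral Laurent series into rational Laurent series -/
noncomputable def incl : LaurentSeries (GaloisRep.ratLocalizedAt ℓ) →+* LaurentSeries ℚ :=
  coeffMap (GaloisRep.ratLocalizedAt ℓ).subtype

omit hℓ in
theorem incl_coeff (g : LaurentSeries R) (n : ℤ) : (incl ℓ g).coeff n = (g.coeff n : ℚ) := rfl

omit hℓ in
theorem incl_injective : Function.Injective (incl ℓ) := by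
  intro g g' h
  apply HahnSeries.ext
  funext n
  apply Subtype.ext
  exact congrArg (fun f => f.coeff n) h

omit hℓ in
theorem exists_incl_eq (f : LaurentSeries ℚ) (hf : ∀ n, f.coeff n ∈ R) :
    ∃ g, incl ℓ g = f := by
  refine ⟨⟨fun n => ⟨f.coeff n, hf n⟩, f.isPWO_support.mono ?_⟩, ?_⟩
  · intro n hn
    simp only [Function.mem_support, ne_eq] at hn ⊢
    intro h0
    exact hn (Subtype.ext h0)
  · ext n
    rfl

variable (k : Type*) [Field k] [Algebra (GaloisRep.ratLocalizedAt ℓ) k] [CharP k ℓ]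

/-- coefficientwise reduction of `ℓ`-integral Laurent series -/
noncomputable def rbar : LaurentSeries (GaloisRep.ratLocalizedAt ℓ) →+* LaurentSeries k :=
  coeffMap (algebraMap (GaloisRep.ratLocalizedAt ℓ) k)

omit hℓ [CharP k ℓ] in
theorem rbar_coeff (g : LaurentSeries R) (n : ℤ) :
    (rbar ℓ k g).coeff n = algebraMap R k (g.coeff n) := rfl

omit hℓ [Algebra (GaloisRep.ratLocalizedAt ℓ) k] in
theorem natCast_ell_eq_zero : ((ℓ : ℕ) : LaurentSeries k) = 0 := by
  rw [← map_natCast (HahnSeries.C : k →+* LaurentSeries k) ℓ, CharP.cast_eq_zero, map_zero]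

theorem rbar_eq_zero_iff (g : LaurentSeries R) :
    rbar ℓ k g = 0 ↔ ∃ g' : LaurentSeries R, g = (ℓ : LaurentSeries R) * g' := by
  constructor
  · intro h0
    have hc : ∀ n, ∃ r : R, (g.coeff n : ℚ) = ℓ * r := fun n =>
      (algebraMap_eq_zero_iff ℓ k (g.coeff n)).mp (by rw [← rbar_coeff, h0]; rfl)
    set f : LaurentSeries ℚ := HahnSeries.C ((ℓ : ℚ)⁻¹) * incl ℓ g with hf
    have hfc : ∀ n, f.coeff n ∈ R := by
      intro n
      obtain ⟨r, hr⟩ := hc n
      have : f.coeff n = r := by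
        rw [hf, HahnSeries.C_mul_eq_smul, HahnSeries.coeff_smul, incl_coeff, hr, smul_eq_mul,
          ← mul_assoc, inv_mul_cancel₀ (ell_ne_zero ℓ), one_mul]
      rw [this]
      exact r.2
    obtain ⟨g', hg'⟩ := exists_incl_eq ℓ f hfc
    refine ⟨g', incl_injective ℓ ?_⟩
    rw [map_mul, map_natCast, hg', hf, ← mul_assoc,
      ← map_natCast (HahnSeries.C : ℚ →+* LaurentSeries ℚ) ℓ, ← map_mul,
      mul_inv_cancel₀ (ell_ne_zero ℓ), map_one, one_mul]
  · rintro ⟨g', rfl⟩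
    rw [map_mul, map_natCast, natCast_ell_eq_zero, zero_mul]

end Series


section Gauss

variable (k : Type*) [Field k] [Algebra (GaloisRep.ratLocalizedAt ℓ) k] [CharP k ℓ]

/-- The Gauss ring: the localisation of the `ℓ`-integral Laurent series at the prime `(ℓ)`,
inside `ℚ((q))`. -/
noncomputable def gaussRing : Subring (LaurentSeries ℚ) where
  carrier := {y | ∃ s P : LaurentSeries (GaloisRep.ratLocalizedAt ℓ),
    rbar ℓ k s ≠ 0 ∧ incl ℓ s * y = incl ℓ P}
  mul_mem' := by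
    rintro y z ⟨s, P, hs, h⟩ ⟨s', P', hs', h'⟩
    refine ⟨s * s', P * P', ?_, ?_⟩
    · rw [map_mul]
      exact mul_ne_zero hs hs'
    · rw [map_mul, map_mul, ← h, ← h']
      ring
  one_mem' := ⟨1, 1, by rw [map_one]; exact one_ne_zero, by rw [map_one, mul_one]⟩
  add_mem' := by
    rintro y z ⟨s, P, hs, h⟩ ⟨s', P', hs', h'⟩
    refine ⟨s * s', P * s' + P' * s, ?_, ?_⟩
    · rw [map_mul]
      exact mul_ne_zero hs hs'
    · rw [map_mul, map_add, map_mul, map_mul, ← h, ← h']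
      ring
  zero_mem' := ⟨1, 0, by rw [map_one]; exact one_ne_zero, by rw [map_zero, mul_zero]⟩
  neg_mem' := by
    rintro y ⟨s, P, hs, h⟩
    exact ⟨s, -P, hs, by rw [map_neg, ← h]; ring⟩

omit hℓ [CharP k ℓ] in
theorem mem_gaussRing_iff (y : LaurentSeries ℚ) : y ∈ gaussRing ℓ k ↔
    ∃ s P : LaurentSeries R, rbar ℓ k s ≠ 0 ∧ incl ℓ s * y = incl ℓ P := Iff.rfl

omit hℓ [CharP k ℓ] in
theorem incl_mem_gaussRing (g : LaurentSeries R) : incl ℓ g ∈ gaussRing ℓ k :=
  ⟨1, g, by rw [map_one]; exact one_ne_zero, by rw [map_one, one_mul]⟩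

omit hℓ [CharP k ℓ] in
theorem red_aux {y : LaurentSeries ℚ} {s P s' P' : LaurentSeries R}
    (hs : rbar ℓ k s ≠ 0) (h : incl ℓ s * y = incl ℓ P)
    (hs' : rbar ℓ k s' ≠ 0) (h' : incl ℓ s' * y = incl ℓ P') :
    rbar ℓ k P / rbar ℓ k s = rbar ℓ k P' / rbar ℓ k s' := by
  have h1 : P * s' = P' * s := by
    apply incl_injective ℓ
    rw [map_mul, map_mul, ← h, ← h']
    ring
  rw [div_eq_div_iff hs hs', ← map_mul, ← map_mul, h1]

/-- the residue map as a function -/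
noncomputable def redFun (y : gaussRing ℓ k) : LaurentSeries k :=
  rbar ℓ k (Classical.choose (Classical.choose_spec y.2)) / rbar ℓ k (Classical.choose y.2)

omit hℓ [CharP k ℓ] in
theorem redFun_eq (y : gaussRing ℓ k) {s P : LaurentSeries R} (hs : rbar ℓ k s ≠ 0)
    (h : incl ℓ s * (y : LaurentSeries ℚ) = incl ℓ P) :
    redFun ℓ k y = rbar ℓ k P / rbar ℓ k s :=
  red_aux ℓ k (Classical.choose_spec (Classical.choose_spec y.2)).1
    (Classical.choose_spec (Classical.choose_spec y.2)).2 hs h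

/-- The residue map `B → K((q))` of the Gauss ring. -/
noncomputable def red : gaussRing ℓ k →+* LaurentSeries k where
  toFun := redFun ℓ k
  map_one' := by
    rw [redFun_eq ℓ k 1 (s := 1) (P := 1) (by rw [map_one]; exact one_ne_zero)
      (by rw [map_one, one_mul]; rfl), map_one, div_one]
  map_mul' := by
    intro y z
    obtain ⟨s, P, hs, h⟩ := (mem_gaussRing_iff ℓ k _).mp y.2
    obtain ⟨s', P', hs', h'⟩ := (mem_gaussRing_iff ℓ k _).mp z.2
    rw [redFun_eq ℓ k y hs h, redFun_eq ℓ k z hs' h',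
      redFun_eq ℓ k (y * z) (s := s * s') (P := P * P')
        (by rw [map_mul]; exact mul_ne_zero hs hs')
        (by
          rw [Subring.coe_mul, map_mul, map_mul, ← h, ← h']
          ring),
      map_mul, map_mul, div_mul_div_comm]
  map_zero' := by
    rw [redFun_eq ℓ k 0 (s := 1) (P := 0) (by rw [map_one]; exact one_ne_zero)
      (by rw [map_zero]; exact mul_zero _), map_zero, zero_div]
  map_add' := by
    intro y z
    obtain ⟨s, P, hs, h⟩ := (mem_gaussRing_iff ℓ k _).mp y.2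
    obtain ⟨s', P', hs', h'⟩ := (mem_gaussRing_iff ℓ k _).mp z.2
    rw [redFun_eq ℓ k y hs h, redFun_eq ℓ k z hs' h',
      redFun_eq ℓ k (y + z) (s := s * s') (P := P * s' + s * P')
        (by rw [map_mul]; exact mul_ne_zero hs hs')
        (by
          rw [Subring.coe_add, map_mul, map_add, map_mul, map_mul, ← h, ← h']
          ring),
      map_add, map_mul, map_mul, map_mul, div_add_div _ _ hs hs']

omit hℓ [CharP k ℓ] in
theorem red_eq (y : gaussRing ℓ k) {s P : LaurentSeries R} (hs : rbar ℓ k s ≠ 0)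
    (h : incl ℓ s * (y : LaurentSeries ℚ) = incl ℓ P) :
    red ℓ k y = rbar ℓ k P / rbar ℓ k s :=
  redFun_eq ℓ k y hs h

omit hℓ [CharP k ℓ] in
/-- `red` restricted to `ℓ`-integral series is the coefficientwise reduction. -/
theorem red_incl (g : LaurentSeries R) :
    red ℓ k ⟨incl ℓ g, incl_mem_gaussRing ℓ k g⟩ = rbar ℓ k g := by
  rw [red_eq ℓ k _ (s := 1) (P := g) (by rw [map_one]; exact one_ne_zero)
    (by rw [map_one, one_mul]), map_one, div_one]

omit hℓ [CharP k ℓ] in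
theorem natCast_ell_mem_gaussRing : ((ℓ : ℕ) : LaurentSeries ℚ) ∈ gaussRing ℓ k :=
  natCast_mem _ ℓ

theorem natCast_ell_ne_zero' : ((ℓ : ℕ) : LaurentSeries ℚ) ≠ 0 := by
  rw [← map_natCast (HahnSeries.C : ℚ →+* LaurentSeries ℚ) ℓ]
  exact fun h => ell_ne_zero ℓ (HahnSeries.C_injective (by rw [h, map_zero]))

omit hℓ in
theorem red_natCast_ell :
    red ℓ k ⟨(ℓ : LaurentSeries ℚ), natCast_ell_mem_gaussRing ℓ k⟩ = 0 := by
  have h2 := red_incl ℓ k (ℓ : LaurentSeries R)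
  have h3 : (⟨incl ℓ (ℓ : LaurentSeries R), incl_mem_gaussRing ℓ k _⟩ : gaussRing ℓ k) =
      ⟨(ℓ : LaurentSeries ℚ), natCast_ell_mem_gaussRing ℓ k⟩ :=
    Subtype.ext (map_natCast _ _)
  rw [← h3, h2, map_natCast, natCast_ell_eq_zero]

/-- the kernel of `red` is `ℓ B` -/
theorem red_eq_zero_iff (y : gaussRing ℓ k) :
    red ℓ k y = 0 ↔ ∃ z : gaussRing ℓ k, (y : LaurentSeries ℚ) = (ℓ : LaurentSeries ℚ) * z := by
  constructor
  · intro h0
    obtain ⟨s, P, hs, h⟩ := (mem_gaussRing_iff ℓ k _).mp y.2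
    rw [red_eq ℓ k y hs h, div_eq_zero_iff] at h0
    rcases h0 with h0 | h0
    · obtain ⟨P', rfl⟩ := (rbar_eq_zero_iff ℓ k P).mp h0
      have hl := natCast_ell_ne_zero' ℓ
      have hz : (y : LaurentSeries ℚ) / (ℓ : LaurentSeries ℚ) ∈ gaussRing ℓ k := by
        refine ⟨s, P', hs, ?_⟩
        rw [map_mul, map_natCast] at h
        rw [← mul_div_assoc, h, mul_div_cancel_left₀ _ hl]
      refine ⟨⟨_, hz⟩, ?_⟩
      show (y : LaurentSeries ℚ) = (ℓ : LaurentSeries ℚ) * ((y : LaurentSeries ℚ) / ℓ)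
      rw [mul_div_assoc', mul_div_cancel_left₀ _ hl]
    · exact absurd h0 hs
  · rintro ⟨z, hz⟩
    have : y = (⟨(ℓ : LaurentSeries ℚ), natCast_ell_mem_gaussRing ℓ k⟩ : gaussRing ℓ k) * z :=
      Subtype.ext hz
    rw [this, map_mul, red_natCast_ell, zero_mul]

theorem inv_mem_gaussRing {y : LaurentSeries ℚ} (hy : y ∈ gaussRing ℓ k)
    (h : ∀ z ∈ gaussRing ℓ k, y ≠ (ℓ : LaurentSeries ℚ) * z) : y⁻¹ ∈ gaussRing ℓ k := by
  have hne : red ℓ k ⟨y, hy⟩ ≠ 0 := by
    intro h0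
    obtain ⟨z, hz⟩ := (red_eq_zero_iff ℓ k ⟨y, hy⟩).mp h0
    exact h z z.2 hz
  obtain ⟨s, P, hs, hsP⟩ := (mem_gaussRing_iff ℓ k _).mp hy
  rw [red_eq ℓ k ⟨y, hy⟩ hs hsP] at hne
  have hP : rbar ℓ k P ≠ 0 := fun h0 => hne (by rw [h0, zero_div])
  have hy0 : y ≠ 0 := by
    rintro rfl
    exact h 0 (zero_mem _) (by rw [mul_zero])
  refine ⟨P, s, hP, ?_⟩
  rw [← hsP, mul_assoc, mul_inv_cancel₀ hy0, mul_one]

theorem ell_inv_not_mem_gaussRing : ((ℓ : ℕ) : LaurentSeries ℚ)⁻¹ ∉ gaussRing ℓ k := by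
  intro h
  have h2 : red ℓ k 1 = 0 := (red_eq_zero_iff ℓ k 1).mpr ⟨⟨_, h⟩, by
    show (1 : LaurentSeries ℚ) = _
    exact (mul_inv_cancel₀ (natCast_ell_ne_zero' ℓ)).symm⟩
  rw [map_one] at h2
  exact one_ne_zero h2

end Gauss


section Transcendence

variable (k : Type*) [Field k]

/-- `J̄ = jqModC k` is transcendental over `k`: a polynomial with constant coefficients vanishing at
`J̄` is zero. -/
theorem eq_zero_of_eval₂_jqModC (p : k[X])
    (h : p.eval₂ (HahnSeries.C : k →+* LaurentSeries k) (jqModC k) = 0) : p = 0 := by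
  by_contra hp
  have hc := congrArg (fun f : LaurentSeries k => f.coeff (-(p.natDegree : ℤ))) h
  simp only [HahnSeries.coeff_zero] at hc
  rw [Polynomial.eval₂_eq_sum_range] at hc
  rw [HahnSeries.coeff_sum] at hc
  rw [Finset.sum_eq_single p.natDegree] at hc
  · rw [HahnSeries.C_mul_eq_smul, HahnSeries.coeff_smul, coeff_jqModC_pow_self, smul_eq_mul,
      mul_one] at hc
    exact hp (Polynomial.leadingCoeff_eq_zero.mp hc)
  · intro i hi hne
    have hlt : i < p.natDegree := lt_of_le_of_ne (Nat.lt_succ_iff.mp (Finset.mem_range.mp hi)) hne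
    rw [HahnSeries.C_mul_eq_smul, HahnSeries.coeff_smul,
      coeff_jqModC_pow_of_lt k (by exact_mod_cast (neg_lt_neg (Int.ofNat_lt.mpr hlt))),
      smul_zero]
  · intro h'
    exact absurd (Finset.mem_range.mpr (Nat.lt_succ_self _)) h'

/-- the same for `J̄⁻¹` -/
theorem eq_zero_of_eval₂_jqModC_inv (p : k[X])
    (h : p.eval₂ (HahnSeries.C : k →+* LaurentSeries k) (jqModC k)⁻¹ = 0) : p = 0 := by
  have hJ : jqModC k ≠ 0 := jqModC_ne_zero_of_nontrivial k
  let _ : Invertible (jqModC k)⁻¹ := invertibleOfNonzero (inv_ne_zero hJ)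
  have h1 := Polynomial.eval₂_reverse_mul_pow (HahnSeries.C : k →+* LaurentSeries k)
    (jqModC k)⁻¹ p
  rw [h, invOf_eq_inv, inv_inv] at h1
  have h2 : p.reverse.eval₂ (HahnSeries.C : k →+* LaurentSeries k) (jqModC k) = 0 := by
    rcases mul_eq_zero.mp h1 with h2 | h2
    · exact h2
    · exact absurd h2 (pow_ne_zero _ (inv_ne_zero hJ))
  exact Polynomial.reverse_eq_zero.mp (eq_zero_of_eval₂_jqModC k _ h2)

end Transcendence

section Primitive

variable (k : Type*) [Field k] [CharP k ℓ]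

include hℓ in
/-- Primitive scaling: a nonzero rational polynomial is a nonzero rational multiple of an integer
polynomial which is nonzero modulo `ℓ`. -/
theorem exists_primitive_scaling (Q : ℚ[X]) (hQ : Q ≠ 0) :
    ∃ c : ℚ, c ≠ 0 ∧ ∃ Q₁ : ℤ[X], Polynomial.C c * Q = Q₁.map (Int.castRingHom ℚ) ∧
      Q₁.map (Int.castRingHom k) ≠ 0 := by
  obtain ⟨b, hbM, hb⟩ := IsLocalization.integerNormalization_spec (nonZeroDivisors ℤ) Q
  set Q' := IsLocalization.integerNormalization (nonZeroDivisors ℤ) Q with hQ'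
  have hb0 : (b : ℚ) ≠ 0 := by
    exact_mod_cast nonZeroDivisors.ne_zero hbM
  have h1 : Q'.map (Int.castRingHom ℚ) = Polynomial.C (b : ℚ) * Q := by
    rw [Polynomial.C_eq_intCast, ← zsmul_eq_mul]
    exact hb
  have hQ'0 : Q' ≠ 0 := by
    intro h0
    rw [h0, Polynomial.map_zero] at h1
    rcases mul_eq_zero.mp h1.symm with h | h
    · exact hb0 (Polynomial.C_eq_zero.mp h)
    · exact hQ h
  have hcont : (Q'.content : ℚ) ≠ 0 := by
    exact_mod_cast (Polynomial.content_eq_zero_iff.not.mpr hQ'0)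
  refine ⟨(b : ℚ) / Q'.content, div_ne_zero hb0 hcont, Q'.primPart, ?_, ?_⟩
  · have h2 : Q'.map (Int.castRingHom ℚ) =
        Polynomial.C (Q'.content : ℚ) * Q'.primPart.map (Int.castRingHom ℚ) := by
      conv_lhs => rw [Q'.eq_C_content_mul_primPart]
      rw [Polynomial.map_mul, Polynomial.map_C]
      rfl
    have h3 : Polynomial.C (b : ℚ) * Q =
        Polynomial.C (Q'.content : ℚ) * Q'.primPart.map (Int.castRingHom ℚ) := by
      rw [← h1, h2]
    rw [div_eq_inv_mul, Polynomial.C_mul, mul_assoc, h3, ← mul_assoc, ← Polynomial.C_mul,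
      inv_mul_cancel₀ hcont, Polynomial.C_1, one_mul]
  · intro h0
    have hdvd : ∀ i, (ℓ : ℤ) ∣ Q'.primPart.coeff i := by
      intro i
      have := congrArg (fun f => f.coeff i) h0
      simp only [Polynomial.coeff_map, Polynomial.coeff_zero, eq_intCast] at this
      exact (CharP.intCast_eq_zero_iff k ℓ _).mp this
    have hC : Polynomial.C (ℓ : ℤ) ∣ Q'.primPart :=
      (Polynomial.C_dvd_iff_dvd_coeff _ _).mpr hdvd
    have hu : IsUnit (ℓ : ℤ) := Q'.isPrimitive_primPart _ hC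
    rw [Int.isUnit_iff] at hu
    have h2 := hℓ.out.two_le
    rcases hu with hu | hu <;> omega

end Primitive


section Eval

variable (k : Type*) [Field k] [Algebra (GaloisRep.ratLocalizedAt ℓ) k] [CharP k ℓ]

/-- the inclusion of `ℓ`-integral series into the Gauss ring -/
noncomputable def inclB : LaurentSeries (GaloisRep.ratLocalizedAt ℓ) →+* gaussRing ℓ k :=
  (incl ℓ).codRestrict (gaussRing ℓ k) (incl_mem_gaussRing ℓ k)

omit hℓ [CharP k ℓ] in
theorem coe_inclB (g : LaurentSeries R) : ((inclB ℓ k g : gaussRing ℓ k) : LaurentSeries ℚ) =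
    incl ℓ g := rfl

omit hℓ [CharP k ℓ] in
theorem red_inclB (g : LaurentSeries R) : red ℓ k (inclB ℓ k g) = rbar ℓ k g :=
  red_incl ℓ k g

omit hℓ in
theorem incl_C (r : R) : incl ℓ (HahnSeries.C r) = HahnSeries.C (r : ℚ) := by
  show coeffMap _ (HahnSeries.C r) = _
  rw [HahnSeries.C_apply, coeffMap_single, HahnSeries.C_apply]
  rfl

omit hℓ [CharP k ℓ] in
theorem rbar_C (r : R) : rbar ℓ k (HahnSeries.C r) = HahnSeries.C (algebraMap R k r) := by
  show coeffMap _ (HahnSeries.C r) = _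
  rw [HahnSeries.C_apply, coeffMap_single, HahnSeries.C_apply]

/-- evaluation of a polynomial with `ℓ`-integral coefficients at an element of the Gauss ring -/
noncomputable def evB (x : gaussRing ℓ k) (p : (GaloisRep.ratLocalizedAt ℓ)[X]) :
    gaussRing ℓ k :=
  p.eval₂ ((inclB ℓ k).comp HahnSeries.C) x

omit hℓ [CharP k ℓ] in
theorem coe_evB (x : gaussRing ℓ k) (p : R[X]) :
    ((evB ℓ k x p : gaussRing ℓ k) : LaurentSeries ℚ) =
      (p.map (GaloisRep.ratLocalizedAt ℓ).subtype).eval₂ HahnSeries.C (x : LaurentSeries ℚ) := by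
  have h := Polynomial.hom_eval₂ p ((inclB ℓ k).comp HahnSeries.C) (gaussRing ℓ k).subtype x
  rw [Polynomial.eval₂_map]
  have hc : (gaussRing ℓ k).subtype.comp ((inclB ℓ k).comp HahnSeries.C) =
      (HahnSeries.C : ℚ →+* LaurentSeries ℚ).comp (GaloisRep.ratLocalizedAt ℓ).subtype := by
    ext r : 1
    exact incl_C ℓ r
  rw [hc] at h
  exact h

omit hℓ [CharP k ℓ] in
theorem red_evB (x : gaussRing ℓ k) (p : R[X]) :
    red ℓ k (evB ℓ k x p) =
      (p.map (algebraMap (GaloisRep.ratLocalizedAt ℓ) k)).eval₂ HahnSeries.C (red ℓ k x) := by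
  have h := Polynomial.hom_eval₂ p ((inclB ℓ k).comp HahnSeries.C) (red ℓ k) x
  rw [Polynomial.eval₂_map]
  have hc : (red ℓ k).comp ((inclB ℓ k).comp HahnSeries.C) =
      (HahnSeries.C : k →+* LaurentSeries k).comp (algebraMap (GaloisRep.ratLocalizedAt ℓ) k) := by
    ext r : 1
    show red ℓ k (inclB ℓ k (HahnSeries.C r)) = _
    rw [red_inclB, rbar_C]
    rfl
  rw [hc] at h
  exact h

omit hℓ in
/-- a rational polynomial with `ℓ`-integral coefficients comes from `R[X]` -/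
theorem exists_map_eq (P : ℚ[X]) (hP : ∀ i, P.coeff i ∈ R) :
    ∃ p : R[X], p.map (GaloisRep.ratLocalizedAt ℓ).subtype = P := by
  have : P ∈ Polynomial.lifts (GaloisRep.ratLocalizedAt ℓ).subtype :=
    (Polynomial.lifts_iff_coeff_lifts P).mpr fun i => ⟨⟨P.coeff i, hP i⟩, rfl⟩
  exact (Polynomial.mem_lifts P).mp this

/-- a common power of `ℓ` clearing the denominators of a rational polynomial -/
theorem exists_pow_mul_coeff_mem (P : ℚ[X]) : ∃ N : ℕ, ∀ i, (ℓ : ℚ) ^ N * P.coeff i ∈ R := by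
  choose N hN using fun i => exists_pow_mul_mem ℓ (P.coeff i)
  refine ⟨P.support.sup N, fun i => ?_⟩
  by_cases hi : i ∈ P.support
  · obtain ⟨d, hd⟩ := Nat.exists_eq_add_of_le (Finset.le_sup (f := N) hi)
    rw [hd, _root_.pow_add, mul_comm ((ℓ : ℚ) ^ N i), mul_assoc]
    exact mul_mem (pow_mem (natCast_ell_mem ℓ) d) (hN i)
  · rw [Polynomial.notMem_support_iff.mp hi, mul_zero]
    exact zero_mem _

/-- **Key lemma.** If `x̄` is transcendental over `k` and `P(x) ∈ B` for a rational polynomial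
`P`, then `P` has `ℓ`-integral coefficients. -/
theorem coeff_mem_of_eval₂_mem (x : gaussRing ℓ k)
    (htrans : ∀ p : k[X], p.eval₂ HahnSeries.C (red ℓ k x) = 0 → p = 0)
    (P : ℚ[X]) (hP : P.eval₂ HahnSeries.C (x : LaurentSeries ℚ) ∈ gaussRing ℓ k) :
    ∀ i, P.coeff i ∈ R := by
  classical
  have hex := exists_pow_mul_coeff_mem ℓ P
  have hfind := Nat.find_spec hex
  rcases Nat.eq_zero_or_pos (Nat.find hex) with h0 | hpos
  · intro i
    have := hfind i
    rwa [h0, pow_zero, one_mul] at this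
  · exfalso
    obtain ⟨M, hM⟩ := Nat.exists_eq_succ_of_ne_zero hpos.ne'
    obtain ⟨p, hp⟩ := exists_map_eq ℓ (Polynomial.C ((ℓ : ℚ) ^ (Nat.find hex)) * P)
      (fun i => by rw [Polynomial.coeff_C_mul]; exact hfind i)
    -- `p(x) ∈ ℓ B`
    have h1 : red ℓ k (evB ℓ k x p) = 0 := by
      rw [red_eq_zero_iff]
      refine ⟨⟨(ℓ : LaurentSeries ℚ) ^ M * P.eval₂ HahnSeries.C (x : LaurentSeries ℚ),
        mul_mem (pow_mem (natCast_ell_mem_gaussRing ℓ k) M) hP⟩, ?_⟩
      rw [coe_evB, hp, Polynomial.eval₂_mul, Polynomial.eval₂_C, hM, map_pow, map_natCast]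
      show _ = (ℓ : LaurentSeries ℚ) * ((ℓ : LaurentSeries ℚ) ^ M * _)
      rw [pow_succ]
      ring
    rw [red_evB] at h1
    have h2 := htrans _ h1
    have h3 : ∀ i, (ℓ : ℚ) ^ M * P.coeff i ∈ R := by
      intro i
      have hc : algebraMap R k (p.coeff i) = 0 := by
        have := congrArg (fun f => f.coeff i) h2
        simpa only [Polynomial.coeff_map, Polynomial.coeff_zero] using this
      obtain ⟨r, hr⟩ := (algebraMap_eq_zero_iff ℓ k (p.coeff i)).mp hc
      have hpi : ((p.coeff i : R) : ℚ) = (ℓ : ℚ) ^ (Nat.find hex) * P.coeff i := by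
        have := congrArg (fun f => f.coeff i) hp
        simp only [Polynomial.coeff_map, Polynomial.coeff_C_mul] at this
        exact this
      have : (ℓ : ℚ) ^ M * P.coeff i = r := by
        apply mul_left_cancel₀ (ell_ne_zero ℓ)
        rw [← hr, hpi, hM, pow_succ]
        ring
      rw [this]
      exact r.2
    have := Nat.find_min' hex h3
    omega

end Eval


section PolyRing

variable (k : Type*) [Field k] [Algebra (GaloisRep.ratLocalizedAt ℓ) k] [CharP k ℓ]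

/-- `R[x]` as a subring of `ℚ((q))` (`R = ℤ_(ℓ)`) -/
noncomputable def polyRing (x : LaurentSeries ℚ) : Subring (LaurentSeries ℚ) :=
  (Polynomial.eval₂RingHom
    ((HahnSeries.C : ℚ →+* LaurentSeries ℚ).comp (GaloisRep.ratLocalizedAt ℓ).subtype) x).range

omit hℓ in
theorem mem_polyRing_iff (x y : LaurentSeries ℚ) : y ∈ polyRing ℓ x ↔
    ∃ p : R[X], (p.map (GaloisRep.ratLocalizedAt ℓ).subtype).eval₂ HahnSeries.C x = y := by
  unfold polyRing
  rw [RingHom.mem_range]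
  constructor
  · rintro ⟨p, hp⟩
    exact ⟨p, by rw [Polynomial.eval₂_map]; exact hp⟩
  · rintro ⟨p, hp⟩
    exact ⟨p, by rw [Polynomial.eval₂_map] at hp; exact hp⟩

omit hℓ [CharP k ℓ] in
theorem polyRing_le (x : gaussRing ℓ k) : polyRing ℓ (x : LaurentSeries ℚ) ≤ gaussRing ℓ k := by
  intro y hy
  obtain ⟨p, rfl⟩ := (mem_polyRing_iff ℓ _ _).mp hy
  rw [← coe_evB]
  exact (evB ℓ k x p).2

omit hℓ in
theorem natCast_eq_C : ((ℓ : ℕ) : LaurentSeries ℚ) = HahnSeries.C (ℓ : ℚ) :=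
  (map_natCast (HahnSeries.C : ℚ →+* LaurentSeries ℚ) ℓ).symm

/-- `R[x] ∩ ℓ B = ℓ R[x]` when `x̄` is transcendental over `k`. -/
theorem polyRing_sat (x : gaussRing ℓ k)
    (htrans : ∀ p : k[X], p.eval₂ HahnSeries.C (red ℓ k x) = 0 → p = 0) :
    ∀ z ∈ gaussRing ℓ k, (ℓ : LaurentSeries ℚ) * z ∈ polyRing ℓ (x : LaurentSeries ℚ) →
      z ∈ polyRing ℓ (x : LaurentSeries ℚ) := by
  intro z hz hlz
  obtain ⟨p, hp⟩ := (mem_polyRing_iff ℓ _ _).mp hlz
  set P : ℚ[X] := Polynomial.C ((ℓ : ℚ)⁻¹) * p.map (GaloisRep.ratLocalizedAt ℓ).subtype with hPdef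
  have hPz : P.eval₂ HahnSeries.C (x : LaurentSeries ℚ) = z := by
    rw [hPdef, Polynomial.eval₂_mul, Polynomial.eval₂_C, hp, natCast_eq_C, ← mul_assoc, ← map_mul,
      inv_mul_cancel₀ (ell_ne_zero ℓ), map_one, one_mul]
  have hPc := coeff_mem_of_eval₂_mem ℓ k x htrans P (by rw [hPz]; exact hz)
  obtain ⟨p', hp'⟩ := exists_map_eq ℓ P hPc
  exact (mem_polyRing_iff ℓ _ _).mpr ⟨p', by rw [hp', hPz]⟩

omit hℓ in
theorem algebraMap_eq_C : algebraMap ℚ (LaurentSeries ℚ) = HahnSeries.C := by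
  ext c : 1
  rw [ModularCurve.algebraMap_apply_eq_single, HahnSeries.C_apply]

/-- constants coming from `R` lie in every subfield of `k((q))` -/
theorem C_algebraMap_mem (κ : Subfield (LaurentSeries k)) (r : R) :
    HahnSeries.C (algebraMap R k r) ∈ κ := by
  obtain ⟨a, b, hb, hr⟩ := (mem_iff_exists ℓ (r : ℚ)).mp r.2
  have hb0 : (b : ℚ) ≠ 0 := by
    intro h
    have : b = 0 := by exact_mod_cast h
    exact hb (this ▸ dvd_zero _)
  have h1 : r * (b : R) = (a : R) := by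
    apply Subtype.ext
    push_cast
    rw [hr, div_mul_cancel₀ _ hb0]
  have h2 := congrArg (algebraMap R k) h1
  rw [map_mul, map_intCast, map_intCast] at h2
  have hbk : (b : k) ≠ 0 := fun h => hb ((CharP.intCast_eq_zero_iff k ℓ b).mp h)
  have h3 : algebraMap R k r = (a : k) / (b : k) := by
    rw [eq_div_iff hbk, h2]
  rw [h3, map_div₀, map_intCast, map_intCast]
  exact div_mem (intCast_mem κ a) (intCast_mem κ b)

omit hℓ in
theorem map_map_subtype (Q : ℤ[X]) :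
    (Q.map (Int.castRingHom R)).map (GaloisRep.ratLocalizedAt ℓ).subtype =
      Q.map (Int.castRingHom ℚ) := by
  rw [Polynomial.map_map]
  exact congrArg (fun f => Q.map f) (RingHom.ext_int _ _)

omit hℓ [CharP k ℓ] in
theorem map_map_algebraMap (Q : ℤ[X]) :
    (Q.map (Int.castRingHom R)).map (algebraMap (GaloisRep.ratLocalizedAt ℓ) k) =
      Q.map (Int.castRingHom k) := by
  rw [Polynomial.map_map]
  exact congrArg (fun f => Q.map f) (RingHom.ext_int _ _)

omit [Algebra (GaloisRep.ratLocalizedAt ℓ) k] in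
include hℓ in
/-- every element of `ℚ(x)` is `P(x) / Q₁(x)` with `Q₁` an integer polynomial nonzero mod `ℓ` -/
theorem exists_frac_repr {x y : LaurentSeries ℚ}
    (hy : y ∈ IntermediateField.adjoin ℚ ({x} : Set (LaurentSeries ℚ))) :
    ∃ (Q₁ : ℤ[X]) (P : ℚ[X]), Q₁.map (Int.castRingHom k) ≠ 0 ∧
      (Q₁.map (Int.castRingHom ℚ)).eval₂ HahnSeries.C x * y = P.eval₂ HahnSeries.C x := by
  obtain ⟨r, s, rfl⟩ := (IntermediateField.mem_adjoin_simple_iff ℚ _).mp hy
  rw [Polynomial.aeval_def, Polynomial.aeval_def, algebraMap_eq_C]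
  by_cases hs : s.eval₂ HahnSeries.C x = 0
  · refine ⟨1, 0, ?_, ?_⟩
    · rw [Polynomial.map_one]
      exact one_ne_zero
    · rw [hs, div_zero, mul_zero, Polynomial.eval₂_zero]
  · have hs0 : s ≠ 0 := by
      rintro rfl
      exact hs (Polynomial.eval₂_zero _ _)
    obtain ⟨c, -, Q₁, hQ₁, hQ₁k⟩ := exists_primitive_scaling ℓ k s hs0
    refine ⟨Q₁, Polynomial.C c * r, hQ₁k, ?_⟩
    rw [← hQ₁, Polynomial.eval₂_mul, Polynomial.eval₂_C, Polynomial.eval₂_mul, Polynomial.eval₂_C,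
      mul_assoc, mul_div_cancel₀ _ hs]

omit hℓ [CharP k ℓ] in
/-- the unit `Q₁(x)` of the Gauss ring -/
theorem red_evB_int_ne_zero (x : gaussRing ℓ k)
    (htrans : ∀ p : k[X], p.eval₂ HahnSeries.C (red ℓ k x) = 0 → p = 0)
    (Q₁ : ℤ[X]) (hQ₁ : Q₁.map (Int.castRingHom k) ≠ 0) :
    red ℓ k (evB ℓ k x (Q₁.map (Int.castRingHom R))) ≠ 0 := by
  rw [red_evB, map_map_algebraMap]
  exact fun h => hQ₁ (htrans _ h)

theorem evB_int_inv_mem (x : gaussRing ℓ k)
    (htrans : ∀ p : k[X], p.eval₂ HahnSeries.C (red ℓ k x) = 0 → p = 0)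
    (Q₁ : ℤ[X]) (hQ₁ : Q₁.map (Int.castRingHom k) ≠ 0) :
    ((evB ℓ k x (Q₁.map (Int.castRingHom R)) : gaussRing ℓ k) : LaurentSeries ℚ)⁻¹ ∈
      gaussRing ℓ k := by
  apply inv_mem_gaussRing ℓ k (evB ℓ k x _).2
  intro z hz hwz
  exact red_evB_int_ne_zero ℓ k x htrans Q₁ hQ₁ ((red_eq_zero_iff ℓ k _).mpr ⟨⟨z, hz⟩, hwz⟩)

end PolyRing


section Base

open IntermediateField IntermediateField.algebraAdjoinAdjoin

variable (k : Type*) [Field k] [Algebra (GaloisRep.ratLocalizedAt ℓ) k] [CharP k ℓ]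

/-- `ℚ(x) ⊆ B[1/ℓ]` -/
theorem exists_pow_mul_mem_gaussRing (x : gaussRing ℓ k)
    (htrans : ∀ p : k[X], p.eval₂ HahnSeries.C (red ℓ k x) = 0 → p = 0) {y : LaurentSeries ℚ}
    (hy : y ∈ IntermediateField.adjoin ℚ ({(x : LaurentSeries ℚ)} : Set (LaurentSeries ℚ))) :
    ∃ N : ℕ, (ℓ : LaurentSeries ℚ) ^ N * y ∈ gaussRing ℓ k := by
  obtain ⟨Q₁, P, hQ₁, hQP⟩ := exists_frac_repr ℓ k hy
  obtain ⟨w, hw⟩ : ∃ w : gaussRing ℓ k, w = evB ℓ k x (Q₁.map (Int.castRingHom R)) := ⟨_, rfl⟩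
  have hwc : (w : LaurentSeries ℚ) =
      (Q₁.map (Int.castRingHom ℚ)).eval₂ HahnSeries.C (x : LaurentSeries ℚ) := by
    rw [hw, coe_evB, map_map_subtype]
  have hwinv : (w : LaurentSeries ℚ)⁻¹ ∈ gaussRing ℓ k := by
    rw [hw]
    exact evB_int_inv_mem ℓ k x htrans Q₁ hQ₁
  have hw0 : (w : LaurentSeries ℚ) ≠ 0 := by
    intro h0
    apply red_evB_int_ne_zero ℓ k x htrans Q₁ hQ₁
    have : w = 0 := Subtype.ext h0
    rw [← hw, this, map_zero]
  obtain ⟨N, hN⟩ := exists_pow_mul_coeff_mem ℓ P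
  obtain ⟨p, hp⟩ := exists_map_eq ℓ (Polynomial.C ((ℓ : ℚ) ^ N) * P)
    (fun i => by rw [Polynomial.coeff_C_mul]; exact hN i)
  refine ⟨N, ?_⟩
  have h2 : ((evB ℓ k x p : gaussRing ℓ k) : LaurentSeries ℚ) =
      (ℓ : LaurentSeries ℚ) ^ N * ((w : LaurentSeries ℚ) * y) := by
    rw [coe_evB, hp, Polynomial.eval₂_mul, Polynomial.eval₂_C, ← hQP, ← hwc, map_pow,
      ← natCast_eq_C]
  have h1 : (ℓ : LaurentSeries ℚ) ^ N * y =
      (w : LaurentSeries ℚ)⁻¹ * ((evB ℓ k x p : gaussRing ℓ k) : LaurentSeries ℚ) := by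
    rw [h2, ← mul_assoc, mul_comm (w : LaurentSeries ℚ)⁻¹, mul_assoc,
      inv_mul_cancel_left₀ hw0]
  rw [h1]
  exact mul_mem hwinv (evB ℓ k x p).2

theorem red_evB_mem_closure (x : gaussRing ℓ k) (p : R[X]) :
    red ℓ k (evB ℓ k x p) ∈ Subfield.closure ({red ℓ k x} : Set (LaurentSeries k)) := by
  have h := red_evB ℓ k x p
  rw [Polynomial.eval₂_eq_sum_range] at h
  rw [h]
  apply Subfield.sum_mem
  intro i _
  apply Subfield.mul_mem
  · rw [Polynomial.coeff_map]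
    exact C_algebraMap_mem ℓ k _ _
  · exact Subfield.pow_mem _ (Subfield.subset_closure (Set.mem_singleton _)) _

/-- the residue field of `ℚ(x) ∩ B` is contained in `closure {x̄}` -/
theorem red_mem_closure (x : gaussRing ℓ k)
    (htrans : ∀ p : k[X], p.eval₂ HahnSeries.C (red ℓ k x) = 0 → p = 0) (y : gaussRing ℓ k)
    (hy : (y : LaurentSeries ℚ) ∈
      IntermediateField.adjoin ℚ ({(x : LaurentSeries ℚ)} : Set (LaurentSeries ℚ))) :
    red ℓ k y ∈ Subfield.closure ({red ℓ k x} : Set (LaurentSeries k)) := by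
  obtain ⟨Q₁, P, hQ₁, hQP⟩ := exists_frac_repr ℓ k hy
  obtain ⟨w, hw⟩ : ∃ w : gaussRing ℓ k, w = evB ℓ k x (Q₁.map (Int.castRingHom R)) := ⟨_, rfl⟩
  have hwc : (w : LaurentSeries ℚ) =
      (Q₁.map (Int.castRingHom ℚ)).eval₂ HahnSeries.C (x : LaurentSeries ℚ) := by
    rw [hw, coe_evB, map_map_subtype]
  have hwne : red ℓ k w ≠ 0 := by
    rw [hw]
    exact red_evB_int_ne_zero ℓ k x htrans Q₁ hQ₁
  have hPB : P.eval₂ HahnSeries.C (x : LaurentSeries ℚ) ∈ gaussRing ℓ k := by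
    rw [← hQP, ← hwc]
    exact mul_mem w.2 y.2
  obtain ⟨p', hp'⟩ := exists_map_eq ℓ P (coeff_mem_of_eval₂_mem ℓ k x htrans P hPB)
  have hwy : w * y = evB ℓ k x p' := by
    apply Subtype.ext
    rw [Subring.coe_mul, hwc, hQP, coe_evB, hp']
  have h1 : red ℓ k y = red ℓ k (evB ℓ k x p') / red ℓ k w := by
    rw [← hwy, map_mul, mul_comm, mul_div_assoc, div_self hwne, mul_one]
  rw [h1, hw]
  exact Subfield.div_mem _ (red_evB_mem_closure ℓ k x p') (red_evB_mem_closure ℓ k x _)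

/-- **Base of the tower** for the field `ℚ(x)`, `x ∈ B` with `x̄` transcendental over `k`. -/
theorem good_base (x : gaussRing ℓ k)
    (htrans : ∀ p : k[X], p.eval₂ HahnSeries.C (red ℓ k x) = 0 → p = 0) :
    Tower.Good (gaussRing ℓ k) (ℓ : LaurentSeries ℚ) (red ℓ k)
      ((IntermediateField.adjoin ℚ
        ({(x : LaurentSeries ℚ)} : Set (LaurentSeries ℚ))).toSubfield.toSubring ⊓ gaussRing ℓ k)
      (IntermediateField.adjoin ℚ ({(x : LaurentSeries ℚ)} : Set (LaurentSeries ℚ))).toSubfield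
      (Subfield.closure ({red ℓ k x} : Set (LaurentSeries k))) :=
  Tower.Good.base (_root_.natCast_mem _ ℓ) (fun _ hy => exists_pow_mul_mem_gaussRing ℓ k x htrans hy)
    (fun y hy => red_mem_closure ℓ k x htrans y hy) (fun _ hyF hyB => ⟨hyF, hyB⟩)

theorem transcendental_of_htrans (x : gaussRing ℓ k)
    (htrans : ∀ p : k[X], p.eval₂ HahnSeries.C (red ℓ k x) = 0 → p = 0) :
    Transcendental ℚ (x : LaurentSeries ℚ) := by
  rw [transcendental_iff]
  intro P hP
  by_contra hP0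
  obtain ⟨c, hc, Q₁, hQ₁, hQ₁k⟩ := exists_primitive_scaling ℓ k P hP0
  apply red_evB_int_ne_zero ℓ k x htrans Q₁ hQ₁k
  have h0 : evB ℓ k x (Q₁.map (Int.castRingHom R)) = 0 := by
    apply Subtype.ext
    rw [coe_evB, map_map_subtype, ← hQ₁, Polynomial.eval₂_mul, Polynomial.eval₂_C,
      ← algebraMap_eq_C, ← Polynomial.aeval_def, hP, mul_zero]
    rfl
  rw [h0, map_zero]

/-- `R[x]` is integrally closed in `ℚ(x)`. -/
theorem polyRing_integrallyClosed (x : gaussRing ℓ k)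
    (htrans : ∀ p : k[X], p.eval₂ HahnSeries.C (red ℓ k x) = 0 → p = 0) :
    ∀ z ∈ (IntermediateField.adjoin ℚ
        ({(x : LaurentSeries ℚ)} : Set (LaurentSeries ℚ))).toSubfield,
      IsIntegral (polyRing ℓ (x : LaurentSeries ℚ)) z → z ∈ polyRing ℓ (x : LaurentSeries ℚ) := by
  intro z hzF hzint
  have hzB : z ∈ gaussRing ℓ k :=
    Tower.mem_of_isIntegral (natCast_ell_mem_gaussRing ℓ k) (natCast_ell_ne_zero' ℓ)
      (fun y hy h => inv_mem_gaussRing ℓ k hy h) (ell_inv_not_mem_gaussRing ℓ k)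
      (polyRing_le ℓ k x) (exists_pow_mul_mem_gaussRing ℓ k x htrans hzF) hzint
  have htr := transcendental_of_htrans ℓ k x htrans
  have hDic : IsIntegrallyClosed (Algebra.adjoin ℚ ({(x : LaurentSeries ℚ)} : Set _)) :=
    IsIntegrallyClosed.of_equiv
      (Polynomial.algEquivOfTranscendental ℚ (x : LaurentSeries ℚ) htr).toRingEquiv
  -- the inclusion `R[x] → ℚ[x]`
  have hle : ∀ a ∈ polyRing ℓ (x : LaurentSeries ℚ),
      a ∈ Algebra.adjoin ℚ ({(x : LaurentSeries ℚ)} : Set (LaurentSeries ℚ)) := by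
    intro a ha
    obtain ⟨p, rfl⟩ := (mem_polyRing_iff ℓ _ _).mp ha
    rw [← algebraMap_eq_C, ← Polynomial.aeval_def]
    exact Polynomial.aeval_mem_adjoin_singleton _ _
  let φ : polyRing ℓ (x : LaurentSeries ℚ) →+*
      Algebra.adjoin ℚ ({(x : LaurentSeries ℚ)} : Set (LaurentSeries ℚ)) :=
    { toFun := fun a => ⟨a.1, hle a.1 a.2⟩
      map_one' := rfl
      map_mul' := fun _ _ => rfl
      map_zero' := rfl
      map_add' := fun _ _ => rfl }
  have hzD : IsIntegral (Algebra.adjoin ℚ ({(x : LaurentSeries ℚ)} : Set _)) z :=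
    hzint.map_of_comp_eq φ (RingHom.id _) (by ext; rfl)
  have hzD' : IsIntegral (Algebra.adjoin ℚ ({(x : LaurentSeries ℚ)} : Set _))
      (⟨z, hzF⟩ : IntermediateField.adjoin ℚ ({(x : LaurentSeries ℚ)} : Set _)) := by
    rw [← isIntegral_algebraMap_iff
      (B := LaurentSeries ℚ) (Subtype.val_injective)]
    exact hzD
  obtain ⟨d, hd⟩ := IsIntegrallyClosed.isIntegral_iff.mp hzD'
  have hdz : (d : LaurentSeries ℚ) = z :=
    congrArg (fun t : IntermediateField.adjoin ℚ ({(x : LaurentSeries ℚ)} : Set _) =>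
      (t : LaurentSeries ℚ)) hd
  have hd2 : (d : LaurentSeries ℚ) ∈
      (Polynomial.aeval (x : LaurentSeries ℚ) : ℚ[X] →ₐ[ℚ] LaurentSeries ℚ).range := by
    rw [← Algebra.adjoin_singleton_eq_range_aeval]
    exact d.2
  obtain ⟨P, hP⟩ := hd2
  have hPz : P.eval₂ HahnSeries.C (x : LaurentSeries ℚ) = z := by
    rw [← algebraMap_eq_C, ← Polynomial.aeval_def, ← hdz]
    exact hP
  obtain ⟨p', hp'⟩ := exists_map_eq ℓ P
    (coeff_mem_of_eval₂_mem ℓ k x htrans P (by rw [hPz]; exact hzB))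
  exact (mem_polyRing_iff ℓ _ _).mpr ⟨p', by rw [hp', hPz]⟩

end Base


section Generators

variable (K : Type*) [Field K] [Algebra (GaloisRep.ratLocalizedAt ℓ) K] [CharP K ℓ]

/-- `j(q^d)` as an element of the Gauss ring -/
noncomputable def jdB (d : ℕ) [NeZero d] : gaussRing ℓ K :=
  inclB ℓ K (qExpand (GaloisRep.ratLocalizedAt ℓ) d (jqModC (GaloisRep.ratLocalizedAt ℓ)))

omit hℓ [CharP K ℓ] in
theorem coe_jdB (d : ℕ) [NeZero d] :
    ((jdB ℓ K d : gaussRing ℓ K) : LaurentSeries ℚ) = qExpand ℚ d jq := by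
  show coeffMap _ (qExpand _ d (jqModC _)) = _
  rw [coeffMap_qExpand, coeffMap_jqModC, jqModC_rat]

omit hℓ [CharP K ℓ] in
theorem red_jdB (d : ℕ) [NeZero d] : red ℓ K (jdB ℓ K d) = qExpand K d (jqModC K) := by
  rw [jdB, red_inclB]
  show coeffMap _ (qExpand _ d (jqModC _)) = _
  rw [coeffMap_qExpand, coeffMap_jqModC]

omit hℓ [CharP K ℓ] in
/-- `j(q^d)` lies in the Gauss ring -/
theorem qExpand_jq_mem (d : ℕ) [NeZero d] : qExpand ℚ d jq ∈ gaussRing ℓ K := by
  rw [← coe_jdB ℓ K d]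
  exact (jdB ℓ K d).2

omit hℓ [CharP K ℓ] in
/-- the reduction of `j(q^d)` is `J̄(q^d)` -/
theorem red_qExpand_jq (d : ℕ) [NeZero d] :
    red ℓ K ⟨qExpand ℚ d jq, qExpand_jq_mem ℓ K d⟩ = qExpand K d (jqModC K) := by
  rw [← red_jdB ℓ K d]
  congr 1
  exact Subtype.ext (coe_jdB ℓ K d).symm

/-- `j` as an element of the Gauss ring -/
noncomputable def jB : gaussRing ℓ K := inclB ℓ K (jqModC (GaloisRep.ratLocalizedAt ℓ))

omit hℓ [CharP K ℓ] in
theorem coe_jB : ((jB ℓ K : gaussRing ℓ K) : LaurentSeries ℚ) = jq := by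
  show coeffMap _ (jqModC _) = _
  rw [coeffMap_jqModC, jqModC_rat]

omit hℓ [CharP K ℓ] in
theorem red_jB : red ℓ K (jB ℓ K) = jqModC K := by
  rw [jB, red_inclB]
  show coeffMap _ (jqModC _) = _
  rw [coeffMap_jqModC]

omit hℓ [CharP K ℓ] in
theorem htrans_jB : ∀ p : K[X], p.eval₂ HahnSeries.C (red ℓ K (jB ℓ K)) = 0 → p = 0 := by
  rw [red_jB]
  exact eq_zero_of_eval₂_jqModC K

theorem jq_inv_mem : jq⁻¹ ∈ gaussRing ℓ K := by
  have h := inv_mem_gaussRing ℓ K (jB ℓ K).2 (fun z hz hjz => by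
    have h0 : red ℓ K (jB ℓ K) = 0 := (red_eq_zero_iff ℓ K _).mpr ⟨⟨z, hz⟩, hjz⟩
    rw [red_jB] at h0
    exact jqModC_ne_zero_of_nontrivial K h0)
  rwa [coe_jB] at h

/-- `j⁻¹` as an element of the Gauss ring -/
noncomputable def jinvB : gaussRing ℓ K := ⟨jq⁻¹, jq_inv_mem ℓ K⟩

theorem red_jinvB : red ℓ K (jinvB ℓ K) = (jqModC K)⁻¹ := by
  have h : jB ℓ K * jinvB ℓ K = 1 := by
    apply Subtype.ext
    rw [Subring.coe_mul, coe_jB]
    exact mul_inv_cancel₀ jq_ne_zero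
  have h1 := congrArg (red ℓ K) h
  rw [map_mul, map_one, red_jB] at h1
  exact eq_inv_of_mul_eq_one_right h1

theorem htrans_jinvB : ∀ p : K[X], p.eval₂ HahnSeries.C (red ℓ K (jinvB ℓ K)) = 0 → p = 0 := by
  rw [red_jinvB]
  exact eq_zero_of_eval₂_jqModC_inv K

/-- **Base of the tower**: `F₀ = ℚ(j)`, residue field inside `closure {J̄}`. -/
theorem good_base_jq :
    Tower.Good (gaussRing ℓ K) (ℓ : LaurentSeries ℚ) (red ℓ K)
      ((IntermediateField.adjoin ℚ ({jq} : Set (LaurentSeries ℚ))).toSubfield.toSubring ⊓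
        gaussRing ℓ K)
      (IntermediateField.adjoin ℚ ({jq} : Set (LaurentSeries ℚ))).toSubfield
      (Subfield.closure ({jqModC K} : Set (LaurentSeries K))) := by
  have h := good_base ℓ K (jB ℓ K) (htrans_jB ℓ K)
  rw [coe_jB, red_jB] at h
  exact h

end Generators


section Final

open IntermediateField ModularCurve.IgusaScheme

variable (N : ℕ) [NeZero N]
  (K : Type*) [Field K] [Algebra (GaloisRep.ratLocalizedAt ℓ) K] [CharP K ℓ]

omit hℓ [NeZero N] in
theorem coe_aeval (s : modularFunctionFieldFull N) (p : (GaloisRep.ratLocalizedAt ℓ)[X]) :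
    ((Polynomial.aeval s p : modularFunctionFieldFull N) : LaurentSeries ℚ) =
      (p.map (GaloisRep.ratLocalizedAt ℓ).subtype).eval₂ HahnSeries.C (s : LaurentSeries ℚ) := by
  have h := Polynomial.hom_eval₂ p
    (algebraMap (GaloisRep.ratLocalizedAt ℓ) (modularFunctionFieldFull N))
    (algebraMap (modularFunctionFieldFull N) (LaurentSeries ℚ)) s
  have hc : (algebraMap (modularFunctionFieldFull N) (LaurentSeries ℚ)).comp
      (algebraMap (GaloisRep.ratLocalizedAt ℓ) (modularFunctionFieldFull N)) =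
      (HahnSeries.C : ℚ →+* LaurentSeries ℚ).comp (GaloisRep.ratLocalizedAt ℓ).subtype := by
    ext r : 1
    have h2 : (algebraMap (modularFunctionFieldFull N) (LaurentSeries ℚ)).comp
        (algebraMap ℚ (modularFunctionFieldFull N)) = HahnSeries.C := Subsingleton.elim _ _
    exact congrArg (fun f : ℚ →+* LaurentSeries ℚ => f (r : ℚ)) h2
  rw [hc] at h
  rw [Polynomial.eval₂_map]
  exact h

/-- **(Q2) from the tower**, generic form. -/
theorem hQ2_of_good_aux (s : modularFunctionFieldFull N) (x₀ : gaussRing ℓ K)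
    (hs : (s : LaurentSeries ℚ) = (x₀ : LaurentSeries ℚ))
    (htrans : ∀ p : K[X], p.eval₂ HahnSeries.C (red ℓ K x₀) = 0 → p = 0)
    (hfield : IntermediateField.adjoin ℚ ({(x₀ : LaurentSeries ℚ)} : Set (LaurentSeries ℚ)) =
      IntermediateField.adjoin ℚ ({jq} : Set (LaurentSeries ℚ)))
    {κ : Subfield (LaurentSeries K)}
    (hgood : Tower.Good (gaussRing ℓ K) (ℓ : LaurentSeries ℚ) (red ℓ K)
      ((IntermediateField.adjoin ℚ ({jq} : Set (LaurentSeries ℚ))).toSubfield.toSubring ⊓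
        gaussRing ℓ K)
      (modularFunctionFieldFull N).toSubfield κ) :
    ∀ x ∈ chartAlg N ℓ {s},
      (∀ n : ℤ, ∃ r ∈ GaloisRep.ratLocalizedAt ℓ,
        ((x : modularFunctionFieldFull N) : LaurentSeries ℚ).coeff n = ℓ * r) →
      ∃ y ∈ chartAlg N ℓ {s}, x = (ℓ : modularFunctionFieldFull N) * y := by
  intro x hx hcoef
  obtain ⟨xL, hxL⟩ : ∃ xL : LaurentSeries ℚ, xL = (x : LaurentSeries ℚ) := ⟨_, rfl⟩
  obtain ⟨yL, hyL⟩ : ∃ yL : LaurentSeries ℚ, yL = HahnSeries.C ((ℓ : ℚ)⁻¹) * xL := ⟨_, rfl⟩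
  have hly : (ℓ : LaurentSeries ℚ) * yL = xL := by
    rw [hyL, natCast_eq_C, ← mul_assoc, ← map_mul, mul_inv_cancel₀ (ell_ne_zero ℓ), map_one,
      one_mul]
  have hyc : ∀ n, yL.coeff n ∈ R := by
    intro n
    obtain ⟨r, hr, hrn⟩ := hcoef n
    have : yL.coeff n = r := by
      rw [hyL, HahnSeries.C_mul_eq_smul, HahnSeries.coeff_smul, hxL, hrn, smul_eq_mul,
        ← mul_assoc, inv_mul_cancel₀ (ell_ne_zero ℓ), one_mul]
    rw [this]
    exact hr
  obtain ⟨g, hg⟩ := exists_incl_eq ℓ yL hyc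
  have hyB : yL ∈ gaussRing ℓ K := hg ▸ incl_mem_gaussRing ℓ K g
  have hyF : yL ∈ modularFunctionFieldFull N := by
    rw [hyL, ← algebraMap_eq_C, hxL]
    exact mul_mem ((modularFunctionFieldFull N).algebraMap_mem _) x.2
  -- the coefficient ring as a subring of `ℚ((q))`
  have hAdj : ∀ a : Algebra.adjoin (GaloisRep.ratLocalizedAt ℓ)
      ({s} : Set (modularFunctionFieldFull N)),
      (((a : modularFunctionFieldFull N)) : LaurentSeries ℚ) ∈
        polyRing ℓ (x₀ : LaurentSeries ℚ) := by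
    intro a
    obtain ⟨p, hp⟩ := Algebra.adjoin_mem_exists_aeval _ _ a.2
    rw [← hp]
    show ((Polynomial.aeval s p : modularFunctionFieldFull N) : LaurentSeries ℚ) ∈ _
    rw [coe_aeval, hs]
    exact (mem_polyRing_iff ℓ _ _).mpr ⟨p, rfl⟩
  let φ : Algebra.adjoin (GaloisRep.ratLocalizedAt ℓ) ({s} : Set (modularFunctionFieldFull N)) →+*
      polyRing ℓ (x₀ : LaurentSeries ℚ) :=
    { toFun := fun a => ⟨_, hAdj a⟩
      map_one' := rfl
      map_mul' := fun _ _ => rfl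
      map_zero' := rfl
      map_add' := fun _ _ => rfl }
  have hx' : IsIntegral (polyRing ℓ (x₀ : LaurentSeries ℚ)) xL := by
    rw [hxL]
    exact ((mem_chartAlg_iff N ℓ).mp hx).map_of_comp_eq φ
      (algebraMap (modularFunctionFieldFull N) (LaurentSeries ℚ)) (by ext; rfl)
  have hπy : IsIntegral (polyRing ℓ (x₀ : LaurentSeries ℚ)) ((ℓ : LaurentSeries ℚ) * yL) := by
    rw [hly]
    exact hx'
  have hAF : ∀ a ∈ polyRing ℓ (x₀ : LaurentSeries ℚ),
      a ∈ (IntermediateField.adjoin ℚ ({jq} : Set (LaurentSeries ℚ))).toSubfield := by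
    intro a ha
    obtain ⟨p, rfl⟩ := (mem_polyRing_iff ℓ _ _).mp ha
    rw [← hfield, ← algebraMap_eq_C, ← Polynomial.aeval_def]
    exact IntermediateField.algebra_adjoin_le_adjoin ℚ _
      (Polynomial.aeval_mem_adjoin_singleton ℚ _)
  have hyint : IsIntegral (polyRing ℓ (x₀ : LaurentSeries ℚ)) yL :=
    hgood.isIntegral_of_isIntegral_pi_mul (natCast_ell_mem_gaussRing ℓ K)
      (natCast_ell_ne_zero' ℓ) (fun y hy h => inv_mem_gaussRing ℓ K hy h)
      (ell_inv_not_mem_gaussRing ℓ K)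
      (F₀ := (IntermediateField.adjoin ℚ ({jq} : Set (LaurentSeries ℚ))).toSubfield)
      (_root_.natCast_mem _ ℓ)
      (fun y hy => exists_pow_mul_mem_gaussRing ℓ K (jB ℓ K) (htrans_jB ℓ K)
        (by rw [coe_jB]; exact hy))
      hAF (fun a ha => ha.1) inf_le_right
      (fun z hz hint => polyRing_integrallyClosed ℓ K x₀ htrans z (by rw [hfield]; exact hz) hint)
      (polyRing_sat ℓ K x₀ htrans) hyF hyB hπy
  -- transfer back to `F`
  obtain ⟨p, hpm, hp⟩ := hyint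
  obtain ⟨ψ', hψ'⟩ : ∃ ψ' : Algebra.adjoin (GaloisRep.ratLocalizedAt ℓ)
      ({s} : Set (modularFunctionFieldFull N)) →+* LaurentSeries ℚ,
      ψ' = (algebraMap (modularFunctionFieldFull N) (LaurentSeries ℚ)).comp
        (algebraMap (Algebra.adjoin (GaloisRep.ratLocalizedAt ℓ)
          ({s} : Set (modularFunctionFieldFull N))) (modularFunctionFieldFull N)) := ⟨_, rfl⟩
  have hlift : p.map (algebraMap (polyRing ℓ (x₀ : LaurentSeries ℚ)) (LaurentSeries ℚ)) ∈
      Polynomial.lifts ψ' := by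
    rw [Polynomial.lifts_iff_coeff_lifts]
    intro i
    rw [Polynomial.coeff_map]
    obtain ⟨q, hq⟩ := (mem_polyRing_iff ℓ _ _).mp (p.coeff i).2
    refine ⟨⟨Polynomial.aeval s q, Polynomial.aeval_mem_adjoin_singleton _ _⟩, ?_⟩
    rw [hψ']
    show ((Polynomial.aeval s q : modularFunctionFieldFull N) : LaurentSeries ℚ) = _
    rw [coe_aeval, hs, hq]
    rfl
  obtain ⟨q, hq, -, hqm⟩ := Polynomial.lifts_and_natDegree_eq_and_monic hlift (hpm.map _)
  have hyFint : IsIntegral (Algebra.adjoin (GaloisRep.ratLocalizedAt ℓ)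
      ({s} : Set (modularFunctionFieldFull N))) (⟨yL, hyF⟩ : modularFunctionFieldFull N) := by
    refine ⟨q, hqm, ?_⟩
    apply Subtype.ext
    have h1 := Polynomial.hom_eval₂ q
      (algebraMap (Algebra.adjoin (GaloisRep.ratLocalizedAt ℓ)
        ({s} : Set (modularFunctionFieldFull N))) (modularFunctionFieldFull N))
      (algebraMap (modularFunctionFieldFull N) (LaurentSeries ℚ))
      (⟨yL, hyF⟩ : modularFunctionFieldFull N)
    rw [← hψ'] at h1
    have h2 : Polynomial.eval₂ ψ' yL q = 0 := by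
      rw [← Polynomial.eval_map, hq, Polynomial.eval_map]
      exact hp
    exact h1.trans h2
  refine ⟨⟨yL, hyF⟩, (mem_chartAlg_iff N ℓ).mpr hyFint, ?_⟩
  apply Subtype.ext
  show (x : LaurentSeries ℚ) = (ℓ : LaurentSeries ℚ) * yL
  rw [hly, hxL]

/-- **(Q2) for the chart `{j}`**, from a `Good` invariant at the top of the tower. -/
theorem hQ2_fin {κ : Subfield (LaurentSeries K)}
    (hgood : Tower.Good (gaussRing ℓ K) (ℓ : LaurentSeries ℚ) (red ℓ K)
      ((IntermediateField.adjoin ℚ ({jq} : Set (LaurentSeries ℚ))).toSubfield.toSubring ⊓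
        gaussRing ℓ K)
      (modularFunctionFieldFull N).toSubfield κ) :
    ∀ x ∈ chartAlg N ℓ {jFull N},
      (∀ n : ℤ, ∃ r ∈ GaloisRep.ratLocalizedAt ℓ,
        ((x : modularFunctionFieldFull N) : LaurentSeries ℚ).coeff n = ℓ * r) →
      ∃ y ∈ chartAlg N ℓ {jFull N}, x = (ℓ : modularFunctionFieldFull N) * y :=
  hQ2_of_good_aux ℓ N K (jFull N) (jB ℓ K) (by rw [coe_jB]; rfl) (htrans_jB ℓ K)
    (by rw [coe_jB]) hgood

/-- **(Q2) for the chart `{j⁻¹}`**. -/
theorem hQ2_inf {κ : Subfield (LaurentSeries K)}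
    (hgood : Tower.Good (gaussRing ℓ K) (ℓ : LaurentSeries ℚ) (red ℓ K)
      ((IntermediateField.adjoin ℚ ({jq} : Set (LaurentSeries ℚ))).toSubfield.toSubring ⊓
        gaussRing ℓ K)
      (modularFunctionFieldFull N).toSubfield κ) :
    ∀ x ∈ chartAlg N ℓ {(jFull N)⁻¹},
      (∀ n : ℤ, ∃ r ∈ GaloisRep.ratLocalizedAt ℓ,
        ((x : modularFunctionFieldFull N) : LaurentSeries ℚ).coeff n = ℓ * r) →
      ∃ y ∈ chartAlg N ℓ {(jFull N)⁻¹}, x = (ℓ : modularFunctionFieldFull N) * y := by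
  refine hQ2_of_good_aux ℓ N K (jFull N)⁻¹ (jinvB ℓ K) rfl (htrans_jinvB ℓ K) ?_ hgood
  show IntermediateField.adjoin ℚ ({jq⁻¹} : Set (LaurentSeries ℚ)) = _
  apply le_antisymm
  · rw [IntermediateField.adjoin_le_iff, Set.singleton_subset_iff]
    exact inv_mem (IntermediateField.mem_adjoin_simple_self ℚ jq)
  · rw [IntermediateField.adjoin_le_iff, Set.singleton_subset_iff]
    have h := inv_mem (IntermediateField.mem_adjoin_simple_self ℚ (jq⁻¹))
    rwa [inv_inv] at h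

end Final

end Fermat.Agent.S28.GaussBase
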