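/-
S28 (WP4), part 1: scaling `t ↦ c·t` and substitution `t ↦ t^m` on Laurent series, and the
series `J(c·t^m)`.
-/
import Mathlib
import Fermat.Prelude.Def_ModularCurve_X0ModL

set_option autoImplicit false

namespace Fermat.Agent.S28

open HahnSeries ModularCurve

noncomputable section

variable {K : Type*} [Field K]

/-! ### Scaling `t ↦ c·t` -/

/-- Scaling `t ↦ c·t` of a Laurent series: the coefficient of `t^k` is multiplied by `c^k`. -/
def scaleFun (c : Kˣ) (f : LaurentSeries K) : LaurentSeries K :=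
  ⟨fun k => ((c ^ k : Kˣ) : K) * f.coeff k, f.isPWO_support.mono (by
    intro k hk
    rw [Function.mem_support] at hk
    rw [HahnSeries.mem_support]
    intro h0
    exact hk (by rw [h0, mul_zero]))⟩

theorem scaleFun_coeff (c : Kˣ) (f : LaurentSeries K) (k : ℤ) :
    (scaleFun c f).coeff k = ((c ^ k : Kˣ) : K) * f.coeff k := rfl

theorem support_scaleFun (c : Kˣ) (f : LaurentSeries K) :
    (scaleFun c f).support = f.support := by
  ext k
  simp only [HahnSeries.mem_support, scaleFun_coeff, ne_eq, mul_eq_zero, Units.ne_zero, false_or]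

/-- Scaling `t ↦ c·t` as a ring endomorphism of the field of Laurent series. -/
def scale (c : Kˣ) : LaurentSeries K →+* LaurentSeries K where
  toFun := scaleFun c
  map_one' := by
    ext k
    rw [scaleFun_coeff, HahnSeries.coeff_one]
    split_ifs with h
    · subst h; simp
    · simp
  map_zero' := by
    ext k
    simp [scaleFun_coeff]
  map_add' x y := by
    ext k
    simp [scaleFun_coeff, mul_add]
  map_mul' x y := by
    ext k
    rw [scaleFun_coeff, HahnSeries.coeff_mul, HahnSeries.coeff_mul, Finset.mul_sum]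
    have hset : Finset.antidiagonal (scaleFun c x).isPWO_support (scaleFun c y).isPWO_support k =
        Finset.antidiagonal x.isPWO_support y.isPWO_support k := by
      ext ij
      simp only [Finset.mem_antidiagonal, support_scaleFun]
    rw [hset]
    refine Finset.sum_congr rfl fun ij hij => ?_
    have hk : ij.1 + ij.2 = k := by
      simp only [Finset.mem_antidiagonal] at hij
      exact hij.2.2
    rw [scaleFun_coeff, scaleFun_coeff, ← hk, zpow_add, Units.val_mul]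
    ring

@[simp]
theorem scale_coeff (c : Kˣ) (f : LaurentSeries K) (k : ℤ) :
    (scale c f).coeff k = ((c ^ k : Kˣ) : K) * f.coeff k := rfl

theorem scale_one (f : LaurentSeries K) : scale (1 : Kˣ) f = f := by
  ext k
  simp

theorem scale_scale (c d : Kˣ) (f : LaurentSeries K) : scale c (scale d f) = scale (c * d) f := by
  ext k
  rw [scale_coeff, scale_coeff, scale_coeff, mul_zpow, Units.val_mul, mul_assoc]

theorem scale_single (c : Kˣ) (k : ℤ) (a : K) :
    scale c (HahnSeries.single k a) = HahnSeries.single k (((c ^ k : Kˣ) : K) * a) := by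
  ext m
  rw [scale_coeff]
  rcases eq_or_ne m k with rfl | hm
  · simp [HahnSeries.coeff_single_same]
  · simp [HahnSeries.coeff_single_of_ne hm]

theorem scale_algebraMap (c : Kˣ) (a : K) :
    scale c (algebraMap K (LaurentSeries K) a) = algebraMap K (LaurentSeries K) a := by
  rw [algebraMap_laurentSeries_eq_single, scale_single]
  simp

/-! ### Substitution `t ↦ t^m` as a total function of `m` -/

/-- Substitution `t ↦ t^m` (the Prelude's `qExpand`), made total in `m` (identity for `m = 0`). -/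
def Vt (K : Type*) [Field K] (m : ℕ) : LaurentSeries K →+* LaurentSeries K :=
  if h : m = 0 then RingHom.id _ else @qExpand K _ m ⟨h⟩

theorem Vt_eq_qExpand (m : ℕ) [NeZero m] : Vt K m = qExpand K m := by
  rw [Vt, dif_neg (NeZero.ne m)]

theorem Vt_coeff_mul {m : ℕ} (hm : m ≠ 0) (f : LaurentSeries K) (k : ℤ) :
    (Vt K m f).coeff ((m : ℤ) * k) = f.coeff k := by
  have : NeZero m := ⟨hm⟩
  rw [Vt_eq_qExpand, qExpand_coeff_mul]

theorem Vt_coeff_of_not_dvd {m : ℕ} (hm : m ≠ 0) (f : LaurentSeries K) {k : ℤ}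
    (hk : ¬ (m : ℤ) ∣ k) : (Vt K m f).coeff k = 0 := by
  have : NeZero m := ⟨hm⟩
  rw [Vt_eq_qExpand, qExpand_coeff_of_not_dvd m f hk]

theorem Vt_injective {m : ℕ} (hm : m ≠ 0) : Function.Injective (Vt K m) := by
  have : NeZero m := ⟨hm⟩
  rw [Vt_eq_qExpand]
  exact qExpand_injective m

theorem Vt_one (f : LaurentSeries K) : Vt K 1 f = f := by
  rw [Vt_eq_qExpand, qExpand_one_apply]

theorem Vt_Vt {m n : ℕ} (hm : m ≠ 0) (hn : n ≠ 0) (f : LaurentSeries K) :
    Vt K m (Vt K n f) = Vt K (m * n) f := by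
  have : NeZero m := ⟨hm⟩
  have : NeZero n := ⟨hn⟩
  have : NeZero (m * n) := ⟨Nat.mul_ne_zero hm hn⟩
  rw [Vt_eq_qExpand, Vt_eq_qExpand, Vt_eq_qExpand, qExpand_qExpand]

theorem Vt_algebraMap (m : ℕ) (a : K) :
    Vt K m (algebraMap K (LaurentSeries K) a) = algebraMap K (LaurentSeries K) a := by
  by_cases hm : m = 0
  · subst hm
    rw [Vt, dif_pos rfl]
    rfl
  · haveI : NeZero m := ⟨hm⟩
    rw [Vt_eq_qExpand, algebraMap_laurentSeries_eq_single, qExpand_single, mul_zero]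

/-- Scaling commutes with substitution up to replacing `c` by `c^m`. -/
theorem scale_Vt (c : Kˣ) {m : ℕ} (hm : m ≠ 0) (f : LaurentSeries K) :
    scale c (Vt K m f) = Vt K m (scale (c ^ m) f) := by
  ext k
  by_cases hk : (m : ℤ) ∣ k
  · obtain ⟨k', rfl⟩ := hk
    rw [scale_coeff, Vt_coeff_mul hm, Vt_coeff_mul hm, scale_coeff, zpow_mul, zpow_natCast]
  · rw [scale_coeff, Vt_coeff_of_not_dvd hm _ hk, Vt_coeff_of_not_dvd hm _ hk, mul_zero]

/-- A scaling by an `m`-th root of unity fixes the series in `t^m`. -/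
theorem scale_Vt_of_pow_eq_one (c : Kˣ) {m : ℕ} (hm : m ≠ 0) (hc : c ^ m = 1)
    (f : LaurentSeries K) : scale c (Vt K m f) = Vt K m f := by
  rw [scale_Vt c hm, hc, scale_one]

theorem Vt_mem_range_of_dvd {n m : ℕ} (hn : n ≠ 0) (hm : m ≠ 0) (h : n ∣ m)
    (f : LaurentSeries K) : Vt K m f ∈ Set.range (Vt K n) := by
  obtain ⟨d, rfl⟩ := h
  have hd : d ≠ 0 := fun h0 => hm (by rw [h0, mul_zero])
  exact ⟨Vt K d f, Vt_Vt hn hd f⟩

/-! ### The series `J(c·t^m)` -/

/-- The series `J(c·t^m)`, where `J` is the reduction of the formal `j`-function. -/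
def Jcm (c : Kˣ) (m : ℕ) : LaurentSeries K := Vt K m (scale c (jqModC K))

theorem Jcm_one (m : ℕ) : Jcm (1 : Kˣ) m = Vt K m (jqModC K) := by
  rw [Jcm, scale_one]

theorem coeff_Jcm_neg (c : Kˣ) {m : ℕ} (hm : m ≠ 0) :
    (Jcm c m).coeff (-(m : ℤ)) = ((c⁻¹ : Kˣ) : K) := by
  have h : (-(m : ℤ)) = (m : ℤ) * (-1) := by ring
  rw [Jcm, h, Vt_coeff_mul hm, scale_coeff, coeff_jqModC_neg_one, mul_one, zpow_neg_one]

theorem coeff_Jcm_of_lt (c : Kˣ) {m : ℕ} (hm : m ≠ 0) {k : ℤ} (hk : k < -(m : ℤ)) :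
    (Jcm c m).coeff k = 0 := by
  by_cases hd : (m : ℤ) ∣ k
  · obtain ⟨k', rfl⟩ := hd
    have hm' : (0 : ℤ) < m := by exact_mod_cast Nat.pos_of_ne_zero hm
    have hk' : k' < -1 := by
      by_contra hcon
      have : -(m : ℤ) ≤ (m : ℤ) * k' := by nlinarith
      omega
    rw [Jcm, Vt_coeff_mul hm, scale_coeff, coeff_jqModC_of_lt K hk', mul_zero]
  · rw [Jcm, Vt_coeff_of_not_dvd hm _ hd]

theorem Jcm_ne_zero (c : Kˣ) {m : ℕ} (hm : m ≠ 0) : Jcm c m ≠ 0 := by
  intro h
  have h1 := coeff_Jcm_neg c hm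
  rw [h] at h1
  exact (Units.ne_zero _) h1.symm

/-- `J(c·t^m)` determines `m` and `c`. -/
theorem Jcm_injective {c c' : Kˣ} {m m' : ℕ} (hm : m ≠ 0) (hm' : m' ≠ 0)
    (h : Jcm c m = Jcm c' m') : m = m' ∧ c = c' := by
  have h1 : m' ≤ m := by
    by_contra hcon
    have hlt : (-(m' : ℤ)) < -(m : ℤ) := by omega
    have h2 := coeff_Jcm_of_lt c hm hlt
    rw [h, coeff_Jcm_neg c' hm'] at h2
    exact (Units.ne_zero _) h2
  have h2 : m ≤ m' := by
    by_contra hcon
    have hlt : (-(m : ℤ)) < -(m' : ℤ) := by omega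
    have h2 := coeff_Jcm_of_lt c' hm' hlt
    rw [← h, coeff_Jcm_neg c hm] at h2
    exact (Units.ne_zero _) h2
  have hmm : m = m' := le_antisymm h2 h1
  subst hmm
  refine ⟨rfl, ?_⟩
  have h3 := coeff_Jcm_neg c hm
  rw [h, coeff_Jcm_neg c' hm] at h3
  exact inv_injective (Units.ext h3.symm)

/-- If `J(c·t^m)` is a series in `t^n` then `n ∣ m`. -/
theorem dvd_of_Jcm_mem_range {c : Kˣ} {m n : ℕ} (hm : m ≠ 0) (hn : n ≠ 0)
    (h : Jcm c m ∈ Set.range (Vt K n)) : n ∣ m := by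
  obtain ⟨f, hf⟩ := h
  by_contra hcon
  have hnd : ¬ (n : ℤ) ∣ (-(m : ℤ)) := by
    rw [Int.dvd_neg]
    exact_mod_cast hcon
  have h1 := Vt_coeff_of_not_dvd hn f hnd
  rw [hf, coeff_Jcm_neg c hm] at h1
  exact (Units.ne_zero _) h1

theorem scale_Jcm (d c : Kˣ) {m : ℕ} (hm : m ≠ 0) : scale d (Jcm c m) = Jcm (d ^ m * c) m := by
  rw [Jcm, scale_Vt d hm, scale_scale, Jcm]

theorem Vt_Jcm (c : Kˣ) {n m : ℕ} (hn : n ≠ 0) (hm : m ≠ 0) : Vt K n (Jcm c m) = Jcm c (n * m) := by
  rw [Jcm, Vt_Vt hn hm, Jcm]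

theorem Jcm_mem_range_of_dvd (c : Kˣ) {n m : ℕ} (hn : n ≠ 0) (hm : m ≠ 0) (h : n ∣ m) :
    Jcm c m ∈ Set.range (Vt K n) :=
  Vt_mem_range_of_dvd hn hm h _

/-! ### Compatibility with change of coefficients -/

theorem coeffMap_Vt {K' : Type*} [Field K'] (f : K →+* K') (m : ℕ) (x : LaurentSeries K) :
    coeffMap f (Vt K m x) = Vt K' m (coeffMap f x) := by
  by_cases hm : m = 0
  · subst hm
    rw [Vt, dif_pos rfl, Vt, dif_pos rfl]
    rfl
  · haveI : NeZero m := ⟨hm⟩
    rw [Vt_eq_qExpand, Vt_eq_qExpand, coeffMap_qExpand]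

end

end Fermat.Agent.S28
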