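/-
S28 / route T (reversed tower), task D6: the mod-ℓ OUTPUT of WP4.

For `N' ≠ 0`, a prime `p` with `p ≠ 0` in the field `κ`, and `m ≠ 0`: the powers
`1, J(q^m), …, J(q^m)^(n-1)` are linearly independent over `κ(J(q^(m p d)) : d ∣ N')`, where
`n = p` if `p ∣ N'` and `n = p + 1` otherwise.

* `p ∣ N'`: the valuation argument `ValInd.valInd_FF`.
* `p ∤ N'`: `step_core` — a dependency of degree `≤ p` would split off a linear factor
  `X - α` of `Φ_p(X, J(q^(m p)))` with `α` a series in `q^(m p)`; by the root list (over the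
  algebraic closure) `α = J(q^(m p²))`, whence `J(q^p) ∈ κ(J(q^d) : d ∣ N')` — excluded by (Lin).
-/
import Mathlib
import Fermat.Agent.S28.TowerDefs
import Fermat.Agent.S28.ValInd
import Fermat.Agent.S28.Kummer.Adapter
import Fermat.Agent.S28.Kummer.Bridge
import Fermat.Agent.S28.Kummer.Lin

set_option autoImplicit false

open ModularCurve Polynomial

namespace Fermat.Agent.S28.StepModL

noncomputable section

/-- `FF κ N e` is the image of `FF κ N 1` under `q ↦ q^e`. -/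
theorem FF_eq_map (κ : Type*) [Field κ] (N e : ℕ) (hN : N ≠ 0) [NeZero e] :
    TD.FF κ N e = (TD.FF κ N 1).map (qExpandAlgHomC κ e) := by
  unfold TD.FF
  rw [IntermediateField.adjoin_map]
  congr 1
  ext x
  constructor
  · rintro ⟨d, hd, rfl⟩
    have hd0 : d ≠ 0 := by
      rintro rfl
      exact hN (Nat.eq_zero_of_zero_dvd hd)
    refine ⟨TD.Jd κ (1 * d), ⟨d, hd, rfl⟩, ?_⟩
    rw [one_mul, qExpandAlgHomC_apply, TD.qExpand_Jd κ e d hd0]
  · rintro ⟨y, ⟨d, hd, rfl⟩, rfl⟩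
    have hd0 : d ≠ 0 := by
      rintro rfl
      exact hN (Nat.eq_zero_of_zero_dvd hd)
    refine ⟨d, hd, ?_⟩
    show TD.Jd κ (e * d) = qExpandAlgHomC κ e (TD.Jd κ (1 * d))
    rw [one_mul, qExpandAlgHomC_apply, TD.qExpand_Jd κ e d hd0]

/-- Un-substitution `q^e ↦ q`: if `J(q^(e p)) ∈ κ(J(q^(e d)) : d ∣ N)` then
`J(q^p) ∈ κ(J(q^d) : d ∣ N)`. -/
theorem Jd_mem_FF_one_of_mul (κ : Type*) [Field κ] (N e p : ℕ) (hN : N ≠ 0) (he : e ≠ 0)
    (hp : p ≠ 0) (h : TD.Jd κ (e * p) ∈ TD.FF κ N e) : TD.Jd κ p ∈ TD.FF κ N 1 := by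
  have : NeZero e := ⟨he⟩
  rw [FF_eq_map κ N e hN] at h
  obtain ⟨y, hy, hyeq⟩ := h
  have h2 : qExpand κ e y = qExpand κ e (TD.Jd κ p) := by
    rw [TD.qExpand_Jd κ e p hp]
    exact hyeq
  rw [← qExpand_injective e h2]
  exact hy

/-- `coeffMap` of an injective ring hom is injective. -/
theorem coeffMap_injective {R S : Type*} [CommRing R] [CommRing S] (f : R →+* S)
    (hf : Function.Injective f) : Function.Injective (coeffMap f) := by
  intro a b hab
  ext n
  have h := congrArg (fun s => HahnSeries.coeff s n) hab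
  simp only [coeffMap_coeff] at h
  exact hf h

/-- **Core of the mod-ℓ step** (statement of task D4): if `J(q^p) ∉ κ(J(q^d) : d ∣ N')`, then
`1, J(q^m), …, J(q^m)^p` are linearly independent over `κ(J(q^(m p d)) : d ∣ N')`. -/
theorem step_core (κ : Type) [Field κ] (N' p m : ℕ) (hN' : N' ≠ 0) (hm : m ≠ 0) (hp : p.Prime)
    (hpκ : (p : κ) ≠ 0) (D : TD.ModEq p) (hnot : TD.Jd κ p ∉ TD.FF κ N' 1)
    (c : Fin (p + 1) → LaurentSeries κ) (hc : ∀ t, c t ∈ TD.FF κ N' (m * p))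
    (h : ∑ t, c t * TD.Jd κ m ^ (t : ℕ) = 0) : ∀ t, c t = 0 := by
  classical
  have : NeZero m := ⟨hm⟩
  have : NeZero p := ⟨hp.ne_zero⟩
  have : NeZero (m * p) := ⟨Nat.mul_ne_zero hm hp.ne_zero⟩
  -- everything in `E := FF κ N' (m * p)` is a series in `q^(m p)`
  have hErange : ∀ a : TD.FF κ N' (m * p),
      algebraMap (TD.FF κ N' (m * p)) (LaurentSeries κ) a ∈ Set.range (qExpand κ (m * p)) :=
    fun a => ValInd.mem_range_of_mem_FF κ hN' a.2
  -- the modular polynomial over `E`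
  have hJmem : TD.Jd κ (m * p) ∈ TD.FF κ N' (m * p) := by
    have h1 := TD.Jd_mem_FF κ (N := N') (m := m * p) (d := 1) (one_dvd _)
    rwa [mul_one] at h1
  set P : Polynomial (TD.FF κ N' (m * p)) :=
    TD.polyAt D.Φ (⟨TD.Jd κ (m * p), hJmem⟩ : TD.FF κ N' (m * p)) with hP
  have hPmonic : P.Monic := TD.polyAt_monic D.monic _
  have hPdeg : P.natDegree = p + 1 := by rw [hP, TD.polyAt_natDegree D.monic, D.natDegree_eq]
  have hPx : aeval (TD.Jd κ m) P = 0 := by
    rw [aeval_def, ← eval_map, hP, TD.polyAt_map]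
    exact D.rel₁' hp.ne_zero κ m hm
  have hint : IsIntegral (TD.FF κ N' (m * p)) (TD.Jd κ m) := ⟨P, hPmonic, hPx⟩
  by_contra hne
  push Not at hne
  obtain ⟨t₀, ht₀⟩ := hne
  -- the polynomial `f` given by the dependency
  set f : Polynomial (TD.FF κ N' (m * p)) :=
    ∑ t : Fin (p + 1), C (⟨c t, hc t⟩ : TD.FF κ N' (m * p)) * X ^ (t : ℕ) with hf
  have hfx : aeval (TD.Jd κ m) f = 0 := by
    rw [hf, map_sum, ← h]
    refine Finset.sum_congr rfl fun t _ => ?_
    rw [map_mul, aeval_C, map_pow, aeval_X]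
    rfl
  have hf0 : f ≠ 0 := by
    intro h0
    have h1 : f.coeff (t₀ : ℕ) = (⟨c t₀, hc t₀⟩ : TD.FF κ N' (m * p)) := by
      rw [hf, finsetSum_coeff, Finset.sum_eq_single t₀]
      · rw [coeff_C_mul_X_pow, if_pos rfl]
      · intro b _ hb
        rw [coeff_C_mul_X_pow, if_neg]
        exact fun h => hb (Fin.ext h.symm)
      · intro h; exact absurd (Finset.mem_univ _) h
    rw [h0, coeff_zero] at h1
    exact ht₀ (congrArg Subtype.val h1.symm)
  have hfdeg : f.natDegree ≤ p := by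
    have h1 : f.degree < ((p + 1 : ℕ) : WithBot ℕ) := degree_sum_fin_lt _
    exact Nat.lt_succ_iff.mp ((natDegree_lt_iff_degree_lt hf0).mpr h1)
  -- the minimal polynomial has degree exactly `p`
  have hμdvd_f : minpoly (TD.FF κ N' (m * p)) (TD.Jd κ m) ∣ f := minpoly.dvd _ _ hfx
  have hμdvd_P : minpoly (TD.FF κ N' (m * p)) (TD.Jd κ m) ∣ P := minpoly.dvd _ _ hPx
  have hμle : (minpoly (TD.FF κ N' (m * p)) (TD.Jd κ m)).natDegree ≤ p :=
    le_trans (natDegree_le_of_dvd hμdvd_f hf0) hfdeg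
  have hμge : p ≤ (minpoly (TD.FF κ N' (m * p)) (TD.Jd κ m)).natDegree := by
    have h1 := ValInd.jqNModC_le_natDegree_minpoly (K := κ) (E := TD.FF κ N' (m * p)) m p hErange
      (by rw [← TD.Jd_eq_jqNModC]; exact hint)
    rwa [← TD.Jd_eq_jqNModC] at h1
  have hμdeg : (minpoly (TD.FF κ N' (m * p)) (TD.Jd κ m)).natDegree = p := le_antisymm hμle hμge
  -- the cofactor is linear, hence has a root `α ∈ E`
  obtain ⟨g, hg⟩ := hμdvd_P
  have hg0 : g ≠ 0 := by
    rintro rfl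
    rw [mul_zero] at hg
    exact hPmonic.ne_zero hg
  have hgdeg : g.natDegree = 1 := by
    have h1 := congrArg natDegree hg
    rw [natDegree_mul (minpoly.ne_zero hint) hg0, hPdeg, hμdeg] at h1
    omega
  obtain ⟨α, hα⟩ := exists_root_of_degree_eq_one
    (show g.degree = 1 by rw [degree_eq_natDegree hg0, hgdeg]; rfl)
  have hPα : P.eval α = 0 := by
    rw [hg, eval_mul, show g.eval α = 0 from hα, mul_zero]
  have hα1 : (TD.polyAt D.Φ (TD.Jd κ (m * p))).eval (α : LaurentSeries κ) = 0 := by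
    have h1 := congrArg (algebraMap (TD.FF κ N' (m * p)) (LaurentSeries κ)) hPα
    rw [hP, TD.map_eval_polyAt, map_zero] at h1
    exact h1
  -- pass to the algebraic closure of `κ`
  have hφinj : Function.Injective (coeffMap (algebraMap κ (AlgebraicClosure κ))) :=
    coeffMap_injective _ (algebraMap κ (AlgebraicClosure κ)).injective
  have hα2 : (TD.polyAt D.Φ (TD.Jd (AlgebraicClosure κ) (m * p))).eval
      (coeffMap (algebraMap κ (AlgebraicClosure κ)) (α : LaurentSeries κ)) = 0 := by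
    have h1 := congrArg (coeffMap (algebraMap κ (AlgebraicClosure κ))) hα1
    rwa [TD.map_eval_polyAt, TD.coeffMap_Jd, map_zero] at h1
  have hpκ' : (p : AlgebraicClosure κ) ≠ 0 := by
    intro h0
    apply hpκ
    apply (algebraMap κ (AlgebraicClosure κ)).injective
    rw [map_natCast, h0, map_zero]
  have : NeZero (p : AlgebraicClosure κ) := ⟨hpκ'⟩
  obtain ⟨ζ₀, hζ₀⟩ := HasEnoughRootsOfUnity.exists_primitiveRoot (AlgebraicClosure κ) p
  have hζ₀ne : ζ₀ ≠ 0 := hζ₀.ne_zero hp.ne_zero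
  have hζ : IsPrimitiveRoot (Units.mk0 ζ₀ hζ₀ne) p :=
    IsPrimitiveRoot.coe_units_iff.mp (by exact hζ₀)
  -- the root list
  have hx' : Kummer.ev (Kummer.ModEqData.ofTD D).Φ
      (coeffMap (algebraMap κ (AlgebraicClosure κ)) (α : LaurentSeries κ))
      ((RingHom.id (LaurentSeries (AlgebraicClosure κ)))
        (Kummer.JJ ((1 : (AlgebraicClosure κ)ˣ) ^ p) (m * p))) = 0 := by
    rw [RingHom.id_apply, one_pow, ← Kummer.Jd_eq_JJ, ← Kummer.eval_polyAt_eq_ev]
    exact hα2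
  obtain ⟨j, hj⟩ := (Kummer.ModEqData.ofTD D).root_mem hp.one_lt hζ
    (1 : (AlgebraicClosure κ)ˣ) m (RingHom.id _) hx'
  rw [RingHom.id_apply] at hj
  rcases j with _ | b
  · -- the multiplication root `J(q^(m p²))`: contradicts `hnot`
    have : NeZero (m * p * p) := ⟨Nat.mul_ne_zero (Nat.mul_ne_zero hm hp.ne_zero) hp.ne_zero⟩
    have h1 : coeffMap (algebraMap κ (AlgebraicClosure κ)) (α : LaurentSeries κ)
        = coeffMap (algebraMap κ (AlgebraicClosure κ)) (TD.Jd κ (m * p * p)) := by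
      rw [hj, TD.coeffMap_Jd]
      show Kummer.JJ (((1 : (AlgebraicClosure κ)ˣ) ^ p) ^ p) (m * p * p) = _
      rw [one_pow, one_pow, ← Kummer.Jd_eq_JJ]
    have h2 : (α : LaurentSeries κ) = TD.Jd κ (m * p * p) := hφinj h1
    apply hnot
    refine Jd_mem_FF_one_of_mul κ N' (m * p) p hN' (Nat.mul_ne_zero hm hp.ne_zero) hp.ne_zero ?_
    rw [← h2]
    exact α.2
  · -- a division root `J(ζ^b q^m)`: it has a nonzero coefficient at `-m`
    have h1 : (coeffMap (algebraMap κ (AlgebraicClosure κ)) (α : LaurentSeries κ)).coeff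
        (-(m : ℤ)) = ((Units.mk0 ζ₀ hζ₀ne ^ (b : ℕ) * 1 : (AlgebraicClosure κ)ˣ)⁻¹
          : (AlgebraicClosure κ)ˣ) := by
      rw [hj]
      exact Kummer.JJ_coeff_neg _ m
    have h2 : (coeffMap (algebraMap κ (AlgebraicClosure κ)) (α : LaurentSeries κ)).coeff
        (-(m : ℤ)) = 0 := by
      obtain ⟨f₀, hf₀⟩ := hErange α
      rw [coeffMap_coeff]
      have h3 : ((α : LaurentSeries κ)).coeff (-(m : ℤ)) = 0 := by
        rw [show (α : LaurentSeries κ) = qExpand κ (m * p) f₀ from hf₀.symm]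
        apply qExpand_coeff_of_not_dvd
        intro hdvd
        rw [dvd_neg, Int.natCast_dvd_natCast] at hdvd
        have h4 := Nat.le_of_dvd (Nat.pos_of_ne_zero hm) hdvd
        have h5 := hp.two_le
        nlinarith [Nat.pos_of_ne_zero hm]
      rw [h3, map_zero]
    rw [h2] at h1
    exact Units.ne_zero _ h1.symm

/-- Auxiliary form of the step with the number of powers as a variable. -/
theorem step_independent_aux (κ : Type) [Field κ] (N' p m : ℕ) (hN' : N' ≠ 0) (hm : m ≠ 0)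
    (hp : p.Prime) (hpκ : (p : κ) ≠ 0) (D : TD.ModEq p)
    (hlin : ¬ p ∣ N' → TD.Jd κ p ∉ TD.FF κ N' 1)
    (n : ℕ) (hn : n = if p ∣ N' then p else p + 1)
    (c : Fin n → LaurentSeries κ) (hc : ∀ t, c t ∈ TD.FF κ N' (m * p))
    (h : ∑ t, c t * TD.Jd κ m ^ (t : ℕ) = 0) : ∀ t, c t = 0 := by
  split_ifs at hn with hdvd
  · subst hn
    exact ValInd.valInd_FF κ N' m _ hN' hm hp.ne_zero c hc h
  · subst hn
    exact step_core κ N' p m hN' hm hp hpκ D (hlin hdvd) c hc h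

/-- **The mod-ℓ step, given (Lin)** for the pair `(p, N')`: `1, J(q^m), …, J(q^m)^(n-1)`
(`n = p` if `p ∣ N'`, `n = p + 1` otherwise) are linearly independent over
`κ(J(q^(m p d)) : d ∣ N')`. -/
theorem step_independent_of_lin (κ : Type) [Field κ] (N' p m : ℕ) (hN' : N' ≠ 0) (hm : m ≠ 0)
    (hp : p.Prime) (hpκ : (p : κ) ≠ 0) (D : TD.ModEq p)
    (hlin : ¬ p ∣ N' → TD.Jd κ p ∉ TD.FF κ N' 1)
    (c : Fin (if p ∣ N' then p else p + 1) → LaurentSeries κ)
    (hc : ∀ t, c t ∈ TD.FF κ N' (m * p))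
    (h : ∑ t, c t * TD.Jd κ m ^ (t : ℕ) = 0) : ∀ t, c t = 0 :=
  step_independent_aux κ N' p m hN' hm hp hpκ D hlin _ rfl c hc h

/-- The same in the shape of `Tower.Good.step`'s hypothesis `hind'` (coefficients in a
subfield contained in `FF κ N' (m * p)`). -/
theorem step_independent_subfield_of_lin (κ : Type) [Field κ] (N' p m : ℕ) (hN' : N' ≠ 0)
    (hm : m ≠ 0) (hp : p.Prime) (hpκ : (p : κ) ≠ 0) (D : TD.ModEq p)
    (hlin : ¬ p ∣ N' → TD.Jd κ p ∉ TD.FF κ N' 1)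
    (κs : Subfield (LaurentSeries κ)) (hκs : ∀ y ∈ κs, y ∈ TD.FF κ N' (m * p))
    (n : ℕ) (hn : n = if p ∣ N' then p else p + 1)
    (c : Fin n → LaurentSeries κ) (hc : ∀ t, c t ∈ κs)
    (h : ∑ t, c t * TD.Jd κ m ^ (t : ℕ) = 0) : ∀ t, c t = 0 :=
  step_independent_aux κ N' p m hN' hm hp hpκ D hlin n hn c (fun t => hκs _ (hc t)) h

/-! ### The final statements (task D6), with (Lin) = `Kummer.Jd_not_mem_FF_field` plugged in -/

/-- **Task D6, exact statement.**  The mod-ℓ step of the reversed tower: for `N' ≠ 0`, `p` prime,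
`m ≠ 0` and a field `κ` in which `N' * p ≠ 0`, the powers `1, J(q^m), …, J(q^m)^(n-1)`
(`n = p` if `p ∣ N'`, else `n = p + 1`) are linearly independent over
`κ(J(q^(m p d)) : d ∣ N')`. -/
theorem step_independent (κ : Type) [Field κ] (N' p m : ℕ) (hN' : N' ≠ 0) (hm : m ≠ 0)
    (hp : p.Prime) (hchar : ((N' * p : ℕ) : κ) ≠ 0)
    (hME : ∀ r : ℕ, r.Prime → r ∣ N' * p → Nonempty (TD.ModEq r))
    (hBC : ¬ p ∣ N' → TD.BaseCase p)
    (c : Fin (if p ∣ N' then p else p + 1) → LaurentSeries κ)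
    (hc : ∀ t, c t ∈ TD.FF κ N' (m * p))
    (h : ∑ t, c t * TD.Jd κ m ^ (t : ℕ) = 0) : ∀ t, c t = 0 := by
  obtain ⟨D⟩ := hME p hp (dvd_mul_left p N')
  have hpκ : (p : κ) ≠ 0 := by
    intro h0
    apply hchar
    rw [Nat.cast_mul, h0, mul_zero]
  refine step_independent_of_lin κ N' p m hN' hm hp hpκ D (fun hnd => ?_) c hc h
  exact Kummer.Jd_not_mem_FF_field κ p N' hp hN' hnd (by rwa [mul_comm] at hchar)
    (fun r hr hd => hME r hr (by rwa [mul_comm] at hd)) (hBC hnd)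

/-- Task D6 in the shape of `Tower.Good.step`'s hypothesis `hind'`: coefficients in a subfield
`κs` contained in `FF κ N' (m * p)`, e.g.
`κs = Subfield.closure ((fun d => TD.Jd κ (m * p * d)) '' {d | d ∣ N'})` or
`κs = (TD.FF κ N' (m * p)).toSubfield`. -/
theorem step_independent_subfield (κ : Type) [Field κ] (N' p m : ℕ) (hN' : N' ≠ 0) (hm : m ≠ 0)
    (hp : p.Prime) (hchar : ((N' * p : ℕ) : κ) ≠ 0)
    (hME : ∀ r : ℕ, r.Prime → r ∣ N' * p → Nonempty (TD.ModEq r))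
    (hBC : ¬ p ∣ N' → TD.BaseCase p)
    (κs : Subfield (LaurentSeries κ)) (hκs : ∀ y ∈ κs, y ∈ TD.FF κ N' (m * p))
    (c : Fin (if p ∣ N' then p else p + 1) → LaurentSeries κ) (hc : ∀ t, c t ∈ κs)
    (h : ∑ t, c t * TD.Jd κ m ^ (t : ℕ) = 0) : ∀ t, c t = 0 :=
  step_independent κ N' p m hN' hm hp hchar hME hBC c (fun t => hκs _ (hc t)) h

/-- The closure of the generators `J(q^(m p d))`, `d ∣ N'`, lies in `FF κ N' (m * p)`. -/
theorem closure_le_FF (κ : Type*) [Field κ] (N' e : ℕ) :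
    ∀ y ∈ Subfield.closure ((fun d => TD.Jd κ (e * d)) '' {d | d ∣ N'}), y ∈ TD.FF κ N' e := by
  intro y hy
  have hle : Subfield.closure ((fun d => TD.Jd κ (e * d)) '' {d | d ∣ N'})
      ≤ (TD.FF κ N' e).toSubfield := by
    rw [Subfield.closure_le]
    rintro _ ⟨d, hd, rfl⟩
    exact TD.Jd_mem_FF κ hd
  exact hle hy

/-- **The hypothesis `hind` of `RouteT.good_FF`, verbatim**, for a level `N ≠ 0` which is
nonzero in `K`, given the modular equations and the base cases of the primes dividing `N`. -/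
theorem hind_of_level (K : Type) [Field K] (N : ℕ) (hN : N ≠ 0) (hNK : (N : K) ≠ 0)
    (hME : ∀ r : ℕ, r.Prime → r ∣ N → Nonempty (TD.ModEq r))
    (hBC : ∀ r : ℕ, r.Prime → r ∣ N → TD.BaseCase r) :
    ∀ N' p m : ℕ, p.Prime → N' * p ∣ N → m ≠ 0 →
      ∀ c : Fin (if p ∣ N' then p else p + 1) → LaurentSeries K,
        (∀ t, c t ∈ TD.FF K N' (m * p)) → ∑ t, c t * TD.Jd K m ^ (t : ℕ) = 0 → ∀ t, c t = 0 := by
  intro N' p m hp hdvd hm c hc h
  have hN' : N' ≠ 0 := by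
    rintro rfl
    rw [zero_mul] at hdvd
    exact hN (Nat.eq_zero_of_zero_dvd hdvd)
  have hchar : ((N' * p : ℕ) : K) ≠ 0 := by
    intro h0
    obtain ⟨k, hk⟩ := hdvd
    apply hNK
    rw [hk, Nat.cast_mul, h0, zero_mul]
  exact step_independent K N' p m hN' hm hp hchar
    (fun r hr hd => hME r hr (hd.trans hdvd))
    (fun _ => hBC p hp ((dvd_mul_left p N').trans hdvd)) c hc h

end

end Fermat.Agent.S28.StepModL
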