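/-
S28 / D6 (design v1 of helper22, report 539; task 114), written against the statement of D5
(task 113) as a hypothesis: the mod-`ℓ` OUTPUT of the reversed tower step, all cases.

* `coeffMap_mem_FF`            : change of coefficient field maps `FF κ N m` into `FF L N m`;
* `Jd_not_mem_FF_of_coeffMap`  : descent of `J(q^p) ∉ FF _ M 1` from an extension field;
* `step_independent_of_lin`    : the step from "(Lin) for `p ∤ N'`" (any field, `p ≠ 0`);
* `step_independent_of_D5`     : the exact statement of task 114, with the exact statement of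
                                 task 113 (algebraically closed `K`) as its only hypothesis.
-/
import Mathlib
import Fermat.Agent.S28.StepCore

set_option autoImplicit false

open ModularCurve Polynomial

namespace Fermat.Agent.S28.StepModLCore

noncomputable section

/-- Change of coefficients maps `FF κ N m` into `FF L N m`. -/
theorem coeffMap_mem_FF {κ L : Type*} [Field κ] [Field L] (f : κ →+* L) (N m : ℕ)
    {y : LaurentSeries κ} (hy : y ∈ TD.FF κ N m) : coeffMap f y ∈ TD.FF L N m := by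
  have hle : (TD.FF κ N m).toSubfield ≤ (TD.FF L N m).toSubfield.comap (coeffMap f) := by
    unfold TD.FF
    rw [IntermediateField.adjoin_toSubfield, Subfield.closure_le]
    rintro x (⟨a, rfl⟩ | ⟨d, hd, rfl⟩)
    · show coeffMap f (algebraMap κ (LaurentSeries κ) a) ∈
        IntermediateField.adjoin L ((fun d => TD.Jd L (m * d)) '' {d | d ∣ N})
      have h1 : coeffMap f (algebraMap κ (LaurentSeries κ) a)
          = algebraMap L (LaurentSeries L) (f a) := by
        rw [algebraMap_laurentSeries_eq_single, algebraMap_laurentSeries_eq_single,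
          coeffMap_single]
      rw [h1]
      exact IntermediateField.algebraMap_mem _ _
    · show coeffMap f (TD.Jd κ (m * d)) ∈
        IntermediateField.adjoin L ((fun d => TD.Jd L (m * d)) '' {d | d ∣ N})
      rw [TD.coeffMap_Jd]
      exact IntermediateField.subset_adjoin L _ ⟨d, hd, rfl⟩
  exact hle hy

/-- Descent: if `J(q^p) ∉ FF L M 1` over an extension field `L` of `κ`, then
`J(q^p) ∉ FF κ M 1`. -/
theorem Jd_not_mem_FF_of_coeffMap {κ L : Type*} [Field κ] [Field L] (f : κ →+* L) (p M : ℕ)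
    (h : TD.Jd L p ∉ TD.FF L M 1) : TD.Jd κ p ∉ TD.FF κ M 1 := by
  intro hmem
  apply h
  have := coeffMap_mem_FF f M 1 hmem
  rwa [TD.coeffMap_Jd] at this

/-- **Reversed step, all cases, from (Lin).**  `κ` any field with `p ≠ 0`; the hypothesis
`hlin` is only used when `p ∤ N'`. -/
theorem step_independent_of_lin (κ : Type*) [Field κ] (N' p m : ℕ) (hN' : N' ≠ 0) (hm : m ≠ 0)
    (hp : p.Prime) (hpκ : (p : κ) ≠ 0) (hD : ¬ p ∣ N' → Nonempty (TD.ModEq p))
    (hlin : ¬ p ∣ N' → TD.Jd κ p ∉ TD.FF κ N' 1)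
    (c : Fin (if p ∣ N' then p else p + 1) → LaurentSeries κ)
    (hc : ∀ t, c t ∈ TD.FF κ N' (m * p))
    (h : ∑ t, c t * TD.Jd κ m ^ (t : ℕ) = 0) : ∀ t, c t = 0 := by
  have key : ∀ n : ℕ, (n = p ∧ p ∣ N') ∨ (n = p + 1 ∧ ¬ p ∣ N') →
      ∀ c : Fin n → LaurentSeries κ, (∀ t, c t ∈ TD.FF κ N' (m * p)) →
        ∑ t, c t * TD.Jd κ m ^ (t : ℕ) = 0 → ∀ t, c t = 0 := by
    rintro n (⟨hn, hd⟩ | ⟨hn, hd⟩) c' hc' h'
    · subst hn
      exact ValInd.valInd_FF κ N' m n hN' hm hp.ne_zero c' hc' h'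
    · subst hn
      obtain ⟨D⟩ := hD hd
      exact StepCore.step_core κ N' p m hN' hm hp hpκ D (hlin hd) c' hc' h'
  refine key _ ?_ c hc h
  by_cases hd : p ∣ N'
  · left
    exact ⟨if_pos hd, hd⟩
  · right
    exact ⟨if_neg hd, hd⟩

/-- **Task 114 (`step_independent`) from the exact statement of task 113** (`Jd_not_mem_FF` for
algebraically closed fields). -/
theorem step_independent_of_D5
    (hD5 : ∀ (K : Type) [Field K] [IsAlgClosed K] (p M : ℕ), p.Prime → M ≠ 0 → ¬ p ∣ M →
      ((p * M : ℕ) : K) ≠ 0 → (∀ r : ℕ, r.Prime → r ∣ p * M → Nonempty (TD.ModEq r)) →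
      TD.BaseCase p → TD.Jd K p ∉ TD.FF K M 1)
    (κ : Type) [Field κ] (N' p m : ℕ) (hN' : N' ≠ 0) (hm : m ≠ 0) (hp : p.Prime)
    (hchar : ((N' * p : ℕ) : κ) ≠ 0)
    (hME : ∀ r : ℕ, r.Prime → r ∣ N' * p → Nonempty (TD.ModEq r))
    (hBC : ¬ p ∣ N' → TD.BaseCase p)
    (c : Fin (if p ∣ N' then p else p + 1) → LaurentSeries κ)
    (hc : ∀ t, c t ∈ TD.FF κ N' (m * p))
    (h : ∑ t, c t * TD.Jd κ m ^ (t : ℕ) = 0) : ∀ t, c t = 0 := by
  have hpκ : (p : κ) ≠ 0 := by
    intro h0
    apply hchar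
    rw [Nat.cast_mul, h0, mul_zero]
  refine step_independent_of_lin κ N' p m hN' hm hp hpκ
    (fun _ => hME p hp (dvd_mul_left p N')) (fun hd => ?_) c hc h
  apply Jd_not_mem_FF_of_coeffMap (algebraMap κ (AlgebraicClosure κ)) p N'
  refine hD5 (AlgebraicClosure κ) p N' hp hN' hd ?_ (fun r hr hdvd => hME r hr ?_) (hBC hd)
  · intro h0
    apply hchar
    apply (algebraMap κ (AlgebraicClosure κ)).injective
    rw [map_natCast, map_zero, mul_comm]
    exact h0
  · rw [mul_comm]
    exact hdvd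

end

end Fermat.Agent.S28.StepModLCore
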