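import Fermat.Agent.S28.ModEq.Data

/-!
# S28: the base case `J(q^p) ∉ K(J(q))` by the unit argument (architect's shadow copy)

Input: the integral modular-equation package `ModEq.ModEqData p`.  If `J_p ∈ K(J)` then the
modular unit `y = p¹² Δ(q^p)/Δ(q)` lies in `K(J)` (relation `E5`, with `E6` guaranteeing a nonzero
denominator), is integral over `K[J]` (relation `E3`), hence lies in `K[J]`, and is a unit there
because the constant term of `Ψ` is a unit; so `y` is a constant, contradicting its `q`-order
`p - 1 > 0`.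
-/

set_option autoImplicit false

noncomputable section

namespace Fermat.Agent.S28.BaseCaseA

open ModularCurve Polynomial Fermat.Agent.S28.ModEq

variable (K : Type*) [Field K]

/-- Evaluation `K[Y] → K((q))`, `Y ↦ J`. -/
def evK : Polynomial K →+* LaurentSeries K := evalAt (RingHom.id K) (jqModC K)

theorem evK_injective : Function.Injective (evK K) := by
  have h : IsLead (jqModC K) (-((1 : ℕ) : ℤ)) 1 := by
    have := isLead_jqModC K
    simpa using this
  exact evalAt_injective (d := 1) one_pos h (RingHom.id K) (fun _ _ h => h)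

/-- The extension of `evK` to the field of rational functions. -/
def ratK : RatFunc K →+* LaurentSeries K := IsFractionRing.lift (evK_injective K)

theorem ratK_algebraMap (P : Polynomial K) :
    ratK K (algebraMap (Polynomial K) (RatFunc K) P) = evK K P :=
  IsFractionRing.lift_algebraMap (evK_injective K) P

theorem ratK_comp :
    (ratK K).comp (algebraMap (Polynomial K) (RatFunc K)) = evK K :=
  RingHom.ext (ratK_algebraMap K)

/-- Every element of `K(J)` is the value of a rational function at `J`. -/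
theorem exists_ratK_eq {x : LaurentSeries K}
    (hx : x ∈ IntermediateField.adjoin K {jqModC K}) : ∃ r : RatFunc K, ratK K r = x := by
  have hle : Subfield.closure
      (Set.range (algebraMap K (LaurentSeries K)) ∪ {jqModC K}) ≤ (ratK K).fieldRange := by
    refine Subfield.closure_le.mpr ?_
    rintro y (⟨a, rfl⟩ | hy)
    · refine ⟨algebraMap (Polynomial K) (RatFunc K) (Polynomial.C a), ?_⟩
      rw [ratK_algebraMap, evK, evalAt_C, RingHom.id_apply, algebraMap_laurentSeries_eq_single,
        HahnSeries.C_apply]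
    · rw [Set.mem_singleton_iff] at hy
      subst hy
      exact ⟨algebraMap (Polynomial K) (RatFunc K) Polynomial.X, by
        rw [ratK_algebraMap, evK, evalAt_X]⟩
  exact hle hx

/-- Reduction of the coefficients of `ℤ[Y]` to `K[Y]`. -/
def cK : Polynomial ℤ →+* Polynomial K := Polynomial.mapRingHom (Int.castRingHom K)

theorem coeffMap_comp_evalAt :
    (coeffMap (Int.castRingHom K)).comp (evalAt (RingHom.id ℤ) (jqModC ℤ)) =
      (evK K).comp (cK K) := by
  refine Polynomial.ringHom_ext (fun a => ?_) ?_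
  · simp only [RingHom.comp_apply, evalAt_C, RingHom.id_apply, cK, Polynomial.coe_mapRingHom,
      Polynomial.map_C, evK, HahnSeries.C_apply, coeffMap_single]
  · simp only [RingHom.comp_apply, evalAt_X, cK, Polynomial.coe_mapRingHom, Polynomial.map_X, evK]
    exact coeffMap_jqModC (Int.castRingHom K)

/-- Transfer of a bivariate evaluation from `ℤ((q))` to `K((q))`. -/
theorem coeffMap_eval₂ (P : Polynomial (Polynomial ℤ)) (x : LaurentSeries ℤ) :
    coeffMap (Int.castRingHom K) (P.eval₂ (evalAt (RingHom.id ℤ) (jqModC ℤ)) x) =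
      (P.map (cK K)).eval₂ (evK K) (coeffMap (Int.castRingHom K) x) := by
  rw [Polynomial.hom_eval₂, coeffMap_comp_evalAt, Polynomial.eval₂_map]

/-- Evaluation through `ratK`. -/
theorem ratK_eval₂ (P : Polynomial (Polynomial K)) (r : RatFunc K) :
    ratK K (P.eval₂ (algebraMap (Polynomial K) (RatFunc K)) r) = P.eval₂ (evK K) (ratK K r) := by
  rw [Polynomial.hom_eval₂, ratK_comp]

variable {K}

/-- **Base case.** `J(q^p) ∉ K(J(q))` for every field `K` in which `p ≠ 0`. -/
theorem not_mem_adjoin_of_modEqData {p : ℕ} [NeZero p] (hp : p.Prime) (D : ModEqData p)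
    (hpK : (p : K) ≠ 0) :
    jqNModC K p ∉ IntermediateField.adjoin K {jqModC K} := by
  intro hmem
  obtain ⟨rp, hrp⟩ := exists_ratK_eq K hmem
  -- the relations over `K`
  have hJp : coeffMap (Int.castRingHom K) (jqNModC ℤ p) = jqNModC K p :=
    coeffMap_jqNModC (Int.castRingHom K) p
  have hy : coeffMap (Int.castRingHom K) (yInf ℤ p) = yInf K p := coeffMap_yInf _ p
  have hκ : ((D.κ : ℤ) : K) ≠ 0 := by
    intro h0
    have h2 : (((D.κ ^ 2 : ℤ)) : K) = 0 := by
      rw [Int.cast_pow, h0]; ring
    rw [D.κ_sq] at h2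
    have h3 : ((p : K)) ^ 24 = 0 := by exact_mod_cast h2
    exact hpK (pow_eq_zero_iff (by norm_num) |>.mp h3)
  have E3 := congrArg (coeffMap (Int.castRingHom K)) D.E3
  rw [coeffMap_eval₂, hy, map_zero] at E3
  have E5 := congrArg (coeffMap (Int.castRingHom K)) D.E5
  rw [map_mul, map_mul, coeffMap_eval₂, coeffMap_eval₂, hy, hJp, HahnSeries.C_apply,
    coeffMap_single] at E5
  have E6 := congrArg (Int.castRingHom K) D.E6
  rw [← coeffMap_coeff, coeffMap_eval₂, hJp, map_one] at E6
  -- everything comes from rational functions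
  set dΦ : RatFunc K :=
    ((Polynomial.derivative D.Φ).map (cK K)).eval₂ (algebraMap (Polynomial K) (RatFunc K)) rp
    with hdΦ
  set sS : RatFunc K := (D.S.map (cK K)).eval₂ (algebraMap (Polynomial K) (RatFunc K)) rp with hsS
  have hdΦ' : ratK K dΦ = ((Polynomial.derivative D.Φ).map (cK K)).eval₂ (evK K) (jqNModC K p) := by
    rw [hdΦ, ratK_eval₂, hrp]
  have hsS' : ratK K sS = (D.S.map (cK K)).eval₂ (evK K) (jqNModC K p) := by
    rw [hsS, ratK_eval₂, hrp]
  rw [← hdΦ', ← hsS'] at E5
  rw [← hdΦ'] at E6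
  have hdΦ0 : ratK K dΦ ≠ 0 := by
    intro h0
    rw [h0, HahnSeries.coeff_zero] at E6
    exact zero_ne_one E6
  have hκC : ratK K (algebraMap (Polynomial K) (RatFunc K) (Polynomial.C ((D.κ : ℤ) : K))) =
      HahnSeries.single 0 ((D.κ : ℤ) : K) := by
    rw [ratK_algebraMap, evK, evalAt_C, RingHom.id_apply, HahnSeries.C_apply]
  have hκC0 : HahnSeries.single (0 : ℤ) ((D.κ : ℤ) : K) ≠ 0 := by
    rw [Ne, HahnSeries.single_eq_zero_iff]
    exact hκ
  have hsS0 : ratK K sS ≠ 0 := by
    intro h0
    rw [h0, mul_zero] at E5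
    exact mul_ne_zero hκC0 hdΦ0 E5.symm
  -- `y` is the value of a rational function `r`
  set r : RatFunc K :=
    algebraMap (Polynomial K) (RatFunc K) (Polynomial.C ((D.κ : ℤ) : K)) * dΦ / sS with hr
  have E5' : yInf K p * ratK K sS = HahnSeries.single 0 ((D.κ : ℤ) : K) * ratK K dΦ := E5
  have hyr : ratK K r = yInf K p := by
    rw [hr, map_div₀, map_mul, hκC, ← E5', mul_div_assoc, div_self hsS0, mul_one]
  -- `r` is a root of the monic `Ψ`, hence a polynomial
  have hΨmonic : (D.Ψ.map (cK K)).Monic := D.Ψ_monic.map _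
  have hroot : Polynomial.aeval r (D.Ψ.map (cK K)) = 0 := by
    apply (ratK K).injective
    rw [Polynomial.aeval_def, ratK_eval₂, hyr, map_zero]
    exact E3
  obtain ⟨P, hP⟩ := isInteger_of_is_root_of_monic hΨmonic hroot
  have hPr : algebraMap (Polynomial K) (RatFunc K) P = r := hP
  have hevalP : (D.Ψ.map (cK K)).eval P = 0 := by
    apply IsFractionRing.injective (Polynomial K) (RatFunc K)
    rw [map_zero, ← Polynomial.eval₂_at_apply, hPr]
    exact hroot
  -- `P` is a unit of `K[Y]`
  have hc0 : (D.Ψ.map (cK K)).coeff 0 = Polynomial.C (((-1) ^ (p + 1) * D.κ : ℤ) : K) := by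
    rw [Polynomial.coeff_map, D.Ψ_coeff_zero, cK, Polynomial.coe_mapRingHom, Polynomial.map_C]
    rfl
  have hsplit := Polynomial.divX_mul_X_add (D.Ψ.map (cK K))
  have hmul : (Polynomial.divX (D.Ψ.map (cK K))).eval P * P =
      Polynomial.C (-(((-1) ^ (p + 1) * D.κ : ℤ) : K)) := by
    have h1 := congrArg (Polynomial.eval P) hsplit
    rw [Polynomial.eval_add, Polynomial.eval_mul, Polynomial.eval_X, Polynomial.eval_C, hevalP,
      hc0] at h1
    rw [Polynomial.C_neg]
    exact eq_neg_of_add_eq_zero_left h1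
  have hunit0 : IsUnit (Polynomial.C (-(((-1) ^ (p + 1) * D.κ : ℤ) : K))) := by
    refine Polynomial.isUnit_C.mpr (IsUnit.mk0 _ ?_)
    rw [neg_ne_zero, Int.cast_mul, Int.cast_pow, Int.cast_neg, Int.cast_one]
    exact mul_ne_zero (pow_ne_zero _ (by norm_num)) hκ
  have hPunit : IsUnit P := isUnit_of_mul_isUnit_right (hmul ▸ hunit0)
  obtain ⟨a, -, haP⟩ := Polynomial.isUnit_iff.mp hPunit
  -- so `y` is a constant series, contradiction with its order
  have hyC : yInf K p = HahnSeries.single 0 a := by
    rw [← hyr, ← hPr, ← haP, ratK_algebraMap, evK, evalAt_C, RingHom.id_apply, HahnSeries.C_apply]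
  have hlead := (isLead_yInf K p).coeff_eq
  rw [hyC, HahnSeries.coeff_single_of_ne] at hlead
  · exact pow_ne_zero 12 hpK hlead.symm
  · have h2 := hp.two_le
    have : (2 : ℤ) ≤ (p : ℤ) := by exact_mod_cast h2
    omega

end Fermat.Agent.S28.BaseCaseA
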