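import Mathlib
import Fermat.Prelude.Def_ModularCurve_X0

/-!
# S28 (WP6, analytic bridge, part 1)

The formal power series `X * dedekindEtaUnit = X * ∏ (1 - X ^ (n + 1)) ^ 24` (infinite product in
the Pi topology of `ℤ⟦X⟧`) is the `q`-expansion of the analytic discriminant `Δ`, and the formal
`eisenstein4` is the `q`-expansion of `E₄`.
-/

set_option autoImplicit false

open Filter Topology UpperHalfPlane
open scoped PowerSeries.WithPiTopology

namespace Fermat.Agent.S28.AnBridge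

/-- Coefficientwise domination of integer polynomials. -/
def Dom (P Q : Polynomial ℤ) : Prop := ∀ k, |P.coeff k| ≤ Q.coeff k

theorem Dom.one : Dom 1 1 := by
  intro k
  rw [Polynomial.coeff_one]
  split_ifs <;> simp

theorem Dom.mul {P Q P' Q' : Polynomial ℤ} (h : Dom P Q) (h' : Dom P' Q') :
    Dom (P * P') (Q * Q') := by
  intro k
  rw [Polynomial.coeff_mul, Polynomial.coeff_mul]
  refine (Finset.abs_sum_le_sum_abs _ _).trans (Finset.sum_le_sum fun x _ => ?_)
  rw [abs_mul]
  exact mul_le_mul (h _) (h' _) (abs_nonneg _) ((abs_nonneg _).trans (h _))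

theorem Dom.pow {P Q : Polynomial ℤ} (h : Dom P Q) (n : ℕ) : Dom (P ^ n) (Q ^ n) := by
  induction n with
  | zero => simpa using Dom.one
  | succ n ih => rw [pow_succ, pow_succ]; exact ih.mul h

theorem Dom.prod {ι : Type*} (s : Finset ι) (P Q : ι → Polynomial ℤ)
    (h : ∀ i ∈ s, Dom (P i) (Q i)) : Dom (∏ i ∈ s, P i) (∏ i ∈ s, Q i) := by
  classical
  induction s using Finset.induction_on with
  | empty => simpa using Dom.one
  | insert a s ha ih =>
    rw [Finset.prod_insert ha, Finset.prod_insert ha]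
    exact (h a (Finset.mem_insert_self a s)).mul
      (ih fun i hi => h i (Finset.mem_insert_of_mem hi))

theorem dom_one_sub_X_pow (m : ℕ) :
    Dom (1 - Polynomial.X ^ m) (1 + Polynomial.X ^ m) := by
  intro k
  rw [Polynomial.coeff_sub, Polynomial.coeff_add, Polynomial.coeff_one, Polynomial.coeff_X_pow]
  split_ifs <;> simp

theorem Dom.coeff_mul_pow_le {P Q : Polynomial ℤ} (h : Dom P Q) {ρ : ℝ} (hρ : 0 ≤ ρ) (k : ℕ) :
    |(P.coeff k : ℝ)| * ρ ^ k ≤ Polynomial.aeval ρ Q := by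
  have hQ0 : ∀ i, (0 : ℝ) ≤ (Q.coeff i : ℝ) := fun i => by
    exact_mod_cast (abs_nonneg _).trans (h i)
  have hQ : ∀ i, (0 : ℝ) ≤ (Q.coeff i : ℝ) * ρ ^ i := fun i =>
    mul_nonneg (hQ0 i) (pow_nonneg hρ i)
  have hsum : Polynomial.aeval ρ Q =
      ∑ i ∈ Finset.range (Q.natDegree + 1), (Q.coeff i : ℝ) * ρ ^ i := by
    rw [Polynomial.aeval_eq_sum_range]
    simp [zsmul_eq_mul]
  rw [hsum]
  have hPQ : |(P.coeff k : ℝ)| ≤ (Q.coeff k : ℝ) := by exact_mod_cast h k
  by_cases hk : k ≤ Q.natDegree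
  · calc |(P.coeff k : ℝ)| * ρ ^ k ≤ (Q.coeff k : ℝ) * ρ ^ k :=
          mul_le_mul_of_nonneg_right hPQ (pow_nonneg hρ k)
      _ ≤ ∑ i ∈ Finset.range (Q.natDegree + 1), (Q.coeff i : ℝ) * ρ ^ i :=
          Finset.single_le_sum (f := fun i => (Q.coeff i : ℝ) * ρ ^ i) (fun i _ => hQ i)
            (Finset.mem_range.mpr (by omega))
  · have hQk : Q.coeff k = 0 := Polynomial.coeff_eq_zero_of_natDegree_lt (by omega)
    rw [hQk] at hPQ
    have hPk : |(P.coeff k : ℝ)| = 0 := le_antisymm (by simpa using hPQ) (abs_nonneg _)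
    rw [hPk, zero_mul]
    exact Finset.sum_nonneg fun i _ => hQ i

/-- The partial products of `∏ (1 - X ^ (n + 1)) ^ 24`, as polynomials. -/
noncomputable def pprod (s : Finset ℕ) : Polynomial ℤ :=
  ∏ n ∈ s, (1 - Polynomial.X ^ (n + 1)) ^ 24

/-- The dominating partial products `∏ (1 + X ^ (n + 1)) ^ 24`. -/
noncomputable def qprod (s : Finset ℕ) : Polynomial ℤ :=
  ∏ n ∈ s, (1 + Polynomial.X ^ (n + 1)) ^ 24

theorem dom_pprod (s : Finset ℕ) : Dom (pprod s) (qprod s) :=
  Dom.prod s _ _ fun n _ => (dom_one_sub_X_pow (n + 1)).pow 24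

theorem aeval_pprod (s : Finset ℕ) (q : ℂ) :
    Polynomial.aeval q (pprod s) = ∏ n ∈ s, (1 - q ^ (n + 1)) ^ 24 := by
  simp [pprod, map_prod]

theorem aeval_qprod (s : Finset ℕ) (ρ : ℝ) :
    Polynomial.aeval ρ (qprod s) = ∏ n ∈ s, (1 + ρ ^ (n + 1)) ^ 24 := by
  simp [qprod, map_prod]

theorem aeval_qprod_le (s : Finset ℕ) {ρ : ℝ} (hρ0 : 0 ≤ ρ) (hρ1 : ρ < 1) :
    Polynomial.aeval ρ (qprod s) ≤ Real.exp (24 * ∑' n : ℕ, ρ ^ (n + 1)) := by
  have hsummable : Summable fun n : ℕ => ρ ^ (n + 1) := by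
    simpa [pow_succ] using (summable_geometric_of_lt_one hρ0 hρ1).mul_right ρ
  rw [aeval_qprod]
  calc ∏ n ∈ s, (1 + ρ ^ (n + 1)) ^ 24
      ≤ ∏ n ∈ s, Real.exp (24 * ρ ^ (n + 1)) := by
        refine Finset.prod_le_prod (fun n _ => by positivity) fun n _ => ?_
        have h1 : 1 + ρ ^ (n + 1) ≤ Real.exp (ρ ^ (n + 1)) := by
          have := Real.add_one_le_exp (ρ ^ (n + 1))
          linarith
        calc (1 + ρ ^ (n + 1)) ^ 24 ≤ Real.exp (ρ ^ (n + 1)) ^ 24 :=
              pow_le_pow_left₀ (by positivity) h1 24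
          _ = Real.exp (24 * ρ ^ (n + 1)) := by
              rw [← Real.exp_nat_mul]
              norm_num
    _ = Real.exp (∑ n ∈ s, 24 * ρ ^ (n + 1)) := (Real.exp_sum s _).symm
    _ ≤ Real.exp (24 * ∑' n : ℕ, ρ ^ (n + 1)) := by
        apply Real.exp_le_exp.mpr
        rw [← Finset.mul_sum]
        exact mul_le_mul_of_nonneg_left
          (hsummable.sum_le_tsum s fun n _ => pow_nonneg hρ0 _) (by norm_num)

/-- The formal partial products converge coefficientwise to `dedekindEtaUnit`. -/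
theorem tendsto_coeff_pprod (k : ℕ) :
    Tendsto (fun s : Finset ℕ => (pprod s).coeff k) atTop
      (𝓝 (PowerSeries.coeff k ModularCurve.dedekindEtaUnit)) := by
  have h1 : HasProd (fun n : ℕ => ((1 : PowerSeries ℤ) - PowerSeries.X ^ (n + 1)) ^ 24)
      ModularCurve.dedekindEtaUnit := by
    have := (PowerSeries.WithPiTopology.multipliable_one_sub_X_pow ℤ).hasProd.pow 24
    exact this
  rw [HasProd, PowerSeries.WithPiTopology.tendsto_iff_coeff_tendsto] at h1
  have h2 := h1 k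
  refine h2.congr fun s => ?_
  have hcoe : ((pprod s : Polynomial ℤ) : PowerSeries ℤ) =
      ∏ n ∈ s, ((1 : PowerSeries ℤ) - PowerSeries.X ^ (n + 1)) ^ 24 := by
    rw [pprod, ← Polynomial.coeToPowerSeries.ringHom_apply, map_prod]
    refine Finset.prod_congr rfl fun n _ => ?_
    simp [Polynomial.coeToPowerSeries.ringHom_apply]
  rw [← Polynomial.coeff_coe, hcoe]

/-- **Evaluation of the formal eta product.**  If `‖q‖ < 1`, the power series `dedekindEtaUnit`
evaluated at `q` converges to the infinite product `∏ (1 - q ^ (n + 1)) ^ 24`. -/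
theorem hasSum_of_hasProd {q : ℂ} (hq : ‖q‖ < 1) {F : ℂ}
    (hF : HasProd (fun n : ℕ => (1 - q ^ (n + 1)) ^ 24) F) :
    HasSum (fun k : ℕ => ((PowerSeries.coeff k ModularCurve.dedekindEtaUnit : ℤ) : ℂ) * q ^ k)
      F := by
  obtain ⟨ρ, hqρ, hρ1⟩ := exists_between hq
  have hq0 : 0 ≤ ‖q‖ := norm_nonneg q
  have hρ0 : 0 < ρ := lt_of_le_of_lt hq0 hqρ
  obtain ⟨C, hC⟩ : ∃ C : ℝ, ∀ s : Finset ℕ, Polynomial.aeval ρ (qprod s) ≤ C :=
    ⟨_, fun s => aeval_qprod_le s hρ0.le hρ1⟩
  obtain ⟨r, hr⟩ : ∃ r : ℝ, r = ‖q‖ / ρ := ⟨_, rfl⟩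
  have hr0 : 0 ≤ r := by rw [hr]; exact div_nonneg hq0 hρ0.le
  have hr1 : r < 1 := by rw [hr]; exact (div_lt_one hρ0).mpr hqρ
  -- uniform bound for the terms
  have hbound : ∀ (s : Finset ℕ) (k : ℕ),
      ‖(((pprod s).coeff k : ℤ) : ℂ) * q ^ k‖ ≤ C * r ^ k := by
    intro s k
    have h1 := (dom_pprod s).coeff_mul_pow_le hρ0.le k
    have h2 := hC s
    have h3 : ‖(((pprod s).coeff k : ℤ) : ℂ) * q ^ k‖ =
        (|((pprod s).coeff k : ℝ)| * ρ ^ k) * r ^ k := by
      rw [norm_mul, norm_pow, Complex.norm_intCast, hr, div_pow]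
      have hρk : ρ ^ k ≠ 0 := pow_ne_zero k hρ0.ne'
      field_simp
    rw [h3]
    exact mul_le_mul_of_nonneg_right (h1.trans h2) (pow_nonneg hr0 k)
  have hsum_bound : Summable fun k : ℕ => C * r ^ k :=
    (summable_geometric_of_lt_one hr0 hr1).mul_left C
  -- termwise convergence
  have hab : ∀ k : ℕ, Tendsto (fun s : Finset ℕ => (((pprod s).coeff k : ℤ) : ℂ) * q ^ k) atTop
      (𝓝 (((PowerSeries.coeff k ModularCurve.dedekindEtaUnit : ℤ) : ℂ) * q ^ k)) := by
    intro k
    have h1 := tendsto_coeff_pprod k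
    have h2 : Tendsto (fun s : Finset ℕ => (((pprod s).coeff k : ℤ) : ℂ)) atTop
        (𝓝 ((PowerSeries.coeff k ModularCurve.dedekindEtaUnit : ℤ) : ℂ)) :=
      ((continuous_of_discreteTopology (f := fun n : ℤ => (n : ℂ))).tendsto _).comp h1
    exact h2.mul_const _
  -- Tannery
  have hT := tendsto_tsum_of_dominated_convergence hsum_bound hab
    (Eventually.of_forall fun s k => hbound s k)
  -- the finite sums are the partial products
  have hfin : ∀ s : Finset ℕ, ∑' k : ℕ, (((pprod s).coeff k : ℤ) : ℂ) * q ^ k =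
      ∏ n ∈ s, (1 - q ^ (n + 1)) ^ 24 := by
    intro s
    rw [← aeval_pprod, Polynomial.aeval_eq_sum_range]
    rw [tsum_eq_sum (s := Finset.range ((pprod s).natDegree + 1))]
    · simp [zsmul_eq_mul]
    · intro k hk
      rw [Finset.mem_range, not_lt] at hk
      rw [Polynomial.coeff_eq_zero_of_natDegree_lt (by omega)]
      simp
  simp_rw [hfin] at hT
  have hlim : ∑' k : ℕ, ((PowerSeries.coeff k ModularCurve.dedekindEtaUnit : ℤ) : ℂ) * q ^ k = F :=
    tendsto_nhds_unique hT hF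
  have hsummable : Summable
      fun k : ℕ => ((PowerSeries.coeff k ModularCurve.dedekindEtaUnit : ℤ) : ℂ) * q ^ k := by
    refine Summable.of_norm_bounded hsum_bound fun k => ?_
    exact le_of_tendsto ((continuous_norm.tendsto _).comp (hab k))
      (Eventually.of_forall fun s => hbound s k)
  rw [← hlim]
  exact hsummable.hasSum

local notation "𝕢" => Function.Periodic.qParam

/-- `Δ` is given by the formal series `X * dedekindEtaUnit` evaluated at `q = exp(2πiz)`. -/
theorem hasSum_discriminant (z : ℍ) :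
    HasSum (fun m : ℕ =>
      ((PowerSeries.coeff m (PowerSeries.X * ModularCurve.dedekindEtaUnit) : ℤ) : ℂ) •
        𝕢 1 z ^ m) (ModularForm.discriminant z) := by
  have hq : ‖𝕢 1 (z : ℂ)‖ < 1 := Function.Periodic.norm_qParam_lt_one one_pos z.im_pos
  have hmul : Multipliable fun n : ℕ => (1 - ModularForm.eta_q n z) :=
    ModularForm.multipliableLocallyUniformlyOn_eta.multipliable z.2
  have hF : HasProd (fun n : ℕ => (1 - 𝕢 1 (z : ℂ) ^ (n + 1)) ^ 24)
      (∏' n : ℕ, (1 - ModularForm.eta_q n z) ^ 24) := by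
    have h := hmul.hasProd.pow 24
    rw [← hmul.tprod_pow] at h
    exact h
  have h1 := (hasSum_of_hasProd hq hF).mul_left (𝕢 1 (z : ℂ))
  rw [← ModularForm.discriminant_eq_q_prod] at h1
  have hinj : Function.Injective (fun k : ℕ => k + 1) := fun a b hab => by simpa using hab
  rw [← hinj.hasSum_iff]
  · have hfun : ((fun m : ℕ =>
        ((PowerSeries.coeff m (PowerSeries.X * ModularCurve.dedekindEtaUnit) : ℤ) : ℂ) •
          𝕢 1 (z : ℂ) ^ m) ∘ fun k : ℕ => k + 1) =
        fun i : ℕ => 𝕢 1 (z : ℂ) *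
          (((PowerSeries.coeff i ModularCurve.dedekindEtaUnit : ℤ) : ℂ) * 𝕢 1 (z : ℂ) ^ i) := by
      funext i
      simp only [Function.comp_apply, smul_eq_mul]
      rw [PowerSeries.coeff_succ_X_mul, pow_succ]
      ring
    rw [hfun]
    exact h1
  · intro m hm
    have hm0 : m = 0 := by
      by_contra h
      exact hm ⟨m - 1, by simp; omega⟩
    subst hm0
    simp

/-- **(AN1)** The `q`-expansion of the analytic discriminant `Δ` is the formal series
`X * ∏ (1 - X ^ (n + 1)) ^ 24`. -/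
theorem qExpansion_discriminant_eq :
    qExpansion 1 ModularForm.discriminant =
      (PowerSeries.X * ModularCurve.dedekindEtaUnit).map (Int.castRingHom ℂ) := by
  ext m
  rw [PowerSeries.coeff_map]
  exact (ModularFormClass.qExpansion_coeff_unique one_pos one_mem_strictPeriods_SL
    (f := CuspForm.discriminant) hasSum_discriminant m).symm

/-- **(AN1)** The `q`-expansion of `E₄` is the formal series `eisenstein4`. -/
theorem qExpansion_E4_eq :
    qExpansion 1 ModularForm.E₄ = ModularCurve.eisenstein4.map (Int.castRingHom ℂ) := by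
  ext m
  rw [EisensteinSeries.E_qExpansion_coeff (by norm_num) ⟨2, rfl⟩ m, PowerSeries.coeff_map,
    ModularCurve.eisenstein4, PowerSeries.coeff_mk]
  rw [show bernoulli 4 = -1 / 30 by decide +kernel]
  split_ifs with hm
  · simp
  · rw [ArithmeticFunction.sigma_apply]
    push_cast
    norm_num

end Fermat.Agent.S28.AnBridge
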