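import Mathlib
import Fermat.Prelude.Def_ModularCurve_X0ModL

/-!
# Rotations `f(q) ↦ f(c·q)` of Laurent series

For a unit `c` of a commutative ring `K` we define the ring endomorphism `rot c` of
`LaurentSeries K` with `(rot c f).coeff n = c ^ n * f.coeff n` and record its interaction with
`ModularCurve.qExpand` (`f(q) ↦ f(q^N)`), `ModularCurve.coeffMap` and `ModularCurve.jqModC`.
-/

set_option autoImplicit false

noncomputable section

namespace Fermat.Agent.S28.Chain

open ModularCurve

variable {K : Type*} [CommRing K]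

/-- The ring endomorphism `f(q) ↦ f(c·q)` of `LaurentSeries K`, for a unit `c`. -/
def rot (c : Kˣ) : LaurentSeries K →+* LaurentSeries K where
  toFun f :=
    { coeff := fun n => ((c ^ n : Kˣ) : K) * f.coeff n
      isPWO_support' := f.isPWO_support.mono (by
        intro n hn
        simp only [Function.mem_support, ne_eq] at hn ⊢
        intro h
        exact hn (by rw [h, mul_zero])) }
  map_zero' := by
    ext n
    simp
  map_one' := by
    ext n
    simp only [HahnSeries.coeff_one]
    split_ifs with h
    · subst h; simp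
    · simp
  map_add' x y := by
    ext n
    simp [mul_add]
  map_mul' x y := by
    ext a
    simp only [HahnSeries.coeff_mul]
    rw [Finset.mul_sum]
    refine Finset.sum_bij_ne_zero (fun ij _ _ => ij) ?_ ?_ ?_ ?_
    · intro ij hij hne
      rw [Finset.mem_antidiagonal] at hij ⊢
      refine ⟨?_, ?_, hij.2.2⟩
      · simp only [HahnSeries.mem_support, ne_eq]
        intro h
        exact hij.1 ((Units.mul_right_eq_zero _).mp h)
      · simp only [HahnSeries.mem_support, ne_eq]
        intro h
        exact hij.2.1 ((Units.mul_right_eq_zero _).mp h)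
    · intro ij _ _ ij' _ _ h
      exact h
    · intro ij hij hne
      rw [Finset.mem_antidiagonal] at hij
      refine ⟨ij, ?_, ?_, rfl⟩
      · rw [Finset.mem_antidiagonal]
        refine ⟨?_, ?_, hij.2.2⟩
        · simp only [HahnSeries.mem_support, ne_eq]
          intro h
          exact hne (by rw [h, mul_zero, zero_mul])
        · simp only [HahnSeries.mem_support, ne_eq]
          intro h
          exact hne (by rw [h, mul_zero, mul_zero])
      · intro h
        apply hne
        rw [← hij.2.2, zpow_add, Units.val_mul] at h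
        calc (((c ^ ij.1 : Kˣ) : K) * x.coeff ij.1) * (((c ^ ij.2 : Kˣ) : K) * y.coeff ij.2)
            = ((c ^ ij.1 : Kˣ) : K) * ((c ^ ij.2 : Kˣ) : K) * (x.coeff ij.1 * y.coeff ij.2) := by
              ring
          _ = 0 := h
    · intro ij hij hne
      rw [Finset.mem_antidiagonal] at hij
      rw [← hij.2.2, zpow_add, Units.val_mul]
      ring

@[simp]
theorem rot_coeff (c : Kˣ) (f : LaurentSeries K) (n : ℤ) :
    (rot c f).coeff n = ((c ^ n : Kˣ) : K) * f.coeff n := rfl

@[simp]
theorem rot_single (c : Kˣ) (n : ℤ) (r : K) :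
    rot c (HahnSeries.single n r) = HahnSeries.single n (((c ^ n : Kˣ) : K) * r) := by
  ext m
  rw [rot_coeff]
  rcases eq_or_ne m n with rfl | hm
  · simp [HahnSeries.coeff_single_same]
  · simp [HahnSeries.coeff_single_of_ne hm]

@[simp]
theorem rot_C (c : Kˣ) (r : K) : rot c (HahnSeries.C r) = HahnSeries.C r := by
  show rot c (HahnSeries.single 0 r) = HahnSeries.single 0 r
  rw [rot_single]
  simp

theorem rot_one_apply (f : LaurentSeries K) : rot (1 : Kˣ) f = f := by
  ext n
  simp

theorem rot_rot (c c' : Kˣ) (f : LaurentSeries K) : rot c (rot c' f) = rot (c * c') f := by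
  ext n
  simp only [rot_coeff, mul_zpow, Units.val_mul]
  ring

theorem rot_iterate (c : Kˣ) (m : ℕ) (f : LaurentSeries K) : (rot c)^[m] f = rot (c ^ m) f := by
  induction m with
  | zero => simp [rot_one_apply]
  | succ m ih => rw [Function.iterate_succ_apply', ih, rot_rot, pow_succ']

theorem rot_injective (c : Kˣ) : Function.Injective (rot (K := K) c) := by
  intro f g h
  have h2 := congrArg (rot c⁻¹) h
  rwa [rot_rot, rot_rot, inv_mul_cancel, rot_one_apply, rot_one_apply] at h2

theorem rot_qExpand (c : Kˣ) (N : ℕ) [NeZero N] (f : LaurentSeries K) :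
    rot c (qExpand K N f) = qExpand K N (rot (c ^ N) f) := by
  ext n
  rw [rot_coeff]
  by_cases hn : (N : ℤ) ∣ n
  · obtain ⟨k, rfl⟩ := hn
    rw [qExpand_coeff_mul, qExpand_coeff_mul, rot_coeff, zpow_mul, zpow_natCast]
  · rw [qExpand_coeff_of_not_dvd N _ hn, qExpand_coeff_of_not_dvd N _ hn, mul_zero]

theorem rot_qExpand_of_pow_eq_one {c : Kˣ} {N : ℕ} [NeZero N] (hc : c ^ N = 1)
    (f : LaurentSeries K) : rot c (qExpand K N f) = qExpand K N f := by
  rw [rot_qExpand, hc, rot_one_apply]

theorem coeffMap_rot {K' : Type*} [CommRing K'] (φ : K →+* K') (c : Kˣ) (f : LaurentSeries K) :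
    coeffMap φ (rot c f) = rot (Units.map (φ : K →* K') c) (coeffMap φ f) := by
  ext n
  simp only [coeffMap_coeff, rot_coeff, map_mul]
  congr 1
  rw [← map_zpow]
  rfl

theorem rot_jqModC_coeff_neg_one (c : Kˣ) :
    (rot c (jqModC K)).coeff (-1) = ((c⁻¹ : Kˣ) : K) := by
  rw [rot_coeff, coeff_jqModC_neg_one, mul_one, zpow_neg_one]

theorem rot_jqModC_coeff_of_lt (c : Kˣ) {n : ℤ} (hn : n < -1) :
    (rot c (jqModC K)).coeff n = 0 := by
  rw [rot_coeff, coeff_jqModC_of_lt K hn, mul_zero]

section Field

variable (F : Type*) [Field F]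

/-- `rot c` as an `F`-algebra endomorphism of `LaurentSeries F`. -/
def rotAlgHom (c : Fˣ) : LaurentSeries F →ₐ[F] LaurentSeries F where
  __ := rot c
  commutes' r := by
    show rot c (algebraMap F (LaurentSeries F) r) = algebraMap F (LaurentSeries F) r
    rw [algebraMap_laurentSeries_eq_single, rot_single]
    simp

@[simp]
theorem rotAlgHom_apply (c : Fˣ) (f : LaurentSeries F) : rotAlgHom F c f = rot c f := rfl

end Field

end Fermat.Agent.S28.Chain
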