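/-
S28, WP4-char0: the characteristic-zero side of the tower for the function field
`F = ℚ(j(q^d) : d ∣ N)`.

* `jd d = j(q^d)` in `LaurentSeries ℚ` (total in `d`);
* (Z1) roots of the modular equation: `Φ_p(j_{dp}, j_d) = 0`, `Φ_p(j_d, j_{dp}) = 0`;
* (Z2) monic step polynomials of degree `p + 1` and `p`;
* (Z3) the gcd trick: the prime power chains generate `F`.

Input: `RootData p Φ` — the root list of `Φ_p(X, J(t^p))` over `ℂ((t))`.
-/
import Mathlib
import Fermat.Prelude.Def_ModularCurve_X0ModL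

set_option autoImplicit false

noncomputable section

open Polynomial ModularCurve

namespace Fermat.Agent.S28.CharZero

/-! ### A total version of `qExpand` -/

/-- `qExpand R m` (the substitution `q ↦ q^m`), extended by the identity for `m = 0`. -/
def qE (R : Type*) [CommRing R] (m : ℕ) : LaurentSeries R →+* LaurentSeries R :=
  if h : m = 0 then RingHom.id _ else @qExpand R _ m ⟨h⟩

theorem qE_eq (R : Type*) [CommRing R] (m : ℕ) [hm : NeZero m] : qE R m = qExpand R m := by
  unfold qE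
  rw [dif_neg hm.out]

theorem qE_one (R : Type*) [CommRing R] (f : LaurentSeries R) : qE R 1 f = f := by
  rw [qE_eq R 1]
  exact qExpand_one_apply f

theorem qE_mul (R : Type*) [CommRing R] {m n : ℕ} (hm : m ≠ 0) (hn : n ≠ 0)
    (f : LaurentSeries R) : qE R m (qE R n f) = qE R (m * n) f := by
  have : NeZero m := ⟨hm⟩
  have : NeZero n := ⟨hn⟩
  have : NeZero (m * n) := ⟨Nat.mul_ne_zero hm hn⟩
  rw [qE_eq R m, qE_eq R n, qE_eq R (m * n)]
  exact qExpand_qExpand n m f

theorem qE_injective (R : Type*) [CommRing R] (m : ℕ) : Function.Injective (qE R m) := by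
  by_cases h : m = 0
  · unfold qE
    rw [dif_pos h]
    exact fun _ _ h => h
  · have : NeZero m := ⟨h⟩
    rw [qE_eq R m]
    exact qExpand_injective m

theorem qE_coeff_mul (R : Type*) [CommRing R] {m : ℕ} (hm : m ≠ 0) (f : LaurentSeries R)
    (k : ℤ) : (qE R m f).coeff ((m : ℤ) * k) = f.coeff k := by
  have : NeZero m := ⟨hm⟩
  rw [qE_eq R m]
  exact qExpand_coeff_mul m f k

theorem qE_coeff_of_not_dvd (R : Type*) [CommRing R] {m : ℕ} (hm : m ≠ 0)
    (f : LaurentSeries R) {k : ℤ} (hk : ¬ (m : ℤ) ∣ k) : (qE R m f).coeff k = 0 := by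
  have : NeZero m := ⟨hm⟩
  rw [qE_eq R m]
  exact qExpand_coeff_of_not_dvd m f hk

theorem coeffMap_qE {R S : Type*} [CommRing R] [CommRing S] (φ : R →+* S) (m : ℕ)
    (f : LaurentSeries R) : coeffMap φ (qE R m f) = qE S m (coeffMap φ f) := by
  by_cases h : m = 0
  · unfold qE
    rw [dif_pos h, dif_pos h]
    rfl
  · have : NeZero m := ⟨h⟩
    rw [qE_eq R m, qE_eq S m]
    exact coeffMap_qExpand φ m f

/-! ### Leading terms -/

/-- `f` has leading exponent `n`: `coeff n ≠ 0` and all lower coefficients vanish. -/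
def HasLead {R : Type*} [CommRing R] (f : LaurentSeries R) (n : ℤ) : Prop :=
  f.coeff n ≠ 0 ∧ ∀ k < n, f.coeff k = 0

theorem HasLead.ne {R : Type*} [CommRing R] {f g : LaurentSeries R} {n n' : ℤ}
    (hf : HasLead f n) (hg : HasLead g n') (h : n ≠ n') : f ≠ g := by
  rintro rfl
  rcases lt_or_gt_of_ne h with h1 | h1
  · exact hf.1 (hg.2 n h1)
  · exact hg.1 (hf.2 n' h1)

theorem HasLead.qE {R : Type*} [CommRing R] {f : LaurentSeries R} {n : ℤ}
    (hf : HasLead f n) {m : ℕ} (hm : m ≠ 0) : HasLead (qE R m f) ((m : ℤ) * n) := by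
  refine ⟨by rw [qE_coeff_mul R hm]; exact hf.1, fun k hk => ?_⟩
  by_cases hdvd : (m : ℤ) ∣ k
  · obtain ⟨k', rfl⟩ := hdvd
    rw [qE_coeff_mul R hm]
    have hm' : (0 : ℤ) < m := by exact_mod_cast Nat.pos_of_ne_zero hm
    exact hf.2 k' (lt_of_mul_lt_mul_left hk hm'.le)
  · exact qE_coeff_of_not_dvd R hm f hdvd

theorem hasLead_jqModC (R : Type*) [CommRing R] [Nontrivial R] : HasLead (jqModC R) (-1) :=
  ⟨by rw [coeff_jqModC_neg_one R]; exact one_ne_zero, fun _ hk => coeff_jqModC_of_lt R hk⟩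

/-! ### The series `j(q^d)` -/

/-- `j(q^d)` as a Laurent series over any commutative ring (total in `d`). -/
def jdR (R : Type*) [CommRing R] (d : ℕ) : LaurentSeries R := qE R d (jqModC R)

/-- `j(q^d) ∈ ℚ((q))`. -/
def jd (d : ℕ) : LaurentSeries ℚ := jdR ℚ d

theorem jd_eq (d : ℕ) [NeZero d] : jd d = qExpand ℚ d jq := by
  unfold jd jdR
  rw [qE_eq ℚ d]
  rfl

theorem jd_one : jd 1 = jq := by
  rw [jd_eq 1]
  exact qExpand_one_apply jq

theorem qE_jdR (R : Type*) [CommRing R] {m d : ℕ} (hm : m ≠ 0) (hd : d ≠ 0) :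
    qE R m (jdR R d) = jdR R (m * d) :=
  qE_mul R hm hd _

theorem coeffMap_jdR {R S : Type*} [CommRing R] [CommRing S] (φ : R →+* S) (d : ℕ) :
    coeffMap φ (jdR R d) = jdR S d := by
  unfold jdR
  rw [coeffMap_qE, coeffMap_jqModC]

theorem hasLead_jdR (R : Type*) [CommRing R] [Nontrivial R] {d : ℕ} (hd : d ≠ 0) :
    HasLead (jdR R d) (-(d : ℤ)) := by
  have h := (hasLead_jqModC R).qE hd
  rwa [mul_neg, mul_one] at h

theorem jdR_ne (R : Type*) [CommRing R] [Nontrivial R] {d e : ℕ} (hd : d ≠ 0) (he : e ≠ 0)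
    (hde : d ≠ e) : jdR R d ≠ jdR R e :=
  (hasLead_jdR R hd).ne (hasLead_jdR R he) (by intro h; exact hde (by exact_mod_cast neg_injective h))

/-! ### Evaluating two-variable integer polynomials -/

/-- Evaluation of the inner variable `Y` of a polynomial in `ℤ[Y]` at `y`. -/
def evalAt {L : Type*} [CommRing L] (y : L) : Polynomial ℤ →+* L :=
  Polynomial.eval₂RingHom (Int.castRingHom L) y

theorem comp_evalAt {L L' : Type*} [CommRing L] [CommRing L'] (φ : L →+* L') (y : L) :
    φ.comp (evalAt y) = evalAt (φ y) := by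
  refine Polynomial.ringHom_ext (fun a => ?_) ?_
  · simp [evalAt]
  · simp [evalAt]

/-- `Φ(x, y)` for `Φ ∈ ℤ[Y][X]`. -/
def ev2 {L : Type*} [CommRing L] (Φ : Polynomial (Polynomial ℤ)) (x y : L) : L :=
  (Φ.map (evalAt y)).eval x

theorem map_ev2 {L L' : Type*} [CommRing L] [CommRing L'] (φ : L →+* L')
    (Φ : Polynomial (Polynomial ℤ)) (x y : L) : φ (ev2 Φ x y) = ev2 Φ (φ x) (φ y) := by
  unfold ev2
  rw [← comp_evalAt φ y, Polynomial.eval_map, Polynomial.eval_map, Polynomial.hom_eval₂]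

/-! ### The input: root list of the modular equation over `ℂ((t))` -/

/-- The root list of `Φ_p(X, J(t^p))` over `ℂ((t))`: `J(t^(p²))` and `p` further roots with a
simple pole, one of which is `J(t)`. (Implied by the master identity
`Φ_p(X, J(t^p)) = (X − J(t^(p²))) ∏_{b<p} (X − J(ζ^b t))`.) -/
structure RootData (p : ℕ) (Φ : Polynomial (Polynomial ℤ)) : Prop where
  monic : Φ.Monic
  natDegree_eq : Φ.natDegree = p + 1
  roots : ∃ r : ℕ → LaurentSeries ℂ, r 0 = jqModC ℂ ∧ (∀ b, HasLead (r b) (-1)) ∧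
    Φ.map (evalAt (jdR ℂ p)) =
      (X - C (jdR ℂ (p * p))) * ∏ b ∈ Finset.range p, (X - C (r b))

/-! ### (Z1) Roots of the modular equation in `ℚ((q))` -/

theorem coeffMap_injective {R S : Type*} [CommRing R] [CommRing S] (φ : R →+* S)
    (hφ : Function.Injective φ) : Function.Injective (coeffMap φ) := by
  intro x y h
  ext k
  have := congrArg (fun z => HahnSeries.coeff z k) h
  simp only [coeffMap_coeff] at this
  exact hφ this

/-- The coefficient embedding `ℚ((q)) → ℂ((q))`. -/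
def toC : LaurentSeries ℚ →+* LaurentSeries ℂ := coeffMap (algebraMap ℚ ℂ)

theorem toC_injective : Function.Injective toC :=
  coeffMap_injective _ (algebraMap ℚ ℂ).injective

theorem toC_jd (d : ℕ) : toC (jd d) = jdR ℂ d := coeffMap_jdR _ d

theorem qE_jd {m d : ℕ} (hm : m ≠ 0) (hd : d ≠ 0) : qE ℚ m (jd d) = jd (m * d) :=
  qE_jdR ℚ hm hd

theorem jdR_one (R : Type*) [CommRing R] : jdR R 1 = jqModC R := qE_one R _

variable {p : ℕ} {Φ : Polynomial (Polynomial ℤ)}

theorem RootData.ev2_C_sq (h : RootData p Φ) : ev2 Φ (jdR ℂ (p * p)) (jdR ℂ p) = 0 := by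
  obtain ⟨r, -, -, hr⟩ := h.roots
  unfold ev2
  rw [hr]
  simp

theorem RootData.ev2_C_one (h : RootData p Φ) (hp : p ≠ 0) :
    ev2 Φ (jdR ℂ 1) (jdR ℂ p) = 0 := by
  obtain ⟨r, hr0, -, hr⟩ := h.roots
  unfold ev2
  rw [hr, jdR_one, Polynomial.eval_mul, Polynomial.eval_prod]
  have h0 : (0 : ℕ) ∈ Finset.range p := Finset.mem_range.mpr (Nat.pos_of_ne_zero hp)
  rw [Finset.prod_eq_zero h0 (by simp [hr0]), mul_zero]

/-- (Z1a) `Φ_p(j_{dp}, j_d) = 0`. -/
theorem RootData.ev2_mul (h : RootData p Φ) (hp : p ≠ 0) {d : ℕ} (hd : d ≠ 0) :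
    ev2 Φ (jd (d * p)) (jd d) = 0 := by
  have h1 : ev2 Φ (jd (p * p)) (jd p) = 0 := by
    apply toC_injective
    rw [map_ev2, toC_jd, toC_jd, map_zero]
    exact h.ev2_C_sq
  have h2 : ev2 Φ (jd p) (jd 1) = 0 := by
    apply qE_injective ℚ p
    rw [map_ev2, qE_jd hp hp, qE_jd hp one_ne_zero, mul_one, map_zero]
    exact h1
  have h3 := congrArg (qE ℚ d) h2
  rwa [map_ev2, qE_jd hd hp, qE_jd hd one_ne_zero, mul_one, map_zero] at h3

/-- (Z1b) `Φ_p(j_d, j_{dp}) = 0`. -/
theorem RootData.ev2_mul' (h : RootData p Φ) (hp : p ≠ 0) {d : ℕ} (hd : d ≠ 0) :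
    ev2 Φ (jd d) (jd (d * p)) = 0 := by
  have h1 : ev2 Φ (jd 1) (jd p) = 0 := by
    apply toC_injective
    rw [map_ev2, toC_jd, toC_jd, map_zero]
    exact h.ev2_C_one hp
  have h3 := congrArg (qE ℚ d) h1
  rwa [map_ev2, qE_jd hd hp, qE_jd hd one_ne_zero, mul_one, map_zero] at h3

/-! ### (Z2) Step polynomials -/

theorem evalAt_mem_closure {L : Type*} [CommRing L] (y : L) (f : Polynomial ℤ) :
    evalAt y f ∈ Subring.closure ({y} : Set L) := by
  unfold evalAt
  rw [Polynomial.coe_eval₂RingHom, Polynomial.eval₂_eq_sum_range]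
  refine Subring.sum_mem _ fun i _ => Subring.mul_mem _ ?_ (Subring.pow_mem _ ?_ i)
  · simp
  · exact Subring.subset_closure rfl

/-- The step polynomial `Φ_p(X, y)` as a polynomial over a ring `L`. -/
def stepPoly {L : Type*} [CommRing L] (Φ : Polynomial (Polynomial ℤ)) (y : L) : Polynomial L :=
  Φ.map (evalAt y)

theorem stepPoly_monic {L : Type*} [CommRing L] (hΦ : Φ.Monic) (y : L) :
    (stepPoly Φ y).Monic := hΦ.map _

theorem stepPoly_natDegree {L : Type*} [CommRing L] [Nontrivial L] (hΦ : Φ.Monic) (y : L) :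
    (stepPoly Φ y).natDegree = Φ.natDegree := hΦ.natDegree_map _

theorem stepPoly_coeff_mem {L : Type*} [CommRing L] (Φ : Polynomial (Polynomial ℤ)) (y : L)
    (i : ℕ) : (stepPoly Φ y).coeff i ∈ Subring.closure ({y} : Set L) := by
  unfold stepPoly
  rw [Polynomial.coeff_map]
  exact evalAt_mem_closure y _

theorem eval_stepPoly {L : Type*} [CommRing L] (Φ : Polynomial (Polynomial ℤ)) (x y : L) :
    (stepPoly Φ y).eval x = ev2 Φ x y := rfl

theorem map_stepPoly {L L' : Type*} [CommRing L] [CommRing L'] (φ : L →+* L')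
    (Φ : Polynomial (Polynomial ℤ)) (y : L) : (stepPoly Φ y).map φ = stepPoly Φ (φ y) := by
  unfold stepPoly
  rw [Polynomial.map_map, comp_evalAt]

/-- (Z2, first step of a prime) `Φ_p(X, j_d)` is monic of degree `p + 1`, has coefficients in
`ℤ[j_d]` and kills `j_{dp}`. -/
theorem RootData.step_first (h : RootData p Φ) (hp : p ≠ 0) {d : ℕ} (hd : d ≠ 0) :
    (stepPoly Φ (jd d)).Monic ∧ (stepPoly Φ (jd d)).natDegree = p + 1 ∧
      (∀ i, (stepPoly Φ (jd d)).coeff i ∈ Subring.closure ({jd d} : Set (LaurentSeries ℚ))) ∧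
      (stepPoly Φ (jd d)).eval (jd (d * p)) = 0 :=
  ⟨stepPoly_monic h.monic _, (stepPoly_natDegree h.monic _).trans h.natDegree_eq,
    stepPoly_coeff_mem Φ _, h.ev2_mul hp hd⟩

/-- Division of a polynomial with coefficients in a subring by a monic polynomial with
coefficients in the subring has coefficients in the subring. -/
theorem divByMonic_coeff_mem {L : Type*} [CommRing L] (S : Subring L) {f g : Polynomial L}
    (hf : ∀ i, f.coeff i ∈ S) (hg : ∀ i, g.coeff i ∈ S) (hgm : g.Monic) (i : ℕ) :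
    (f /ₘ g).coeff i ∈ S := by
  have hf' : f ∈ Polynomial.lifts S.subtype :=
    (Polynomial.lifts_iff_coeff_lifts f).mpr fun i => ⟨⟨f.coeff i, hf i⟩, rfl⟩
  have hg' : g ∈ Polynomial.lifts S.subtype :=
    (Polynomial.lifts_iff_coeff_lifts g).mpr fun i => ⟨⟨g.coeff i, hg i⟩, rfl⟩
  obtain ⟨f₀, rfl⟩ := hf'
  obtain ⟨g₀, hg₀, -, hg₀m⟩ := Polynomial.lifts_and_natDegree_eq_and_monic hg' hgm
  subst hg₀
  have := Polynomial.map_divByMonic (p := f₀) S.subtype hg₀m
  change ((Polynomial.map S.subtype f₀) /ₘ (Polynomial.map S.subtype g₀)).coeff i ∈ S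
  rw [← this, Polynomial.coeff_map]
  exact ((f₀ /ₘ g₀).coeff i).2

/-- (Z2, chain step) for `d ≠ 0`: a monic polynomial of degree `p` with coefficients in
`ℤ[j_{dp}, j_d]` killing `j_{dp²}` (namely `Φ_p(X, j_{dp}) / (X − j_d)`). -/
theorem RootData.step_chain (h : RootData p Φ) (hp : 1 < p) {d : ℕ} (hd : d ≠ 0) :
    ∃ g : Polynomial (LaurentSeries ℚ), g.Monic ∧ g.natDegree = p ∧
      (∀ i, g.coeff i ∈ Subring.closure ({jd (d * p), jd d} : Set (LaurentSeries ℚ))) ∧
      g.eval (jd (d * p * p)) = 0 := by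
  have hp0 : p ≠ 0 := by omega
  have hdp : d * p ≠ 0 := Nat.mul_ne_zero hd hp0
  set f := stepPoly Φ (jd (d * p)) with hf
  have hroot : f.IsRoot (jd d) := h.ev2_mul' hp0 hd
  have hfac : (X - C (jd d)) * (f /ₘ (X - C (jd d))) = f :=
    Polynomial.mul_divByMonic_eq_iff_isRoot.mpr hroot
  have hfm : f.Monic := stepPoly_monic h.monic _
  have hfd : f.natDegree = p + 1 := (stepPoly_natDegree h.monic _).trans h.natDegree_eq
  refine ⟨f /ₘ (X - C (jd d)), ?_, ?_, ?_, ?_⟩
  · have := hfm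
    rw [← hfac] at this
    exact (Polynomial.monic_X_sub_C _).of_mul_monic_left this
  · rw [Polynomial.natDegree_divByMonic f (Polynomial.monic_X_sub_C _), hfd,
      Polynomial.natDegree_X_sub_C]
    rfl
  · refine divByMonic_coeff_mem _ (fun i => ?_) (fun i => ?_) (Polynomial.monic_X_sub_C _)
    · exact Subring.closure_mono (by simp) (stepPoly_coeff_mem Φ (jd (d * p)) i)
    · rw [Polynomial.coeff_sub, Polynomial.coeff_X, Polynomial.coeff_C]
      refine Subring.sub_mem _ ?_ ?_
      · split_ifs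
        · exact Subring.one_mem _
        · exact Subring.zero_mem _
      · split_ifs
        · exact Subring.subset_closure (by simp)
        · exact Subring.zero_mem _
  · have h0 : f.eval (jd (d * p * p)) = 0 := h.ev2_mul hp0 hdp
    rw [← hfac, Polynomial.eval_mul, Polynomial.eval_sub, Polynomial.eval_X,
      Polynomial.eval_C] at h0
    rcases mul_eq_zero.mp h0 with h1 | h1
    · exfalso
      have hne : jd (d * p * p) ≠ jd d := by
        refine jdR_ne ℚ (Nat.mul_ne_zero hdp hp0) hd ?_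
        intro heq
        have : d * 1 < d * p * p := by
          rw [mul_assoc]
          exact Nat.mul_lt_mul_of_pos_left (by nlinarith) (Nat.pos_of_ne_zero hd)
        omega
      exact hne (sub_eq_zero.mp h1)
    · exact h1

/-! ### (Z3) The gcd trick -/

/-- If `r` is a simple root of the split polynomial `P` and the only root of `P` which is also a
root of `Q` (both polynomials over the subfield `E`), then `r ∈ E`. -/
theorem mem_range_of_unique_common_root {E Ω : Type*} [Field E] [Field Ω] (i : E →+* Ω)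
    (P Q : Polynomial E) (r : Ω) (rest : Multiset Ω)
    (hP : P.map i = (X - C r) * (rest.map (fun x => X - C x)).prod)
    (hrest : ∀ x ∈ rest, x ≠ r ∧ (Q.map i).eval x ≠ 0) (hQr : (Q.map i).eval r = 0) :
    r ∈ Set.range i := by
  classical
  let _ : Algebra E Ω := i.toAlgebra
  have halg : algebraMap E Ω = i := rfl
  have hPC : P.map i = ((r ::ₘ rest).map (fun x => X - C x)).prod := by
    rw [hP, Multiset.map_cons, Multiset.prod_cons]
  have hmonic : (P.map i).Monic := by
    rw [hPC]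
    exact Polynomial.monic_multiset_prod_of_monic _ _ fun x _ => Polynomial.monic_X_sub_C x
  have hPne : P ≠ 0 := by
    rintro rfl
    rw [Polynomial.map_zero] at hmonic
    exact hmonic.ne_zero rfl
  have hPr : Polynomial.aeval r P = 0 := by
    rw [Polynomial.aeval_def, ← Polynomial.eval_map, halg, hP]
    simp
  have hQr' : Polynomial.aeval r Q = 0 := by
    rw [Polynomial.aeval_def, ← Polynomial.eval_map, halg]
    exact hQr
  have hint : IsIntegral E r := isAlgebraic_iff_isIntegral.mp ⟨P, hPne, hPr⟩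
  obtain ⟨c, hc⟩ := minpoly.dvd E r hPr
  obtain ⟨c', hc'⟩ := minpoly.dvd E r hQr'
  set m := minpoly E r with hm
  have hmc : m.map i * c.map i = P.map i := by rw [← Polynomial.map_mul, ← hc]
  have hm0 : m.map i ≠ 0 := fun h => hmonic.ne_zero (by rw [← hmc, h, zero_mul])
  have hc0 : c.map i ≠ 0 := fun h => hmonic.ne_zero (by rw [← hmc, h, mul_zero])
  have hroots : (P.map i).roots = r ::ₘ rest := by
    rw [hPC, Polynomial.roots_multiset_prod_X_sub_C]
  have hcard : Multiset.card (m.map i).roots = (m.map i).natDegree := by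
    have h1 : (P.map i).roots = (m.map i).roots + (c.map i).roots := by
      rw [← hmc, Polynomial.roots_mul (mul_ne_zero hm0 hc0)]
    have h2 : (P.map i).natDegree = (m.map i).natDegree + (c.map i).natDegree := by
      rw [← hmc, Polynomial.natDegree_mul hm0 hc0]
    have h3 : Multiset.card (P.map i).roots = (P.map i).natDegree := by
      rw [hroots, hPC, Polynomial.natDegree_multiset_prod_X_sub_C_eq_card]
    have h4 := Polynomial.card_roots' (m.map i)
    have h5 := Polynomial.card_roots' (c.map i)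
    rw [h1, Multiset.card_add, h2] at h3
    omega
  have hall : ∀ y ∈ (m.map i).roots, y = r := by
    intro y hy
    have hy0 : (m.map i).eval y = 0 := (Polynomial.mem_roots hm0).mp hy
    have hyP : y ∈ (P.map i).roots :=
      Multiset.mem_of_le (Polynomial.roots.le_of_dvd hmonic.ne_zero ⟨c.map i, hmc.symm⟩) hy
    rw [hroots, Multiset.mem_cons] at hyP
    rcases hyP with h | h
    · exact h
    · exfalso
      refine (hrest y h).2 ?_
      rw [hc', Polynomial.map_mul, Polynomial.eval_mul, hy0, zero_mul]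
  have hle : (m.map i).roots ≤ r ::ₘ rest := by
    rw [← hroots]
    exact Polynomial.roots.le_of_dvd hmonic.ne_zero ⟨c.map i, hmc.symm⟩
  have hrep : (m.map i).roots = Multiset.replicate (Multiset.card (m.map i).roots) r :=
    Multiset.eq_replicate_card.mpr hall
  have hcount : Multiset.card (m.map i).roots ≤ 1 := by
    have h1 := Multiset.count_le_of_le r hle
    have h2 : Multiset.count r rest = 0 :=
      Multiset.count_eq_zero_of_notMem fun hmem => (hrest r hmem).1 rfl
    rw [Multiset.count_cons_self, h2] at h1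
    have h3 : Multiset.count r (m.map i).roots = Multiset.card (m.map i).roots := by
      conv_lhs => rw [hrep]
      rw [Multiset.count_replicate_self]
    omega
  have hdeg : m.natDegree = 1 := by
    have h1 : (m.map i).natDegree = m.natDegree := Polynomial.natDegree_map i
    have h2 := minpoly.natDegree_pos hint
    rw [← hm] at h2
    omega
  obtain ⟨a, ha⟩ := minpoly.natDegree_eq_one_iff.mp hdeg
  exact ⟨a, ha⟩

/-- The root list of `Φ_p(X, J(t^(mp)))` over `ℂ((t))`: `J(t^(mp²))` and `p` roots of leading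
exponent `-m`. -/
theorem RootData.factor (h : RootData p Φ) (hp : p ≠ 0) {m : ℕ} (hm : m ≠ 0) :
    ∃ rest : Multiset (LaurentSeries ℂ), (∀ x ∈ rest, HasLead x (-(m : ℤ))) ∧
      stepPoly Φ (jdR ℂ (m * p)) =
        (X - C (jdR ℂ (m * p * p))) * (rest.map (fun x => X - C x)).prod := by
  obtain ⟨r, -, hr1, hr⟩ := h.roots
  refine ⟨(Finset.range p).val.map (fun b => qE ℂ m (r b)), ?_, ?_⟩
  · intro x hx
    obtain ⟨b, -, rfl⟩ := Multiset.mem_map.mp hx
    have := (hr1 b).qE hm
    rwa [mul_neg, mul_one] at this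
  · have h1 := congrArg (Polynomial.map (qE ℂ m)) hr
    have h2 : Polynomial.map (qE ℂ m) (Polynomial.map (evalAt (jdR ℂ p)) Φ) =
        stepPoly Φ (jdR ℂ (m * p)) := by
      rw [← qE_jdR ℂ hm hp]
      exact map_stepPoly (qE ℂ m) Φ (jdR ℂ p)
    rw [h2] at h1
    rw [h1, Polynomial.map_mul, Polynomial.map_sub, Polynomial.map_X, Polynomial.map_C,
      qE_jdR ℂ hm (Nat.mul_ne_zero hp hp), mul_assoc, Polynomial.map_prod,
      Finset.prod_eq_multiset_prod, Multiset.map_map]
    congr 2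
    refine Multiset.map_congr rfl fun b _ => ?_
    simp

/-- The set of prime-power generators `j(q^(p^k))`, `p^k ∣ N`. -/
def ppSet (N : ℕ) : Set (LaurentSeries ℚ) :=
  {x | ∃ p k : ℕ, p.Prime ∧ p ^ k ∣ N ∧ x = jd (p ^ k)}

/-- The field generated over `ℚ` by the prime-power chains. -/
def ppField (N : ℕ) : IntermediateField ℚ (LaurentSeries ℚ) :=
  IntermediateField.adjoin ℚ (ppSet N)

/-- The embedding `ℚ((q)) → ℂ((t))`, `q = t^N`. -/
def toCt (N : ℕ) : LaurentSeries ℚ →+* LaurentSeries ℂ := (qE ℂ N).comp toC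

theorem toCt_injective (N : ℕ) : Function.Injective (toCt N) :=
  (qE_injective ℂ N).comp toC_injective

theorem toCt_jd {N d : ℕ} (hN : N ≠ 0) (hd : d ≠ 0) : toCt N (jd d) = jdR ℂ (N * d) := by
  unfold toCt
  rw [RingHom.comp_apply, toC_jd, qE_jdR ℂ hN hd]

/-- (Z3, one step) two distinct primes `p`, `r` dividing `d ∣ N`: `j_d` lies in every
intermediate field containing `j_{d/p}` and `j_{d/r}`. -/
theorem jd_mem_of_two_primes {N : ℕ} (hN : N ≠ 0) {p r d : ℕ} {Φp Φr : Polynomial (Polynomial ℤ)}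
    (hΦp : RootData p Φp) (hΦr : RootData r Φr) (hp : p.Prime) (hr : r.Prime) (hpr : p ≠ r)
    (hpd : p ∣ d) (hrd : r ∣ d) (hdN : d ∣ N) (L : IntermediateField ℚ (LaurentSeries ℚ))
    (hLp : jd (d / p) ∈ L) (hLr : jd (d / r) ∈ L) : jd d ∈ L := by
  have hd0 : d ≠ 0 := fun h => hN (by rw [h] at hdN; exact Nat.eq_zero_of_zero_dvd hdN)
  obtain ⟨d₁, rfl⟩ := hpd
  have hpN : p ∣ N := (Dvd.intro _ rfl).trans hdN
  have hrN : r ∣ N := hrd.trans hdN
  obtain ⟨N₁, hN₁⟩ := hpN
  obtain ⟨d₂, hd₂⟩ := hrd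
  obtain ⟨N₂, hN₂⟩ := hrN
  have hp0 : p ≠ 0 := hp.ne_zero
  have hr0 : r ≠ 0 := hr.ne_zero
  have hd₁0 : d₁ ≠ 0 := fun h => hd0 (by rw [h, mul_zero])
  have hd₂0 : d₂ ≠ 0 := fun h => hd0 (by rw [hd₂, h, mul_zero])
  have hN₁0 : N₁ ≠ 0 := fun h => hN (by rw [hN₁, h, mul_zero])
  have hN₂0 : N₂ ≠ 0 := fun h => hN (by rw [hN₂, h, mul_zero])
  have e1 : p * d₁ / p = d₁ := Nat.mul_div_cancel_left d₁ hp.pos
  have e2 : p * d₁ / r = d₂ := by rw [hd₂]; exact Nat.mul_div_cancel_left d₂ hr.pos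
  rw [e1] at hLp
  rw [e2] at hLr
  -- the two multipliers
  set mp := N₁ * d₁ with hmp
  set mr := N₂ * d₂ with hmr
  have hmp0 : mp ≠ 0 := Nat.mul_ne_zero hN₁0 hd₁0
  have hmr0 : mr ≠ 0 := Nat.mul_ne_zero hN₂0 hd₂0
  have k1 : N * d₁ = mp * p := by rw [hmp, hN₁]; ring
  have k2 : N * (p * d₁) = mp * p * p := by rw [hmp, hN₁]; ring
  have k3 : N * d₂ = mr * r := by rw [hmr, hN₂]; ring
  have k4 : N * (p * d₁) = mr * r * r := by rw [hmr, hN₂, hd₂]; ring
  obtain ⟨restp, hrestp, hfacp⟩ := hΦp.factor hp0 hmp0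
  obtain ⟨restr, hrestr, hfacr⟩ := hΦr.factor hr0 hmr0
  -- the ambient embedding of `L`
  set i : L →+* LaurentSeries ℂ := (toCt N).comp (algebraMap L (LaurentSeries ℚ)) with hi
  set r₀ : LaurentSeries ℂ := jdR ℂ (N * (p * d₁)) with hr₀
  have hr₀lead : HasLead r₀ (-((N * (p * d₁) : ℕ) : ℤ)) :=
    hasLead_jdR ℂ (Nat.mul_ne_zero hN hd0)
  have hP : (stepPoly Φp (⟨jd d₁, hLp⟩ : L)).map i =
      (X - C r₀) * (restp.map (fun x => X - C x)).prod := by
    rw [map_stepPoly, hi, RingHom.comp_apply]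
    change stepPoly Φp (toCt N (jd d₁)) = _
    rw [toCt_jd hN hd₁0, k1, hfacp, hr₀, k2]
  have hQ : (stepPoly Φr (⟨jd d₂, hLr⟩ : L)).map i =
      (X - C r₀) * (restr.map (fun x => X - C x)).prod := by
    rw [map_stepPoly, hi, RingHom.comp_apply]
    change stepPoly Φr (toCt N (jd d₂)) = _
    rw [toCt_jd hN hd₂0, k3, hfacr, hr₀, k4]
  have hmpr : (mp : ℤ) ≠ mr := by
    intro h
    have h' : mp = mr := by exact_mod_cast h
    have h1 : mp * (p * p) = mp * (r * r) := by
      calc mp * (p * p) = mp * p * p := by ring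
        _ = mr * r * r := by rw [← k2, k4]
        _ = mp * (r * r) := by rw [h']; ring
    have h2 : p * p = r * r := Nat.eq_of_mul_eq_mul_left (Nat.pos_of_ne_zero hmp0) h1
    exact hpr (Nat.mul_self_inj.mp h2)
  have hmpN : (mp : ℤ) ≠ ((N * (p * d₁) : ℕ) : ℤ) := by
    intro h
    have h' : mp = N * (p * d₁) := by exact_mod_cast h
    rw [k2] at h'
    have hpp1 : 1 < p * p := by
      have := hp.two_le
      nlinarith
    have h2 : mp * 1 < mp * (p * p) :=
      Nat.mul_lt_mul_of_pos_left hpp1 (Nat.pos_of_ne_zero hmp0)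
    rw [mul_assoc] at h'
    omega
  have hmem : r₀ ∈ Set.range i := by
    refine mem_range_of_unique_common_root i _ (stepPoly Φr (⟨jd d₂, hLr⟩ : L)) r₀ restp hP
      (fun x hx => ⟨?_, ?_⟩) ?_
    · exact (hrestp x hx).ne hr₀lead (fun h => hmpN (neg_injective h))
    · rw [hQ, Polynomial.eval_mul, Polynomial.eval_sub, Polynomial.eval_X, Polynomial.eval_C,
        Polynomial.eval_multiset_prod, Multiset.map_map]
      refine mul_ne_zero (sub_ne_zero.mpr ?_) ?_
      · exact (hrestp x hx).ne hr₀lead (fun h => hmpN (neg_injective h))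
      · rw [Ne, Multiset.prod_eq_zero_iff]
        intro h0
        obtain ⟨y, hy, hy0⟩ := Multiset.mem_map.mp h0
        simp only [Function.comp_apply, Polynomial.eval_sub, Polynomial.eval_X,
          Polynomial.eval_C] at hy0
        exact (hrestp x hx).ne (hrestr y hy) (fun h => hmpr (neg_injective h))
          (sub_eq_zero.mp hy0)
    · rw [hQ]
      simp
  obtain ⟨a, ha⟩ := hmem
  have ha' : toCt N (a : LaurentSeries ℚ) = toCt N (jd (p * d₁)) := by
    rw [toCt_jd hN hd0]
    exact ha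
  have := toCt_injective N ha'
  rw [← this]
  exact a.2

/-- (Z3) every `j(q^d)`, `d ∣ N`, lies in the field generated by the prime-power chains. -/
theorem jd_mem_ppField {N : ℕ} (hN : N ≠ 0)
    (hΦ : ∀ p : ℕ, p.Prime → p ∣ N → ∃ Φ : Polynomial (Polynomial ℤ), RootData p Φ) :
    ∀ d : ℕ, d ∣ N → jd d ∈ ppField N := by
  intro d
  induction d using Nat.strong_induction_on with
  | _ d ih =>
    intro hdN
    have hd0 : d ≠ 0 := fun h => hN (by rw [h] at hdN; exact Nat.eq_zero_of_zero_dvd hdN)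
    by_cases hprime : ∃ p k : ℕ, p.Prime ∧ d = p ^ k
    · obtain ⟨p, k, hp, rfl⟩ := hprime
      exact IntermediateField.subset_adjoin ℚ _ ⟨p, k, hp, hdN, rfl⟩
    · -- two distinct primes divide `d`
      have hd1 : d ≠ 1 := fun h => hprime ⟨2, 0, Nat.prime_two, by rw [h, pow_zero]⟩
      set p := d.minFac with hp
      have hpp : p.Prime := Nat.minFac_prime hd1
      have hpd : p ∣ d := Nat.minFac_dvd d
      have hex : ∃ r : ℕ, r.Prime ∧ r ∣ d ∧ r ≠ p := by
        by_contra hcon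
        exact hprime ⟨p, _, hpp, Nat.eq_prime_pow_of_unique_prime_dvd hd0
          (fun {r} hr hrd => by_contra fun hne => hcon ⟨r, hr, hrd, hne⟩)⟩
      obtain ⟨r, hr, hrd, hrp⟩ := hex
      obtain ⟨Φp, hΦp⟩ := hΦ p hpp (hpd.trans hdN)
      obtain ⟨Φr, hΦr⟩ := hΦ r hr (hrd.trans hdN)
      have hlt : ∀ {s : ℕ}, s.Prime → s ∣ d → d / s < d := fun {s} hs _ =>
        Nat.div_lt_self (Nat.pos_of_ne_zero hd0) hs.one_lt
      exact jd_mem_of_two_primes hN hΦp hΦr hpp hr (Ne.symm hrp) hpd hrd hdN (ppField N)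
        (ih _ (hlt hpp hpd) ((Nat.div_dvd_of_dvd hpd).trans hdN))
        (ih _ (hlt hr hrd) ((Nat.div_dvd_of_dvd hrd).trans hdN))

/-- (Z3) the prime-power chains generate the full function field. -/
theorem modularFunctionFieldFull_eq_ppField {N : ℕ} (hN : N ≠ 0)
    (hΦ : ∀ p : ℕ, p.Prime → p ∣ N → ∃ Φ : Polynomial (Polynomial ℤ), RootData p Φ) :
    modularFunctionFieldFull N = ppField N := by
  apply le_antisymm
  · rw [modularFunctionFieldFull, IntermediateField.adjoin_le_iff]
    rintro x ⟨d, hne, hdvd, rfl⟩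
    have := jd_mem_ppField hN hΦ d hdvd
    rwa [jd_eq d] at this
  · rw [ppField, IntermediateField.adjoin_le_iff]
    rintro x ⟨p, k, hp, hdvd, rfl⟩
    have : NeZero (p ^ k) := ⟨pow_ne_zero k hp.ne_zero⟩
    rw [jd_eq (p ^ k)]
    exact jqd_mem_full N hdvd

/-! ### Adapters: the shapes consumed by the tower assembly (`Tower.Good.step`) -/

/-- A monic polynomial of degree `n` killing `x`, with coefficients in a set `S`, gives
`x ^ n = ∑_{t<n} a t * x ^ t` with `a t ∈ S` (for `S` closed under negation). -/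
theorem exists_pow_eq_sum_of_monic {L : Type*} [CommRing L] {g : Polynomial L} (hg : g.Monic)
    {n : ℕ} (hn : g.natDegree = n) {x : L} (hx : g.eval x = 0) :
    x ^ n = ∑ t : Fin n, (-(g.coeff t)) * x ^ (t : ℕ) := by
  have h := hg.as_sum
  rw [hn] at h
  have h2 := congrArg (Polynomial.eval x) h
  rw [hx, Polynomial.eval_add, Polynomial.eval_pow, Polynomial.eval_X,
    Polynomial.eval_finsetSum] at h2
  have h3 : ∑ t : Fin n, (-(g.coeff t)) * x ^ (t : ℕ) =
      -∑ i ∈ Finset.range n, Polynomial.eval x (C (g.coeff i) * X ^ i) := by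
    rw [← Finset.sum_neg_distrib, Finset.sum_range]
    refine Finset.sum_congr rfl fun t _ => ?_
    simp
  rw [h3]
  exact eq_neg_of_add_eq_zero_left h2.symm

/-- The degree of the `k`-th step of the chain of a prime `p`: `p + 1` for `k = 0`, else `p`. -/
def stepDeg (p k : ℕ) : ℕ := if k = 0 then p + 1 else p

/-- (C0) the char-0 chain step in the shape of `Tower.Good.step`: `j(q^(p^(k+1)))` satisfies a
monic relation of degree `stepDeg p k` over the subfield generated by the `j(q^(p^i))`, `i ≤ k`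
(indeed over the subring they generate). -/
theorem RootData.chain_step (h : RootData p Φ) (hp : 1 < p) (k : ℕ) :
    ∃ a : Fin (stepDeg p k) → LaurentSeries ℚ,
      (∀ t, a t ∈ Subring.closure {x : LaurentSeries ℚ | ∃ i ≤ k, x = jd (p ^ i)}) ∧
      jd (p ^ (k + 1)) ^ (stepDeg p k) =
        ∑ t, a t * jd (p ^ (k + 1)) ^ (t : ℕ) := by
  have hp0 : p ≠ 0 := by omega
  rcases Nat.eq_zero_or_pos k with rfl | hk
  · -- first step: `Φ_p(X, j)`
    obtain ⟨hm, hd, hc, hx⟩ := h.step_first hp0 (d := 1) one_ne_zero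
    rw [one_mul] at hx
    have hsd : stepDeg p 0 = p + 1 := if_pos rfl
    rw [hsd, zero_add, pow_one]
    refine ⟨fun t => -((stepPoly Φ (jd 1)).coeff t), fun t => ?_,
      exists_pow_eq_sum_of_monic hm hd hx⟩
    refine Subring.neg_mem _ (Subring.closure_mono ?_ (hc t))
    rintro _ rfl
    exact ⟨0, le_rfl, by rw [pow_zero]⟩
  · -- chain step: `Φ_p(X, j_{p^k}) / (X − j_{p^(k-1)})`
    obtain ⟨k', rfl⟩ := Nat.exists_eq_succ_of_ne_zero hk.ne'
    obtain ⟨g, hm, hd, hc, hx⟩ := h.step_chain hp (d := p ^ k') (pow_ne_zero _ hp0)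
    have hsd : stepDeg p (k' + 1) = p := if_neg (Nat.succ_ne_zero k')
    have e1 : p ^ k' * p = p ^ (k' + 1) := (pow_succ p k').symm
    have e2 : p ^ k' * p * p = p ^ (k' + 1 + 1) := by rw [e1, ← pow_succ]
    rw [e2] at hx
    rw [e1] at hc
    rw [hsd]
    refine ⟨fun t => -(g.coeff t), fun t => ?_, exists_pow_eq_sum_of_monic hm hd hx⟩
    refine Subring.neg_mem _ (Subring.closure_mono ?_ (hc t))
    rintro _ (rfl | rfl)
    · exact ⟨k' + 1, le_rfl, rfl⟩
    · exact ⟨k', Nat.le_succ k', rfl⟩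

/-- (C0), subfield form. -/
theorem RootData.chain_step' (h : RootData p Φ) (hp : 1 < p) (k : ℕ) :
    ∃ a : Fin (stepDeg p k) → LaurentSeries ℚ,
      (∀ t, a t ∈ Subfield.closure {x : LaurentSeries ℚ | ∃ i ≤ k, x = jd (p ^ i)}) ∧
      jd (p ^ (k + 1)) ^ (stepDeg p k) =
        ∑ t, a t * jd (p ^ (k + 1)) ^ (t : ℕ) := by
  obtain ⟨a, ha, hrel⟩ := h.chain_step hp k
  refine ⟨a, fun t => ?_, hrel⟩
  have hle : Subring.closure {x : LaurentSeries ℚ | ∃ i ≤ k, x = jd (p ^ i)} ≤
      (Subfield.closure {x : LaurentSeries ℚ | ∃ i ≤ k, x = jd (p ^ i)}).toSubring :=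
    Subring.closure_le.mpr Subfield.subset_closure
  exact hle (ha t)

/-- (G) generation, subfield form: every `j(q^d)`, `d ∣ N`, lies in the subfield generated by
the prime-power chains. -/
theorem jd_mem_closure_ppSet {N : ℕ} (hN : N ≠ 0)
    (hΦ : ∀ p : ℕ, p.Prime → p ∣ N → ∃ Φ : Polynomial (Polynomial ℤ), RootData p Φ)
    {d : ℕ} (hd : d ∣ N) : jd d ∈ Subfield.closure (ppSet N) := by
  have h := jd_mem_ppField hN hΦ d hd
  have hle : ppField N ≤ (Subfield.closure (ppSet N)).toIntermediateField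
      (fun q => by
        have : algebraMap ℚ (LaurentSeries ℚ) q = ((q : ℚ) : LaurentSeries ℚ) := by
          rw [eq_ratCast]
        rw [this]
        exact SubfieldClass.ratCast_mem _ q) := by
    rw [ppField, IntermediateField.adjoin_le_iff]
    exact Subfield.subset_closure
  exact hle h

/-- The full function field is contained in the subfield generated by the prime-power chains. -/
theorem modularFunctionFieldFull_le_closure_ppSet {N : ℕ} (hN : N ≠ 0)
    (hΦ : ∀ p : ℕ, p.Prime → p ∣ N → ∃ Φ : Polynomial (Polynomial ℤ), RootData p Φ)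
    {y : LaurentSeries ℚ} (hy : y ∈ modularFunctionFieldFull N) :
    y ∈ Subfield.closure (ppSet N) := by
  rw [modularFunctionFieldFull_eq_ppField hN hΦ] at hy
  have hle : ppField N ≤ (Subfield.closure (ppSet N)).toIntermediateField
      (fun q => by
        have : algebraMap ℚ (LaurentSeries ℚ) q = ((q : ℚ) : LaurentSeries ℚ) := by
          rw [eq_ratCast]
        rw [this]
        exact SubfieldClass.ratCast_mem _ q) := by
    rw [ppField, IntermediateField.adjoin_le_iff]
    exact Subfield.subset_closure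
  exact hle hy

end Fermat.Agent.S28.CharZero
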