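/-
S28, task D7 (design v1 of report #539, "reversed tower"): the characteristic-zero step
polynomials.  For `N = N'·p` the step adjoins `x := J(q^m)` to
`F1 := ℚ(J(q^(m·p·d)) : d ∣ N')`:

* `p ∤ N'`: `x` is a root of `Φ_p(X, J(q^(mp)))`, monic of degree `p + 1` over `ℤ[J(q^(mp))]`;
* `p ∣ N'`: `x` is a root of `Φ_p(X, J(q^(mp))) /ₘ (X − J(q^(mp²)))`, monic of degree `p` over
  `ℤ[J(q^(mp)), J(q^(mp²))]`.

Input: the ζ-free integral modular equation `(ME)`:
`Φ(J, J_p) = 0` and `Φ(J_p, J) = 0` in `LaurentSeries ℤ`.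
-/
import Mathlib
import Fermat.Prelude.Def_ModularCurve_X0ModL
import Fermat.Agent.S28.CharZero

set_option autoImplicit false

noncomputable section

open Polynomial ModularCurve

namespace Fermat.Agent.S28.Char0Step

open Fermat.Agent.S28.CharZero

/-- The integral, ζ-free modular equation `(ME)` for the prime `p`:
`Φ ∈ ℤ[Y][X]` monic of degree `p + 1` in `X` with `Φ(J, J_p) = 0` and `Φ(J_p, J) = 0` in
`ℤ((q))`, where `J = jqModC ℤ`, `J_p = J(q^p)` (first argument = outer variable `X`). -/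
structure ModEq (p : ℕ) (Φ : Polynomial (Polynomial ℤ)) : Prop where
  monic : Φ.Monic
  natDegree_eq : Φ.natDegree = p + 1
  root_down : ev2 Φ (jdR ℤ 1) (jdR ℤ p) = 0
  root_up : ev2 Φ (jdR ℤ p) (jdR ℤ 1) = 0

/-- `(ME)` in terms of the Prelude objects `jqModC ℤ`, `jqNModC ℤ p`. -/
theorem ModEq.mk' {p : ℕ} [NeZero p] {Φ : Polynomial (Polynomial ℤ)} (hm : Φ.Monic)
    (hd : Φ.natDegree = p + 1)
    (h1 : (Φ.map (evalAt (jqNModC ℤ p))).eval (jqModC ℤ) = 0)
    (h2 : (Φ.map (evalAt (jqModC ℤ))).eval (jqNModC ℤ p) = 0) : ModEq p Φ where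
  monic := hm
  natDegree_eq := hd
  root_down := by
    have e1 : jdR ℤ 1 = jqModC ℤ := jdR_one ℤ
    have e2 : jdR ℤ p = jqNModC ℤ p := by
      unfold jdR jqNModC
      rw [qE_eq ℤ p]
    unfold ev2
    rw [e1, e2]
    exact h1
  root_up := by
    have e1 : jdR ℤ 1 = jqModC ℤ := jdR_one ℤ
    have e2 : jdR ℤ p = jqNModC ℤ p := by
      unfold jdR jqNModC
      rw [qE_eq ℤ p]
    unfold ev2
    rw [e1, e2]
    exact h2

variable {p : ℕ} {Φ : Polynomial (Polynomial ℤ)}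

/-- `Φ_p(J(q^m), J(q^(mp))) = 0` over every commutative ring. -/
theorem ModEq.ev2_down (h : ModEq p Φ) (hp : p ≠ 0) (R : Type*) [CommRing R] {m : ℕ}
    (hm : m ≠ 0) : ev2 Φ (jdR R m) (jdR R (m * p)) = 0 := by
  have h1 := congrArg (coeffMap (Int.castRingHom R)) h.root_down
  rw [map_ev2, coeffMap_jdR, coeffMap_jdR, map_zero] at h1
  have h2 := congrArg (qE R m) h1
  rwa [map_ev2, qE_jdR R hm one_ne_zero, qE_jdR R hm hp, mul_one, map_zero] at h2

/-- `Φ_p(J(q^(mp)), J(q^m)) = 0` over every commutative ring. -/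
theorem ModEq.ev2_up (h : ModEq p Φ) (hp : p ≠ 0) (R : Type*) [CommRing R] {m : ℕ}
    (hm : m ≠ 0) : ev2 Φ (jdR R (m * p)) (jdR R m) = 0 := by
  have h1 := congrArg (coeffMap (Int.castRingHom R)) h.root_up
  rw [map_ev2, coeffMap_jdR, coeffMap_jdR, map_zero] at h1
  have h2 := congrArg (qE R m) h1
  rwa [map_ev2, qE_jdR R hm one_ne_zero, qE_jdR R hm hp, mul_one, map_zero] at h2

/-- The step polynomial `Φ_p(X, J(q^(mp)))` over any nontrivial commutative ring: monic of
degree `p + 1`, coefficients in `ℤ[J(q^(mp))]`, root `J(q^m)`. -/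
theorem ModEq.stepPoly_spec (h : ModEq p Φ) (hp : p ≠ 0) (R : Type*) [CommRing R]
    [Nontrivial R] {m : ℕ} (hm : m ≠ 0) :
    (stepPoly Φ (jdR R (m * p))).Monic ∧ (stepPoly Φ (jdR R (m * p))).natDegree = p + 1 ∧
      (∀ i, (stepPoly Φ (jdR R (m * p))).coeff i ∈
        Subring.closure ({jdR R (m * p)} : Set (LaurentSeries R))) ∧
      (stepPoly Φ (jdR R (m * p))).eval (jdR R m) = 0 ∧
      (stepPoly Φ (jdR R (m * p))).eval (jdR R (m * p * p)) = 0 :=
  ⟨stepPoly_monic h.monic _, (stepPoly_natDegree h.monic _).trans h.natDegree_eq,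
    stepPoly_coeff_mem Φ _, h.ev2_down hp R hm, h.ev2_up hp R (Nat.mul_ne_zero hm hp)⟩

/-- The reduced step polynomial `Φ_p(X, J(q^(mp))) /ₘ (X − J(q^(mp²)))` over a field (or any
commutative domain): monic of degree `p`, coefficients in `ℤ[J(q^(mp)), J(q^(mp²))]`,
root `J(q^m)`; and `Φ_p(X, J(q^(mp))) = (X − J(q^(mp²))) * g`. -/
theorem ModEq.exists_reduced (h : ModEq p Φ) (hp : 1 < p) (R : Type*) [CommRing R]
    [IsDomain R] {m : ℕ} (hm : m ≠ 0) :
    ∃ g : Polynomial (LaurentSeries R), g.Monic ∧ g.natDegree = p ∧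
      (∀ i, g.coeff i ∈
        Subring.closure ({jdR R (m * p), jdR R (m * p * p)} : Set (LaurentSeries R))) ∧
      g.eval (jdR R m) = 0 ∧
      stepPoly Φ (jdR R (m * p)) = (X - C (jdR R (m * p * p))) * g := by
  have hp0 : p ≠ 0 := by omega
  obtain ⟨hfm, hfd, hfc, hroot_m, hroot_mpp⟩ := h.stepPoly_spec hp0 R hm
  set f := stepPoly Φ (jdR R (m * p)) with hf
  set a := jdR R (m * p * p) with ha
  have hfac : (X - C a) * (f /ₘ (X - C a)) = f :=
    Polynomial.mul_divByMonic_eq_iff_isRoot.mpr hroot_mpp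
  refine ⟨f /ₘ (X - C a), ?_, ?_, ?_, ?_, hfac.symm⟩
  · have := hfm
    rw [← hfac] at this
    exact (Polynomial.monic_X_sub_C _).of_mul_monic_left this
  · rw [Polynomial.natDegree_divByMonic f (Polynomial.monic_X_sub_C _), hfd,
      Polynomial.natDegree_X_sub_C]
    rfl
  · refine divByMonic_coeff_mem _ (fun i => ?_) (fun i => ?_) (Polynomial.monic_X_sub_C _)
    · exact Subring.closure_mono (by simp) (hfc i)
    · rw [Polynomial.coeff_sub, Polynomial.coeff_X, Polynomial.coeff_C]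
      refine Subring.sub_mem _ ?_ ?_
      · split_ifs
        · exact Subring.one_mem _
        · exact Subring.zero_mem _
      · split_ifs
        · exact Subring.subset_closure (by simp)
        · exact Subring.zero_mem _
  · have h0 := hroot_m
    rw [← hfac, Polynomial.eval_mul, Polynomial.eval_sub, Polynomial.eval_X,
      Polynomial.eval_C] at h0
    rcases mul_eq_zero.mp h0 with h1 | h1
    · exfalso
      have hne : jdR R m ≠ jdR R (m * p * p) := by
        refine jdR_ne R hm (Nat.mul_ne_zero (Nat.mul_ne_zero hm hp0) hp0) ?_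
        intro heq
        have hpp1 : 1 < p * p := by nlinarith
        have h2 : m * 1 < m * (p * p) := Nat.mul_lt_mul_of_pos_left hpp1 (Nat.pos_of_ne_zero hm)
        rw [mul_assoc] at heq
        omega
      exact hne (sub_eq_zero.mp h1)
    · exact h1

/-! ### The `hdeg` shapes for `Tower.Good.step` (over `ℚ`) -/

/-- **D7, case `p ∤ N'`** (degree `p + 1`): `J(q^m)` satisfies a monic relation of degree
`p + 1` with coefficients in `ℤ[J(q^(mp))]`. -/
theorem ModEq.step_new (h : ModEq p Φ) (hp : p ≠ 0) {m : ℕ} (hm : m ≠ 0) :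
    ∃ a : Fin (p + 1) → LaurentSeries ℚ,
      (∀ t, a t ∈ Subring.closure ({jd (m * p)} : Set (LaurentSeries ℚ))) ∧
      jd m ^ (p + 1) = ∑ t, a t * jd m ^ (t : ℕ) := by
  obtain ⟨hfm, hfd, hfc, hroot, -⟩ := h.stepPoly_spec hp ℚ hm
  exact ⟨fun t => -((stepPoly Φ (jdR ℚ (m * p))).coeff t), fun t => Subring.neg_mem _ (hfc t),
    exists_pow_eq_sum_of_monic hfm hfd hroot⟩

/-- **D7, case `p ∣ N'`** (degree `p`): `J(q^m)` satisfies a monic relation of degree `p` with
coefficients in `ℤ[J(q^(mp)), J(q^(mp²))]`. -/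
theorem ModEq.step_old (h : ModEq p Φ) (hp : 1 < p) {m : ℕ} (hm : m ≠ 0) :
    ∃ a : Fin p → LaurentSeries ℚ,
      (∀ t, a t ∈ Subring.closure ({jd (m * p), jd (m * p * p)} : Set (LaurentSeries ℚ))) ∧
      jd m ^ p = ∑ t, a t * jd m ^ (t : ℕ) := by
  obtain ⟨g, hgm, hgd, hgc, hroot, -⟩ := h.exists_reduced hp ℚ hm
  exact ⟨fun t => -(g.coeff t), fun t => Subring.neg_mem _ (hgc t),
    exists_pow_eq_sum_of_monic hgm hgd hroot⟩

/-- **D7, uniform statement**: with `n := if p ∣ N' then p else p + 1`, `J(q^m)` satisfies a monic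
relation of degree `n` with coefficients in the subring generated by the
`J(q^(m·p·d))`, `d ∣ N'`. -/
theorem ModEq.step (h : ModEq p Φ) (hp : 1 < p) (N' : ℕ) {m : ℕ} (hm : m ≠ 0) :
    ∃ a : Fin (if p ∣ N' then p else p + 1) → LaurentSeries ℚ,
      (∀ t, a t ∈ Subring.closure {x : LaurentSeries ℚ | ∃ d, d ∣ N' ∧ x = jd (m * p * d)}) ∧
      jd m ^ (if p ∣ N' then p else p + 1) = ∑ t, a t * jd m ^ (t : ℕ) := by
  have hp0 : p ≠ 0 := by omega
  by_cases hdvd : p ∣ N'
  · rw [if_pos hdvd]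
    obtain ⟨a, ha, hrel⟩ := h.step_old hp hm
    refine ⟨a, fun t => Subring.closure_mono ?_ (ha t), hrel⟩
    rintro _ (rfl | rfl)
    · exact ⟨1, one_dvd _, by rw [mul_one]⟩
    · exact ⟨p, hdvd, rfl⟩
  · rw [if_neg hdvd]
    obtain ⟨a, ha, hrel⟩ := h.step_new hp0 hm
    refine ⟨a, fun t => Subring.closure_mono ?_ (ha t), hrel⟩
    rintro _ rfl
    exact ⟨1, one_dvd _, by rw [mul_one]⟩

end Fermat.Agent.S28.Char0Step
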