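/-
S28: bridges between the parallel interfaces of the characteristic-zero step (D7).

* `ModEq.ModEqData p` (WP5 export, helper95, `ModEq/Data.lean`)
    ⟶ `Char0Step.ModEq p D.Φ` (D7 input) and ⟶ `TD.ModEq p` (reversed-tower interface);
* `TD.ModEq p` ⟶ `Char0Step.ModEq p D.Φ`;
* D7 restated with the `TowerDefs` objects `TD.Jd`, `TD.FF`, `TD.polyAt`.
-/
import Mathlib
import Fermat.Prelude.Def_ModularCurve_X0ModL
import Fermat.Agent.S28.Char0Step
import Fermat.Agent.S28.ModEq.Data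
import Fermat.Agent.S28.TowerDefs

set_option autoImplicit false

noncomputable section

open Polynomial ModularCurve

namespace Fermat.Agent.S28.Char0Bridge

/-- The two `evalAt`s agree over `ℤ`. -/
theorem evalAt_id_eq (J : LaurentSeries ℤ) :
    Fermat.Agent.S28.ModEq.evalAt (RingHom.id ℤ) J = Fermat.Agent.S28.CharZero.evalAt J := by
  refine Polynomial.ringHom_ext (fun a => ?_) ?_
  · simp [Fermat.Agent.S28.ModEq.evalAt, Fermat.Agent.S28.CharZero.evalAt]
  · simp [Fermat.Agent.S28.ModEq.evalAt, Fermat.Agent.S28.CharZero.evalAt]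

/-- The WP5 export gives the `ζ`-free integral modular equation `(ME)` used by D7. -/
theorem modEq_of_modEqData {p : ℕ} [NeZero p] (D : Fermat.Agent.S28.ModEq.ModEqData p) :
    Fermat.Agent.S28.Char0Step.ModEq p D.Φ := by
  refine Fermat.Agent.S28.Char0Step.ModEq.mk' D.Φ_monic D.Φ_natDegree ?_ ?_
  · have h := D.E2
    rwa [evalAt_id_eq, Polynomial.eval₂_eq_eval_map] at h
  · have h := D.E1
    rwa [evalAt_id_eq, Polynomial.eval₂_eq_eval_map] at h

/-- `TD.Jd` and `CharZero.jdR` are the same total function. -/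
theorem Jd_eq_jdR (K : Type*) [CommRing K] (d : ℕ) :
    Fermat.Agent.S28.TD.Jd K d = Fermat.Agent.S28.CharZero.jdR K d := by
  by_cases h : d = 0
  · subst h
    simp [Fermat.Agent.S28.TD.Jd, Fermat.Agent.S28.CharZero.jdR, Fermat.Agent.S28.CharZero.qE]
  · have : NeZero d := ⟨h⟩
    rw [Fermat.Agent.S28.TD.Jd_eq K d]
    unfold Fermat.Agent.S28.CharZero.jdR
    rw [Fermat.Agent.S28.CharZero.qE_eq K d]

theorem Jd_rat_eq_jd (d : ℕ) :
    Fermat.Agent.S28.TD.Jd ℚ d = Fermat.Agent.S28.CharZero.jd d := Jd_eq_jdR ℚ d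

/-- `TD.polyAt` is `CharZero.stepPoly`. -/
theorem polyAt_eq_stepPoly {S : Type*} [CommRing S] (Φ : Polynomial (Polynomial ℤ)) (y : S) :
    Fermat.Agent.S28.TD.polyAt Φ y = Fermat.Agent.S28.CharZero.stepPoly Φ y := rfl

theorem eval_polyAt_eq_ev2 {S : Type*} [CommRing S] (Φ : Polynomial (Polynomial ℤ)) (x y : S) :
    (Fermat.Agent.S28.TD.polyAt Φ y).eval x = Fermat.Agent.S28.CharZero.ev2 Φ x y := rfl

/-- The reversed-tower interface `TD.ModEq p` gives the D7 input. -/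
theorem modEq_of_TD {p : ℕ} (D : Fermat.Agent.S28.TD.ModEq p) :
    Fermat.Agent.S28.Char0Step.ModEq p D.Φ where
  monic := D.monic
  natDegree_eq := D.natDegree_eq
  root_down := by
    have h := D.rel₁
    rwa [eval_polyAt_eq_ev2, Jd_eq_jdR, Jd_eq_jdR] at h
  root_up := by
    have h := D.rel₂
    rwa [eval_polyAt_eq_ev2, Jd_eq_jdR, Jd_eq_jdR] at h

/-- The D7 input gives the reversed-tower interface `TD.ModEq p`. -/
def toTD {p : ℕ} {Φ : Polynomial (Polynomial ℤ)} (h : Fermat.Agent.S28.Char0Step.ModEq p Φ) :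
    Fermat.Agent.S28.TD.ModEq p where
  Φ := Φ
  monic := h.monic
  natDegree_eq := h.natDegree_eq
  rel₁ := by
    rw [eval_polyAt_eq_ev2, Jd_eq_jdR, Jd_eq_jdR]
    exact h.root_down
  rel₂ := by
    rw [eval_polyAt_eq_ev2, Jd_eq_jdR, Jd_eq_jdR]
    exact h.root_up

/-- The WP5 export as a `TD.ModEq p`. -/
def modEqDataToTD {p : ℕ} [NeZero p] (D : Fermat.Agent.S28.ModEq.ModEqData p) :
    Fermat.Agent.S28.TD.ModEq p := toTD (modEq_of_modEqData D)

theorem modEqDataToTD_Φ {p : ℕ} [NeZero p] (D : Fermat.Agent.S28.ModEq.ModEqData p) :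
    (modEqDataToTD D).Φ = D.Φ := rfl

/-- **D7 in `TowerDefs` form.** For `N = N'·p` and `m ≥ 1`, with
`n := if p ∣ N' then p else p + 1`: the new generator `x = J(q^m)` satisfies a monic relation
of degree `n` with coefficients in `F1 = FF ℚ N' (m·p) = ℚ(J(q^(m·p·d)) : d ∣ N')`
(indeed in the subring generated by these series).  This is `hdeg` of `Tower.Good.step`. -/
theorem step_TD {p : ℕ} (D : Fermat.Agent.S28.TD.ModEq p) (hp : 1 < p) (N' : ℕ) {m : ℕ}
    (hm : m ≠ 0) :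
    ∃ a : Fin (if p ∣ N' then p else p + 1) → LaurentSeries ℚ,
      (∀ t, a t ∈ Subring.closure
          ((fun d => Fermat.Agent.S28.TD.Jd ℚ (m * p * d)) '' {d | d ∣ N'})) ∧
      (∀ t, a t ∈ Fermat.Agent.S28.TD.FF ℚ N' (m * p)) ∧
      Fermat.Agent.S28.TD.Jd ℚ m ^ (if p ∣ N' then p else p + 1) =
        ∑ t, a t * Fermat.Agent.S28.TD.Jd ℚ m ^ (t : ℕ) := by
  obtain ⟨a, ha, hrel⟩ := (modEq_of_TD D).step hp N' hm
  have hsub : ∀ t, a t ∈ Subring.closure
      ((fun d => Fermat.Agent.S28.TD.Jd ℚ (m * p * d)) '' {d | d ∣ N'}) := by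
    intro t
    refine Subring.closure_mono ?_ (ha t)
    rintro _ ⟨d, hd, rfl⟩
    exact ⟨d, hd, Jd_rat_eq_jd _⟩
  refine ⟨a, hsub, fun t => ?_, ?_⟩
  · have hle : Subring.closure
        ((fun d => Fermat.Agent.S28.TD.Jd ℚ (m * p * d)) '' {d | d ∣ N'}) ≤
        (Fermat.Agent.S28.TD.FF ℚ N' (m * p)).toSubring := by
      rw [Subring.closure_le]
      exact IntermediateField.subset_adjoin ℚ _
    exact hle (hsub t)
  · rw [Jd_rat_eq_jd]
    exact hrel

/-- D7 directly from the WP5 export. -/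
theorem step_of_modEqData {p : ℕ} [NeZero p] (D : Fermat.Agent.S28.ModEq.ModEqData p)
    (hp : 1 < p) (N' : ℕ) {m : ℕ} (hm : m ≠ 0) :
    ∃ a : Fin (if p ∣ N' then p else p + 1) → LaurentSeries ℚ,
      (∀ t, a t ∈ Subring.closure
          ((fun d => Fermat.Agent.S28.TD.Jd ℚ (m * p * d)) '' {d | d ∣ N'})) ∧
      (∀ t, a t ∈ Fermat.Agent.S28.TD.FF ℚ N' (m * p)) ∧
      Fermat.Agent.S28.TD.Jd ℚ m ^ (if p ∣ N' then p else p + 1) =
        ∑ t, a t * Fermat.Agent.S28.TD.Jd ℚ m ^ (t : ℕ) :=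
  step_TD (modEqDataToTD D) hp N' hm

end Fermat.Agent.S28.Char0Bridge
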