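/-
S28, task D9int (reversed tower, design v1): `J(q^m)` and `J(q^(m·N))` are integral over each
other, over `ℤ`:

  `IsIntegral ℤ[J(q^(mN))] (J(q^m))`   and   `IsIntegral ℤ[J(q^m)] (J(q^(mN)))`

for every `N ≠ 0` all of whose prime divisors have a modular equation `TD.ModEq r`.
One step = the monic polynomial `TD.polyAt D.Φ (Jd (m·p))` vanishing at `Jd m` (`rel₁'`), resp.
`TD.polyAt D.Φ (Jd m)` vanishing at `Jd (m·p)` (`rel₂'`); then transitivity of integrality.
-/
import Mathlib
import Fermat.Prelude.Def_ModularCurve_X0ModL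
import Fermat.Agent.S28.TowerDefs

set_option autoImplicit false

noncomputable section

open Polynomial ModularCurve

namespace Fermat.Agent.S28.Integrality

open Fermat.Agent.S28

section Abstract

variable {L : Type*} [CommRing L]

/-- Integrality over a subring persists over a bigger subring. -/
theorem isIntegral_of_le {B C : Subring L} (h : B ≤ C) {x : L} (hx : IsIntegral B x) :
    IsIntegral C x := by
  obtain ⟨f, hf, hfx⟩ := hx
  refine ⟨f.map (Subring.inclusion h), hf.map _, ?_⟩
  rw [Polynomial.eval₂_map]
  exact hfx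

/-- Transitivity of integrality for subrings of a common ring: if every element of `B` is
integral over `A` and `x` is integral over `B`, then `x` is integral over `A`. -/
theorem isIntegral_trans_subring {A B : Subring L} (hB : ∀ b ∈ B, IsIntegral A b) {x : L}
    (hx : IsIntegral B x) : IsIntegral A x := by
  let φ : B →+* integralClosure A L :=
    RingHom.codRestrict B.subtype (integralClosure A L) (fun b => hB b b.2)
  obtain ⟨f, hf, hfx⟩ := hx
  have hx' : IsIntegral (integralClosure A L) x := by
    refine ⟨f.map φ, hf.map _, ?_⟩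
    rw [Polynomial.eval₂_map]
    exact hfx
  exact isIntegral_trans (R := A) (A := integralClosure A L) x hx'

/-- Every element of the subring generated by a set of `A`-integral elements is `A`-integral. -/
theorem isIntegral_of_mem_closure {A : Subring L} {s : Set L} (hs : ∀ y ∈ s, IsIntegral A y)
    {b : L} (hb : b ∈ Subring.closure s) : IsIntegral A b := by
  have hle : Subring.closure s ≤ (integralClosure A L).toSubring := by
    rw [Subring.closure_le]
    exact hs
  exact hle hb

/-- Transitivity through a generated subring: if all generators `y ∈ s` are integral over `A`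
and `x` is integral over `ℤ[s]`, then `x` is integral over `A`. -/
theorem isIntegral_closure_trans {A : Subring L} {s : Set L} (hs : ∀ y ∈ s, IsIntegral A y)
    {x : L} (hx : IsIntegral (Subring.closure s) x) : IsIntegral A x :=
  isIntegral_trans_subring (fun _ hb => isIntegral_of_mem_closure hs hb) hx

/-- An element of a subring is integral over it. -/
theorem isIntegral_of_mem {A : Subring L} {x : L} (hx : x ∈ A) : IsIntegral A x :=
  isIntegral_algebraMap (R := A) (A := L) (x := ⟨x, hx⟩)

/-- A root `x` of the monic polynomial `Φ(X, y)` is integral over `ℤ[y]`. -/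
theorem isIntegral_of_polyAt {Φ : Polynomial (Polynomial ℤ)} (hΦ : Φ.Monic) {x y : L}
    (h : (TD.polyAt Φ y).eval x = 0) : IsIntegral (Subring.closure ({y} : Set L)) x := by
  let y' : Subring.closure ({y} : Set L) := ⟨y, Subring.subset_closure (Set.mem_singleton y)⟩
  refine ⟨TD.polyAt Φ y', TD.polyAt_monic hΦ y', ?_⟩
  rw [← Polynomial.eval_map, TD.polyAt_map]
  exact h

/-- If all elements of the subring `B` lie in the image of `C`, integrality over `B` implies
integrality over `C`. -/
theorem isIntegral_of_forall_mem_range {B : Subring L} {C : Type*} [CommRing C] [Algebra C L]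
    (h : ∀ b ∈ B, b ∈ (algebraMap C L).range) {x : L} (hx : IsIntegral B x) : IsIntegral C x := by
  obtain ⟨f, hf, hfx⟩ := hx
  have hlift : f.map B.subtype ∈ Polynomial.lifts (algebraMap C L) := by
    rw [Polynomial.lifts_iff_coeff_lifts]
    intro n
    rw [Polynomial.coeff_map]
    exact h _ (f.coeff n).2
  obtain ⟨g, hg, -, hgm⟩ :=
    Polynomial.lifts_and_natDegree_eq_and_monic hlift (hf.map B.subtype)
  refine ⟨g, hgm, ?_⟩
  rw [← Polynomial.eval_map, hg, Polynomial.eval_map]
  exact hfx

/-- Integrality over `ℤ[s]` implies integrality over `R[s]`. -/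
theorem isIntegral_adjoin_of_closure {R : Type*} [CommRing R] [Algebra R L] {s : Set L} {x : L}
    (hx : IsIntegral (Subring.closure s) x) : IsIntegral (Algebra.adjoin R s) x := by
  refine isIntegral_of_forall_mem_range (fun b hb => ?_) hx
  have hle : Subring.closure s ≤ (Algebra.adjoin R s).toSubring := by
    rw [Subring.closure_le]
    exact Algebra.subset_adjoin
  exact ⟨⟨b, hle hb⟩, rfl⟩

/-- Transitivity through a generated subalgebra: if all generators `y ∈ s` are integral over the
subalgebra `S` and `x` is integral over `R[s]`, then `x` is integral over `S`. -/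
theorem isIntegral_adjoin_trans {R : Type*} [CommRing R] [Algebra R L] {S : Subalgebra R L}
    {s : Set L} (hs : ∀ y ∈ s, IsIntegral S y) {x : L}
    (hx : IsIntegral (Algebra.adjoin R s) x) : IsIntegral S x := by
  have hle : Algebra.adjoin R s ≤ (integralClosure S L).restrictScalars R :=
    Algebra.adjoin_le hs
  let φ : Algebra.adjoin R s →+* integralClosure S L :=
    RingHom.codRestrict (algebraMap (Algebra.adjoin R s) L) (integralClosure S L)
      (fun b => hle b.2)
  obtain ⟨f, hf, hfx⟩ := hx
  have hx' : IsIntegral (integralClosure S L) x := by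
    refine ⟨f.map φ, hf.map _, ?_⟩
    rw [Polynomial.eval₂_map]
    exact hfx
  exact isIntegral_trans (R := S) (A := integralClosure S L) x hx'

/-- If `y` is integral over `ℤ[z]` and `z` is integral over `ℤ[y]`, then `R[y]` and `R[z]` have
the same integral elements, for every coefficient ring `R`. -/
theorem isIntegral_adjoin_iff_of_closure {R : Type*} [CommRing R] [Algebra R L] {y z : L}
    (hy : IsIntegral (Subring.closure ({z} : Set L)) y)
    (hz : IsIntegral (Subring.closure ({y} : Set L)) z) (x : L) :
    IsIntegral (Algebra.adjoin R ({y} : Set L)) x ↔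
      IsIntegral (Algebra.adjoin R ({z} : Set L)) x := by
  constructor
  · intro hx
    refine isIntegral_adjoin_trans ?_ hx
    rintro _ rfl
    exact isIntegral_adjoin_of_closure hy
  · intro hx
    refine isIntegral_adjoin_trans ?_ hx
    rintro _ rfl
    exact isIntegral_adjoin_of_closure hz

/-- Subring version: if `y` is integral over `ℤ[z]` and `z` over `ℤ[y]`, then for every subring
`R₀` the rings `R₀[y]` and `R₀[z]` have the same integral elements. -/
theorem isIntegral_closure_union_iff_of_closure (R₀ : Subring L) {y z : L}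
    (hy : IsIntegral (Subring.closure ({z} : Set L)) y)
    (hz : IsIntegral (Subring.closure ({y} : Set L)) z) (x : L) :
    IsIntegral (Subring.closure ((R₀ : Set L) ∪ {y})) x ↔
      IsIntegral (Subring.closure ((R₀ : Set L) ∪ {z})) x := by
  have key : ∀ {u v : L}, IsIntegral (Subring.closure ({v} : Set L)) u →
      IsIntegral (Subring.closure ((R₀ : Set L) ∪ {u})) x →
      IsIntegral (Subring.closure ((R₀ : Set L) ∪ {v})) x := by
    intro u v huv hx
    refine isIntegral_closure_trans ?_ hx
    rintro w (hw | rfl)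
    · exact isIntegral_of_mem (Subring.subset_closure (Or.inl hw))
    · exact isIntegral_of_le (Subring.closure_mono Set.subset_union_right) huv
  exact ⟨key hy, key hz⟩

end Abstract

section Steps

variable {p : ℕ}

/-- One step down: `J(q^m)` is integral over `ℤ[J(q^(m·p))]` (any coefficient ring). -/
theorem isIntegral_step_down (D : TD.ModEq p) (hp : p ≠ 0) (K : Type*) [CommRing K] (m : ℕ)
    (hm : m ≠ 0) :
    IsIntegral (Subring.closure ({TD.Jd K (m * p)} : Set (LaurentSeries K))) (TD.Jd K m) :=
  isIntegral_of_polyAt D.monic (D.rel₁' hp K m hm)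

/-- One step up: `J(q^(m·p))` is integral over `ℤ[J(q^m)]` (any coefficient ring). -/
theorem isIntegral_step_up (D : TD.ModEq p) (hp : p ≠ 0) (K : Type*) [CommRing K] (m : ℕ)
    (hm : m ≠ 0) :
    IsIntegral (Subring.closure ({TD.Jd K m} : Set (LaurentSeries K))) (TD.Jd K (m * p)) :=
  isIntegral_of_polyAt D.monic (D.rel₂' hp K m hm)

end Steps

/-- **D9int**, over an arbitrary coefficient ring `K`: for `N ≠ 0` whose prime divisors all have
a modular equation, `J(q^m)` and `J(q^(m·N))` are integral over each other (over `ℤ`). -/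
theorem isIntegral_Jd_of_commRing (K : Type*) [CommRing K] (N : ℕ) (hN : N ≠ 0)
    (hME : ∀ r : ℕ, r.Prime → r ∣ N → Nonempty (TD.ModEq r)) (m : ℕ) (hm : m ≠ 0) :
    IsIntegral (Subring.closure ({TD.Jd K (m * N)} : Set (LaurentSeries K))) (TD.Jd K m) ∧
      IsIntegral (Subring.closure ({TD.Jd K m} : Set (LaurentSeries K))) (TD.Jd K (m * N)) := by
  induction N using Nat.recOnMul generalizing m with
  | zero => exact absurd rfl hN
  | one =>
    rw [mul_one]
    exact ⟨isIntegral_of_mem (Subring.subset_closure (Set.mem_singleton _)),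
      isIntegral_of_mem (Subring.subset_closure (Set.mem_singleton _))⟩
  | prime p hp =>
    obtain ⟨D⟩ := hME p hp dvd_rfl
    exact ⟨isIntegral_step_down D hp.ne_zero K m hm, isIntegral_step_up D hp.ne_zero K m hm⟩
  | mul a b iha ihb =>
    have ha0 : a ≠ 0 := fun h => hN (by rw [h, zero_mul])
    have hb0 : b ≠ 0 := fun h => hN (by rw [h, mul_zero])
    have hma : m * a ≠ 0 := Nat.mul_ne_zero hm ha0
    obtain ⟨ha1, ha2⟩ := iha ha0 (fun r hr hra => hME r hr (hra.trans (dvd_mul_right a b))) m hm
    obtain ⟨hb1, hb2⟩ := ihb hb0 (fun r hr hrb => hME r hr (hrb.trans (dvd_mul_left b a)))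
      (m * a) hma
    rw [← mul_assoc]
    refine ⟨isIntegral_closure_trans ?_ ha1, isIntegral_closure_trans ?_ hb2⟩
    · rintro y rfl
      exact hb1
    · rintro y rfl
      exact ha2

/-- **D9int** (task 116): `J(q^m)` and `J(q^(m·N))` are integral over each other over `ℤ`,
inside `ℚ((q))`. -/
theorem isIntegral_Jd (N : ℕ) (hN : N ≠ 0)
    (hME : ∀ r : ℕ, r.Prime → r ∣ N → Nonempty (TD.ModEq r)) (m : ℕ) (hm : m ≠ 0) :
    IsIntegral (Subring.closure {TD.Jd ℚ (m * N)}) (TD.Jd ℚ m) ∧
      IsIntegral (Subring.closure {TD.Jd ℚ m}) (TD.Jd ℚ (m * N)) :=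
  isIntegral_Jd_of_commRing ℚ N hN hME m hm

/-- Divisor form: for `d ∣ N`, `J(q^(m·d))` is integral over `ℤ[J(q^(m·N))]` and over
`ℤ[J(q^m)]`. -/
theorem isIntegral_Jd_dvd (K : Type*) [CommRing K] (N : ℕ) (hN : N ≠ 0)
    (hME : ∀ r : ℕ, r.Prime → r ∣ N → Nonempty (TD.ModEq r)) (m : ℕ) (hm : m ≠ 0) {d : ℕ}
    (hd : d ∣ N) :
    IsIntegral (Subring.closure ({TD.Jd K (m * N)} : Set (LaurentSeries K))) (TD.Jd K (m * d)) ∧
      IsIntegral (Subring.closure ({TD.Jd K m} : Set (LaurentSeries K))) (TD.Jd K (m * d)) := by
  obtain ⟨e, rfl⟩ := hd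
  have hd0 : d ≠ 0 := fun h => hN (by rw [h, zero_mul])
  have he0 : e ≠ 0 := fun h => hN (by rw [h, mul_zero])
  constructor
  · have h := (isIntegral_Jd_of_commRing K e he0
      (fun r hr hre => hME r hr (hre.trans (dvd_mul_left e d))) (m * d)
      (Nat.mul_ne_zero hm hd0)).1
    rwa [mul_assoc] at h
  · exact (isIntegral_Jd_of_commRing K d hd0
      (fun r hr hrd => hME r hr (hrd.trans (dvd_mul_right d e))) m hm).2

/-- **Consumer form (subalgebras).** For every coefficient ring `R` acting on `K((q))`, the
rings `R[J(q^(m·N))]` and `R[J(q^m)]` have the same integral elements. -/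
theorem isIntegral_adjoin_Jd_iff (K : Type*) [CommRing K] (R : Type*) [CommRing R]
    [Algebra R (LaurentSeries K)] (N : ℕ) (hN : N ≠ 0)
    (hME : ∀ r : ℕ, r.Prime → r ∣ N → Nonempty (TD.ModEq r)) (m : ℕ) (hm : m ≠ 0)
    (x : LaurentSeries K) :
    IsIntegral (Algebra.adjoin R ({TD.Jd K (m * N)} : Set (LaurentSeries K))) x ↔
      IsIntegral (Algebra.adjoin R ({TD.Jd K m} : Set (LaurentSeries K))) x := by
  obtain ⟨h1, h2⟩ := isIntegral_Jd_of_commRing K N hN hME m hm
  exact isIntegral_adjoin_iff_of_closure h2 h1 x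

/-- **Consumer form (subrings).** For every subring `R₀` of `K((q))`, the rings
`R₀[J(q^(m·N))]` and `R₀[J(q^m)]` have the same integral elements. -/
theorem isIntegral_closure_Jd_iff (K : Type*) [CommRing K] (R₀ : Subring (LaurentSeries K))
    (N : ℕ) (hN : N ≠ 0) (hME : ∀ r : ℕ, r.Prime → r ∣ N → Nonempty (TD.ModEq r)) (m : ℕ)
    (hm : m ≠ 0) (x : LaurentSeries K) :
    IsIntegral (Subring.closure ((R₀ : Set (LaurentSeries K)) ∪ {TD.Jd K (m * N)})) x ↔
      IsIntegral (Subring.closure ((R₀ : Set (LaurentSeries K)) ∪ {TD.Jd K m})) x := by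
  obtain ⟨h1, h2⟩ := isIntegral_Jd_of_commRing K N hN hME m hm
  exact isIntegral_closure_union_iff_of_closure R₀ h2 h1 x

end Fermat.Agent.S28.Integrality
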