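import Fermat.Agent.S28.ChainCore

/-!
# S28, route C: the forward chain by degree counting (exports, task S28-C1)

For an arbitrary field `k : Type`, a level `N` and a prime `p` with `N * p ≠ 0` in `k`, from the
modular equations `TD.ModEq r` and the base cases `TD.BaseCase r` for the primes `r ∣ N * p`:

* `chain_le_natDegree`: a nonzero polynomial over the full modular function field of level `N`
  vanishing at `J(q^(p^(v_p(N)+1)))` has degree `≥ p` (`p ∣ N`) resp. `≥ p + 1` (`p ∤ N`);
* `chain_exists_monic`: a monic polynomial of exactly that degree with this root;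
* `full_mul_prime_eq`: the field of level `N * p` is generated by this element over level `N`.

The roots of unity and the base case are used over `AlgebraicClosure k`; the descent to `k` is by
the (injective) change of coefficients.
-/

set_option autoImplicit false

noncomputable section

namespace Fermat.Agent.S28

open ModularCurve Polynomial IntermediateField

namespace Chain

open Fermat.Agent.S28.TD (Jd)

/-- The tower interface `TD.ModEq p` gives the root-list input `Kummer.ModEqData p`. -/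
def ofTD {p : ℕ} [NeZero p] (D : TD.ModEq p) : Kummer.ModEqData p where
  Φ := D.Φ
  monic := D.monic
  natDegree_eq := D.natDegree_eq
  rel₁ := by
    have h : Kummer.ev D.Φ (Jd ℤ p) (Jd ℤ 1) = 0 :=
      (Kummer.eval_specialize D.Φ _ _).symm.trans D.rel₂
    rwa [TD.Jd_one, TD.Jd_eq_jqNModC] at h
  rel₂ := by
    have h : Kummer.ev D.Φ (Jd ℤ 1) (Jd ℤ p) = 0 :=
      (Kummer.eval_specialize D.Φ _ _).symm.trans D.rel₁
    rwa [TD.Jd_one, TD.Jd_eq_jqNModC] at h

/-- The full modular function field of level `N` over `k` is `κ_N`. -/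
theorem full_eq_kap (k : Type*) [Field k] (N : ℕ) [NeZero N] :
    modularFunctionFieldFullC k N = kap k N := by
  unfold modularFunctionFieldFullC kap
  congr 1
  ext x
  constructor
  · rintro ⟨d, hne, hd, rfl⟩
    exact ⟨d, hd, TD.Jd_eq k d⟩
  · rintro ⟨d, hd, rfl⟩
    have hd0 : d ≠ 0 := fun h => NeZero.ne N (by simpa [h] using hd)
    have : NeZero d := ⟨hd0⟩
    exact ⟨d, ⟨hd0⟩, hd, TD.Jd_eq k d⟩

theorem kap_one (K : Type*) [Field K] : kap K 1 = adjoin K {Jd K 1} := by
  unfold kap
  congr 1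
  ext x
  constructor
  · rintro ⟨d, hd, rfl⟩
    have hd' : d ∣ 1 := hd
    rw [Nat.dvd_one.mp hd']
    exact Set.mem_singleton _
  · intro hx
    rw [Set.mem_singleton_iff] at hx
    exact ⟨1, dvd_refl 1, hx.symm⟩

/-- Change of coefficients maps `κ_N(k)` into `κ_N(K)`. -/
theorem coeffMap_mem_kap {k K : Type*} [Field k] [Field K] (φ : k →+* K) (N : ℕ)
    {y : LaurentSeries k} (hy : y ∈ kap k N) : coeffMap φ y ∈ kap K N := by
  have h : (kap k N).toSubfield ≤ (kap K N).toSubfield.comap (coeffMap φ) := by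
    apply IntermediateField.adjoin_le_subfield
    · rintro _ ⟨c, rfl⟩
      show coeffMap φ (algebraMap k (LaurentSeries k) c) ∈ kap K N
      rw [algebraMap_laurentSeries_eq_single, coeffMap_single,
        ← algebraMap_laurentSeries_eq_single]
      exact (kap K N).algebraMap_mem (φ c)
    · rintro _ ⟨d, hd, rfl⟩
      show coeffMap φ (Jd k d) ∈ kap K N
      rw [TD.coeffMap_Jd]
      exact Jd_mem_kap hd
  exact h hy

/-- `N = p^a * D` with `a = v_p(N)` and `p ∤ D`. -/
theorem exists_decomp {N p : ℕ} (hN : N ≠ 0) (hp : p.Prime) :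
    ∃ D, D ≠ 0 ∧ ¬ p ∣ D ∧ N = p ^ padicValNat p N * D := by
  obtain ⟨e, D, hD, hND⟩ := Nat.exists_eq_pow_mul_and_not_dvd hN p hp.ne_one
  have hD0 : D ≠ 0 := by
    rintro rfl
    exact hD (dvd_zero p)
  have := Fact.mk hp
  have he : padicValNat p N = e := by
    rw [hND, padicValNat.mul (pow_ne_zero e hp.ne_zero) hD0, padicValNat.prime_pow,
      padicValNat.eq_zero_of_not_dvd hD, add_zero]
  exact ⟨D, hD0, hD, by rw [he]; exact hND⟩

/-- Primitive `r`-th roots of unity in the algebraic closure, for `r ∣ M` with `M ≠ 0` in `k`. -/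
theorem exists_primitiveRoot_algebraicClosure {k : Type*} [Field k] {M : ℕ}
    (hMk : (M : k) ≠ 0) (r : ℕ) (hr : r.Prime) (hrd : r ∣ M) :
    ∃ ζ : (AlgebraicClosure k)ˣ, IsPrimitiveRoot ζ r := by
  have hrk : (r : k) ≠ 0 := by
    intro h
    apply hMk
    obtain ⟨c, hc⟩ := hrd
    rw [hc, Nat.cast_mul, h, zero_mul]
  have : NeZero (r : k) := ⟨hrk⟩
  obtain ⟨ζ, hζ⟩ := HasEnoughRootsOfUnity.exists_primitiveRoot (AlgebraicClosure k) r
  have hζ0 : ζ ≠ 0 := hζ.ne_zero hr.ne_zero
  exact ⟨Units.mk0 ζ hζ0, IsPrimitiveRoot.coe_units_iff.mp hζ⟩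

theorem natCast_algebraicClosure_ne_zero {k : Type*} [Field k] {M : ℕ} (hMk : (M : k) ≠ 0) :
    (M : AlgebraicClosure k) ≠ 0 := by
  intro h
  apply hMk
  have h2 : algebraMap k (AlgebraicClosure k) (M : k) = 0 := by rw [map_natCast]; exact h
  exact (map_eq_zero _).mp h2

/-- **Generation over an arbitrary field** (no roots of unity needed in `k`). -/
theorem kap_mul_prime_of_field {k : Type*} [Field k] {p : ℕ} [NeZero p] (hp : p.Prime)
    (a D : ℕ) (hD : D ≠ 0) (hpD : ¬ p ∣ D) (hNk : ((p * D : ℕ) : k) ≠ 0)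
    (hME : ∀ r : ℕ, r.Prime → r ∣ p * D → Nonempty (TD.ModEq r)) :
    kap k (p ^ a * D * p) = kap k (p ^ a * D) ⊔ k⟮Jd k (p ^ (a + 1))⟯ :=
  kap_mul_prime (algebraMap k (AlgebraicClosure k)) hp a D hD hpD
    (fun r _ hr hrd => ⟨ofTD (hME r hr hrd).some⟩)
    (fun r hr hrd => exists_primitiveRoot_algebraicClosure hNk r hr hrd)

variable {k : Type} [Field k]

/-- The degree bound over an arbitrary field `k`, in terms of `κ`. -/
theorem le_natDegree_of_aeval_eq_zero {p : ℕ} [NeZero p] (hp : p.Prime) (a D : ℕ) (hD : D ≠ 0)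
    (hpD : ¬ p ∣ D) (hNk : ((p * D : ℕ) : k) ≠ 0)
    (hME : ∀ r : ℕ, r.Prime → r ∣ p * D → Nonempty (TD.ModEq r))
    (hBC : TD.BaseCase p)
    (f : Polynomial (kap k (p ^ a * D))) (hf : f ≠ 0)
    (h0 : aeval (Jd k (p ^ (a + 1))) f = 0) :
    (if a = 0 then p + 1 else p) ≤ f.natDegree := by
  let K := AlgebraicClosure k
  let φ : k →+* K := algebraMap k K
  have hNK : ((p * D : ℕ) : K) ≠ 0 := natCast_algebraicClosure_ne_zero hNk
  have hpK : (p : K) ≠ 0 := by
    intro h
    apply hNK
    rw [Nat.cast_mul, h, zero_mul]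
  have hdata : ∀ (r : ℕ) [NeZero r], r.Prime → r ∣ p * D → Nonempty (Kummer.ModEqData r) :=
    fun r _ hr hrd => ⟨ofTD (hME r hr hrd).some⟩
  have hζ : ∀ r : ℕ, r.Prime → r ∣ p * D → ∃ ζ : Kˣ, IsPrimitiveRoot ζ r :=
    fun r hr hrd => exists_primitiveRoot_algebraicClosure hNk r hr hrd
  have hBCK : Jd K p ∉ kap K 1 := by
    rw [kap_one]
    exact hBC K hpK
  have hmain := le_natDegree_minpoly (K := K) hp a D hD hpD hdata hζ hBCK
  -- transfer `f` to `K`
  let ψ : kap k (p ^ a * D) →+* kap K (p ^ a * D) :=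
    { toFun := fun y => ⟨coeffMap φ y.1, coeffMap_mem_kap φ _ y.2⟩
      map_one' := Subtype.ext (map_one (coeffMap φ))
      map_mul' := fun x y => Subtype.ext (map_mul (coeffMap φ) x.1 y.1)
      map_zero' := Subtype.ext (map_zero (coeffMap φ))
      map_add' := fun x y => Subtype.ext (map_add (coeffMap φ) x.1 y.1) }
  have hψ : Function.Injective ψ := ψ.injective
  have hg0 : f.map ψ ≠ 0 := (Polynomial.map_ne_zero_iff hψ).mpr hf
  have hgdeg : (f.map ψ).natDegree = f.natDegree := natDegree_map_eq_of_injective hψ f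
  have hcomp : (algebraMap (kap K (p ^ a * D)) (LaurentSeries K)).comp ψ =
      (coeffMap φ).comp (algebraMap (kap k (p ^ a * D)) (LaurentSeries k)) := rfl
  have hgroot : aeval (Jd K (p ^ (a + 1))) (f.map ψ) = 0 := by
    rw [aeval_def, eval₂_map, hcomp, ← TD.coeffMap_Jd φ, ← Polynomial.hom_eval₂]
    rw [aeval_def] at h0
    rw [h0, map_zero]
  have hdvd := minpoly.dvd (kap K (p ^ a * D)) (Jd K (p ^ (a + 1))) hgroot
  have hle := natDegree_le_of_dvd hdvd hg0
  rw [hgdeg] at hle
  exact hmain.trans hle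

end Chain

/-! ### The exported statements (task S28-C1, amendment 1a) -/

section Export

open Fermat.Agent.S28.TD (Jd)

variable {k : Type} [Field k] {N p : ℕ} [NeZero N] [NeZero p]

omit [NeZero N] [NeZero p] in
theorem Chain.mul_dvd_of_decomp {D : ℕ} (hND : N = p ^ padicValNat p N * D) :
    p * D ∣ N * p := by
  have h : D ∣ N := Dvd.intro_left _ hND.symm
  rw [mul_comm p D]
  exact Nat.mul_dvd_mul_right h p

/-- **(Cℓ) Degree bound.** A nonzero polynomial over the full modular function field of level `N`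
over `k` vanishing at `J(q^(p^(v_p(N)+1)))` has degree at least `p` (if `p ∣ N`) resp. `p + 1`. -/
theorem chain_le_natDegree (hp : p.Prime) (hNk : ((N * p : ℕ) : k) ≠ 0)
    (hME : ∀ r : ℕ, r.Prime → r ∣ N * p → Nonempty (TD.ModEq r))
    (hBC : ∀ r : ℕ, r.Prime → r ∣ N * p → TD.BaseCase r)
    (f : Polynomial ↥(modularFunctionFieldFullC k N)) (hf : f ≠ 0)
    (h0 : Polynomial.aeval (qExpand k (p ^ (padicValNat p N + 1)) (jqModC k)) f = 0) :
    (if p ∣ N then p else p + 1) ≤ f.natDegree := by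
  obtain ⟨D, hD0, hpD, hND⟩ := Chain.exists_decomp (NeZero.ne N) hp
  have hdvd : p * D ∣ N * p := Chain.mul_dvd_of_decomp hND
  have hNk' : ((p * D : ℕ) : k) ≠ 0 := by
    intro h
    apply hNk
    obtain ⟨c, hc⟩ := hdvd
    rw [hc, Nat.cast_mul, h, zero_mul]
  have h0' : aeval (Jd k (p ^ (padicValNat p N + 1))) f = 0 := by
    rw [TD.Jd_eq]
    exact h0
  have key : ∀ (F : IntermediateField k (LaurentSeries k)) (M : ℕ), M = p ^ padicValNat p N * D →
      F = Chain.kap k M → ∀ f : Polynomial F, f ≠ 0 →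
      aeval (Jd k (p ^ (padicValNat p N + 1))) f = 0 →
      (if padicValNat p N = 0 then p + 1 else p) ≤ f.natDegree := by
    intro F M hM hF
    subst hF
    subst hM
    intro f hf h0
    exact Chain.le_natDegree_of_aeval_eq_zero hp _ D hD0 hpD hNk'
      (fun r hr hrd => hME r hr (dvd_trans hrd hdvd)) (hBC p hp (dvd_mul_left p N)) f hf h0
  have hmain := key _ N hND (Chain.full_eq_kap k N) f hf h0'
  have hiff : p ∣ N ↔ padicValNat p N ≠ 0 := by
    have := Fact.mk hp
    exact dvd_iff_padicValNat_ne_zero (NeZero.ne N)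
  by_cases h : p ∣ N
  · rw [if_pos h]
    rw [if_neg (hiff.mp h)] at hmain
    exact hmain
  · rw [if_neg h]
    rw [if_pos (not_not.mp (mt hiff.mpr h))] at hmain
    exact hmain

set_option linter.unusedVariables false in
/-- **(C0) Upper bound.** A monic polynomial of degree `p` (if `p ∣ N`) resp. `p + 1` over the
full modular function field of level `N` vanishing at `J(q^(p^(v_p(N)+1)))`. -/
theorem chain_exists_monic (hp : p.Prime) (hNk : ((N * p : ℕ) : k) ≠ 0)
    (hME : ∀ r : ℕ, r.Prime → r ∣ N * p → Nonempty (TD.ModEq r)) :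
    ∃ g : Polynomial ↥(modularFunctionFieldFullC k N), g.Monic ∧
      g.natDegree = (if p ∣ N then p else p + 1) ∧
      Polynomial.aeval (qExpand k (p ^ (padicValNat p N + 1)) (jqModC k)) g = 0 := by
  obtain ⟨Dp⟩ := hME p hp (dvd_mul_left p N)
  have hM : p ^ padicValNat p N ∣ N := pow_padicValNat_dvd
  have key : ∀ (F : IntermediateField k (LaurentSeries k)), F = Chain.kap k N →
      ∃ g : Polynomial F, g.Monic ∧ g.natDegree = (if padicValNat p N = 0 then p + 1 else p) ∧
        aeval (Jd k (p ^ (padicValNat p N + 1))) g = 0 := by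
    intro F hF
    subst hF
    exact Chain.exists_monic_kap (k := k) hp (Chain.ofTD Dp) (padicValNat p N) N hM
  obtain ⟨g, hg, hdeg, hroot⟩ := key _ (Chain.full_eq_kap k N)
  have hiff : p ∣ N ↔ padicValNat p N ≠ 0 := by
    have := Fact.mk hp
    exact dvd_iff_padicValNat_ne_zero (NeZero.ne N)
  refine ⟨g, hg, ?_, ?_⟩
  · rw [hdeg]
    by_cases h : p ∣ N
    · rw [if_pos h, if_neg (hiff.mp h)]
    · rw [if_neg h, if_pos (not_not.mp (mt hiff.mpr h))]
  · rw [← TD.Jd_eq]
    exact hroot

/-- **(G) Generation.** The full modular function field of level `N * p` is generated over the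
one of level `N` by `J(q^(p^(v_p(N)+1)))`. -/
theorem full_mul_prime_eq (hp : p.Prime) (hNk : ((N * p : ℕ) : k) ≠ 0)
    (hME : ∀ r : ℕ, r.Prime → r ∣ N * p → Nonempty (TD.ModEq r)) :
    modularFunctionFieldFullC k (N * p) =
      IntermediateField.adjoin k ((modularFunctionFieldFullC k N : Set (LaurentSeries k)) ∪
        {qExpand k (p ^ (padicValNat p N + 1)) (jqModC k)}) := by
  obtain ⟨D, hD0, hpD, hND⟩ := Chain.exists_decomp (NeZero.ne N) hp
  have hdvd : p * D ∣ N * p := Chain.mul_dvd_of_decomp hND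
  have hNk' : ((p * D : ℕ) : k) ≠ 0 := by
    intro h
    apply hNk
    obtain ⟨c, hc⟩ := hdvd
    rw [hc, Nat.cast_mul, h, zero_mul]
  have h := Chain.kap_mul_prime_of_field (k := k) hp (padicValNat p N) D hD0 hpD hNk'
    (fun r hr hrd => hME r hr (dvd_trans hrd hdvd))
  rw [← hND] at h
  rw [Chain.full_eq_kap, Chain.full_eq_kap, adjoin_union, adjoin_self, ← TD.Jd_eq]
  exact h

end Export

end Fermat.Agent.S28
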