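/-
S28, route T, D9c(i): the ring `R[J]` (`R` integrally closed with fraction field `K₀`, `J`
transcendental over `K₀`) is integrally closed in `K₀(J)`, and an abstract saturation lemma
`z ∈ B, π z ∈ R[J] ⟹ z ∈ R[J]`.  Instances: `R = ℤ_(ℓ)` (`GaloisRep.ratLocalizedAt ℓ`),
`J = J(q^e)` (`TD.Jd ℚ e`).
-/
import Mathlib
import Fermat.Prelude.Def_ModularCurve_X0ModL
import Fermat.Prelude.Def_GaloisRep_Flat
import Fermat.Agent.S28.TowerDefs
import Fermat.Agent.S28.ModEq.Conj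
import Fermat.Agent.S28.Integrality

set_option autoImplicit false

noncomputable section

open Polynomial

namespace Fermat.Agent.S28.RJClosed

/-! ### Integral elements for ring homomorphisms -/

section RingHomLemmas

variable {L : Type*} [CommRing L]

/-- Integrality transfers to a ring hom with bigger range. -/
theorem isIntegralElem_of_range_le {C₁ C₂ : Type*} [CommRing C₁] [CommRing C₂] (f : C₁ →+* L)
    (g : C₂ →+* L) (h : f.range ≤ g.range) {x : L} (hx : f.IsIntegralElem x) :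
    g.IsIntegralElem x := by
  obtain ⟨p, hp, hpx⟩ := hx
  have hlift : p.map f ∈ Polynomial.lifts g := by
    rw [Polynomial.lifts_iff_coeff_lifts]
    intro n
    rw [Polynomial.coeff_map]
    exact h ⟨_, rfl⟩
  obtain ⟨q, hq, -, hqm⟩ := Polynomial.lifts_and_natDegree_eq_and_monic hlift (hp.map f)
  refine ⟨q, hqm, ?_⟩
  rw [← Polynomial.eval_map, hq, Polynomial.eval_map]
  exact hpx

/-- Integrality descends along an injective ring hom. -/
theorem isIntegralElem_of_comp_injective {C M : Type*} [CommRing C] [CommRing M] (g : C →+* M)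
    (ι : M →+* L) (hι : Function.Injective ι) {y : M} (h : (ι.comp g).IsIntegralElem (ι y)) :
    g.IsIntegralElem y := by
  obtain ⟨p, hp, hpy⟩ := h
  refine ⟨p, hp, hι ?_⟩
  rw [map_zero, Polynomial.hom_eval₂]
  exact hpy

/-- Integrality is preserved by post-composition of the structure map. -/
theorem isIntegralElem_comp {C M : Type*} [CommRing C] [CommRing M] (g : C →+* M)
    (ι : M →+* L) {y : M} (h : g.IsIntegralElem y) : (ι.comp g).IsIntegralElem (ι y) := by
  obtain ⟨p, hp, hpy⟩ := h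
  refine ⟨p, hp, ?_⟩
  rw [← Polynomial.hom_eval₂, hpy, map_zero]

/-- Integrality over a bigger coefficient ring. -/
theorem isIntegralElem_of_comp {C₁ C₂ : Type*} [CommRing C₁] [CommRing C₂] (f : C₁ →+* C₂)
    (g : C₂ →+* L) {x : L} (h : (g.comp f).IsIntegralElem x) : g.IsIntegralElem x := by
  obtain ⟨p, hp, hpx⟩ := h
  refine ⟨p.map f, hp.map f, ?_⟩
  rw [Polynomial.eval₂_map]
  exact hpx

end RingHomLemmas

/-! ### `R[J]` is integrally closed in `K₀(J)` -/

section IntegrallyClosed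

variable {R K₀ L : Type*} [CommRing R] [IsIntegrallyClosed R] [Field K₀]
  [Algebra R K₀] [IsFractionRing R K₀] [Field L] [Algebra K₀ L] [Algebra R L]
  [IsScalarTower R K₀ L]

/-- In `K₀(X)`, an element integral over `R[X]` lies in `R[X]`. -/
theorem exists_map_eq_of_isIntegralElem (w : RatFunc K₀)
    (hw : ((algebraMap K₀[X] (RatFunc K₀)).comp
      (Polynomial.mapRingHom (algebraMap R K₀))).IsIntegralElem w) :
    ∃ P₀ : R[X], algebraMap K₀[X] (RatFunc K₀) (P₀.map (algebraMap R K₀)) = w := by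
  -- `w` is integral over `K₀[X]`, hence a polynomial
  have h1 : IsIntegral K₀[X] w := isIntegralElem_of_comp _ _ hw
  obtain ⟨P, rfl⟩ := IsIntegrallyClosed.isIntegral_iff.mp h1
  -- `P` is integral over `R[X]`
  have h2 : (Polynomial.mapRingHom (algebraMap R K₀)).IsIntegralElem P :=
    isIntegralElem_of_comp_injective _ _ (IsFractionRing.injective K₀[X] (RatFunc K₀)) hw
  have h3 : ∀ n, IsIntegral R (P.coeff n) := by
    let _ := Polynomial.algebra R K₀
    exact Polynomial.isIntegral_iff_isIntegral_coeff.mp h2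
  have h4 : P ∈ Polynomial.lifts (algebraMap R K₀) := by
    rw [Polynomial.lifts_iff_coeff_lifts]
    intro n
    obtain ⟨r, hr⟩ := IsIntegrallyClosed.isIntegral_iff.mp (h3 n)
    exact ⟨r, hr⟩
  obtain ⟨P₀, hP₀⟩ := (Polynomial.mem_lifts P).mp h4
  exact ⟨P₀, by rw [← hP₀]⟩

/-- **(IC)** `R[J]` is integrally closed in `K₀(J)` when `J` is transcendental over
`K₀ = Frac R` and `R` is integrally closed. -/
theorem mem_adjoin_of_isIntegral {J : L} (hJ : Transcendental K₀ J) {z : L}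
    (hz : z ∈ IntermediateField.adjoin K₀ {J})
    (hint : IsIntegral (Algebra.adjoin R ({J} : Set L)) z) :
    z ∈ Algebra.adjoin R ({J} : Set L) := by
  set e := RatFunc.algEquivOfTranscendental J hJ with he
  -- the embedding `K₀(X) → L`, `X ↦ J`
  let ι : RatFunc K₀ →+* L :=
    (algebraMap (IntermediateField.adjoin K₀ {J}) L).comp (e : RatFunc K₀ →+* _)
  have hι : Function.Injective ι := ι.injective
  have hιP : ∀ P : K₀[X], ι (algebraMap K₀[X] (RatFunc K₀) P) = Polynomial.aeval J P := by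
    intro P
    show ((e (algebraMap K₀[X] (RatFunc K₀) P) : IntermediateField.adjoin K₀ {J}) : L) = _
    rw [he, RatFunc.algEquivOfTranscendental_algebraMap]
    exact (Polynomial.aeval_algHom_apply (IntermediateField.adjoin K₀ {J}).val
      (IntermediateField.AdjoinSimple.gen K₀ J) P).symm
  set w : RatFunc K₀ := e.symm ⟨z, hz⟩ with hw
  have hιw : ι w = z := by
    show ((e (e.symm ⟨z, hz⟩) : IntermediateField.adjoin K₀ {J}) : L) = z
    rw [AlgEquiv.apply_symm_apply]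
  -- the structure map `R[X] → L`
  set g : R[X] →+* RatFunc K₀ := (algebraMap K₀[X] (RatFunc K₀)).comp
    (Polynomial.mapRingHom (algebraMap R K₀)) with hg
  have hιg : ∀ P : R[X], ι (g P) = Polynomial.aeval J P := by
    intro P
    have h := hιP (P.map (algebraMap R K₀))
    rw [Polynomial.aeval_map_algebraMap] at h
    exact h
  -- integrality of `z` for `ι ∘ g`
  have h1 : (ι.comp g).IsIntegralElem z := by
    refine isIntegralElem_of_range_le (algebraMap (Algebra.adjoin R ({J} : Set L)) L) _ ?_ hint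
    rintro _ ⟨⟨y, hy⟩, rfl⟩
    rw [Algebra.adjoin_singleton_eq_range_aeval] at hy
    obtain ⟨P, hP⟩ := hy
    exact ⟨P, by rw [RingHom.comp_apply, hιg]; exact hP⟩
  rw [← hιw] at h1
  have h2 : g.IsIntegralElem w := isIntegralElem_of_comp_injective g ι hι h1
  obtain ⟨P₀, hP₀⟩ := exists_map_eq_of_isIntegralElem w h2
  have hzP : z = Polynomial.aeval J P₀ := by
    rw [← hιw, ← hP₀, hιP, Polynomial.aeval_map_algebraMap]
  rw [hzP]
  exact Polynomial.aeval_mem_adjoin_singleton R J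

/-- **(IC)**, subring form (the shape of `hA_ic` in `Tower.isIntegral_of_isIntegral_pi_mul` and
`hRN_ic` in `RouteT.integral_over_O1`). -/
theorem mem_closure_of_isIntegral {J : L} (hJ : Transcendental K₀ J) :
    ∀ z ∈ (IntermediateField.adjoin K₀ {J}).toSubfield,
      IsIntegral (Subring.closure (Set.range (algebraMap R L) ∪ {J})) z →
      z ∈ Subring.closure (Set.range (algebraMap R L) ∪ {J}) := by
  intro z hz hint
  have hEq : (Algebra.adjoin R ({J} : Set L)).toSubring =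
      Subring.closure (Set.range (algebraMap R L) ∪ {J}) := Algebra.adjoin_eq_ring_closure {J}
  have hint' : IsIntegral (Algebra.adjoin R ({J} : Set L)) z := by
    refine isIntegralElem_of_range_le
      (algebraMap (Subring.closure (Set.range (algebraMap R L) ∪ {J})) L) _ ?_ hint
    rintro _ ⟨⟨y, hy⟩, rfl⟩
    rw [← hEq] at hy
    exact ⟨⟨y, hy⟩, rfl⟩
  have := mem_adjoin_of_isIntegral hJ hz hint'
  rw [← hEq]
  exact this

end IntegrallyClosed

/-! ### Abstract saturation -/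

section Saturation

variable {L k : Type*} [Field L] [CommRing k] {B : Subring L} {π : L}
  {R : Type*} [CommRing R] [Algebra R L]

/-- **(SAT)**, abstract.  Let `red : B → k` have kernel `π B`, let `R → B`, `J ∈ B`, and assume
* `R ∩ π B = π R`,
* `red J` is "transcendental over `red R`": a polynomial relation `∑ red(pᵢ) · (red J)^i = 0`
  forces `red(pᵢ) = 0` for all `i`.
Then `z ∈ B`, `π z ∈ R[J]` imply `z ∈ R[J]`. -/
theorem mem_adjoin_of_pi_mul_mem (red : B →+* k) (hπ0 : π ≠ 0)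
    (hker : ∀ y : B, red y = 0 ↔ ∃ z : B, (y : L) = π * z)
    (hRB : ∀ r : R, algebraMap R L r ∈ B)
    (hRsat : ∀ r : R, (∃ z : B, algebraMap R L r = π * z) →
      ∃ r' : R, algebraMap R L r = π * algebraMap R L r')
    {J : L} (hJB : J ∈ B)
    (hJbar : ∀ P : R[X],
      (∑ i ∈ P.support, red ⟨algebraMap R L (P.coeff i), hRB _⟩ * red ⟨J, hJB⟩ ^ i = 0) →
      ∀ i, red ⟨algebraMap R L (P.coeff i), hRB _⟩ = 0) :
    ∀ z ∈ B, π * z ∈ Algebra.adjoin R ({J} : Set L) → z ∈ Algebra.adjoin R ({J} : Set L) := by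
  intro z hzB hz
  rw [Algebra.adjoin_singleton_eq_range_aeval] at hz
  obtain ⟨P, hP⟩ := hz
  have hP' : Polynomial.aeval J P = π * z := hP
  -- the reduction of `P(J)` vanishes
  have hval : ((∑ i ∈ P.support, (⟨algebraMap R L (P.coeff i), hRB _⟩ : B) * (⟨J, hJB⟩ : B) ^ i :
      B) : L) = π * z := by
    rw [← hP', Polynomial.aeval_def, Polynomial.eval₂_eq_sum, Polynomial.sum]
    simp
  have hred : ∑ i ∈ P.support, red ⟨algebraMap R L (P.coeff i), hRB _⟩ * red ⟨J, hJB⟩ ^ i = 0 := by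
    have h0 : red (∑ i ∈ P.support, (⟨algebraMap R L (P.coeff i), hRB _⟩ : B) * (⟨J, hJB⟩ : B) ^ i)
        = 0 := (hker _).mpr ⟨⟨z, hzB⟩, hval⟩
    rw [map_sum] at h0
    rw [← h0]
    refine Finset.sum_congr rfl fun i _ => ?_
    rw [map_mul, map_pow]
  have hcoef := hJbar P hred
  -- each coefficient is `π` times an element of `R`
  have hdiv : ∀ i, ∃ r' : R, algebraMap R L (P.coeff i) = π * algebraMap R L r' := by
    intro i
    apply hRsat
    obtain ⟨z', hz'⟩ := (hker _).mp (hcoef i)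
    exact ⟨z', hz'⟩
  choose r' hr' using hdiv
  have hfin : z = Polynomial.aeval J (∑ i ∈ P.support, Polynomial.monomial i (r' i)) := by
    apply mul_left_cancel₀ hπ0
    rw [← hP', map_sum, Finset.mul_sum, Polynomial.aeval_def, Polynomial.eval₂_eq_sum,
      Polynomial.sum]
    refine Finset.sum_congr rfl fun i _ => ?_
    rw [Polynomial.aeval_monomial, hr' i, mul_assoc]
  rw [hfin]
  exact Polynomial.aeval_mem_adjoin_singleton R J

end Saturation

/-! ### The concrete instances: `R = ℤ_(ℓ)`, `J = J(q^e)` -/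

section Concrete

open ModularCurve Fermat.Agent.S28

/-- `ℤ_(ℓ)` as a valuation subring of `ℚ`. -/
def ratValSubring (ℓ : ℕ) (hℓ : ℓ.Prime) : ValuationSubring ℚ :=
  { GaloisRep.ratLocalizedAt ℓ with
    mem_or_inv_mem' := fun x => by
      by_cases hx : x.den.Coprime ℓ
      · exact Or.inl hx
      · right
        show (x⁻¹).den.Coprime ℓ
        have hx0 : x ≠ 0 := by
          rintro rfl
          simp at hx
        rw [Rat.den_inv_of_ne_zero hx0]
        have hdvd : ℓ ∣ x.den := by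
          by_contra h
          exact hx ((Nat.Prime.coprime_iff_not_dvd hℓ).mpr h).symm
        exact Nat.Coprime.coprime_dvd_right hdvd x.reduced }

/-- `ℤ_(ℓ)` is integrally closed. -/
theorem isIntegrallyClosed_ratLocalizedAt (ℓ : ℕ) (hℓ : ℓ.Prime) :
    IsIntegrallyClosed ↥(GaloisRep.ratLocalizedAt ℓ) :=
  inferInstanceAs (IsIntegrallyClosed (ratValSubring ℓ hℓ).toSubring)

/-- `ℚ` is the fraction field of `ℤ_(ℓ)`. -/
theorem isFractionRing_ratLocalizedAt (ℓ : ℕ) :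
    IsFractionRing ↥(GaloisRep.ratLocalizedAt ℓ) ℚ := by
  refine IsFractionRing.of_field _ _ (fun z => ?_)
  have h1 : (z.num : ℚ) ∈ GaloisRep.ratLocalizedAt ℓ := by
    show ((z.num : ℚ)).den.Coprime ℓ
    simp
  have h2 : (z.den : ℚ) ∈ GaloisRep.ratLocalizedAt ℓ := by
    show ((z.den : ℚ)).den.Coprime ℓ
    simp
  exact ⟨⟨_, h1⟩, ⟨_, h2⟩, (Rat.num_div_den z).symm⟩

/-- The structure map `ℤ_(ℓ) → ℚ((q))` is "constants". -/
theorem algebraMap_ratLocalizedAt (ℓ : ℕ) (r : ↥(GaloisRep.ratLocalizedAt ℓ)) :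
    algebraMap ↥(GaloisRep.ratLocalizedAt ℓ) (LaurentSeries ℚ) r = HahnSeries.C (r : ℚ) := by
  rw [HahnSeries.algebraMap_apply', PowerSeries.algebraMap_apply, HahnSeries.ofPowerSeries_C]
  rfl

/-- The structure map `K → K((q))` is "constants". -/
theorem algebraMap_laurent_eq_C (K : Type*) [Field K] (c : K) :
    algebraMap K (LaurentSeries K) c = HahnSeries.C c := by
  rw [HahnSeries.algebraMap_apply', PowerSeries.algebraMap_apply, HahnSeries.ofPowerSeries_C]
  rfl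

/-- The scalar tower `ℤ_(ℓ) → ℚ → ℚ((q))` (for the `Algebra`-induced scalar actions). -/
theorem isScalarTower_ratLocalizedAt (ℓ : ℕ) :
    @IsScalarTower ↥(GaloisRep.ratLocalizedAt ℓ) ℚ (LaurentSeries ℚ) Algebra.toSMul Algebra.toSMul
      Algebra.toSMul :=
  IsScalarTower.of_algebraMap_eq (R := ↥(GaloisRep.ratLocalizedAt ℓ)) (S := ℚ)
    (A := LaurentSeries ℚ) (fun r => by
      rw [algebraMap_ratLocalizedAt,
        algebraMap_laurent_eq_C ℚ (algebraMap ↥(GaloisRep.ratLocalizedAt ℓ) ℚ r)]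
      rfl)

/-- `J(q^e)` has leading term `q^(-e)`. -/
theorem isLead_Jd (K : Type*) [CommRing K] (e : ℕ) (he : e ≠ 0) :
    Fermat.Agent.S28.ModEq.IsLead (TD.Jd K e) (-(e : ℤ)) 1 := by
  have : NeZero e := ⟨he⟩
  rw [TD.Jd_eq K e]
  have h := Fermat.Agent.S28.ModEq.isLead_qExpand e (Fermat.Agent.S28.ModEq.isLead_jqModC K)
  rwa [mul_neg, mul_one] at h

/-- `J(q^e)` is transcendental over the coefficient field. -/
theorem transcendental_Jd (K : Type*) [Field K] (e : ℕ) (he : e ≠ 0) :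
    Transcendental K (TD.Jd K e) := by
  rw [transcendental_iff_injective]
  have hEq : ((Polynomial.aeval (TD.Jd K e) : K[X] →ₐ[K] LaurentSeries K) : K[X] →+* _) =
      Fermat.Agent.S28.ModEq.evalAt (RingHom.id K) (TD.Jd K e) := by
    refine Polynomial.ringHom_ext (fun a => ?_) ?_
    · simp [Fermat.Agent.S28.ModEq.evalAt, algebraMap_laurent_eq_C]
    · simp [Fermat.Agent.S28.ModEq.evalAt]
  have hinj := Fermat.Agent.S28.ModEq.evalAt_injective (Nat.pos_of_ne_zero he)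
    (isLead_Jd K e he) (RingHom.id K) Function.injective_id
  intro P Q hPQ
  apply hinj
  have h1 := congrArg (fun f : K[X] →+* LaurentSeries K => f P) hEq
  have h2 := congrArg (fun f : K[X] →+* LaurentSeries K => f Q) hEq
  simp only [RingHom.coe_coe] at h1 h2
  rw [← h1, ← h2, hPQ]

/-- The base field of level `1`: `FF K 1 e = K(J(q^e))`. -/
theorem FF_one_eq (K : Type*) [Field K] (e : ℕ) :
    TD.FF K 1 e = IntermediateField.adjoin K {TD.Jd K e} := by
  unfold TD.FF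
  congr 1
  ext x
  constructor
  · rintro ⟨d, hd, rfl⟩
    have hd1 : d = 1 := Nat.dvd_one.mp hd
    subst hd1
    simp
  · rintro rfl
    exact ⟨1, one_dvd _, by simp⟩

/-- `ℤ_(ℓ)[J(q^e)]` as a subring of `ℚ((q))`. -/
def RJ (ℓ e : ℕ) : Subring (LaurentSeries ℚ) :=
  Subring.closure
    (Set.range (algebraMap ↥(GaloisRep.ratLocalizedAt ℓ) (LaurentSeries ℚ)) ∪ {TD.Jd ℚ e})

theorem RJ_eq_adjoin (ℓ e : ℕ) :
    RJ ℓ e = (Algebra.adjoin ↥(GaloisRep.ratLocalizedAt ℓ)
      ({TD.Jd ℚ e} : Set (LaurentSeries ℚ))).toSubring :=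
  (Algebra.adjoin_eq_ring_closure _).symm

theorem mem_RJ_iff (ℓ e : ℕ) (z : LaurentSeries ℚ) :
    z ∈ RJ ℓ e ↔ z ∈ Algebra.adjoin ↥(GaloisRep.ratLocalizedAt ℓ)
      ({TD.Jd ℚ e} : Set (LaurentSeries ℚ)) := by
  rw [RJ_eq_adjoin]
  rfl

theorem Jd_mem_RJ (ℓ e : ℕ) : TD.Jd ℚ e ∈ RJ ℓ e :=
  Subring.subset_closure (Or.inr rfl)

theorem algebraMap_mem_RJ (ℓ e : ℕ) (r : ↥(GaloisRep.ratLocalizedAt ℓ)) :
    algebraMap ↥(GaloisRep.ratLocalizedAt ℓ) (LaurentSeries ℚ) r ∈ RJ ℓ e :=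
  Subring.subset_closure (Or.inl ⟨r, rfl⟩)

/-- `ℤ_(ℓ)[J(q^e)] ⊆ ℚ(J(q^e))`. -/
theorem RJ_le_adjoin (ℓ e : ℕ) :
    ∀ a ∈ RJ ℓ e, a ∈ (IntermediateField.adjoin ℚ {TD.Jd ℚ e}).toSubfield := by
  have hle : RJ ℓ e ≤ (IntermediateField.adjoin ℚ {TD.Jd ℚ e}).toSubring := by
    unfold RJ
    rw [Subring.closure_le]
    rintro x (⟨r, rfl⟩ | rfl)
    · rw [algebraMap_ratLocalizedAt, ← algebraMap_laurent_eq_C ℚ]
      exact (IntermediateField.adjoin ℚ {TD.Jd ℚ e}).algebraMap_mem _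
    · exact IntermediateField.subset_adjoin ℚ _ rfl
  exact fun a ha => hle ha

/-- integrality over `RJ` and over the subalgebra `ℤ_(ℓ)[J(q^e)]` are the same notion. -/
theorem isIntegral_RJ_iff (ℓ e : ℕ) (z : LaurentSeries ℚ) :
    IsIntegral (RJ ℓ e) z ↔ IsIntegral (Algebra.adjoin ↥(GaloisRep.ratLocalizedAt ℓ)
      ({TD.Jd ℚ e} : Set (LaurentSeries ℚ))) z := by
  constructor
  · intro h
    refine isIntegralElem_of_range_le (algebraMap (RJ ℓ e) (LaurentSeries ℚ)) _ ?_ h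
    rintro _ ⟨⟨y, hy⟩, rfl⟩
    exact ⟨⟨y, (mem_RJ_iff ℓ e y).mp hy⟩, rfl⟩
  · intro h
    refine isIntegralElem_of_range_le (algebraMap (Algebra.adjoin ↥(GaloisRep.ratLocalizedAt ℓ)
      ({TD.Jd ℚ e} : Set (LaurentSeries ℚ))) (LaurentSeries ℚ)) _ ?_ h
    rintro _ ⟨⟨y, hy⟩, rfl⟩
    exact ⟨⟨y, (mem_RJ_iff ℓ e y).mpr hy⟩, rfl⟩

/-- **(IC) for `ℤ_(ℓ)[J(q^e)]`**: it is integrally closed in `ℚ(J(q^e))`
(`hRN_ic` of `RouteT.integral_over_O1`, `hA_ic` of `Tower.isIntegral_of_isIntegral_pi_mul`). -/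
theorem RJ_integrallyClosed (ℓ : ℕ) (hℓ : ℓ.Prime) (e : ℕ) (he : e ≠ 0) :
    ∀ z ∈ (IntermediateField.adjoin ℚ {TD.Jd ℚ e}).toSubfield,
      IsIntegral (RJ ℓ e) z → z ∈ RJ ℓ e := by
  have := isIntegrallyClosed_ratLocalizedAt ℓ hℓ
  have := isFractionRing_ratLocalizedAt ℓ
  have := isScalarTower_ratLocalizedAt ℓ
  exact mem_closure_of_isIntegral (R := ↥(GaloisRep.ratLocalizedAt ℓ)) (K₀ := ℚ)
    (transcendental_Jd ℚ e he)

/-- The same with the base field written as `TD.FF ℚ 1 e`. -/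
theorem RJ_integrallyClosed_FF (ℓ : ℕ) (hℓ : ℓ.Prime) (e : ℕ) (he : e ≠ 0) :
    ∀ z ∈ (TD.FF ℚ 1 e).toSubfield, IsIntegral (RJ ℓ e) z → z ∈ RJ ℓ e := by
  rw [FF_one_eq]
  exact RJ_integrallyClosed ℓ hℓ e he

/-- `ℓ`-divisibility in `ℤ_(ℓ)`: an element of `ℤ_(ℓ)` is either `ℓ` times an element of `ℤ_(ℓ)`
or a unit. -/
theorem ratLocalizedAt_dvd_or_inv_mem (ℓ : ℕ) (hℓ : ℓ.Prime) (r : ℚ)
    (hr : r ∈ GaloisRep.ratLocalizedAt ℓ) :
    (∃ r' ∈ GaloisRep.ratLocalizedAt ℓ, r = (ℓ : ℚ) * r') ∨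
      (r ≠ 0 ∧ r⁻¹ ∈ GaloisRep.ratLocalizedAt ℓ) := by
  have hℓ0 : (ℓ : ℚ) ≠ 0 := by exact_mod_cast hℓ.ne_zero
  by_cases hdvd : (ℓ : ℤ) ∣ r.num
  · left
    obtain ⟨a, ha⟩ := hdvd
    refine ⟨Rat.divInt a r.den, ?_, ?_⟩
    · show (Rat.divInt a r.den).den.Coprime ℓ
      have h1 : ((Rat.divInt a r.den).den : ℤ) ∣ (r.den : ℤ) := Rat.den_dvd a r.den
      have h2 : (Rat.divInt a r.den).den ∣ r.den := by exact_mod_cast h1
      exact Nat.Coprime.coprime_dvd_left h2 hr
    · have h3 : r = Rat.divInt r.num r.den := (Rat.num_divInt_den r).symm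
      have hden : ((r.den : ℤ) : ℚ) ≠ 0 := by exact_mod_cast r.den_nz
      rw [Rat.divInt_eq_div]
      conv_lhs => rw [h3, Rat.divInt_eq_div, ha]
      push_cast
      field_simp
  · right
    have hr0 : r ≠ 0 := by
      rintro rfl
      exact hdvd (by simp)
    refine ⟨hr0, ?_⟩
    show (r⁻¹).den.Coprime ℓ
    rw [Rat.den_inv_of_ne_zero hr0]
    refine (Nat.Coprime.symm ((Nat.Prime.coprime_iff_not_dvd hℓ).mpr fun h => hdvd ?_))
    exact Int.natCast_dvd.mpr h

/-- **(SAT) for `ℤ_(ℓ)[J(q^e)]`** (`hRN_sat` of `RouteT.integral_over_O1`, `hA_sat` of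
`Tower.isIntegral_of_isIntegral_pi_mul`), from the basic facts about the Gauss ring `B` and the
reduction map `red : B → K((q))`:
`ker red = π B`, constants of `ℤ_(ℓ)` lie in `B` and reduce to constants, and
`red (J(q^e)) = J(q^e)`. -/
theorem RJ_saturated {K : Type*} [Field K] (ℓ : ℕ) (hℓ : ℓ.Prime)
    {B : Subring (LaurentSeries ℚ)} {π : LaurentSeries ℚ} (hπ : π = HahnSeries.C (ℓ : ℚ))
    (red : B →+* LaurentSeries K)
    (hker : ∀ y : B, red y = 0 ↔ ∃ z : B, (y : LaurentSeries ℚ) = π * z)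
    (hRB : ∀ r : ↥(GaloisRep.ratLocalizedAt ℓ), HahnSeries.C (r : ℚ) ∈ B)
    (hredR : ∀ r : ↥(GaloisRep.ratLocalizedAt ℓ),
      ∃ c : K, red ⟨HahnSeries.C (r : ℚ), hRB r⟩ = HahnSeries.C c)
    (e : ℕ) (he : e ≠ 0) (hJB : TD.Jd ℚ e ∈ B) (hredJ : red ⟨TD.Jd ℚ e, hJB⟩ = TD.Jd K e) :
    ∀ z ∈ B, π * z ∈ RJ ℓ e → z ∈ RJ ℓ e := by
  have hℓ0 : (ℓ : ℚ) ≠ 0 := by exact_mod_cast hℓ.ne_zero
  have hπ0 : π ≠ 0 := by
    rw [hπ]
    intro h
    exact hℓ0 (HahnSeries.C_injective (by rw [h, map_zero]))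
  have hRB' : ∀ r : ↥(GaloisRep.ratLocalizedAt ℓ),
      algebraMap ↥(GaloisRep.ratLocalizedAt ℓ) (LaurentSeries ℚ) r ∈ B := by
    intro r
    rw [algebraMap_ratLocalizedAt]
    exact hRB r
  have hsub : ∀ r : ↥(GaloisRep.ratLocalizedAt ℓ),
      (⟨algebraMap ↥(GaloisRep.ratLocalizedAt ℓ) (LaurentSeries ℚ) r, hRB' r⟩ : B) =
        ⟨HahnSeries.C (r : ℚ), hRB r⟩ := fun r => Subtype.ext (algebraMap_ratLocalizedAt ℓ r)
  have key := mem_adjoin_of_pi_mul_mem (R := ↥(GaloisRep.ratLocalizedAt ℓ)) (B := B) (π := π)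
    red hπ0 hker hRB' ?_ hJB ?_
  · intro z hzB hz
    rw [mem_RJ_iff] at hz ⊢
    exact key z hzB hz
  · -- `R ∩ π B = π R`
    rintro r ⟨z, hz⟩
    rcases ratLocalizedAt_dvd_or_inv_mem ℓ hℓ (r : ℚ) r.2 with ⟨r', hr', hrr'⟩ | ⟨hr0, hinv⟩
    · refine ⟨⟨r', hr'⟩, ?_⟩
      rw [algebraMap_ratLocalizedAt, algebraMap_ratLocalizedAt, hπ, hrr', map_mul]
    · exfalso
      -- `1 = π * (C r⁻¹ * z)` in `B`, so `red 1 = 0`
      have h1 : ((1 : B) : LaurentSeries ℚ) =
          π * ((⟨HahnSeries.C ((r : ℚ)⁻¹), hRB ⟨_, hinv⟩⟩ * z : B) : LaurentSeries ℚ) := by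
        rw [algebraMap_ratLocalizedAt] at hz
        have h2 : HahnSeries.C ((r : ℚ)⁻¹) * HahnSeries.C (r : ℚ) = (1 : LaurentSeries ℚ) := by
          rw [← map_mul, inv_mul_cancel₀ hr0, map_one]
        push_cast
        rw [← mul_assoc, mul_comm π, mul_assoc, ← hz, h2]
      have h3 : red 1 = 0 := (hker 1).mpr ⟨_, h1⟩
      rw [map_one] at h3
      exact one_ne_zero h3
  · -- `red J` is transcendental over the reductions of the constants
    intro P hP
    choose c hc using hredR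
    have hterm : ∀ i, red ⟨algebraMap ↥(GaloisRep.ratLocalizedAt ℓ) (LaurentSeries ℚ)
        (P.coeff i), hRB' _⟩ = HahnSeries.C (c (P.coeff i)) := by
      intro i
      rw [hsub, hc]
    set Q : K[X] := ∑ i ∈ P.support, Polynomial.monomial i (c (P.coeff i)) with hQ
    have hQ0 : Polynomial.aeval (TD.Jd K e) Q = 0 := by
      rw [hQ, map_sum, ← hP]
      refine Finset.sum_congr rfl fun i _ => ?_
      rw [Polynomial.aeval_monomial, hterm, hredJ, algebraMap_laurent_eq_C]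
    have hQz : Q = 0 := by
      have hinj := (transcendental_iff_injective.mp (transcendental_Jd K e he))
      exact hinj (by rw [hQ0, map_zero])
    intro i
    by_cases hi : i ∈ P.support
    · have h1 : Q.coeff i = c (P.coeff i) := by
        rw [hQ, Polynomial.finsetSum_coeff]
        rw [Finset.sum_eq_single i]
        · rw [Polynomial.coeff_monomial, if_pos rfl]
        · intro j _ hji
          rw [Polynomial.coeff_monomial, if_neg hji]
        · intro h
          exact absurd hi h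
      rw [hterm, ← h1, hQz, Polynomial.coeff_zero, map_zero]
    · have h0 : P.coeff i = 0 := Polynomial.notMem_support_iff.mp hi
      have h1 : (⟨algebraMap ↥(GaloisRep.ratLocalizedAt ℓ) (LaurentSeries ℚ) (P.coeff i),
          hRB' _⟩ : B) = 0 := by
        apply Subtype.ext
        show algebraMap ↥(GaloisRep.ratLocalizedAt ℓ) (LaurentSeries ℚ) (P.coeff i) = 0
        rw [h0, map_zero]
      rw [h1, map_zero]

/-- Mutual integrality in `RJ` form (`h1N`, `hN1` of `RouteT.integral_over_O1`): the rings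
`ℤ_(ℓ)[J(q^(m·N))]` and `ℤ_(ℓ)[J(q^m)]` have the same integral elements. -/
theorem isIntegral_RJ_mul_iff (ℓ N : ℕ) (hN : N ≠ 0)
    (hME : ∀ r : ℕ, r.Prime → r ∣ N → Nonempty (TD.ModEq r)) (m : ℕ) (hm : m ≠ 0)
    (x : LaurentSeries ℚ) :
    IsIntegral (RJ ℓ (m * N)) x ↔ IsIntegral (RJ ℓ m) x := by
  rw [isIntegral_RJ_iff, isIntegral_RJ_iff]
  exact Fermat.Agent.S28.Integrality.isIntegral_adjoin_Jd_iff ℚ ↥(GaloisRep.ratLocalizedAt ℓ)
    N hN hME m hm x

end Concrete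

end Fermat.Agent.S28.RJClosed
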