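import Mathlib
import Fermat.Prelude.Def_ModularCurve_X0

/-!
# S28 (WP6): the analytic `q`-expansions of `E₄` and `Δ` are the formal series of the Prelude

* `qExpansion_E4 : qExpansion 1 E₄ = map ℤ→ℂ eisenstein4`
* `qExpansion_discriminant : qExpansion 1 Δ = map ℤ→ℂ (X * dedekindEtaUnit)`,
  i.e. `Δ = q ∏ (1 - qⁿ)²⁴` as a formal power series.
-/

set_option autoImplicit false

open UpperHalfPlane ModularForm EisensteinSeries Filter Topology
open scoped MatrixGroups ModularForm PowerSeries.WithPiTopology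

namespace Fermat.Agent.S28.DeltaBridge

noncomputable section

/-- Taylor series at `0` of a function `ℂ → ℂ`, as a formal power series. -/
def tay (f : ℂ → ℂ) : PowerSeries ℂ :=
  .mk fun m ↦ (↑m.factorial)⁻¹ * iteratedDeriv m f 0

theorem coeff_tay (f : ℂ → ℂ) (m : ℕ) :
    (tay f).coeff m = (↑m.factorial)⁻¹ * iteratedDeriv m f 0 := by
  simp [tay]

theorem qExpansion_eq_tay (f : ℍ → ℂ) : qExpansion 1 f = tay (cuspFunction 1 f) := rfl

theorem tay_congr {f g : ℂ → ℂ} (h : f =ᶠ[𝓝 0] g) : tay f = tay g := by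
  ext m
  rw [coeff_tay, coeff_tay, h.iteratedDeriv_eq m]

theorem tay_mul {f g : ℂ → ℂ} (hf : AnalyticAt ℂ f 0) (hg : AnalyticAt ℂ g 0) :
    tay (f * g) = tay f * tay g := by
  ext m
  simp only [coeff_tay, iteratedDeriv_mul hf.contDiffAt hg.contDiffAt, Finset.mul_sum,
    PowerSeries.coeff_mul, Finset.Nat.sum_antidiagonal_eq_sum_range_succ_mk, Nat.succ_eq_add_one]
  refine Finset.sum_congr rfl fun i hi ↦ ?_
  rw [Nat.cast_choose _ (by grind)]
  field_simp [Nat.factorial_ne_zero]

theorem tay_one : tay (1 : ℂ → ℂ) = 1 := by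
  ext m
  have h2 : iteratedDeriv m (1 : ℂ → ℂ) 0 = if m = 0 then 1 else 0 := by
    simpa [ite_apply] using! iteratedDeriv_const
  simp +contextual [coeff_tay, h2]

theorem tay_id : tay (fun q : ℂ => q) = PowerSeries.X := by
  ext m
  rw [coeff_tay, PowerSeries.coeff_X]
  rcases m with _ | m
  · simp
  · rw [iteratedDeriv_succ']
    have h1 : deriv (fun q : ℂ => q) = fun _ => (1 : ℂ) := by
      funext x; simp
    rw [h1]
    have h2 : iteratedDeriv m (fun _ : ℂ => (1 : ℂ)) 0 = if m = 0 then 1 else 0 := by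
      simpa [ite_apply] using! iteratedDeriv_const
    rw [h2]
    rcases m with _ | m
    · simp
    · simp

theorem tay_pow {f : ℂ → ℂ} (hf : AnalyticAt ℂ f 0) (n : ℕ) : tay (f ^ n) = tay f ^ n := by
  induction n with
  | zero => simpa using tay_one
  | succ n ih => rw [pow_succ, pow_succ, tay_mul (hf.pow n) hf, ih]

theorem tay_sub {f g : ℂ → ℂ} (hf : AnalyticAt ℂ f 0) (hg : AnalyticAt ℂ g 0) :
    tay (f - g) = tay f - tay g := by
  ext m
  simp [coeff_tay, iteratedDeriv_sub hf.contDiffAt hg.contDiffAt, mul_sub]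

theorem tendstoLocallyUniformlyOn_iteratedDeriv {ι : Type*} {l : Filter ι}
    {F : ι → ℂ → ℂ} {f : ℂ → ℂ} {U : Set ℂ} (hU : IsOpen U)
    (hF : ∀ i, Differentiable ℂ (F i)) (h : TendstoLocallyUniformlyOn F f l U) (m : ℕ) :
    TendstoLocallyUniformlyOn (fun i => iteratedDeriv m (F i)) (iteratedDeriv m f) l U := by
  induction m with
  | zero => simpa [iteratedDeriv_zero] using h
  | succ m ih =>
    have h1 := ih.deriv (Eventually.of_forall fun i => ?_) hU
    · convert h1 using 1
      · funext i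
        simp [iteratedDeriv_succ]
      · simp [iteratedDeriv_succ]
    · have hc : ContDiff ℂ ⊤ (F i) := (hF i).contDiff
      exact (hc.differentiable_iteratedDeriv m (by simp)).differentiableOn

/-- Coefficientwise convergence of Taylor series under locally uniform convergence. -/
theorem tendsto_coeff_tay {ι : Type*} {l : Filter ι}
    {F : ι → ℂ → ℂ} {f : ℂ → ℂ} {U : Set ℂ} (hU : IsOpen U) (h0 : (0 : ℂ) ∈ U)
    (hF : ∀ i, Differentiable ℂ (F i)) (h : TendstoLocallyUniformlyOn F f l U) (m : ℕ) :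
    Tendsto (fun i => (tay (F i)).coeff m) l (𝓝 ((tay f).coeff m)) := by
  simp only [coeff_tay]
  exact ((tendstoLocallyUniformlyOn_iteratedDeriv hU hF h m).tendsto_at h0).const_mul _

theorem analyticAt_one_sub_pow (i : ℕ) : AnalyticAt ℂ (fun q : ℂ => 1 - q ^ (i + 1)) 0 := by
  fun_prop

theorem tay_one_sub_pow (i : ℕ) :
    tay (fun q : ℂ => 1 - q ^ (i + 1)) = 1 - PowerSeries.X ^ (i + 1) := by
  have h1 : (fun q : ℂ => 1 - q ^ (i + 1)) = (1 : ℂ → ℂ) - (fun q : ℂ => q) ^ (i + 1) := by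
    funext q; simp
  have hid : AnalyticAt ℂ (fun q : ℂ => q) 0 := analyticAt_id
  have hone : AnalyticAt ℂ (1 : ℂ → ℂ) 0 := analyticAt_const (v := (1 : ℂ)) (x := (0 : ℂ))
  rw [h1, tay_sub hone (hid.pow _), tay_one, tay_pow hid, tay_id]

theorem tay_finset_prod (s : Finset ℕ) :
    tay (fun q : ℂ => ∏ i ∈ s, (1 - q ^ (i + 1))) =
      ∏ i ∈ s, (1 - PowerSeries.X ^ (i + 1) : PowerSeries ℂ) := by
  classical
  induction s using Finset.induction_on with
  | empty =>
    have : (fun q : ℂ => ∏ i ∈ (∅ : Finset ℕ), (1 - q ^ (i + 1))) = (1 : ℂ → ℂ) := by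
      funext q; simp
    rw [this, tay_one, Finset.prod_empty]
  | insert a s ha ih =>
    have h1 : (fun q : ℂ => ∏ i ∈ insert a s, (1 - q ^ (i + 1))) =
        (fun q : ℂ => 1 - q ^ (a + 1)) * (fun q : ℂ => ∏ i ∈ s, (1 - q ^ (i + 1))) := by
      funext q
      simp [Finset.prod_insert ha]
    have h2 : AnalyticAt ℂ (fun q : ℂ => ∏ i ∈ s, (1 - q ^ (i + 1))) 0 := by
      apply Differentiable.analyticAt
      fun_prop
    rw [h1, tay_mul (analyticAt_one_sub_pow a) h2, ih, tay_one_sub_pow, Finset.prod_insert ha]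

/-- The Taylor series of `∏ (1 - qⁿ)` is the formal product `etaProd`. -/
theorem tay_eta :
    tay (fun q : ℂ => ∏' n : ℕ, (1 - q ^ (n + 1))) =
      PowerSeries.map (Int.castRingHom ℂ) ModularCurve.etaProd := by
  ext m
  have hloc : TendstoLocallyUniformlyOn (fun (s : Finset ℕ) (q : ℂ) => ∏ i ∈ s, (1 - q ^ (i + 1)))
      (fun q : ℂ => ∏' n : ℕ, (1 - q ^ (n + 1))) atTop (Metric.ball (0 : ℂ) 1) :=
    multipliableLocallyUniformlyOn_one_sub_pow.hasProdLocallyUniformlyOn
  have h1 := tendsto_coeff_tay (Metric.isOpen_ball) (Metric.mem_ball_self one_pos)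
    (fun s => by fun_prop) hloc m
  have hprod : HasProd (fun n : ℕ => (1 - PowerSeries.X ^ (n + 1) : PowerSeries ℤ))
      ModularCurve.etaProd :=
    (PowerSeries.WithPiTopology.multipliable_one_sub_X_pow ℤ).hasProd
  have h2 : Tendsto (fun s : Finset ℕ =>
      (((∏ i ∈ s, (1 - PowerSeries.X ^ (i + 1) : PowerSeries ℤ)).coeff m : ℤ) : ℂ)) atTop
      (𝓝 ((ModularCurve.etaProd.coeff m : ℤ) : ℂ)) :=
    ((continuous_of_discreteTopology (f := fun z : ℤ => (z : ℂ))).tendsto _).comp
      (((PowerSeries.WithPiTopology.continuous_coeff ℤ m).tendsto _).comp hprod)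
  have h3 : ∀ s : Finset ℕ, (tay (fun q : ℂ => ∏ i ∈ s, (1 - q ^ (i + 1)))).coeff m =
      (((∏ i ∈ s, (1 - PowerSeries.X ^ (i + 1) : PowerSeries ℤ)).coeff m : ℤ) : ℂ) := by
    intro s
    rw [tay_finset_prod]
    have : (∏ i ∈ s, (1 - PowerSeries.X ^ (i + 1) : PowerSeries ℂ)) =
        PowerSeries.map (Int.castRingHom ℂ) (∏ i ∈ s, (1 - PowerSeries.X ^ (i + 1))) := by
      simp [map_prod]
    rw [this, PowerSeries.coeff_map]
    rfl
  simp only [h3] at h1
  rw [PowerSeries.coeff_map]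
  exact tendsto_nhds_unique h1 h2

theorem analyticAt_eta : AnalyticAt ℂ (fun q : ℂ => ∏' n : ℕ, (1 - q ^ (n + 1))) 0 :=
  differentiableOn_tprod_one_sub_pow.analyticAt (Metric.ball_mem_nhds 0 one_pos)

/-- **`Δ = q ∏ (1 - qⁿ)²⁴` as formal power series**: the `q`-expansion of the discriminant is
the image of the integral formal series `X * dedekindEtaUnit` of the Prelude. -/
theorem qExpansion_discriminant :
    qExpansion 1 ModularForm.discriminant =
      PowerSeries.map (Int.castRingHom ℂ) (PowerSeries.X * ModularCurve.dedekindEtaUnit) := by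
  rw [qExpansion_eq_tay]
  have heq : cuspFunction 1 ModularForm.discriminant =ᶠ[𝓝 0]
      (fun q : ℂ => q) * (fun q : ℂ => ∏' n : ℕ, (1 - q ^ (n + 1))) ^ 24 := by
    filter_upwards [Metric.ball_mem_nhds (0 : ℂ) one_pos] with q hq
    rw [discriminant_cuspFunction_eqOn hq]
    simp only [Pi.mul_apply, Pi.pow_apply]
    rw [(multipliable_one_sub_pow (by simpa using hq)).tprod_pow 24]
  have hid : AnalyticAt ℂ (fun q : ℂ => q) 0 := analyticAt_id
  rw [tay_congr heq, tay_mul hid (analyticAt_eta.pow 24), tay_pow analyticAt_eta,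
    tay_id, tay_eta, ModularCurve.dedekindEtaUnit, map_mul, map_pow, PowerSeries.map_X]

theorem qExpansion_cuspForm_discriminant :
    qExpansion 1 CuspForm.discriminant =
      PowerSeries.map (Int.castRingHom ℂ) (PowerSeries.X * ModularCurve.dedekindEtaUnit) :=
  qExpansion_discriminant

/-- The `q`-expansion of `E₄` is the image of the integral formal series `eisenstein4`. -/
theorem qExpansion_E4 :
    qExpansion 1 E₄ = PowerSeries.map (Int.castRingHom ℂ) ModularCurve.eisenstein4 := by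
  ext m
  rw [E_qExpansion_coeff (by norm_num) ⟨2, rfl⟩ m, PowerSeries.coeff_map,
    ModularCurve.eisenstein4, PowerSeries.coeff_mk]
  rw [show bernoulli 4 = -1 / 30 by decide +kernel]
  split_ifs with hm
  · simp
  · rw [ArithmeticFunction.sigma_apply]
    push_cast
    norm_num

end

end Fermat.Agent.S28.DeltaBridge
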