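import Mathlib

/-!
# S28: generic field-theoretic lemmas for the irreducibility steps (WP4)

`i : E →+* L` is an embedding of fields; an "`E`-automorphism of `L`" is a ring hom
`σ : L →+* L` with `σ (i e) = i e` for all `e : E`.

* `irreducible_of_orbit` (L1): a monic `g ∈ E[X]` which splits in `L` with distinct roots forming a
  single orbit under `E`-automorphisms of `L` is irreducible.
* `irreducible_or_mem_range` (L2): if the roots are one rational-looking root `r₀` plus a single
  orbit, then `g` is irreducible or `r₀` comes from `E`.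
* `exists_ringHom_extend` (L4): extension of an embedding `τ : E →+* L` to `E' = E(x)` sending `x`
  to a prescribed root of the (irreducible) polynomial of `x`.
* `mem_range_of_unique_common_root` (L5): if `P` splits in `L` with distinct roots and `r` is the
  only root of `P` which is also a root of `Q`, then `r` comes from `E`.
-/

set_option autoImplicit false

open Polynomial

namespace Fermat.Agent.S28.FieldLemmas

variable {E L : Type*} [Field E] [Field L]

/-- An `E`-automorphism of `L` maps roots of a polynomial over `E` to roots. -/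
theorem eval_map_apply_eq_zero (i : E →+* L) (m : E[X]) (σ : L →+* L)
    (hσ : ∀ e : E, σ (i e) = i e) {r : L} (hr : (m.map i).eval r = 0) :
    (m.map i).eval (σ r) = 0 := by
  have h1 : (m.map i).map σ = m.map i := by
    rw [Polynomial.map_map]
    congr 1
    ext e
    exact hσ e
  have h2 : ((m.map i).map σ).eval (σ r) = σ ((m.map i).eval r) := by
    rw [Polynomial.eval_map, Polynomial.eval₂_hom]
  rw [h1] at h2
  rw [h2, hr, map_zero]

/-- The product of the `X - C x` over an orbit of a root `r` divides the image of any polynomial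
over `E` vanishing at `r`. -/
theorem prod_orbit_dvd (i : E →+* L) (m : E[X]) (s : Finset L) {r : L}
    (hr : (m.map i).eval r = 0)
    (horb : ∀ x ∈ s, ∃ σ : L →+* L, (∀ e : E, σ (i e) = i e) ∧ σ r = x) :
    (∏ x ∈ s, (X - C x)) ∣ m.map i := by
  refine Finset.prod_dvd_of_coprime ?_ ?_
  · intro x _ y _ hxy
    exact Polynomial.isCoprime_X_sub_C_of_isUnit_sub (sub_ne_zero.mpr hxy).isUnit
  · intro x hx
    obtain ⟨σ, hσ, rfl⟩ := horb x hx
    exact Polynomial.dvd_iff_isRoot.mpr (eval_map_apply_eq_zero i m σ hσ hr)

/-- **L1.** A monic polynomial over `E` which splits in `L` with distinct roots forming a single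
orbit under `E`-automorphisms of `L` is irreducible. -/
theorem irreducible_of_orbit (i : E →+* L) (g : E[X]) (hg : g.Monic) (s : Finset L)
    (hs : g.map i = ∏ x ∈ s, (X - C x)) {r : L} (hr : r ∈ s)
    (horb : ∀ x ∈ s, ∃ σ : L →+* L, (∀ e : E, σ (i e) = i e) ∧ σ r = x) : Irreducible g := by
  let _ : Algebra E L := i.toAlgebra
  have hgr : (g.map i).eval r = 0 := by
    rw [hs, Polynomial.eval_prod]
    exact Finset.prod_eq_zero hr (by simp)
  have hint : IsIntegral E r := ⟨g, hg, by rw [← Polynomial.eval_map]; exact hgr⟩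
  have hmr : ((minpoly E r).map i).eval r = 0 := by
    rw [Polynomial.eval_map]
    exact minpoly.aeval E r
  have hdvd : minpoly E r ∣ g := minpoly.dvd E r (by
    rw [Polynomial.aeval_def, ← Polynomial.eval_map]; exact hgr)
  have hprod := prod_orbit_dvd i (minpoly E r) s hmr horb
  have hm0 : (minpoly E r).map i ≠ 0 :=
    Polynomial.map_ne_zero (minpoly.ne_zero hint)
  have hdeg : g.natDegree ≤ (minpoly E r).natDegree := by
    have h1 : g.natDegree = s.card := by
      rw [← Polynomial.natDegree_map i, hs, Polynomial.natDegree_finsetProd_X_sub_C_eq_card]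
    have h2 := Polynomial.natDegree_le_of_dvd hprod hm0
    rw [Polynomial.natDegree_finsetProd_X_sub_C_eq_card, Polynomial.natDegree_map] at h2
    omega
  have heq : g = minpoly E r :=
    Polynomial.eq_of_monic_of_dvd_of_natDegree_le (minpoly.monic hint) hg hdvd hdeg
  rw [heq]
  exact minpoly.irreducible hint

/-- **L2.** If `g` splits in `L` as `(X - r₀)` times the product over a nonempty single orbit
(under `E`-automorphisms of `L`), then `g` is irreducible or `r₀` comes from `E`. -/
theorem irreducible_or_mem_range (i : E →+* L) (g : E[X]) (hg : g.Monic) (r₀ : L) (s : Finset L)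
    (hs : g.map i = (X - C r₀) * ∏ x ∈ s, (X - C x)) {r : L} (hr : r ∈ s)
    (horb : ∀ x ∈ s, ∃ σ : L →+* L, (∀ e : E, σ (i e) = i e) ∧ σ r = x) :
    Irreducible g ∨ r₀ ∈ Set.range i := by
  let _ : Algebra E L := i.toAlgebra
  have hgr : (g.map i).eval r = 0 := by
    rw [hs, Polynomial.eval_mul, Polynomial.eval_prod]
    exact mul_eq_zero_of_right _ (Finset.prod_eq_zero hr (by simp))
  have hint : IsIntegral E r := ⟨g, hg, by rw [← Polynomial.eval_map]; exact hgr⟩
  have hmr : ((minpoly E r).map i).eval r = 0 := by
    rw [Polynomial.eval_map]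
    exact minpoly.aeval E r
  have hdvd : minpoly E r ∣ g := minpoly.dvd E r (by
    rw [Polynomial.aeval_def, ← Polynomial.eval_map]; exact hgr)
  have hprod := prod_orbit_dvd i (minpoly E r) s hmr horb
  have hmmonic : ((minpoly E r).map i).Monic := (minpoly.monic hint).map i
  have hm0 : (minpoly E r).map i ≠ 0 := hmmonic.ne_zero
  have hprodmonic : (∏ x ∈ s, (X - C x) : L[X]).Monic :=
    Polynomial.monic_prod_of_monic _ _ fun x _ => Polynomial.monic_X_sub_C x
  have hgdeg : g.natDegree = s.card + 1 := by
    rw [← Polynomial.natDegree_map i, hs,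
      Polynomial.natDegree_mul (Polynomial.X_sub_C_ne_zero r₀) hprodmonic.ne_zero,
      Polynomial.natDegree_X_sub_C, Polynomial.natDegree_finsetProd_X_sub_C_eq_card]
    omega
  have h2 : s.card ≤ (minpoly E r).natDegree := by
    have := Polynomial.natDegree_le_of_dvd hprod hm0
    rwa [Polynomial.natDegree_finsetProd_X_sub_C_eq_card, Polynomial.natDegree_map] at this
  by_cases hcase : g.natDegree ≤ (minpoly E r).natDegree
  · left
    have heq : g = minpoly E r :=
      Polynomial.eq_of_monic_of_dvd_of_natDegree_le (minpoly.monic hint) hg hdvd hcase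
    rw [heq]
    exact minpoly.irreducible hint
  · right
    have hmdeg : (minpoly E r).natDegree = s.card := by omega
    -- `minpoly.map i` is exactly the orbit product
    have hmeq : (∏ x ∈ s, (X - C x) : L[X]) = (minpoly E r).map i :=
      (Polynomial.eq_of_monic_of_dvd_of_natDegree_le hprodmonic hmmonic hprod (by
        rw [Polynomial.natDegree_finsetProd_X_sub_C_eq_card, Polynomial.natDegree_map,
          hmdeg])).symm
    obtain ⟨h, hh⟩ := hdvd
    have hhmonic : h.Monic := by
      have : (minpoly E r * h).Monic := hh ▸ hg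
      exact (minpoly.monic hint).of_mul_monic_left this
    have hhdeg : h.natDegree = 1 := by
      have := congrArg Polynomial.natDegree hh
      rw [Polynomial.natDegree_mul (minpoly.ne_zero hint) hhmonic.ne_zero, hgdeg, hmdeg] at this
      omega
    have hmap : (minpoly E r).map i * h.map i = (minpoly E r).map i * (X - C r₀) := by
      rw [← Polynomial.map_mul, ← hh, hs, ← hmeq, mul_comm]
    have hh' : h.map i = X - C r₀ := mul_left_cancel₀ hm0 hmap
    have hX : h = X + C (h.coeff 0) := hhmonic.eq_X_add_C hhdeg
    refine ⟨-(h.coeff 0), ?_⟩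
    have := congrArg (fun q : L[X] => q.coeff 0) hh'
    rw [hX] at this
    simp only [Polynomial.map_add, Polynomial.map_X, Polynomial.map_C, Polynomial.coeff_add,
      Polynomial.coeff_X_zero, Polynomial.coeff_C_zero, zero_add, Polynomial.coeff_sub,
      zero_sub] at this
    rw [map_neg, this, neg_neg]

/-- **L4.** Extension of embeddings: if `E'` is generated as a field by `j(E)` and `x`, and `x` is
a root of the irreducible polynomial `g` over `E`, then any embedding `τ : E →+* L` extends to
`E'` sending `x` to any prescribed root `r` of `g.map τ`. -/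
theorem exists_ringHom_extend {E' : Type*} [Field E'] (j : E →+* E') (x : E')
    (hx : Subfield.closure (Set.range j ∪ {x}) = ⊤) (g : E[X]) (hg : Irreducible g)
    (hgx : (g.map j).eval x = 0) (τ : E →+* L) (r : L) (hr : (g.map τ).eval r = 0) :
    ∃ τ' : E' →+* L, τ'.comp j = τ ∧ τ' x = r := by
  have := Fact.mk hg
  have hgx' : g.eval₂ j x = 0 := by rwa [Polynomial.eval_map] at hgx
  have hr' : g.eval₂ τ r = 0 := by rwa [Polynomial.eval_map] at hr
  set φ : AdjoinRoot g →+* E' := AdjoinRoot.lift j x hgx' with hφ
  have hφinj : Function.Injective φ := φ.injective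
  have hφsurj : Function.Surjective φ := by
    have hle : Subfield.closure (Set.range j ∪ {x}) ≤ φ.fieldRange := by
      refine Subfield.closure_le.mpr (Set.union_subset ?_ ?_)
      · rintro _ ⟨e, rfl⟩
        exact ⟨AdjoinRoot.of g e, AdjoinRoot.lift_of hgx'⟩
      · rintro _ rfl
        exact ⟨AdjoinRoot.root g, AdjoinRoot.lift_root hgx'⟩
    intro y
    have : y ∈ φ.fieldRange := hle (by rw [hx]; exact Subfield.mem_top y)
    exact this
  let e : AdjoinRoot g ≃+* E' := RingEquiv.ofBijective φ ⟨hφinj, hφsurj⟩
  let ψ : AdjoinRoot g →+* L := AdjoinRoot.lift τ r hr'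
  refine ⟨ψ.comp e.symm.toRingHom, ?_, ?_⟩
  · ext a
    have h1 : e (AdjoinRoot.of g a) = j a := AdjoinRoot.lift_of hgx'
    have h2 : e.symm (j a) = AdjoinRoot.of g a := by rw [← h1, RingEquiv.symm_apply_apply]
    show ψ (e.symm (j a)) = τ a
    rw [h2]
    exact AdjoinRoot.lift_of hr'
  · have h1 : e (AdjoinRoot.root g) = x := AdjoinRoot.lift_root hgx'
    have h2 : e.symm x = AdjoinRoot.root g := by rw [← h1, RingEquiv.symm_apply_apply]
    show ψ (e.symm x) = r
    rw [h2]
    exact AdjoinRoot.lift_root hr'

/-- **L5.** If `P` splits in `L` with distinct roots and `r` is the only root of `P` which is also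
a root of `Q`, then `r` comes from `E` (it is the root of `gcd P Q`, which has degree one). -/
theorem mem_range_of_unique_common_root (i : E →+* L) (P Q : E[X]) (s : Finset L)
    (hP : P.map i = ∏ x ∈ s, (X - C x)) {r : L} (hr : r ∈ s) (hQr : (Q.map i).eval r = 0)
    (hQ : ∀ x ∈ s, (Q.map i).eval x = 0 → x = r) : r ∈ Set.range i := by
  classical
  set D : E[X] := EuclideanDomain.gcd P Q with hD
  have hDmap : D.map i = EuclideanDomain.gcd (P.map i) (Q.map i) := (Polynomial.gcd_map i).symm
  have hPr : (P.map i).eval r = 0 := by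
    rw [hP, Polynomial.eval_prod]
    exact Finset.prod_eq_zero hr (by simp)
  have hPne : P.map i ≠ 0 := by
    rw [hP]
    exact (Polynomial.monic_prod_of_monic _ _ fun x _ => Polynomial.monic_X_sub_C x).ne_zero
  have hD0 : D.map i ≠ 0 := by
    rw [hDmap]
    intro h0
    exact hPne (EuclideanDomain.gcd_eq_zero_iff.mp h0).1
  have hDP : D.map i ∣ P.map i := hDmap ▸ EuclideanDomain.gcd_dvd_left _ _
  have hDQ : D.map i ∣ Q.map i := hDmap ▸ EuclideanDomain.gcd_dvd_right _ _
  have hrD : (X - C r) ∣ D.map i := by
    rw [hDmap]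
    exact EuclideanDomain.dvd_gcd (Polynomial.dvd_iff_isRoot.mpr hPr)
      (Polynomial.dvd_iff_isRoot.mpr hQr)
  -- `D.map i` is coprime to the other linear factors of `P`
  have hsplit : (∏ x ∈ s, (X - C x) : L[X]) = (X - C r) * ∏ x ∈ s.erase r, (X - C x) :=
    (Finset.mul_prod_erase s (fun x => (X - C x : L[X])) hr).symm
  have hcop : IsCoprime (D.map i) (∏ x ∈ s.erase r, (X - C x)) := by
    refine IsCoprime.prod_right fun x hx => ?_
    have hxs : x ∈ s := Finset.mem_of_mem_erase hx
    have hxr : x ≠ r := Finset.ne_of_mem_erase hx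
    refine (Polynomial.irreducible_X_sub_C x).coprime_iff_not_dvd.mpr ?_ |>.symm
    intro hdvd
    have : (Q.map i).eval x = 0 := Polynomial.dvd_iff_isRoot.mp (hdvd.trans hDQ)
    exact hxr (hQ x hxs this)
  have hDr : D.map i ∣ X - C r := by
    have : D.map i ∣ (X - C r) * ∏ x ∈ s.erase r, (X - C x) := by
      rw [← hsplit, ← hP]; exact hDP
    exact hcop.dvd_of_dvd_mul_right this
  have hdeg : D.natDegree = 1 := by
    have h1 := Polynomial.natDegree_le_of_dvd hDr (Polynomial.X_sub_C_ne_zero r)
    have h2 := Polynomial.natDegree_le_of_dvd hrD hD0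
    rw [Polynomial.natDegree_X_sub_C] at h1 h2
    rw [Polynomial.natDegree_map] at h1 h2
    omega
  have hdeg' : D.degree = 1 := by
    rw [Polynomial.degree_eq_natDegree (fun h => hD0 (by rw [h, Polynomial.map_zero])), hdeg]
    rfl
  obtain ⟨e, he⟩ := Polynomial.exists_root_of_degree_eq_one hdeg'
  refine ⟨e, ?_⟩
  have h1 : (D.map i).eval (i e) = 0 := by
    rw [Polynomial.eval_map, Polynomial.eval₂_hom, he.eq_zero, map_zero]
  have h2 : (X - C r : L[X]).eval (i e) = 0 := by
    obtain ⟨c, hc⟩ := hDr
    rw [hc, Polynomial.eval_mul, h1, zero_mul]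
  simpa [sub_eq_zero] using h2

/-- **L6.** A ring hom out of a field generated by a set `G` maps everything into a subfield `S`
as soon as it maps `G` into `S`. -/
theorem map_mem_of_closure_eq_top {κ : Type*} [Field κ] (σ : κ →+* L) (S : Subfield L)
    (G : Set κ) (hG : Subfield.closure G = ⊤) (hGS : ∀ x ∈ G, σ x ∈ S) (y : κ) : σ y ∈ S := by
  have hle : Subfield.closure G ≤ S.comap σ := Subfield.closure_le.mpr fun x hx => hGS x hx
  have : y ∈ S.comap σ := hle (by rw [hG]; exact Subfield.mem_top y)
  exact this

/-- **L7.** Extension of embeddings into the algebraic closure: if `κ` is algebraic over `j(E)`,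
`x ∈ κ` is a root of the irreducible polynomial `g` over `E`, and `r : L` is a root of `g.map τ`,
then there is an embedding `σ : κ →+* AlgebraicClosure L` extending `τ` with `σ x = r`. -/
theorem exists_ringHom_algebraicClosure {κ : Type*} [Field κ] (j : E →+* κ)
    (halg : ∀ y : κ, ∃ q : E[X], q ≠ 0 ∧ (q.map j).eval y = 0)
    (x : κ) (g : E[X]) (hg : Irreducible g) (hgx : (g.map j).eval x = 0) (τ : E →+* L) (r : L)
    (hr : (g.map τ).eval r = 0) :
    ∃ σ : κ →+* AlgebraicClosure L,
      σ.comp j = (algebraMap L (AlgebraicClosure L)).comp τ ∧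
      σ x = algebraMap L (AlgebraicClosure L) r := by
  let _ : Algebra E κ := j.toAlgebra
  let _ : Algebra E (AlgebraicClosure L) := ((algebraMap L (AlgebraicClosure L)).comp τ).toAlgebra
  have halg' : Algebra.IsAlgebraic E κ := by
    refine ⟨fun y => ?_⟩
    obtain ⟨q, hq0, hq⟩ := halg y
    exact ⟨q, hq0, by rw [Polynomial.aeval_def, ← Polynomial.eval_map]; exact hq⟩
  have hgx' : aeval x g = 0 := by
    rw [Polynomial.aeval_def, ← Polynomial.eval_map]; exact hgx
  have hmin : g * C g.leadingCoeff⁻¹ = minpoly E x := minpoly.eq_of_irreducible hg hgx'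
  have hroot : aeval (algebraMap L (AlgebraicClosure L) r) (minpoly E x) = 0 := by
    rw [← hmin, map_mul]
    have : aeval (algebraMap L (AlgebraicClosure L) r) g = 0 := by
      rw [Polynomial.aeval_def]
      show Polynomial.eval₂ ((algebraMap L (AlgebraicClosure L)).comp τ) _ g = 0
      rw [← Polynomial.eval₂_map, Polynomial.eval₂_hom, hr, map_zero]
    rw [this, zero_mul]
  obtain ⟨φ, hφ⟩ := IntermediateField.exists_algHom_of_splits_of_aeval
    (F := E) (E := κ) (K := AlgebraicClosure L)
    (fun y => ⟨Algebra.IsIntegral.isIntegral y, IsAlgClosed.splits _⟩) hroot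
  refine ⟨φ.toRingHom, ?_, hφ⟩
  ext e
  exact φ.commutes e

end Fermat.Agent.S28.FieldLemmas
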