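import Mathlib
import Fermat.Prelude.Def_ModularCurve_X0ModL
import Fermat.Agent.S28.TowerDefs
import Fermat.Agent.S28.ValInd
import Fermat.Agent.S28.FieldLemmas
import Fermat.Agent.S28.Kummer.Roots

/-!
# S28, route C: the forward chain by degree counting (core)

`K` a field, `J_d := J(q^d) ∈ K((q))`, `κ_N := K(J_d : d ∣ N)`.  For a prime `p` and
`N = p^a * D` (`p ∤ D`) we show, from ζ-free modular-equation data (`Kummer.ModEqData`) for the
primes dividing `N * p`, the base case `J_p ∉ K(J)` and primitive roots of unity in `K`: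

* `kap_mul_prime`: `κ_{N p} = κ_N(J_{p^(a+1)})`           (unique common root / gcd trick);
* `le_natDegree_minpoly`: the minimal polynomial of `J_{p^(a+1)}` over `κ_N` has degree
  `≥ p + 1` if `p ∤ N` and `≥ p` if `p ∣ N`;
* `exists_monic_kap`: a monic polynomial of that degree over `κ_N` vanishing at `J_{p^(a+1)}`.

The proof is pure degree counting inside `K((q))`: with `V_p : q ↦ q^p`,
`[κ_{Np} : κ_N] = [κ_{Np} : V_p κ_N]` (both base degrees `[K(J,J_p):K(J)]`, `[K(J,J_p):K(J_p)]`
are `p + 1`), and `J` has degree `≥ p` over every subfield of `K((q^p))` (orders), resp.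
`p + 1` over `V_p κ_N` when `J_p ∉ κ_N`.
-/

set_option autoImplicit false

noncomputable section

namespace Fermat.Agent.S28.Chain

open ModularCurve Polynomial IntermediateField
open Fermat.Agent.S28.TD (Jd)
open Fermat.Agent.S28.Kummer (specialize ev JJ)

/-! ### General field theory: relative degrees of adjunctions -/

section FieldTheory

variable {F E : Type*} [Field F] [Field E] [Algebra F E]

theorem extendScalars_sup_adjoin (A : IntermediateField F E) (S : Set E) :
    IntermediateField.extendScalars (le_sup_left : A ≤ A ⊔ adjoin F S) = adjoin A S := by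
  apply le_antisymm
  · rw [IntermediateField.extendScalars_le_iff]
    refine sup_le ?_ ?_
    · intro a ha
      exact (adjoin A S).algebraMap_mem ⟨a, ha⟩
    · rw [adjoin_le_iff]
      intro x hx
      exact subset_adjoin A S hx
  · rw [adjoin_le_iff]
    intro x hx
    exact (le_sup_right : adjoin F S ≤ A ⊔ adjoin F S) (subset_adjoin F S hx)

theorem relfinrank_sup_adjoin_simple (A : IntermediateField F E) {x : E} (hx : IsIntegral A x) :
    A.relfinrank (A ⊔ F⟮x⟯) = (minpoly A x).natDegree := by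
  rw [IntermediateField.relfinrank_eq_finrank_of_le le_sup_left, extendScalars_sup_adjoin]
  exact IntermediateField.adjoin.finrank hx

theorem relfinrank_sup_adjoin_ne_zero (A : IntermediateField F E) {S : Set E} (hS : S.Finite)
    (hint : ∀ x ∈ S, IsIntegral A x) : A.relfinrank (A ⊔ adjoin F S) ≠ 0 := by
  rw [IntermediateField.relfinrank_eq_finrank_of_le le_sup_left, extendScalars_sup_adjoin]
  haveI : Finite S := hS
  haveI := IntermediateField.finiteDimensional_adjoin (K := A) hint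
  exact Module.finrank_pos.ne'

end FieldTheory

/-! ### The series `J(q^d)` and the substitutions `q ↦ q^m` -/

section Series

variable (K : Type*) [Field K]

/-- `q ↦ q^m` as a `K`-algebra endomorphism of `K((q))`, total in `m` (identity for `m = 0`). -/
def V (m : ℕ) : LaurentSeries K →ₐ[K] LaurentSeries K :=
  if h : m = 0 then AlgHom.id K _ else haveI : NeZero m := ⟨h⟩; qExpandAlgHomC K m

theorem V_apply (m : ℕ) [NeZero m] (f : LaurentSeries K) : V K m f = qExpand K m f := by
  unfold V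
  rw [dif_neg (NeZero.ne m)]
  rfl

theorem V_injective (m : ℕ) : Function.Injective (V K m) := (V K m).toRingHom.injective

theorem V_Jd (m d : ℕ) (hm : m ≠ 0) (hd : d ≠ 0) : V K m (Jd K d) = Jd K (m * d) := by
  haveI : NeZero m := ⟨hm⟩
  rw [V_apply]
  exact TD.qExpand_Jd K m d hd

theorem V_mem_range (m : ℕ) [NeZero m] (f : LaurentSeries K) :
    V K m f ∈ Set.range (qExpand K m) := ⟨f, (V_apply K m f).symm⟩

theorem Jd_eq_JJ (d : ℕ) [NeZero d] : Jd K d = JJ (1 : Kˣ) d := by
  rw [TD.Jd_eq_jqNModC, Kummer.JJ_one]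

theorem Jd_injective {a b : ℕ} (ha : a ≠ 0) (hb : b ≠ 0) (h : Jd K a = Jd K b) : a = b := by
  haveI : NeZero a := ⟨ha⟩
  haveI : NeZero b := ⟨hb⟩
  rw [Jd_eq_JJ, Jd_eq_JJ] at h
  exact (Kummer.JJ_injective h).1

theorem Jd_one_not_mem_range {p : ℕ} [NeZero p] (hp : 1 < p) :
    Jd K 1 ∉ Set.range (qExpand K p) := by
  rintro ⟨f, hf⟩
  have h1 : (Jd K 1).coeff (-1) = 1 := by
    rw [TD.Jd_one]
    exact coeff_jqModC_neg_one K
  have hnd : ¬ (p : ℤ) ∣ (-1 : ℤ) := by
    intro h
    have := Int.le_of_dvd one_pos ((dvd_neg).mp h)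
    omega
  rw [← hf, qExpand_coeff_of_not_dvd p f hnd] at h1
  exact zero_ne_one h1

variable {K}

/-- `Φ(J(q^(m p)), J(q^m)) = 0`. -/
theorem rel_up {p : ℕ} [NeZero p] (D : Kummer.ModEqData p) (m : ℕ) (hm : m ≠ 0) :
    (specialize D.Φ (Jd K m)).eval (Jd K (m * p)) = 0 := by
  haveI : NeZero m := ⟨hm⟩
  rw [Kummer.eval_specialize, Jd_eq_JJ K m, Jd_eq_JJ K (m * p)]
  have := D.ev_mul (1 : Kˣ) m
  rwa [one_pow] at this

/-- `Φ(J(q^m), J(q^(m p))) = 0`. -/
theorem rel_down {p : ℕ} [NeZero p] (D : Kummer.ModEqData p) (m : ℕ) (hm : m ≠ 0) :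
    (specialize D.Φ (Jd K (m * p))).eval (Jd K m) = 0 := by
  haveI : NeZero m := ⟨hm⟩
  rw [Kummer.eval_specialize, Jd_eq_JJ K m, Jd_eq_JJ K (m * p)]
  have := D.ev_div (1 : Kˣ) m
  rwa [one_pow] at this

end Series

/-! ### The fields `κ_N` and `V_m κ_N` -/

section Fields

variable (K : Type*) [Field K]

/-- `κ_N = K(J(q^d) : d ∣ N)` inside `K((q))`. -/
def kap (N : ℕ) : IntermediateField K (LaurentSeries K) :=
  adjoin K ((fun d => Jd K d) '' {d | d ∣ N})

/-- `V_m κ_N = K(J(q^(m d)) : d ∣ N)` inside `K((q))`. -/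
def kapV (m N : ℕ) : IntermediateField K (LaurentSeries K) :=
  adjoin K ((fun d => Jd K (m * d)) '' {d | d ∣ N})

variable {K}

theorem Jd_mem_kap {d N : ℕ} (h : d ∣ N) : Jd K d ∈ kap K N :=
  subset_adjoin K _ ⟨d, h, rfl⟩

theorem Jd_mem_kapV (m : ℕ) {d N : ℕ} (h : d ∣ N) : Jd K (m * d) ∈ kapV K m N :=
  subset_adjoin K _ ⟨d, h, rfl⟩

theorem kap_le_iff {N : ℕ} {B : IntermediateField K (LaurentSeries K)} :
    kap K N ≤ B ↔ ∀ d, d ∣ N → Jd K d ∈ B := by
  unfold kap
  rw [adjoin_le_iff]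
  constructor
  · intro h d hd
    exact h ⟨d, hd, rfl⟩
  · rintro h _ ⟨d, hd, rfl⟩
    exact h d hd

theorem kapV_le_iff {m N : ℕ} {B : IntermediateField K (LaurentSeries K)} :
    kapV K m N ≤ B ↔ ∀ d, d ∣ N → Jd K (m * d) ∈ B := by
  unfold kapV
  rw [adjoin_le_iff]
  constructor
  · intro h d hd
    exact h ⟨d, hd, rfl⟩
  · rintro h _ ⟨d, hd, rfl⟩
    exact h d hd

theorem kap_mono {M N : ℕ} (h : M ∣ N) : kap K M ≤ kap K N :=
  kap_le_iff.mpr fun _ hd => Jd_mem_kap (dvd_trans hd h)

theorem kapV_mono (m : ℕ) {M N : ℕ} (h : M ∣ N) : kapV K m M ≤ kapV K m N :=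
  kapV_le_iff.mpr fun _ hd => Jd_mem_kapV m (dvd_trans hd h)

theorem kapV_le_kap (m N : ℕ) : kapV K m N ≤ kap K (N * m) :=
  kapV_le_iff.mpr fun d hd => Jd_mem_kap (by rw [mul_comm N m]; exact Nat.mul_dvd_mul_left m hd)

theorem kap_map_V (m N : ℕ) (hm : m ≠ 0) (hN : N ≠ 0) :
    (kap K N).map (V K m) = kapV K m N := by
  unfold kap kapV
  rw [adjoin_map, Set.image_image]
  congr 1
  refine Set.image_congr fun d hd => ?_
  exact V_Jd K m d hm (ne_zero_of_dvd_ne_zero hN hd)

theorem mem_kapV_iff (m N : ℕ) (hm : m ≠ 0) (hN : N ≠ 0) (x : LaurentSeries K) :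
    V K m x ∈ kapV K m N ↔ x ∈ kap K N := by
  rw [← kap_map_V m N hm hN, IntermediateField.mem_map]
  constructor
  · rintro ⟨y, hy, hxy⟩
    rwa [← V_injective K m hxy]
  · intro hx
    exact ⟨x, hx, rfl⟩

theorem kapV_le_range (m N : ℕ) [NeZero m] (hN : N ≠ 0) {x : LaurentSeries K}
    (hx : x ∈ kapV K m N) : x ∈ Set.range (qExpand K m) := by
  rw [← kap_map_V m N (NeZero.ne m) hN, IntermediateField.mem_map] at hx
  obtain ⟨y, -, rfl⟩ := hx
  exact V_mem_range K m y

end Fields

/-! ### The cofactor argument: `J` has degree `p + 1` over subfields of `K((q^p))` -/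

section Cofactor

variable {K : Type*} [Field K]

/-- Let `A ⊆ K((q^p))` be a field containing `J(q^p)` but not `J(q^(p²))`.  Then the minimal
polynomial of `J(q)` over `A` is `Φ_p(X, J(q^p))`, of degree `p + 1`. -/
theorem minpoly_J_eq {p : ℕ} [NeZero p] (hp : 1 < p) (D : Kummer.ModEqData p)
    (A : IntermediateField K (LaurentSeries K))
    (hA : ∀ a ∈ A, a ∈ Set.range (qExpand K p))
    (hJp : Jd K p ∈ A) (hJpp : Jd K (p * p) ∉ A) :
    minpoly A (jqModC K) = specialize D.Φ (⟨Jd K p, hJp⟩ : A) := by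
  have hp0 : p ≠ 0 := NeZero.ne p
  set Φ₁ : Polynomial A := specialize D.Φ (⟨Jd K p, hJp⟩ : A) with hΦ₁
  have hΦmonic : Φ₁.Monic := Kummer.specialize_monic D.monic _
  have hΦdeg : Φ₁.natDegree = p + 1 := by
    rw [hΦ₁, Kummer.natDegree_specialize D.monic, D.natDegree_eq]
  have hmap : Φ₁.map (algebraMap A (LaurentSeries K)) = specialize D.Φ (Jd K p) :=
    Kummer.map_specialize _ _ _
  have hΦJ : aeval (jqModC K) Φ₁ = 0 := by
    rw [aeval_def, eval₂_eq_eval_map, hmap]
    have := rel_down (K := K) D 1 one_ne_zero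
    rwa [one_mul, TD.Jd_one] at this
  have hΦJpp : aeval (Jd K (p * p)) Φ₁ = 0 := by
    rw [aeval_def, eval₂_eq_eval_map, hmap]
    exact rel_up (K := K) D p hp0
  have hint : IsIntegral A (jqModC K) := ⟨Φ₁, hΦmonic, by rwa [aeval_def] at hΦJ⟩
  have hE : ∀ a : A, algebraMap A (LaurentSeries K) a ∈ Set.range (qExpand K p) :=
    fun a => hA a a.2
  have hmle : p ≤ (minpoly A (jqModC K)).natDegree :=
    ValInd.jqModC_le_natDegree_minpoly p hE hint
  have hdvd : minpoly A (jqModC K) ∣ Φ₁ := minpoly.dvd A _ hΦJ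
  have hmmonic : (minpoly A (jqModC K)).Monic := minpoly.monic hint
  have hdeg_le : (minpoly A (jqModC K)).natDegree ≤ p + 1 :=
    (natDegree_le_of_dvd hdvd hΦmonic.ne_zero).trans_eq hΦdeg
  have hJne : jqModC K ≠ Jd K (p * p) := by
    intro h
    rw [← TD.Jd_one K] at h
    have := Jd_injective K one_ne_zero (Nat.mul_ne_zero hp0 hp0) h
    nlinarith
  have hdeg : (minpoly A (jqModC K)).natDegree = p + 1 := by
    by_contra hne
    have hmp : (minpoly A (jqModC K)).natDegree = p := by omega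
    obtain ⟨c, hc⟩ := hdvd
    have hcmonic : c.Monic := hmmonic.of_mul_monic_left (hc ▸ hΦmonic)
    have hcdeg : c.natDegree = 1 := by
      have := congrArg natDegree hc
      rw [hmmonic.natDegree_mul hcmonic, hΦdeg, hmp] at this
      omega
    have hceq := hcmonic.eq_X_add_C hcdeg
    have h0 : aeval (Jd K (p * p)) (minpoly A (jqModC K)) * aeval (Jd K (p * p)) c = 0 := by
      rw [← map_mul, ← hc]
      exact hΦJpp
    rcases mul_eq_zero.mp h0 with h1 | h1
    · -- `J(q^(p²))` is a root of the minimal polynomial: divide it out over `A(J(q^(p²)))`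
      let P : IntermediateField K (LaurentSeries K) := A ⊔ K⟮Jd K (p * p)⟯
      have hJppP : Jd K (p * p) ∈ P :=
        (le_sup_right : K⟮Jd K (p * p)⟯ ≤ P) (mem_adjoin_simple_self K _)
      have hPrange : ∀ x ∈ P, x ∈ Set.range (qExpand K p) := by
        have hle : P ≤ (qExpandAlgHomC K p).fieldRange := by
          refine sup_le ?_ ?_
          · intro a ha
            obtain ⟨b, hb⟩ := hA a ha
            exact ⟨b, hb⟩
          · rw [adjoin_simple_le_iff]
            refine ⟨Jd K p, ?_⟩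
            show qExpand K p (Jd K p) = _
            exact TD.qExpand_Jd K p p hp0
        intro x hx
        obtain ⟨b, hb⟩ := hle hx
        exact ⟨b, hb⟩
      let ι : A →+* P := (IntermediateField.inclusion (le_sup_left : A ≤ P)).toRingHom
      have hι : (algebraMap P (LaurentSeries K)).comp ι = algebraMap A (LaurentSeries K) :=
        RingHom.ext fun a => rfl
      set mP : Polynomial P := (minpoly A (jqModC K)).map ι with hmP
      have hmPmonic : mP.Monic := hmmonic.map ι
      have hmPdeg : mP.natDegree = p := by rw [hmP, hmmonic.natDegree_map, hmp]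
      have hroot : mP.IsRoot (⟨Jd K (p * p), hJppP⟩ : P) := by
        show mP.eval _ = 0
        apply (algebraMap P (LaurentSeries K)).injective
        rw [map_zero, ← eval₂_hom, hmP, eval₂_map, hι]
        exact h1
      obtain ⟨m₂, hm₂⟩ := dvd_iff_isRoot.mpr hroot
      have hm₂0 : m₂ ≠ 0 := by
        rintro rfl
        rw [mul_zero] at hm₂
        exact hmPmonic.ne_zero hm₂
      have hm₂deg : m₂.natDegree < p := by
        have := congrArg natDegree hm₂
        rw [natDegree_mul (X_sub_C_ne_zero _) hm₂0, natDegree_X_sub_C, hmPdeg] at this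
        omega
      have hev : aeval (jqModC K) mP = 0 := by
        rw [aeval_def, hmP, eval₂_map, hι]
        exact minpoly.aeval A (jqModC K)
      have hev₂ : aeval (jqModC K) m₂ = 0 := by
        rw [hm₂, map_mul, map_sub, aeval_X, aeval_C] at hev
        rcases mul_eq_zero.mp hev with h2 | h2
        · exact absurd (sub_eq_zero.mp h2) hJne
        · exact h2
      have hEP : ∀ a : P, algebraMap P (LaurentSeries K) a ∈ Set.range (qExpand K p) :=
        fun a => hPrange a a.2
      exact hm₂0 (ValInd.jqModC_eq_zero_of_aeval p hEP m₂ hm₂deg hev₂)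
    · -- the cofactor is `X - J(q^(p²))`, so `J(q^(p²)) ∈ A`
      rw [hceq, map_add, aeval_X, aeval_C] at h1
      apply hJpp
      have : Jd K (p * p) = -algebraMap A (LaurentSeries K) (c.coeff 0) :=
        eq_neg_of_add_eq_zero_left h1
      rw [this]
      exact neg_mem (c.coeff 0).2
  exact (eq_of_monic_of_dvd_of_natDegree_le hmmonic hΦmonic hdvd (by omega)).symm

end Cofactor

/-! ### Integrality and finiteness -/

section Finite

variable {K : Type*} [Field K]

/-- Every `J(q^d)` is integral over `K(J)` (chain of modular equations). -/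
theorem isIntegral_Jd (d : ℕ) (hd : d ≠ 0)
    (hdata : ∀ (r : ℕ) [NeZero r], r.Prime → r ∣ d → Nonempty (Kummer.ModEqData r)) :
    IsIntegral (kap K 1) (Jd K d) := by
  induction d using Nat.strong_induction_on with
  | _ d ih =>
    rcases eq_or_ne d 1 with rfl | hd1
    · exact (isIntegral_algebraMap :
        IsIntegral (kap K 1) (algebraMap (kap K 1) (LaurentSeries K)
          ⟨Jd K 1, Jd_mem_kap (dvd_refl 1)⟩))
    · obtain ⟨r, hr, e, rfl⟩ := Nat.exists_prime_and_dvd hd1
      have : NeZero r := ⟨hr.ne_zero⟩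
      have he0 : e ≠ 0 := by
        rintro rfl
        exact hd (mul_zero r)
      have helt : e < r * e := by
        have := hr.one_lt
        calc e = 1 * e := (one_mul e).symm
          _ < r * e := Nat.mul_lt_mul_of_pos_right this (Nat.pos_of_ne_zero he0)
      have ihe : IsIntegral (kap K 1) (Jd K e) :=
        ih e helt he0 fun r' _ hrp hre => hdata r' hrp (Dvd.dvd.mul_left hre _)
      obtain ⟨D⟩ := hdata r hr (dvd_mul_right r e)
      let y : integralClosure (kap K 1) (LaurentSeries K) := ⟨Jd K e, ihe⟩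
      have hq : IsIntegral (integralClosure (kap K 1) (LaurentSeries K)) (Jd K (r * e)) := by
        refine ⟨specialize D.Φ y, Kummer.specialize_monic D.monic _, ?_⟩
        rw [eval₂_eq_eval_map, Kummer.map_specialize]
        have := rel_up (K := K) D e he0
        rw [mul_comm r e]
        exact this
      exact isIntegral_trans _ hq

theorem setOf_dvd_finite {N : ℕ} (hN : N ≠ 0) : {d : ℕ | d ∣ N}.Finite :=
  (Set.finite_le_nat N).subset fun _ hd => Nat.le_of_dvd (Nat.pos_of_ne_zero hN) hd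

/-- `κ_N` is finite over `K(J)`. -/
theorem relfinrank_kap_ne_zero (N : ℕ) (hN : N ≠ 0)
    (hdata : ∀ (r : ℕ) [NeZero r], r.Prime → r ∣ N → Nonempty (Kummer.ModEqData r)) :
    (kap K 1).relfinrank (kap K N) ≠ 0 := by
  have hS : ((fun d => Jd K d) '' {d | d ∣ N}).Finite := (setOf_dvd_finite hN).image _
  have hint : ∀ x ∈ (fun d => Jd K d) '' {d | d ∣ N}, IsIntegral (kap K 1) x := by
    rintro _ ⟨d, hd, rfl⟩
    exact isIntegral_Jd d (ne_zero_of_dvd_ne_zero hN hd)
      fun r _ hr hrd => hdata r hr (dvd_trans hrd hd)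
  have h := relfinrank_sup_adjoin_ne_zero (kap K 1) hS hint
  have hsup : kap K 1 ⊔ adjoin K ((fun d => Jd K d) '' {d | d ∣ N}) = kap K N :=
    sup_eq_right.mpr (kap_mono (one_dvd N))
  rwa [hsup] at h

end Finite

/-! ### The two base degrees and the symmetry `[κ_{Np} : κ_N] = [κ_{Np} : V_p κ_N]` -/

section Degree

variable {K : Type*} [Field K] {p : ℕ} [NeZero p]

omit [NeZero p] in
theorem Jd_mem_kapV_one : Jd K p ∈ kapV K p 1 := by
  have := Jd_mem_kapV (K := K) p (dvd_refl 1)
  rwa [mul_one] at this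

theorem Jd_sq_not_mem_kapV {N : ℕ} (hN : N ≠ 0) (h : Jd K p ∉ kap K N) :
    Jd K (p * p) ∉ kapV K p N := by
  have hp0 : p ≠ 0 := NeZero.ne p
  intro h'
  apply h
  rw [← mem_kapV_iff p N hp0 hN]
  rwa [V_Jd K p p hp0 hp0]

theorem kapV_range (N : ℕ) (hN : N ≠ 0) :
    ∀ a ∈ kapV K p N, a ∈ Set.range (qExpand K p) :=
  fun _ ha => kapV_le_range p N hN ha

/-- The minimal polynomial of `J` over `K(J(q^p))`. -/
theorem minpoly_J_kapV_one (hp : 1 < p) (D : Kummer.ModEqData p) (hBC : Jd K p ∉ kap K 1) :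
    minpoly (kapV K p 1) (jqModC K) = specialize D.Φ (⟨Jd K p, Jd_mem_kapV_one⟩ : kapV K p 1) :=
  minpoly_J_eq hp D (kapV K p 1) (kapV_range 1 one_ne_zero) Jd_mem_kapV_one
    (Jd_sq_not_mem_kapV one_ne_zero hBC)

theorem kap_prime_eq (hp : p.Prime) : kap K p = kapV K p 1 ⊔ K⟮jqModC K⟯ := by
  apply le_antisymm
  · rw [kap_le_iff]
    intro d hd
    rcases (Nat.dvd_prime hp).mp hd with h | h
    · rw [h, TD.Jd_one]
      exact (le_sup_right : K⟮jqModC K⟯ ≤ _) (mem_adjoin_simple_self K _)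
    · rw [h]
      exact (le_sup_left : kapV K p 1 ≤ _) Jd_mem_kapV_one
  · refine sup_le ?_ ?_
    · have := kapV_le_kap (K := K) p 1
      rwa [one_mul] at this
    · rw [adjoin_simple_le_iff, ← TD.Jd_one K]
      exact Jd_mem_kap (one_dvd p)

theorem kapV_prime_eq (hp : p.Prime) : kapV K p p = kapV K p 1 ⊔ K⟮Jd K (p * p)⟯ := by
  apply le_antisymm
  · rw [kapV_le_iff]
    intro d hd
    rcases (Nat.dvd_prime hp).mp hd with h | h
    · rw [h, mul_one]
      exact (le_sup_left : kapV K p 1 ≤ _) Jd_mem_kapV_one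
    · rw [h]
      exact (le_sup_right : K⟮Jd K (p * p)⟯ ≤ _) (mem_adjoin_simple_self K _)
  · refine sup_le (kapV_mono p (one_dvd p)) ?_
    rw [adjoin_simple_le_iff]
    exact Jd_mem_kapV p (dvd_refl p)

/-- `[K(J, J_p) : K(J_p)] = p + 1`. -/
theorem relfinrank_kapV_one_kap (hp : p.Prime) (D : Kummer.ModEqData p)
    (hBC : Jd K p ∉ kap K 1) : (kapV K p 1).relfinrank (kap K p) = p + 1 := by
  have hmin := minpoly_J_kapV_one hp.one_lt D hBC
  have hmonic : (specialize D.Φ (⟨Jd K p, Jd_mem_kapV_one⟩ : kapV K p 1)).Monic :=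
    Kummer.specialize_monic D.monic _
  have hint : IsIntegral (kapV K p 1) (jqModC K) :=
    minpoly.ne_zero_iff.mp (hmin ▸ hmonic.ne_zero)
  rw [kap_prime_eq hp, relfinrank_sup_adjoin_simple _ hint, hmin,
    Kummer.natDegree_specialize D.monic, D.natDegree_eq]

/-- `[K(J, J_p) : K(J)] = p + 1`. -/
theorem relfinrank_kap_one_kap (hp : p.Prime) (D : Kummer.ModEqData p)
    (hBC : Jd K p ∉ kap K 1) : (kap K 1).relfinrank (kap K p) = p + 1 := by
  have hp0 : p ≠ 0 := NeZero.ne p
  have hmin := minpoly_J_kapV_one hp.one_lt D hBC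
  set Φ₁ : Polynomial (kapV K p 1) := specialize D.Φ (⟨Jd K p, Jd_mem_kapV_one⟩ : kapV K p 1)
    with hΦ₁
  have hmonic : Φ₁.Monic := Kummer.specialize_monic D.monic _
  have hintJ : IsIntegral (kapV K p 1) (jqModC K) :=
    minpoly.ne_zero_iff.mp (hmin ▸ hmonic.ne_zero)
  have hirr : Irreducible Φ₁ := hmin ▸ minpoly.irreducible hintJ
  have hroot : aeval (Jd K (p * p)) Φ₁ = 0 := by
    rw [aeval_def, eval₂_eq_eval_map, hΦ₁, Kummer.map_specialize]
    exact rel_up (K := K) D p hp0
  have hmin' : Φ₁ = minpoly (kapV K p 1) (Jd K (p * p)) :=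
    minpoly.eq_of_irreducible_of_monic hirr hroot hmonic
  have hint : IsIntegral (kapV K p 1) (Jd K (p * p)) :=
    minpoly.ne_zero_iff.mp (hmin' ▸ hmonic.ne_zero)
  rw [← IntermediateField.relfinrank_map_map (kap K 1) (kap K p) (V K p),
    kap_map_V p 1 hp0 one_ne_zero, kap_map_V p p hp0 hp0, kapV_prime_eq hp,
    relfinrank_sup_adjoin_simple _ hint, ← hmin', hΦ₁, Kummer.natDegree_specialize D.monic,
    D.natDegree_eq]

/-- **Symmetry.** `[κ_{Np} : κ_N] = [κ_{Np} : V_p κ_N]`. -/
theorem relfinrank_symm (hp : p.Prime) (D : Kummer.ModEqData p) (hBC : Jd K p ∉ kap K 1)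
    (N : ℕ) (hN : N ≠ 0) (hfin : (kap K 1).relfinrank (kap K N) ≠ 0) :
    (kap K N).relfinrank (kap K (N * p)) = (kapV K p N).relfinrank (kap K (N * p)) := by
  have hp0 : p ≠ 0 := NeZero.ne p
  have h1 := relfinrank_kap_one_kap hp D hBC
  have h2 := relfinrank_kapV_one_kap hp D hBC
  have hVp : kapV K p 1 ≤ kap K p := by
    have := kapV_le_kap (K := K) p 1
    rwa [one_mul] at this
  have hpNp : kap K p ≤ kap K (N * p) := kap_mono (dvd_mul_left p N)
  -- both towers through `κ_p`
  have t1 := IntermediateField.relfinrank_mul_relfinrank (kap_mono (one_dvd p) : kap K 1 ≤ kap K p)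
    hpNp
  have t2 := IntermediateField.relfinrank_mul_relfinrank hVp hpNp
  -- the towers through `κ_N` and `V_p κ_N`
  have t3 := IntermediateField.relfinrank_mul_relfinrank
    (kap_mono (one_dvd N) : kap K 1 ≤ kap K N) (kap_mono (dvd_mul_right N p))
  have t4 := IntermediateField.relfinrank_mul_relfinrank
    (kapV_mono p (one_dvd N) : kapV K p 1 ≤ kapV K p N) (kapV_le_kap p N)
  have hmap : (kapV K p 1).relfinrank (kapV K p N) = (kap K 1).relfinrank (kap K N) := by
    rw [← kap_map_V p 1 hp0 one_ne_zero, ← kap_map_V p N hp0 hN,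
      IntermediateField.relfinrank_map_map]
  rw [h1] at t1
  rw [h2] at t2
  rw [hmap] at t4
  have : (kap K 1).relfinrank (kap K N) * (kap K N).relfinrank (kap K (N * p)) =
      (kap K 1).relfinrank (kap K N) * (kapV K p N).relfinrank (kap K (N * p)) := by
    rw [t3, t4, ← t1, ← t2]
  exact Nat.eq_of_mul_eq_mul_left (Nat.pos_of_ne_zero hfin) this

end Degree

/-! ### Auxiliary -/

section Aux

theorem isIntegral_of_le {F E : Type*} [Field F] [Field E] [Algebra F E]
    {A B : IntermediateField F E} (h : A ≤ B) {x : E} (hx : IsIntegral A x) : IsIntegral B x := by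
  obtain ⟨P, hP, hPx⟩ := hx
  refine ⟨P.map (IntermediateField.inclusion h).toRingHom, hP.map _, ?_⟩
  rw [eval₂_map]
  exact hPx

theorem coeffMap_inj {k K : Type*} [Field k] [Field K] (φ : k →+* K) :
    Function.Injective (coeffMap φ) := (coeffMap φ).injective

end Aux

/-! ### Generation over a field without roots of unity -/

section Generation2

variable {k K : Type*} [Field k] [Field K]

/-- For distinct primes `p`, `r`: `J(q^(n p r)) ∈ k(J(q^(n p)), J(q^(n r)))`, being the unique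
common root of `Φ_p(X, J(q^(n r)))` and `Φ_r(X, J(q^(n p)))`; the roots of unity are only needed
in some extension field `K` of `k`. -/
theorem Jd_mul_mul_mem_of_hom (φ : k →+* K) {p r : ℕ} [NeZero p] [NeZero r] (hp : p.Prime)
    (hr : r.Prime) (hpr : p ≠ r) (Dp : Kummer.ModEqData p) (Dr : Kummer.ModEqData r)
    {ζp ζr : Kˣ} (hζp : IsPrimitiveRoot ζp p) (hζr : IsPrimitiveRoot ζr r) (n : ℕ) (hn : n ≠ 0) :
    Jd k (n * p * r) ∈ adjoin k {Jd k (n * p), Jd k (n * r)} := by
  classical
  have hp0 : p ≠ 0 := hp.ne_zero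
  have hr0 : r ≠ 0 := hr.ne_zero
  have hpr0 : p * r ≠ 0 := Nat.mul_ne_zero hp0 hr0
  have : NeZero n := ⟨hn⟩
  set E : IntermediateField k (LaurentSeries k) := adjoin k {Jd k (n * p), Jd k (n * r)} with hE
  let i : E →+* LaurentSeries K :=
    (V K (p * r)).toRingHom.comp ((coeffMap φ).comp (algebraMap E (LaurentSeries k)))
  let yp : E := ⟨Jd k (n * p), subset_adjoin k _ (Set.mem_insert _ _)⟩
  let yr : E := ⟨Jd k (n * r), subset_adjoin k _ (Set.mem_insert_of_mem _ rfl)⟩
  have hiyr : i yr = Jd K (n * r * r * p) := by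
    show V K (p * r) (coeffMap φ (Jd k (n * r))) = _
    rw [TD.coeffMap_Jd, V_Jd K (p * r) (n * r) hpr0 (Nat.mul_ne_zero hn hr0)]
    exact congrArg (Jd K) (by ring)
  have hiyp : i yp = Jd K (n * p * p * r) := by
    show V K (p * r) (coeffMap φ (Jd k (n * p))) = _
    rw [TD.coeffMap_Jd, V_Jd K (p * r) (n * p) hpr0 (Nat.mul_ne_zero hn hp0)]
    exact congrArg (Jd K) (by ring)
  have hJJp : Jd K (n * r * r * p) = JJ ((1 : Kˣ) ^ p) (n * r * r * p) := by
    rw [one_pow, Jd_eq_JJ]
  have hJJr : Jd K (n * p * p * r) = JJ ((1 : Kˣ) ^ r) (n * p * p * r) := by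
    rw [one_pow, Jd_eq_JJ]
  have hPmap : (specialize Dp.Φ yr).map i =
      ∏ j : Option (Fin p), (X - C (Kummer.rootFam ζp (1 : Kˣ) (n * r * r) j)) := by
    rw [Kummer.map_specialize, hiyr, hJJp]
    exact Dp.specialize_eq_prod hp.one_lt hζp 1 (n * r * r)
  have hQmap : (specialize Dr.Φ yp).map i =
      ∏ j : Option (Fin r), (X - C (Kummer.rootFam ζr (1 : Kˣ) (n * p * p) j)) := by
    rw [Kummer.map_specialize, hiyp, hJJr]
    exact Dr.specialize_eq_prod hr.one_lt hζr 1 (n * p * p)
  have hinj := Kummer.rootFam_injective (p := p) hp.one_lt hζp (1 : Kˣ) (n * r * r)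
  set s : Finset (LaurentSeries K) :=
    Finset.univ.image (Kummer.rootFam (p := p) ζp (1 : Kˣ) (n * r * r)) with hs
  have hP : (specialize Dp.Φ yr).map i = ∏ x ∈ s, (X - C x) := by
    rw [hPmap, hs, Finset.prod_image fun a _ b _ h => hinj h]
  have hr₀ : Kummer.rootFam (p := p) ζp (1 : Kˣ) (n * r * r) none ∈ s :=
    Finset.mem_image_of_mem _ (Finset.mem_univ _)
  have hr₀eq : Kummer.rootFam (p := p) ζp (1 : Kˣ) (n * r * r) none = Jd K (n * p * p * r * r) := by
    show JJ (((1 : Kˣ) ^ p) ^ p) (n * r * r * p * p) = _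
    rw [one_pow, one_pow, ← Jd_eq_JJ]
    exact congrArg (Jd K) (by ring)
  have hQr : ((specialize Dr.Φ yp).map i).eval
      (Kummer.rootFam (p := p) ζp (1 : Kˣ) (n * r * r) none) = 0 := by
    rw [Kummer.map_specialize, hiyp, hr₀eq]
    exact rel_up (K := K) Dr (n * p * p * r) (by positivity)
  have hQ : ∀ x ∈ s, ((specialize Dr.Φ yp).map i).eval x = 0 →
      x = Kummer.rootFam (p := p) ζp (1 : Kˣ) (n * r * r) none := by
    intro x hx hev
    rw [hs, Finset.mem_image] at hx
    obtain ⟨j, -, rfl⟩ := hx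
    rcases j with _ | b
    · rfl
    · exfalso
      rw [hQmap, eval_prod, Finset.prod_eq_zero_iff] at hev
      obtain ⟨j', -, hj'⟩ := hev
      rw [eval_sub, eval_X, eval_C, sub_eq_zero] at hj'
      have hn0 : 0 < n := Nat.pos_of_ne_zero hn
      have hp2 := hp.two_le
      have hr2 := hr.two_le
      rcases j' with _ | c
      · have h1 : n * r * r = n * p * p * r * r := (Kummer.JJ_injective hj').1
        have h2 : n * r * r * 1 < n * r * r * (p * p) :=
          Nat.mul_lt_mul_of_pos_left (by nlinarith) (by positivity)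
        nlinarith
      · have h1 : n * r * r = n * p * p := (Kummer.JJ_injective hj').1
        have h2 : r * r = p * p := by
          have : n * (r * r) = n * (p * p) := by rw [← mul_assoc, ← mul_assoc]; exact h1
          exact Nat.eq_of_mul_eq_mul_left hn0 this
        exact hpr (Nat.mul_self_inj.mp h2).symm
  obtain ⟨e, he⟩ := FieldLemmas.mem_range_of_unique_common_root i (specialize Dp.Φ yr)
    (specialize Dr.Φ yp) s hP hr₀ hQr hQ
  have he' : V K (p * r) (coeffMap φ (e : LaurentSeries k)) =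
      V K (p * r) (coeffMap φ (Jd k (n * p * r))) := by
    rw [TD.coeffMap_Jd, V_Jd K (p * r) (n * p * r) hpr0 (by positivity)]
    have : i e = Jd K (n * p * p * r * r) := he.trans hr₀eq
    rw [show p * r * (n * p * r) = n * p * p * r * r by ring]
    exact this
  rw [← coeffMap_inj φ (V_injective K (p * r) he')]
  exact e.2

/-- **Generation.** For `N = p^a * D` with `p ∤ D`: `κ_{N p} = κ_N(J(q^(p^(a+1))))`. -/
theorem kap_mul_prime (φ : k →+* K) {p : ℕ} [NeZero p] (hp : p.Prime) (a D : ℕ) (hD : D ≠ 0)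
    (hpD : ¬ p ∣ D)
    (hdata : ∀ (r : ℕ) [NeZero r], r.Prime → r ∣ p * D → Nonempty (Kummer.ModEqData r))
    (hζ : ∀ r : ℕ, r.Prime → r ∣ p * D → ∃ ζ : Kˣ, IsPrimitiveRoot ζ r) :
    kap k (p ^ a * D * p) = kap k (p ^ a * D) ⊔ k⟮Jd k (p ^ (a + 1))⟯ := by
  have hp0 : p ≠ 0 := hp.ne_zero
  obtain ⟨Dp⟩ := hdata p hp (dvd_mul_right p D)
  obtain ⟨ζp, hζp⟩ := hζ p hp (dvd_mul_right p D)
  have key : ∀ e, e ∣ D →
      Jd k (p ^ (a + 1) * e) ∈ kap k (p ^ a * D) ⊔ k⟮Jd k (p ^ (a + 1))⟯ := by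
    intro e
    induction e using Nat.strong_induction_on with
    | _ e ih =>
      intro heD
      rcases eq_or_ne e 1 with rfl | he1
      · rw [mul_one]
        exact (le_sup_right : k⟮Jd k (p ^ (a + 1))⟯ ≤ _) (mem_adjoin_simple_self k _)
      · obtain ⟨r, hr, e', rfl⟩ := Nat.exists_prime_and_dvd he1
        have : NeZero r := ⟨hr.ne_zero⟩
        have hrD : r ∣ D := dvd_trans (dvd_mul_right r e') heD
        have hpr : p ≠ r := by
          rintro rfl
          exact hpD hrD
        have he'0 : e' ≠ 0 := by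
          rintro rfl
          rw [mul_zero] at heD
          exact hD (zero_dvd_iff.mp heD)
        have he'lt : e' < r * e' := by
          calc e' = 1 * e' := (one_mul e').symm
            _ < r * e' := Nat.mul_lt_mul_of_pos_right hr.one_lt (Nat.pos_of_ne_zero he'0)
        have he'D : e' ∣ D := dvd_trans (dvd_mul_left e' r) heD
        obtain ⟨Dr⟩ := hdata r hr (Dvd.dvd.mul_left hrD p)
        obtain ⟨ζr, hζr⟩ := hζ r hr (Dvd.dvd.mul_left hrD p)
        have hmem := Jd_mul_mul_mem_of_hom φ hp hr hpr Dp Dr hζp hζr (p ^ a * e')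
          (Nat.mul_ne_zero (pow_ne_zero a hp0) he'0)
        have hle : adjoin k {Jd k (p ^ a * e' * p), Jd k (p ^ a * e' * r)} ≤
            kap k (p ^ a * D) ⊔ k⟮Jd k (p ^ (a + 1))⟯ := by
          rw [adjoin_le_iff]
          rintro x (rfl | rfl)
          · have := ih e' he'lt he'D
            rwa [show p ^ (a + 1) * e' = p ^ a * e' * p by ring] at this
          · refine (le_sup_left : kap k (p ^ a * D) ≤ _) (Jd_mem_kap ?_)
            rw [mul_assoc]
            exact Nat.mul_dvd_mul_left _ (by rw [mul_comm]; exact heD)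
        have := hle hmem
        rwa [show p ^ a * e' * p * r = p ^ (a + 1) * (r * e') by ring] at this
  apply le_antisymm
  · rw [kap_le_iff]
    intro d hd
    rw [show p ^ a * D * p = p ^ (a + 1) * D by ring] at hd
    obtain ⟨d₁, d₂, hd₁, hd₂, rfl⟩ := (Nat.dvd_mul).mp hd
    obtain ⟨b, hb, rfl⟩ := (Nat.dvd_prime_pow hp).mp hd₁
    rcases Nat.lt_or_ge b (a + 1) with hlt | hge
    · refine (le_sup_left : kap k (p ^ a * D) ≤ _) (Jd_mem_kap ?_)
      exact Nat.mul_dvd_mul (pow_dvd_pow p (Nat.lt_succ_iff.mp hlt)) hd₂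
    · have hb' : b = a + 1 := le_antisymm hb hge
      subst hb'
      exact key d₂ hd₂
  · refine sup_le (kap_mono (dvd_mul_right _ p)) ?_
    rw [adjoin_simple_le_iff]
    refine Jd_mem_kap ?_
    rw [pow_succ]
    exact Nat.mul_dvd_mul_right (dvd_mul_right (p ^ a) D) p

end Generation2

/-! ### The degree bound -/

section Bound

variable {K : Type*} [Field K]

/-- **Lower bound.** For `N = p^a * D` with `p ∤ D`, the minimal polynomial of `J(q^(p^(a+1)))`
over `κ_N` has degree `≥ p + 1` if `a = 0` and `≥ p` otherwise. -/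
theorem le_natDegree_minpoly {p : ℕ} [NeZero p] (hp : p.Prime) (a D : ℕ) (hD : D ≠ 0)
    (hpD : ¬ p ∣ D)
    (hdata : ∀ (r : ℕ) [NeZero r], r.Prime → r ∣ p * D → Nonempty (Kummer.ModEqData r))
    (hζ : ∀ r : ℕ, r.Prime → r ∣ p * D → ∃ ζ : Kˣ, IsPrimitiveRoot ζ r)
    (hBC : Jd K p ∉ kap K 1) :
    (if a = 0 then p + 1 else p) ≤
      (minpoly (kap K (p ^ a * D)) (Jd K (p ^ (a + 1)))).natDegree := by
  have hp0 : p ≠ 0 := hp.ne_zero
  obtain ⟨Dp⟩ := hdata p hp (dvd_mul_right p D)
  have hN0 : p ^ a * D ≠ 0 := Nat.mul_ne_zero (pow_ne_zero a hp0) hD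
  have hdataN : ∀ (r : ℕ) [NeZero r], r.Prime → r ∣ p ^ a * D →
      Nonempty (Kummer.ModEqData r) := by
    intro r _ hr hrN
    refine hdata r hr ?_
    rcases (Nat.Prime.dvd_mul hr).mp hrN with h | h
    · exact Dvd.dvd.mul_right (hr.dvd_of_dvd_pow h) D
    · exact Dvd.dvd.mul_left h p
  have hgen : kap K (p ^ a * D * p) = kap K (p ^ a * D) ⊔ K⟮Jd K (p ^ (a + 1))⟯ :=
    kap_mul_prime (RingHom.id K) hp a D hD hpD hdata hζ
  have hintx : IsIntegral (kap K (p ^ a * D)) (Jd K (p ^ (a + 1))) := by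
    refine isIntegral_of_le (kap_mono (one_dvd _)) (isIntegral_Jd _ (pow_ne_zero _ hp0) ?_)
    intro r _ hr hrd
    exact hdata r hr (Dvd.dvd.mul_right (hr.dvd_of_dvd_pow hrd) D)
  have hδ : (kap K (p ^ a * D)).relfinrank (kap K (p ^ a * D * p)) =
      (minpoly (kap K (p ^ a * D)) (Jd K (p ^ (a + 1)))).natDegree := by
    rw [hgen]
    exact relfinrank_sup_adjoin_simple _ hintx
  have hsymm := relfinrank_symm hp Dp hBC (p ^ a * D) hN0
    (relfinrank_kap_ne_zero (p ^ a * D) hN0 hdataN)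
  have hJpB : Jd K p ∈ kapV K p (p ^ a * D) := by
    have := Jd_mem_kapV (K := K) p (one_dvd (p ^ a * D))
    rwa [mul_one] at this
  have hintJ : IsIntegral (kapV K p (p ^ a * D)) (jqModC K) := by
    refine ⟨specialize Dp.Φ (⟨Jd K p, hJpB⟩ : kapV K p (p ^ a * D)),
      Kummer.specialize_monic Dp.monic _, ?_⟩
    rw [eval₂_eq_eval_map, Kummer.map_specialize]
    have := rel_down (K := K) Dp 1 one_ne_zero
    rwa [one_mul, TD.Jd_one] at this
  have hJT : kapV K p (p ^ a * D) ⊔ K⟮jqModC K⟯ ≤ kap K (p ^ a * D * p) := by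
    refine sup_le (kapV_le_kap p _) ?_
    rw [adjoin_simple_le_iff, ← TD.Jd_one K]
    exact Jd_mem_kap (one_dvd _)
  have htower := IntermediateField.relfinrank_mul_relfinrank
    (le_sup_left : kapV K p (p ^ a * D) ≤ kapV K p (p ^ a * D) ⊔ K⟮jqModC K⟯) hJT
  rw [relfinrank_sup_adjoin_simple _ hintJ, ← hsymm, hδ] at htower
  have hδpos : 0 < (minpoly (kap K (p ^ a * D)) (Jd K (p ^ (a + 1)))).natDegree :=
    minpoly.natDegree_pos hintx
  have hle : (minpoly (kapV K p (p ^ a * D)) (jqModC K)).natDegree ≤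
      (minpoly (kap K (p ^ a * D)) (Jd K (p ^ (a + 1)))).natDegree :=
    Nat.le_of_dvd hδpos ⟨_, htower.symm⟩
  have hple : p ≤ (minpoly (kapV K p (p ^ a * D)) (jqModC K)).natDegree :=
    ValInd.jqModC_le_natDegree_minpoly p (fun b => kapV_range (p ^ a * D) hN0 b.1 b.2) hintJ
  split_ifs with ha
  · subst ha
    rw [pow_zero, one_mul] at *
    rw [zero_add, pow_one] at *
    -- `J_p ∉ κ_D`, otherwise the degree would be one
    have hJpD : Jd K p ∉ kap K D := by
      intro hmem
      have h1 : (minpoly (kap K D) (Jd K p)).natDegree = 1 := by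
        rw [minpoly.natDegree_eq_one_iff]
        exact ⟨⟨Jd K p, hmem⟩, rfl⟩
      have := hp.two_le
      omega
    have hmin := minpoly_J_eq hp.one_lt Dp (kapV K p D) (kapV_range D hD) hJpB
      (Jd_sq_not_mem_kapV hD hJpD)
    rw [hmin, Kummer.natDegree_specialize Dp.monic, Dp.natDegree_eq] at hle
    exact hle
  · exact hple.trans hle

end Bound

/-! ### The upper bound: an explicit monic polynomial (no roots of unity) -/

section Monic

variable {k : Type*} [Field k]

/-- For `p^a ∣ M` there is a monic polynomial over `κ_M` of degree `p + 1` (`a = 0`) resp. `p`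
(`a > 0`) vanishing at `J(q^(p^(a+1)))`: `Φ_p(X, J)` resp. `Φ_p(X, J(q^(p^a))) / (X - J(q^(p^(a-1))))`. -/
theorem exists_monic_kap {p : ℕ} [NeZero p] (hp : p.Prime) (Dp : Kummer.ModEqData p) (a M : ℕ)
    (hM : p ^ a ∣ M) :
    ∃ g : Polynomial (kap k M), g.Monic ∧ g.natDegree = (if a = 0 then p + 1 else p) ∧
      aeval (Jd k (p ^ (a + 1))) g = 0 := by
  have hp0 : p ≠ 0 := hp.ne_zero
  have hmem : Jd k (p ^ a) ∈ kap k M := Jd_mem_kap hM
  set P : Polynomial (kap k M) := specialize Dp.Φ (⟨Jd k (p ^ a), hmem⟩ : kap k M) with hPdef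
  have hPmonic : P.Monic := Kummer.specialize_monic Dp.monic _
  have hPdeg : P.natDegree = p + 1 := by
    rw [hPdef, Kummer.natDegree_specialize Dp.monic, Dp.natDegree_eq]
  have hPmap : P.map (algebraMap (kap k M) (LaurentSeries k)) = specialize Dp.Φ (Jd k (p ^ a)) :=
    Kummer.map_specialize _ _ _
  have hroot : aeval (Jd k (p ^ (a + 1))) P = 0 := by
    rw [aeval_def, eval₂_eq_eval_map, hPmap, pow_succ]
    exact rel_up (K := k) Dp (p ^ a) (pow_ne_zero a hp0)
  rcases Nat.eq_zero_or_pos a with ha | ha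
  · refine ⟨P, hPmonic, ?_, hroot⟩
    rw [hPdeg, if_pos ha]
  · obtain ⟨b, rfl⟩ : ∃ b, a = b + 1 := ⟨a - 1, by omega⟩
    have hmemb : Jd k (p ^ b) ∈ kap k M :=
      Jd_mem_kap (dvd_trans (pow_dvd_pow p (Nat.le_succ b)) hM)
    set c : kap k M := ⟨Jd k (p ^ b), hmemb⟩ with hc
    have hrootc : P.IsRoot c := by
      have h1 : (P.map (algebraMap (kap k M) (LaurentSeries k))).eval (Jd k (p ^ b)) = 0 := by
        rw [hPmap, pow_succ]
        exact rel_down (K := k) Dp (p ^ b) (pow_ne_zero b hp0)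
      have h2 : algebraMap (kap k M) (LaurentSeries k) (P.eval c) = 0 := by
        rw [← h1, eval_map]
        exact (eval₂_at_apply (algebraMap (kap k M) (LaurentSeries k)) c).symm
      exact (map_eq_zero _).mp h2
    obtain ⟨g, hg⟩ := dvd_iff_isRoot.mpr hrootc
    have hgmonic : g.Monic := by
      have := hPmonic
      rw [hg] at this
      exact (monic_X_sub_C c).of_mul_monic_left this
    have hgdeg : g.natDegree = p := by
      have h1 := hPdeg
      rw [hg, (monic_X_sub_C c).natDegree_mul hgmonic, natDegree_X_sub_C] at h1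
      omega
    refine ⟨g, hgmonic, ?_, ?_⟩
    · rw [hgdeg, if_neg (Nat.succ_ne_zero b)]
    · have h1 := hroot
      rw [hg, map_mul, map_sub, aeval_X, aeval_C] at h1
      rcases mul_eq_zero.mp h1 with h | h
      · exfalso
        have h2 : Jd k (p ^ (b + 1 + 1)) = Jd k (p ^ b) := sub_eq_zero.mp h
        have h3 := Jd_injective k (pow_ne_zero _ hp0) (pow_ne_zero _ hp0) h2
        have h4 := Nat.pow_right_injective hp.two_le h3
        omega
      · exact h

end Monic

end Fermat.Agent.S28.Chain
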