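import Mathlib
import Fermat.Prelude.Def_ModularCurve_X0

/-!
# S28 / WP4: degree count along the prime-power chains

* `ChainCount.eq_zero_of_sum_mul_pow_eq_zero` (ORD): a Laurent series `x` of order `-1` satisfies
  no nontrivial relation `∑_{i<p} a i * x ^ i = 0` with `a i` in the range of `qExpand p`
  (the orders of the terms are pairwise distinct modulo `p`).
* `ChainCount.natCast_le_relrank`: hence `x` has degree `≥ p` over every subfield of `k((q^p))`.
* `ChainCount.mul_relrank_le`: the abstract chain inequality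
  `p * [E : A₁] ≤ [S(E) ⊔ A₁ : A₁]` for a field endomorphism `S`, from the two base degrees
  `[A₁ ⊔ S(A₁) : A₁] = [A₁ ⊔ S(A₁) : S(A₁)]`.
* `ChainCount.le_relrank_of_system`: the resulting induction on the level: lower bound
  `ψ(N) ≤ [K(J_d : d ∣ N) : K(J_1)]` from the base degrees and the new-prime steps.
-/

set_option autoImplicit false

namespace Fermat.Agent.S28.ChainCount

open ModularCurve Cardinal

section Order

variable {k : Type} [Field k]

/-- A nonzero element of the range of `qExpand p` has order divisible by `p`. -/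
theorem dvd_order_of_mem_range_qExpand (p : ℕ) [NeZero p] {a : LaurentSeries k}
    (ha : a ∈ Set.range (qExpand k p)) (ha0 : a ≠ 0) : (p : ℤ) ∣ a.order := by
  obtain ⟨b, rfl⟩ := ha
  by_contra h
  exact (HahnSeries.coeff_order_eq_zero.not.mpr ha0) (qExpand_coeff_of_not_dvd p b h)

/-- **(ORD).** A Laurent series of order `-1` satisfies no nontrivial relation of degree `< p`
with coefficients in the range of `qExpand p`. -/
theorem eq_zero_of_sum_mul_pow_eq_zero (p : ℕ) [NeZero p] {x : LaurentSeries k} (hx0 : x ≠ 0)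
    (hx : x.order = -1) (a : Fin p → LaurentSeries k)
    (ha : ∀ i, a i ∈ Set.range (qExpand k p)) (h : ∑ i, a i * x ^ (i : ℕ) = 0) :
    ∀ i, a i = 0 := by
  classical
  by_contra hne
  push Not at hne
  set I : Finset (Fin p) := Finset.univ.filter (fun i => a i ≠ 0) with hI
  have hmemI : ∀ i, i ∈ I ↔ a i ≠ 0 := fun i => by simp [hI]
  have hIne : I.Nonempty := by
    obtain ⟨i, hi⟩ := hne
    exact ⟨i, (hmemI i).mpr hi⟩
  have hord : ∀ i, a i ≠ 0 → (a i * x ^ (i : ℕ)).order = (a i).order - (i : ℕ) := by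
    intro i hai
    rw [HahnSeries.order_mul hai (pow_ne_zero _ hx0), HahnSeries.order_pow, hx]
    simp
    ring
  obtain ⟨i₀, hi₀, hmin⟩ :=
    Finset.exists_min_image I (fun i => (a i * x ^ (i : ℕ)).order) hIne
  have hai₀ : a i₀ ≠ 0 := (hmemI i₀).mp hi₀
  have ht₀ : a i₀ * x ^ (i₀ : ℕ) ≠ 0 := mul_ne_zero hai₀ (pow_ne_zero _ hx0)
  have hcoeff : (∑ i, a i * x ^ (i : ℕ)).coeff ((a i₀ * x ^ (i₀ : ℕ)).order) =
      (a i₀ * x ^ (i₀ : ℕ)).coeff ((a i₀ * x ^ (i₀ : ℕ)).order) := by
    rw [HahnSeries.coeff_sum]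
    refine Finset.sum_eq_single i₀ (fun i _ hi => ?_) (fun h => absurd (Finset.mem_univ _) h)
    by_cases hai : a i = 0
    · rw [hai, zero_mul, HahnSeries.coeff_zero]
    · apply HahnSeries.coeff_eq_zero_of_lt_order
      have hle := hmin i ((hmemI i).mpr hai)
      refine lt_of_le_of_ne hle (fun heq => hi ?_)
      rw [hord i hai, hord i₀ hai₀] at heq
      obtain ⟨u, hu⟩ := dvd_order_of_mem_range_qExpand p (ha i) hai
      obtain ⟨v, hv⟩ := dvd_order_of_mem_range_qExpand p (ha i₀) hai₀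
      rw [hu, hv] at heq
      have hdvd : (p : ℤ) ∣ ((i : ℕ) : ℤ) - ((i₀ : ℕ) : ℤ) := ⟨u - v, by linarith⟩
      have h1 : ((i : ℕ) : ℤ) < p := by exact_mod_cast i.2
      have h2 : ((i₀ : ℕ) : ℤ) < p := by exact_mod_cast i₀.2
      have h3 : (0 : ℤ) ≤ ((i : ℕ) : ℤ) := by positivity
      have h4 : (0 : ℤ) ≤ ((i₀ : ℕ) : ℤ) := by positivity
      have h5 : ((i : ℕ) : ℤ) - ((i₀ : ℕ) : ℤ) = 0 := by
        apply Int.eq_zero_of_abs_lt_dvd hdvd
        rw [abs_lt]
        constructor <;> linarith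
      apply Fin.ext
      have : ((i : ℕ) : ℤ) = ((i₀ : ℕ) : ℤ) := by linarith
      exact_mod_cast this
  rw [h, HahnSeries.coeff_zero] at hcoeff
  exact (HahnSeries.coeff_order_eq_zero.not.mpr ht₀) hcoeff.symm

/-- A Laurent series of order `-1` has degree at least `p` over every subfield of the range of
`qExpand p`. -/
theorem natCast_le_relrank (p : ℕ) [NeZero p] {x : LaurentSeries k} (hx0 : x ≠ 0)
    (hx : x.order = -1) (A B : Subfield (LaurentSeries k))
    (hA : A ≤ (qExpand k p).fieldRange) (hAB : A ≤ B) (hxB : x ∈ B) :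
    (p : Cardinal) ≤ A.relrank B := by
  rw [Subfield.relrank_eq_rank_of_le hAB]
  let v : Fin p → ↥(Subfield.extendScalars hAB) := fun i => ⟨x ^ (i : ℕ), pow_mem hxB _⟩
  have hv : LinearIndependent ↥A v := by
    rw [Fintype.linearIndependent_iff]
    intro g hg i
    have h1 : ∑ j, ((g j : ↥A) : LaurentSeries k) * x ^ (j : ℕ) = 0 := by
      have := congrArg (Subtype.val) hg
      simpa [v, Subfield.smul_def] using this
    have h2 := eq_zero_of_sum_mul_pow_eq_zero p hx0 hx
      (fun j => ((g j : ↥A) : LaurentSeries k)) (fun j => hA (g j).2) h1 i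
    exact Subtype.ext h2
  have := hv.cardinal_le_rank
  simpa using this

end Order

section Chain

variable {L : Type*} [Field L]

/-- Monotonicity of the relative rank in the upper field. -/
theorem relrank_mono_right {A B C : Subfield L} (hAB : A ≤ B) (hBC : B ≤ C) :
    A.relrank B ≤ A.relrank C := by
  rw [← Subfield.relrank_mul_relrank hAB hBC]
  refine Cardinal.le_mul_right ?_
  intro h
  have h1 : B.relrank C ≠ 0 := by
    rw [Subfield.relrank_eq_rank_of_le hBC]
    exact rank_pos.ne'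
  exact h1 h

/-- **Abstract chain inequality.**  Let `S` be an endomorphism of the field `L`, `A₁` a subfield
and `x ∈ A₁` an element of degree `≥ p` over every subfield of the range of `S`.  If the two
base degrees `[A₁ ⊔ S(A₁) : A₁]` and `[A₁ ⊔ S(A₁) : S(A₁)]` agree, then for every subfield
`E ⊇ A₁ ⊔ S(A₁)` one has `p * [E : A₁] ≤ [S(E) ⊔ A₁ : A₁]`. -/
theorem mul_relrank_le (S : L →+* L) (p : ℕ) (A₁ : Subfield L)
    (hord : ∀ A B : Subfield L, A ≤ S.fieldRange → A ≤ B → A₁ ≤ B → (p : Cardinal) ≤ A.relrank B)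
    (hBB' : A₁.relrank (A₁ ⊔ A₁.map S) = (A₁.map S).relrank (A₁ ⊔ A₁.map S))
    (E : Subfield L) (hE : A₁ ⊔ A₁.map S ≤ E) :
    (p : Cardinal) * A₁.relrank E ≤ A₁.relrank (E.map S ⊔ A₁) := by
  have hA₁E : A₁ ≤ E := le_trans le_sup_left hE
  have hSE : A₁.map S ≤ E.map S := by
    rintro _ ⟨y, hy, rfl⟩
    exact ⟨y, hA₁E hy, rfl⟩
  have hmid : A₁ ⊔ A₁.map S ≤ E.map S ⊔ A₁ := sup_le le_sup_right (le_trans hSE le_sup_left)
  -- the two degrees over `A₁` and `S(A₁)` of the top field agree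
  have e12 : A₁.relrank (E.map S ⊔ A₁) = (A₁.map S).relrank (E.map S ⊔ A₁) := by
    rw [← Subfield.relrank_mul_relrank le_sup_left hmid,
      ← Subfield.relrank_mul_relrank le_sup_right hmid, hBB']
  rw [e12, ← Subfield.relrank_mul_relrank hSE le_sup_left, Subfield.relrank_map_map, mul_comm]
  have key : (p : Cardinal) ≤ (E.map S).relrank (E.map S ⊔ A₁) :=
    hord (E.map S) (E.map S ⊔ A₁) (by
      rintro _ ⟨y, -, rfl⟩
      exact ⟨y, rfl⟩) le_sup_left le_sup_right
  exact mul_le_mul_right key (A₁.relrank E)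

end Chain

section System

variable {L : Type*} [Field L]

/-- The field `K(J_d : d ∣ D)`. -/
def lev (K : Subfield L) (J : ℕ → L) (D : ℕ) : Subfield L :=
  K ⊔ Subfield.closure {x | ∃ d, d ∣ D ∧ x = J d}

theorem lev_mono (K : Subfield L) (J : ℕ → L) {D D' : ℕ} (h : D ∣ D') :
    lev K J D ≤ lev K J D' := by
  refine sup_le_sup_left (Subfield.closure_mono ?_) K
  rintro _ ⟨d, hd, rfl⟩
  exact ⟨d, dvd_trans hd h, rfl⟩

theorem mem_lev (K : Subfield L) (J : ℕ → L) {d D : ℕ} (h : d ∣ D) : J d ∈ lev K J D :=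
  (le_sup_right : _ ≤ lev K J D) (Subfield.subset_closure ⟨d, h, rfl⟩)

theorem le_lev (K : Subfield L) (J : ℕ → L) (D : ℕ) : K ≤ lev K J D := le_sup_left

theorem lev_one (K : Subfield L) (J : ℕ → L) :
    lev K J 1 = K ⊔ Subfield.closure {J 1} := by
  unfold lev
  congr 2
  ext x
  constructor
  · rintro ⟨d, hd, rfl⟩
    rw [Nat.dvd_one.mp hd]
    rfl
  · rintro rfl
    exact ⟨1, dvd_rfl, rfl⟩

/-- The image of `K(J_d : d ∣ D)` under a substitution `S` with `S (J d) = J (p * d)` fixing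
`K`. -/
theorem map_lev (K : Subfield L) (J : ℕ → L) (S : L →+* L) (p : ℕ) (hK : K.map S = K)
    (hS : ∀ d, S (J d) = J (p * d)) (D : ℕ) :
    (lev K J D).map S = K ⊔ Subfield.closure {x | ∃ d, d ∣ D ∧ x = J (p * d)} := by
  unfold lev
  rw [Subfield.map_sup, hK, RingHom.map_field_closure]
  congr 2
  ext x
  constructor
  · rintro ⟨_, ⟨d, hd, rfl⟩, rfl⟩
    exact ⟨d, hd, hS d⟩
  · rintro ⟨d, hd, rfl⟩
    exact ⟨J d, ⟨d, hd, rfl⟩, hS d⟩

theorem map_lev_le (K : Subfield L) (J : ℕ → L) (S : L →+* L) (p : ℕ) (hK : K.map S = K)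
    (hS : ∀ d, S (J d) = J (p * d)) (D : ℕ) :
    (lev K J D).map S ≤ lev K J (p * D) := by
  rw [map_lev K J S p hK hS D]
  refine sup_le_sup_left (Subfield.closure_mono ?_) K
  rintro _ ⟨d, hd, rfl⟩
  exact ⟨p * d, Nat.mul_dvd_mul_left p hd, rfl⟩

/-- **Degree count.**  Let `J d` (`d ≥ 1`) be elements of a field `L`, `K` a subfield, and for
every prime `p` of a set `P` let `S p` be an endomorphism of `L` fixing `K` with
`S p (J d) = J (p * d)`, such that
* (`hord`) `J 1` has degree `≥ p` over every subfield of the range of `S p`;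
* (`hBB'`) `K(J 1, J p)` has the same degree over `K(J 1)` and over `K(J p) = S p (K(J 1))`;
* (`hnew`) for `M` with all prime factors in `P` and `p ∤ M`, the element `J p` has degree
  `≥ p + 1` over `K(J d : d ∣ M)`.
Then `ψ(N) ≤ [K(J d : d ∣ N) : K(J 1)]` for every `N` with all prime factors in `P`, for every
function `ψ` with `ψ 1 = 1`, `ψ (p * M) = p * ψ M` if `p ∣ M` and
`ψ (p * M) = (p + 1) * ψ M` if `p ∤ M`. -/
theorem le_relrank_of_system (K : Subfield L) (J : ℕ → L) (P : Set ℕ) (S : ℕ → L →+* L)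
    (hK : ∀ p ∈ P, K.map (S p) = K) (hS : ∀ p ∈ P, ∀ d, S p (J d) = J (p * d))
    (hord : ∀ p ∈ P, ∀ A B : Subfield L, A ≤ (S p).fieldRange → A ≤ B → lev K J 1 ≤ B →
      (p : Cardinal) ≤ A.relrank B)
    (hBB' : ∀ p ∈ P, (lev K J 1).relrank (lev K J p) =
      ((lev K J 1).map (S p)).relrank (lev K J p))
    (hnew : ∀ p ∈ P, p.Prime → ∀ M : ℕ, M ≠ 0 → (∀ r : ℕ, r.Prime → r ∣ M → r ∈ P) → ¬ p ∣ M →
      ((p + 1 : ℕ) : Cardinal) ≤ (lev K J M).relrank (lev K J M ⊔ Subfield.closure {J p}))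
    (ψ : ℕ → ℕ) (hψ1 : ψ 1 = 1)
    (hψdvd : ∀ p M : ℕ, p.Prime → M ≠ 0 → p ∣ M → ψ (p * M) = p * ψ M)
    (hψndvd : ∀ p M : ℕ, p.Prime → M ≠ 0 → ¬ p ∣ M → ψ (p * M) = (p + 1) * ψ M) :
    ∀ N : ℕ, N ≠ 0 → (∀ r : ℕ, r.Prime → r ∣ N → r ∈ P) →
      (ψ N : Cardinal) ≤ (lev K J 1).relrank (lev K J N) := by
  intro N
  induction N using Nat.strong_induction_on with
  | _ N ih =>
    intro hN0 hNP
    rcases eq_or_ne N 1 with rfl | hN1
    · rw [hψ1, Subfield.relrank_self]
      simp
    obtain ⟨p, hp, hpN⟩ := Nat.exists_prime_and_dvd hN1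
    obtain ⟨M, rfl⟩ := hpN
    have hM0 : M ≠ 0 := fun h => hN0 (by rw [h, mul_zero])
    have hpP : p ∈ P := hNP p hp (dvd_mul_right p M)
    have hMP : ∀ r : ℕ, r.Prime → r ∣ M → r ∈ P := fun r hr hrM =>
      hNP r hr (dvd_mul_of_dvd_right hrM p)
    have hMlt : M < p * M := by
      have := hp.one_lt
      nlinarith [Nat.pos_of_ne_zero hM0]
    have ihM := ih M hMlt hM0 hMP
    have h1M : lev K J 1 ≤ lev K J M := lev_mono K J (one_dvd M)
    by_cases hpM : p ∣ M
    · -- chain step
      rw [hψdvd p M hp hM0 hpM]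
      have hpp : lev K J p = lev K J 1 ⊔ (lev K J 1).map (S p) := by
        rw [map_lev K J (S p) p (hK p hpP) (hS p hpP) 1, lev_one]
        apply le_antisymm
        · refine sup_le (le_trans le_sup_left le_sup_left) ?_
          rw [Subfield.closure_le]
          rintro _ ⟨d, hd, rfl⟩
          rcases (Nat.dvd_prime hp).mp hd with rfl | rfl
          · exact (le_sup_left : K ⊔ Subfield.closure {J 1} ≤ _) (le_sup_right (α := Subfield L)
              (Subfield.subset_closure rfl))
          · refine (le_sup_right : _ ≤ (K ⊔ Subfield.closure {J 1}) ⊔ _)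
              ((le_sup_right : _ ≤ K ⊔ _) (Subfield.subset_closure ⟨1, dvd_rfl, ?_⟩))
            rw [mul_one]
        · refine sup_le (sup_le (le_lev K J p) ?_) (sup_le (le_lev K J p) ?_)
          · rw [Subfield.closure_le]
            rintro _ rfl
            exact mem_lev K J (one_dvd p)
          · rw [Subfield.closure_le]
            rintro _ ⟨d, hd, rfl⟩
            rw [Nat.dvd_one.mp hd, mul_one]
            exact mem_lev K J dvd_rfl
      have hchain := mul_relrank_le (S p) p (lev K J 1)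
        (fun A B hA hAB h1B => hord p hpP A B hA hAB h1B)
        (by rw [← hpp]; exact hBB' p hpP)
        (lev K J M) (by rw [← hpp]; exact lev_mono K J hpM)
      have htop : (lev K J M).map (S p) ⊔ lev K J 1 ≤ lev K J (p * M) :=
        sup_le (map_lev_le K J (S p) p (hK p hpP) (hS p hpP) M) (lev_mono K J (one_dvd _))
      calc ((p * ψ M : ℕ) : Cardinal) = (p : Cardinal) * (ψ M : Cardinal) := by push_cast; rfl
        _ ≤ (p : Cardinal) * (lev K J 1).relrank (lev K J M) := mul_le_mul_right ihM _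
        _ ≤ (lev K J 1).relrank ((lev K J M).map (S p) ⊔ lev K J 1) := hchain
        _ ≤ (lev K J 1).relrank (lev K J (p * M)) := relrank_mono_right le_sup_right htop
    · -- new prime
      rw [hψndvd p M hp hM0 hpM]
      have hnewp := hnew p hpP hp M hM0 hMP hpM
      have htop : lev K J M ⊔ Subfield.closure {J p} ≤ lev K J (p * M) := by
        refine sup_le (lev_mono K J (dvd_mul_left M p)) ?_
        rw [Subfield.closure_le]
        rintro _ rfl
        exact mem_lev K J (dvd_mul_right p M)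
      calc (((p + 1) * ψ M : ℕ) : Cardinal) = (ψ M : Cardinal) * ((p + 1 : ℕ) : Cardinal) := by
            push_cast; ring
        _ ≤ (lev K J 1).relrank (lev K J M) *
              (lev K J M).relrank (lev K J M ⊔ Subfield.closure {J p}) :=
            mul_le_mul' ihM hnewp
        _ = (lev K J 1).relrank (lev K J M ⊔ Subfield.closure {J p}) :=
            Subfield.relrank_mul_relrank h1M le_sup_left
        _ ≤ (lev K J 1).relrank (lev K J (p * M)) :=
            relrank_mono_right (le_trans h1M le_sup_left) htop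

end System

end Fermat.Agent.S28.ChainCount
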