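import Mathlib
import Fermat.Agent.S28.GaussBase
import Fermat.Agent.S28.TowerDefs
import Fermat.Agent.S28.Integrality
import Fermat.Agent.S28.RouteT.BaseChange

/-!
# S28: the Gauss-ring facts for the generators `J(q^e)` and the change of base ring

Owner: helper72.  Instantiates `GaussBase.lean` at `x = TD.Jd ℚ e` (all `e ≠ 0`) in the exact
hypothesis shapes of `RouteT.good_FF` and `RouteT.integral_over_O1`:

* `Jd_mem_gaussRing`, `red_Jd` (`hJ`, `hredJ`), `good_base_Jd` (`hbase`);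
* `exists_pow_mul_mem_gaussRing_Jd`, `polyRing_Jd_le_FF`, `polyRing_Jd_integrallyClosed`,
  `polyRing_Jd_sat`, `polyRing_Jd_le_inf`, `isIntegral_polyRing_Jd_iff`, `exists_den_FF`;
* `good_one_of_good_FF`, `good_full_of_good_FF`: from the invariant with base ring
  `ℚ(J(q^N)) ∩ B` to the invariant with base ring `ℚ(j) ∩ B`, which is the hypothesis of
  `GaussBase.hQ2_fin` / `GaussBase.hQ2_inf`.
-/

namespace Fermat.Agent.S28.GaussBase

open HahnSeries ModularCurve Polynomial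

variable (ℓ : ℕ) [hℓ : Fact ℓ.Prime]

local notation "R" => GaloisRep.ratLocalizedAt ℓ

section JdFacts

variable (K : Type*) [Field K] [Algebra (GaloisRep.ratLocalizedAt ℓ) K] [CharP K ℓ]

omit hℓ [CharP K ℓ] in
theorem Jd_mem_gaussRing (e : ℕ) (he : e ≠ 0) : TD.Jd ℚ e ∈ gaussRing ℓ K := by
  have : NeZero e := ⟨he⟩
  rw [TD.Jd_rat]
  exact qExpand_jq_mem ℓ K e

/-- `J(q^e)` as an element of the Gauss ring -/
noncomputable def JdB (e : ℕ) (he : e ≠ 0) : gaussRing ℓ K :=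
  ⟨TD.Jd ℚ e, Jd_mem_gaussRing ℓ K e he⟩

omit hℓ [CharP K ℓ] in
theorem red_Jd (e : ℕ) (he : e ≠ 0) :
    red ℓ K ⟨TD.Jd ℚ e, Jd_mem_gaussRing ℓ K e he⟩ = TD.Jd K e := by
  have : NeZero e := ⟨he⟩
  rw [TD.Jd_eq K e, ← red_qExpand_jq ℓ K e]
  congr 1
  exact Subtype.ext (TD.Jd_rat e)

omit hℓ [CharP K ℓ] in
theorem htrans_JdB (e : ℕ) (he : e ≠ 0) :
    ∀ p : K[X], p.eval₂ HahnSeries.C (red ℓ K (JdB ℓ K e he)) = 0 → p = 0 := by
  intro p hp
  have : NeZero e := ⟨he⟩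
  have h1 : red ℓ K (JdB ℓ K e he) = qExpand K e (jqModC K) :=
    (red_Jd ℓ K e he).trans (TD.Jd_eq K e)
  rw [h1] at hp
  have h2 := Polynomial.hom_eval₂ p (HahnSeries.C : K →+* LaurentSeries K) (qExpand K e)
    (jqModC K)
  have h3 : (qExpand K e).comp (HahnSeries.C : K →+* LaurentSeries K) = HahnSeries.C :=
    RingHom.ext (fun r => qExpand_C e r)
  rw [h3, hp] at h2
  have h4 : p.eval₂ HahnSeries.C (jqModC K) = 0 :=
    qExpand_injective e (by rw [h2, map_zero])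
  exact htrans_jB ℓ K p (by rw [red_jB]; exact h4)

omit hℓ in
/-- `TD.FF F 1 e = F(J(q^e))` -/
theorem FF_one_eq (F : Type*) [Field F] (e : ℕ) :
    TD.FF F 1 e = IntermediateField.adjoin F ({TD.Jd F e} : Set (LaurentSeries F)) := by
  unfold TD.FF
  congr 1
  have : {d : ℕ | d ∣ 1} = {1} := by
    ext d
    simp [Nat.dvd_one]
  rw [this, Set.image_singleton, mul_one]

/-- **Base of the reversed tower**: the `Tower.Good` invariant for `ℚ(J(q^e))`. -/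
theorem good_base_Jd (e : ℕ) (he : e ≠ 0) :
    Tower.Good (gaussRing ℓ K) (ℓ : LaurentSeries ℚ) (red ℓ K)
      ((TD.FF ℚ 1 e).toSubfield.toSubring ⊓ gaussRing ℓ K)
      (TD.FF ℚ 1 e).toSubfield (TD.FF K 1 e).toSubfield := by
  have h := good_base ℓ K (JdB ℓ K e he) (htrans_JdB ℓ K e he)
  rw [FF_one_eq ℚ e]
  refine ⟨h.pi_mem, h.bounded, fun y hy => ?_, h.integral⟩
  have h2 := h.red_mem y hy
  have hle : Subfield.closure ({red ℓ K (JdB ℓ K e he)} : Set (LaurentSeries K)) ≤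
      (TD.FF K 1 e).toSubfield := by
    rw [Subfield.closure_le, Set.singleton_subset_iff, FF_one_eq K e]
    have h3 : red ℓ K (JdB ℓ K e he) = TD.Jd K e := red_Jd ℓ K e he
    rw [h3]
    exact IntermediateField.mem_adjoin_simple_self K _
  exact hle h2

/-- `ℚ(J(q^e)) ⊆ B[1/ℓ]` -/
theorem exists_pow_mul_mem_gaussRing_Jd (e : ℕ) (he : e ≠ 0) :
    ∀ y ∈ (TD.FF ℚ 1 e).toSubfield, ∃ n : ℕ, (ℓ : LaurentSeries ℚ) ^ n * y ∈ gaussRing ℓ K := by
  intro y hy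
  rw [FF_one_eq ℚ e] at hy
  exact exists_pow_mul_mem_gaussRing ℓ K (JdB ℓ K e he) (htrans_JdB ℓ K e he) hy

omit hℓ in
/-- `R[x] ⊆ ℚ(x)` -/
theorem polyRing_le_adjoin (x : LaurentSeries ℚ) : ∀ a ∈ polyRing ℓ x,
    a ∈ IntermediateField.adjoin ℚ ({x} : Set (LaurentSeries ℚ)) := by
  intro a ha
  obtain ⟨p, rfl⟩ := (mem_polyRing_iff ℓ _ _).mp ha
  rw [← algebraMap_eq_C, ← Polynomial.aeval_def]
  exact IntermediateField.algebra_adjoin_le_adjoin ℚ _
    (Polynomial.aeval_mem_adjoin_singleton ℚ _)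

omit hℓ in
theorem polyRing_Jd_le_FF (e : ℕ) : ∀ a ∈ polyRing ℓ (TD.Jd ℚ e),
    a ∈ (TD.FF ℚ 1 e).toSubfield := by
  intro a ha
  rw [FF_one_eq ℚ e]
  exact polyRing_le_adjoin ℓ _ a ha

include K in
/-- `R[J(q^e)]` is integrally closed in `ℚ(J(q^e))`. -/
theorem polyRing_Jd_integrallyClosed (e : ℕ) (he : e ≠ 0) :
    ∀ z ∈ (TD.FF ℚ 1 e).toSubfield,
      IsIntegral (polyRing ℓ (TD.Jd ℚ e)) z → z ∈ polyRing ℓ (TD.Jd ℚ e) := by
  intro z hz
  rw [FF_one_eq ℚ e] at hz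
  exact polyRing_integrallyClosed ℓ K (JdB ℓ K e he) (htrans_JdB ℓ K e he) z hz

/-- `R[J(q^e)]` is `ℓ`-saturated in the Gauss ring. -/
theorem polyRing_Jd_sat (e : ℕ) (he : e ≠ 0) :
    ∀ z ∈ gaussRing ℓ K, (ℓ : LaurentSeries ℚ) * z ∈ polyRing ℓ (TD.Jd ℚ e) →
      z ∈ polyRing ℓ (TD.Jd ℚ e) :=
  polyRing_sat ℓ K (JdB ℓ K e he) (htrans_JdB ℓ K e he)

omit hℓ [CharP K ℓ] in
/-- `R[J(q^e)] ⊆ ℚ(J(q^e)) ∩ B` -/
theorem polyRing_Jd_le_inf (e : ℕ) (he : e ≠ 0) :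
    polyRing ℓ (TD.Jd ℚ e) ≤ (TD.FF ℚ 1 e).toSubfield.toSubring ⊓ gaussRing ℓ K := by
  intro a ha
  exact ⟨polyRing_Jd_le_FF ℓ e a ha, polyRing_le ℓ K (JdB ℓ K e he) ha⟩


/-! ### `R[x]` as a subring closure, and change of the generator `J(q^e)` -/

/-- the constants `R ⊆ ℚ((q))` as a subring -/
noncomputable def constRing : Subring (LaurentSeries ℚ) :=
  ((HahnSeries.C : ℚ →+* LaurentSeries ℚ).comp (GaloisRep.ratLocalizedAt ℓ).subtype).range

omit hℓ in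
theorem polyRing_eq_closure (x : LaurentSeries ℚ) :
    polyRing ℓ x = Subring.closure ((constRing ℓ : Set (LaurentSeries ℚ)) ∪ {x}) := by
  apply le_antisymm
  · intro y hy
    obtain ⟨p, rfl⟩ := (mem_polyRing_iff ℓ _ _).mp hy
    rw [Polynomial.eval₂_map, Polynomial.eval₂_eq_sum_range]
    have hx : x ∈ Subring.closure ((constRing ℓ : Set (LaurentSeries ℚ)) ∪ {x}) :=
      Subring.subset_closure (Or.inr rfl)
    have hc : ∀ r : GaloisRep.ratLocalizedAt ℓ,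
        ((HahnSeries.C : ℚ →+* LaurentSeries ℚ).comp (GaloisRep.ratLocalizedAt ℓ).subtype) r ∈
          Subring.closure ((constRing ℓ : Set (LaurentSeries ℚ)) ∪ {x}) :=
      fun r => Subring.subset_closure (Or.inl ⟨r, rfl⟩)
    exact sum_mem (fun i _ => mul_mem (hc _) (pow_mem hx i))
  · rw [Subring.closure_le]
    rintro y (⟨r, rfl⟩ | rfl)
    · exact (mem_polyRing_iff ℓ _ _).mpr ⟨Polynomial.C r, by simp⟩
    · exact (mem_polyRing_iff ℓ _ _).mpr ⟨Polynomial.X, by simp⟩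

omit hℓ in
/-- integrality over `R[J(q^(m N))]` and over `R[J(q^m)]` are the same notion -/
theorem isIntegral_polyRing_Jd_iff (N : ℕ) (hN : N ≠ 0)
    (hME : ∀ r : ℕ, r.Prime → r ∣ N → Nonempty (TD.ModEq r)) (m : ℕ) (hm : m ≠ 0)
    (y : LaurentSeries ℚ) :
    IsIntegral (polyRing ℓ (TD.Jd ℚ (m * N))) y ↔ IsIntegral (polyRing ℓ (TD.Jd ℚ m)) y := by
  rw [polyRing_eq_closure, polyRing_eq_closure]
  exact Integrality.isIntegral_closure_Jd_iff ℚ (constRing ℓ) N hN hME m hm y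

omit hℓ in
theorem evalInt_mem_polyRing (x : LaurentSeries ℚ) (Q : ℤ[X]) :
    (Q.map (Int.castRingHom ℚ)).eval₂ HahnSeries.C x ∈ polyRing ℓ x :=
  (mem_polyRing_iff ℓ _ _).mpr ⟨Q.map (Int.castRingHom R), by rw [map_map_subtype]⟩

omit hℓ in
theorem natCast_ell_mem_polyRing (x : LaurentSeries ℚ) : (ℓ : LaurentSeries ℚ) ∈ polyRing ℓ x :=
  _root_.natCast_mem _ ℓ

/-- **Denominators.** If the elements of `S` are integral over `R[x]`, every element `y` of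
`ℚ(x, S)` has a multiple `ℓ^M * (Q₁(x) * y)` integral over `R[x]`, with `Q₁` an integer
polynomial that is nonzero mod `ℓ`. -/
theorem exists_den (x : gaussRing ℓ K) (S : Set (LaurentSeries ℚ))
    (hS : ∀ s ∈ S, IsIntegral (polyRing ℓ (x : LaurentSeries ℚ)) s) :
    ∀ y ∈ IntermediateField.adjoin ℚ (insert (x : LaurentSeries ℚ) S),
      ∃ (M : ℕ) (Q₁ : ℤ[X]), Q₁.map (Int.castRingHom K) ≠ 0 ∧
        IsIntegral (polyRing ℓ (x : LaurentSeries ℚ))
          ((ℓ : LaurentSeries ℚ) ^ M *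
            ((Q₁.map (Int.castRingHom ℚ)).eval₂ HahnSeries.C (x : LaurentSeries ℚ) * y)) := by
  -- the field `E = ℚ(x)`
  obtain ⟨E, hE⟩ : ∃ E : IntermediateField ℚ (LaurentSeries ℚ),
      E = IntermediateField.adjoin ℚ ({(x : LaurentSeries ℚ)} : Set (LaurentSeries ℚ)) := ⟨_, rfl⟩
  have hxE : (x : LaurentSeries ℚ) ∈ E := by
    rw [hE]; exact IntermediateField.mem_adjoin_simple_self ℚ _
  have hle : ∀ a ∈ polyRing ℓ (x : LaurentSeries ℚ), a ∈ E := by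
    intro a ha
    rw [hE]
    exact polyRing_le_adjoin ℓ _ a ha
  let φ : polyRing ℓ (x : LaurentSeries ℚ) →+* E :=
    { toFun := fun a => ⟨a.1, hle a.1 a.2⟩
      map_one' := rfl
      map_mul' := fun _ _ => rfl
      map_zero' := rfl
      map_add' := fun _ _ => rfl }
  have hSE : ∀ s ∈ S, IsIntegral E s := fun s hs =>
    (hS s hs).map_of_comp_eq φ (RingHom.id _) (by ext; rfl)
  -- the predicate
  have key : ∀ y ∈ Algebra.adjoin E S,
      ∃ (M : ℕ) (Q₁ : ℤ[X]), Q₁.map (Int.castRingHom K) ≠ 0 ∧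
        IsIntegral (polyRing ℓ (x : LaurentSeries ℚ))
          ((ℓ : LaurentSeries ℚ) ^ M *
            ((Q₁.map (Int.castRingHom ℚ)).eval₂ HahnSeries.C (x : LaurentSeries ℚ) * y)) := by
    intro y hy
    induction hy using Algebra.adjoin_induction with
    | mem s hs =>
      refine ⟨0, 1, ?_, ?_⟩
      · rw [Polynomial.map_one]; exact one_ne_zero
      · rw [pow_zero, one_mul, Polynomial.map_one, Polynomial.eval₂_one, one_mul]
        exact hS s hs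
    | algebraMap c =>
      obtain ⟨Q₁, P, hQ₁, hQP⟩ := exists_frac_repr ℓ K
        (x := (x : LaurentSeries ℚ)) (y := (c : LaurentSeries ℚ)) (by rw [← hE]; exact c.2)
      obtain ⟨M, hM⟩ := exists_pow_mul_coeff_mem ℓ P
      obtain ⟨p, hp⟩ := exists_map_eq ℓ (Polynomial.C ((ℓ : ℚ) ^ M) * P)
        (fun i => by rw [Polynomial.coeff_C_mul]; exact hM i)
      refine ⟨M, Q₁, hQ₁, ?_⟩
      have h1 : (ℓ : LaurentSeries ℚ) ^ M *
          ((Q₁.map (Int.castRingHom ℚ)).eval₂ HahnSeries.C (x : LaurentSeries ℚ) *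
            (algebraMap E (LaurentSeries ℚ) c)) =
          (p.map (GaloisRep.ratLocalizedAt ℓ).subtype).eval₂ HahnSeries.C
            (x : LaurentSeries ℚ) := by
        have h2 : (algebraMap E (LaurentSeries ℚ) c) = (c : LaurentSeries ℚ) := rfl
        rw [h2, hQP, hp, Polynomial.eval₂_mul, Polynomial.eval₂_C, natCast_eq_C, map_pow]
      rw [h1]
      exact Integrality.isIntegral_of_mem ((mem_polyRing_iff ℓ _ _).mpr ⟨p, rfl⟩)
    | add y₁ y₂ _ _ h₁ h₂ =>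
      obtain ⟨M₁, Q₁, hQ₁, hi₁⟩ := h₁
      obtain ⟨M₂, Q₂, hQ₂, hi₂⟩ := h₂
      refine ⟨M₁ + M₂, Q₁ * Q₂, ?_, ?_⟩
      · rw [Polynomial.map_mul]; exact mul_ne_zero hQ₁ hQ₂
      · have e : (ℓ : LaurentSeries ℚ) ^ (M₁ + M₂) *
            (((Q₁ * Q₂).map (Int.castRingHom ℚ)).eval₂ HahnSeries.C (x : LaurentSeries ℚ) *
              (y₁ + y₂)) =
            ((ℓ : LaurentSeries ℚ) ^ M₂ *
              (Q₂.map (Int.castRingHom ℚ)).eval₂ HahnSeries.C (x : LaurentSeries ℚ)) *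
              ((ℓ : LaurentSeries ℚ) ^ M₁ *
                ((Q₁.map (Int.castRingHom ℚ)).eval₂ HahnSeries.C (x : LaurentSeries ℚ) * y₁)) +
            ((ℓ : LaurentSeries ℚ) ^ M₁ *
              (Q₁.map (Int.castRingHom ℚ)).eval₂ HahnSeries.C (x : LaurentSeries ℚ)) *
              ((ℓ : LaurentSeries ℚ) ^ M₂ *
                ((Q₂.map (Int.castRingHom ℚ)).eval₂ HahnSeries.C (x : LaurentSeries ℚ) * y₂)) := by
          rw [Polynomial.map_mul, Polynomial.eval₂_mul, _root_.pow_add]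
          ring
        rw [e]
        exact ((Integrality.isIntegral_of_mem (mul_mem (pow_mem (natCast_ell_mem_polyRing ℓ _) _)
          (evalInt_mem_polyRing ℓ _ Q₂))).mul hi₁).add
          ((Integrality.isIntegral_of_mem (mul_mem (pow_mem (natCast_ell_mem_polyRing ℓ _) _)
          (evalInt_mem_polyRing ℓ _ Q₁))).mul hi₂)
    | mul y₁ y₂ _ _ h₁ h₂ =>
      obtain ⟨M₁, Q₁, hQ₁, hi₁⟩ := h₁
      obtain ⟨M₂, Q₂, hQ₂, hi₂⟩ := h₂
      refine ⟨M₁ + M₂, Q₁ * Q₂, ?_, ?_⟩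
      · rw [Polynomial.map_mul]; exact mul_ne_zero hQ₁ hQ₂
      · have e : (ℓ : LaurentSeries ℚ) ^ (M₁ + M₂) *
            (((Q₁ * Q₂).map (Int.castRingHom ℚ)).eval₂ HahnSeries.C (x : LaurentSeries ℚ) *
              (y₁ * y₂)) =
            ((ℓ : LaurentSeries ℚ) ^ M₁ *
                ((Q₁.map (Int.castRingHom ℚ)).eval₂ HahnSeries.C (x : LaurentSeries ℚ) * y₁)) *
            ((ℓ : LaurentSeries ℚ) ^ M₂ *
                ((Q₂.map (Int.castRingHom ℚ)).eval₂ HahnSeries.C (x : LaurentSeries ℚ) * y₂)) := by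
          rw [Polynomial.map_mul, Polynomial.eval₂_mul, _root_.pow_add]
          ring
        rw [e]
        exact hi₁.mul hi₂
  -- `ℚ(x, S) ⊆ E[S]`
  intro y hy
  apply key
  rw [← IntermediateField.adjoin_toSubalgebra_of_isAlgebraic (fun s hs => (hSE s hs).isAlgebraic)]
  have hy' : y ∈ Subfield.closure
      (Set.range (algebraMap ℚ (LaurentSeries ℚ)) ∪ insert (x : LaurentSeries ℚ) S) := hy
  have hcl : Subfield.closure
      (Set.range (algebraMap ℚ (LaurentSeries ℚ)) ∪ insert (x : LaurentSeries ℚ) S) ≤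
      (IntermediateField.adjoin E S).toSubfield := by
    rw [Subfield.closure_le]
    rintro t (⟨q, rfl⟩ | rfl | ht)
    · rw [eq_ratCast]
      exact SubfieldClass.ratCast_mem _ q
    · exact (IntermediateField.adjoin E S).algebraMap_mem ⟨_, hxE⟩
    · exact IntermediateField.subset_adjoin E S ht
  exact hcl hy'


/-- `hden` of `RouteT.integral_over_O1`: every `y` in the level-`N` field has a multiple
`ℓ^k * (D' * y)` integral over `R[j]`, with `D'` a unit of the Gauss ring lying in `ℚ(j)`. -/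
theorem exists_den_FF (N : ℕ) (hN : N ≠ 0)
    (hME : ∀ r : ℕ, r.Prime → r ∣ N → Nonempty (TD.ModEq r)) :
    ∀ y ∈ (TD.FF ℚ N 1).toSubfield, ∃ (k : ℕ) (D' : LaurentSeries ℚ),
      D' ∈ gaussRing ℓ K ∧ D' ∈ (TD.FF ℚ N 1).toSubfield ∧ D' ≠ 0 ∧
      D'⁻¹ ∈ (TD.FF ℚ 1 1).toSubfield.toSubring ⊓ gaussRing ℓ K ∧
      IsIntegral (polyRing ℓ (TD.Jd ℚ 1)) ((ℓ : LaurentSeries ℚ) ^ k * (D' * y)) := by
  intro y hy
  obtain ⟨x, hx⟩ : ∃ x : gaussRing ℓ K, x = JdB ℓ K 1 one_ne_zero := ⟨_, rfl⟩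
  have hxc : (x : LaurentSeries ℚ) = TD.Jd ℚ 1 := by rw [hx]; rfl
  have htrans : ∀ p : K[X], p.eval₂ HahnSeries.C (red ℓ K x) = 0 → p = 0 := by
    rw [hx]; exact htrans_JdB ℓ K 1 one_ne_zero
  have hS : ∀ s ∈ (fun d => TD.Jd ℚ (1 * d)) '' {d | d ∣ N},
      IsIntegral (polyRing ℓ (x : LaurentSeries ℚ)) s := by
    rintro _ ⟨d, hd, rfl⟩
    have h1 := (Integrality.isIntegral_Jd_dvd ℚ N hN hME 1 one_ne_zero hd).2
    refine Integrality.isIntegral_of_le ?_ h1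
    rw [Subring.closure_le, Set.singleton_subset_iff, hxc]
    exact (mem_polyRing_iff ℓ _ _).mpr ⟨Polynomial.X, by simp⟩
  have hy' : y ∈ IntermediateField.adjoin ℚ (insert (x : LaurentSeries ℚ)
      ((fun d => TD.Jd ℚ (1 * d)) '' {d | d ∣ N})) :=
    IntermediateField.adjoin.mono ℚ _ _ (Set.subset_insert _ _) hy
  obtain ⟨M, Q₁, hQ₁, hint⟩ := exists_den ℓ K x _ hS y hy'
  have hJ1 : TD.Jd ℚ 1 ∈ TD.FF ℚ N 1 := by
    have := TD.Jd_mem_FF ℚ (N := N) (m := 1) (one_dvd N)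
    rwa [mul_one] at this
  have hD1 : (Q₁.map (Int.castRingHom ℚ)).eval₂ HahnSeries.C (TD.Jd ℚ 1) ∈
      (TD.FF ℚ 1 1).toSubfield := polyRing_Jd_le_FF ℓ 1 _ (evalInt_mem_polyRing ℓ _ Q₁)
  have hle : TD.FF ℚ 1 1 ≤ TD.FF ℚ N 1 := by
    rw [FF_one_eq ℚ 1, IntermediateField.adjoin_simple_le_iff]
    exact hJ1
  rw [hxc] at hint
  refine ⟨M, (Q₁.map (Int.castRingHom ℚ)).eval₂ HahnSeries.C (TD.Jd ℚ 1), ?_, hle hD1, ?_,
    ⟨(TD.FF ℚ 1 1).toSubfield.inv_mem hD1, ?_⟩, hint⟩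
  · rw [← hxc]
    exact polyRing_le ℓ K x (evalInt_mem_polyRing ℓ _ Q₁)
  · intro h0
    apply red_evB_int_ne_zero ℓ K x htrans Q₁ hQ₁
    have : evB ℓ K x (Q₁.map (Int.castRingHom R)) = 0 :=
      Subtype.ext (by rw [coe_evB, map_map_subtype, hxc]; exact h0)
    rw [this, map_zero]
  · have := evB_int_inv_mem ℓ K x htrans Q₁ hQ₁
    rwa [coe_evB, map_map_subtype, hxc] at this

/-- **Change of base ring (D9c).** From the invariant over `ℚ(J(q^N)) ∩ B` (the output of the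
reversed tower) to the invariant over `ℚ(j) ∩ B`. -/
theorem good_one_of_good_FF (N : ℕ) (hN : N ≠ 0)
    (hME : ∀ r : ℕ, r.Prime → r ∣ N → Nonempty (TD.ModEq r)) {κ : Subfield (LaurentSeries K)}
    (h : Tower.Good (gaussRing ℓ K) (ℓ : LaurentSeries ℚ) (red ℓ K)
      ((TD.FF ℚ 1 N).toSubfield.toSubring ⊓ gaussRing ℓ K) (TD.FF ℚ N 1).toSubfield κ) :
    Tower.Good (gaussRing ℓ K) (ℓ : LaurentSeries ℚ) (red ℓ K)
      ((TD.FF ℚ 1 1).toSubfield.toSubring ⊓ gaussRing ℓ K) (TD.FF ℚ N 1).toSubfield κ := by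
  refine ⟨h.pi_mem, h.bounded, h.red_mem, ?_⟩
  have h1N : ∀ y : LaurentSeries ℚ, IsIntegral (polyRing ℓ (TD.Jd ℚ 1)) y →
      IsIntegral (polyRing ℓ (TD.Jd ℚ N)) y := by
    intro y hy
    have := (isIntegral_polyRing_Jd_iff ℓ N hN hME 1 one_ne_zero y).mpr hy
    rwa [one_mul] at this
  have hN1 : ∀ y : LaurentSeries ℚ, IsIntegral (polyRing ℓ (TD.Jd ℚ N)) y →
      IsIntegral (polyRing ℓ (TD.Jd ℚ 1)) y := by
    intro y hy
    apply (isIntegral_polyRing_Jd_iff ℓ N hN hME 1 one_ne_zero y).mp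
    rwa [one_mul]
  exact RouteT.integral_over_O1 (natCast_ell_mem_gaussRing ℓ K) (natCast_ell_ne_zero' ℓ)
    (fun y hy h => inv_mem_gaussRing ℓ K hy h) (ell_inv_not_mem_gaussRing ℓ K)
    (F₀N := (TD.FF ℚ 1 N).toSubfield) (_root_.natCast_mem _ ℓ)
    (exists_pow_mul_mem_gaussRing_Jd ℓ K N hN)
    (ON := (TD.FF ℚ 1 N).toSubfield.toSubring ⊓ gaussRing ℓ K) (RN := polyRing ℓ (TD.Jd ℚ N))
    (polyRing_Jd_le_FF ℓ N) (fun a ha => ha.1) inf_le_right
    (polyRing_Jd_integrallyClosed ℓ K N hN) (polyRing_Jd_sat ℓ K N hN)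
    (R1 := polyRing ℓ (TD.Jd ℚ 1)) (O1 := (TD.FF ℚ 1 1).toSubfield.toSubring ⊓ gaussRing ℓ K)
    (polyRing_Jd_le_inf ℓ K 1 one_ne_zero) h1N hN1
    (F := (TD.FF ℚ N 1).toSubfield) h.pi_mem (exists_den_FF ℓ K N hN hME) h.integral

/-- The same, stated for `modularFunctionFieldFull N` and `ℚ(j)`: exactly the hypothesis of
`hQ2_fin` / `hQ2_inf`. -/
theorem good_full_of_good_FF (N : ℕ) [NeZero N]
    (hME : ∀ r : ℕ, r.Prime → r ∣ N → Nonempty (TD.ModEq r)) {κ : Subfield (LaurentSeries K)}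
    (h : Tower.Good (gaussRing ℓ K) (ℓ : LaurentSeries ℚ) (red ℓ K)
      ((TD.FF ℚ 1 N).toSubfield.toSubring ⊓ gaussRing ℓ K) (TD.FF ℚ N 1).toSubfield κ) :
    Tower.Good (gaussRing ℓ K) (ℓ : LaurentSeries ℚ) (red ℓ K)
      ((IntermediateField.adjoin ℚ ({jq} : Set (LaurentSeries ℚ))).toSubfield.toSubring ⊓
        gaussRing ℓ K)
      (modularFunctionFieldFull N).toSubfield κ := by
  have h1 := good_one_of_good_FF ℓ K N (NeZero.ne N) hME h
  rw [TD.FF_rat_one N, FF_one_eq ℚ 1, TD.Jd_one, jqModC_rat] at h1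
  exact h1

end JdFacts

end Fermat.Agent.S28.GaussBase
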