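import Mathlib
import Fermat.Prelude.Def_ModularCurve_IgusaScheme

/-!
# S28, WP2 (part 1): chart functions have `ℓ`-integral `q`-expansions

* `lsMap f`: the coefficientwise map of Laurent series induced by a ring hom `f`;
* `intSeries ℓ`: the subring `ℤ_(ℓ)((q))` of `ℚ((q))`;
* `mem_intSeries_of_forall_mul_pow_mem`: `ℤ_(ℓ)((q))` is completely integrally closed in `ℚ((q))`;
* `coe_mem_intSeries_of_mem_chartAlg` (Q1): every element of a chart algebra `chartAlg N ℓ S`
  (with `S ⊆ ℤ_(ℓ)((q))`) has `q`-expansion in `ℤ_(ℓ)((q))`.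
-/

set_option autoImplicit false

open HahnSeries ModularCurve ModularCurve.IgusaScheme

namespace Fermat.Agent.S28

noncomputable section

/-- Coefficientwise map of Laurent series induced by a ring homomorphism. -/
def lsMap {A B : Type*} [CommRing A] [CommRing B] (f : A →+* B) :
    LaurentSeries A →+* LaurentSeries B where
  toFun x := x.map f
  map_one' := by
    ext n
    simp only [HahnSeries.map_coeff, HahnSeries.coeff_one]
    split_ifs <;> simp
  map_mul' x y := by
    exact HahnSeries.map_mul (f : A →ₙ+* B) (x := x) (y := y)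
  map_zero' := by ext n; simp
  map_add' x y := by ext n; simp

@[simp] theorem lsMap_coeff {A B : Type*} [CommRing A] [CommRing B] (f : A →+* B)
    (x : LaurentSeries A) (n : ℤ) : (lsMap f x).coeff n = f (x.coeff n) := rfl

theorem lsMap_injective {A B : Type*} [CommRing A] [CommRing B] {f : A →+* B}
    (hf : Function.Injective f) : Function.Injective (lsMap f) := by
  intro x y h
  ext n
  apply hf
  have := congrArg (fun z => z.coeff n) h
  simpa using this

/-- The subring `ℤ_(ℓ)((q))` of `ℚ((q))`: Laurent series all of whose coefficients are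
`ℓ`-integral. -/
def intSeries (ℓ : ℕ) : Subring (LaurentSeries ℚ) where
  carrier := {x | ∀ n : ℤ, x.coeff n ∈ GaloisRep.ratLocalizedAt ℓ}
  mul_mem' {x y} hx hy n := by
    rw [HahnSeries.coeff_mul]
    exact Subring.sum_mem _ fun ij _ => Subring.mul_mem _ (hx _) (hy _)
  one_mem' n := by
    rw [HahnSeries.coeff_one]
    split_ifs
    · exact Subring.one_mem _
    · exact Subring.zero_mem _
  add_mem' {x y} hx hy n := by
    rw [HahnSeries.coeff_add]
    exact Subring.add_mem _ (hx n) (hy n)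
  zero_mem' n := by
    rw [HahnSeries.coeff_zero]
    exact Subring.zero_mem _
  neg_mem' {x} hx n := by
    rw [HahnSeries.coeff_neg]
    exact Subring.neg_mem _ (hx n)

theorem mem_intSeries_iff {ℓ : ℕ} {x : LaurentSeries ℚ} :
    x ∈ intSeries ℓ ↔ ∀ n : ℤ, x.coeff n ∈ GaloisRep.ratLocalizedAt ℓ := Iff.rfl

/-- `ℓ`-integrality of a nonzero rational number in terms of its `ℓ`-adic valuation. -/
theorem mem_ratLocalizedAt_iff_padicValRat {ℓ : ℕ} [Fact ℓ.Prime] {x : ℚ} :
    x ∈ GaloisRep.ratLocalizedAt ℓ ↔ 0 ≤ padicValRat ℓ x := by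
  have hℓ : ℓ.Prime := Fact.out
  show x.den.Coprime ℓ ↔ _
  rw [padicValRat_def]
  constructor
  · intro h
    have h1 : ¬ ℓ ∣ x.den := (Nat.Prime.coprime_iff_not_dvd hℓ).mp (Nat.coprime_comm.mp h)
    rw [padicValNat.eq_zero_of_not_dvd h1]
    simp [padicValInt]
  · intro h
    by_contra hcop
    have h1 : ℓ ∣ x.den := by
      by_contra h2
      exact hcop (Nat.coprime_comm.mp ((Nat.Prime.coprime_iff_not_dvd hℓ).mpr h2))
    have h2 : ¬ ℓ ∣ x.num.natAbs := by
      intro h3
      have h4 := Nat.dvd_gcd h3 h1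
      rw [x.reduced] at h4
      exact hℓ.one_lt.ne' (Nat.dvd_one.mp h4)
    have h5 : padicValInt ℓ x.num = 0 := by
      rw [padicValInt, padicValNat.eq_zero_of_not_dvd h2]
    have h6 : 1 ≤ padicValNat ℓ x.den :=
      one_le_padicValNat_of_dvd x.den_ne_zero h1
    rw [h5] at h
    omega

/-- If `c` is not `ℓ`-integral and `d ≠ 0`, then not all `d * c ^ k` are `ℓ`-integral. -/
theorem exists_mul_pow_not_mem {ℓ : ℕ} [Fact ℓ.Prime] {d c : ℚ} (hd : d ≠ 0)
    (hc : c ∉ GaloisRep.ratLocalizedAt ℓ) : ∃ k : ℕ, d * c ^ k ∉ GaloisRep.ratLocalizedAt ℓ := by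
  have hc0 : c ≠ 0 := by
    rintro rfl
    exact hc (Subring.zero_mem _)
  have hvc : padicValRat ℓ c ≤ -1 := by
    have := (mem_ratLocalizedAt_iff_padicValRat (ℓ := ℓ)).not.mp hc
    omega
  refine ⟨(padicValRat ℓ d).toNat + 1, fun h => ?_⟩
  have hne : d * c ^ ((padicValRat ℓ d).toNat + 1) ≠ 0 := mul_ne_zero hd (pow_ne_zero _ hc0)
  have h1 := (mem_ratLocalizedAt_iff_padicValRat (ℓ := ℓ)).mp h
  rw [padicValRat.mul hd (pow_ne_zero _ hc0), padicValRat.pow] at h1
  have h2 : (((padicValRat ℓ d).toNat + 1 : ℕ) : ℤ) * padicValRat ℓ c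
      ≤ (((padicValRat ℓ d).toNat + 1 : ℕ) : ℤ) * (-1) :=
    mul_le_mul_of_nonneg_left hvc (by positivity)
  have h3 : padicValRat ℓ d ≤ ((padicValRat ℓ d).toNat : ℤ) := Int.self_le_toNat _
  push_cast at h1 h2
  omega

/-- The leading coefficient of a power. -/
theorem leadingCoeff_pow' (x : LaurentSeries ℚ) (k : ℕ) :
    (x ^ k).leadingCoeff = x.leadingCoeff ^ k := by
  induction k with
  | zero => simp
  | succ k ih => rw [pow_succ, HahnSeries.leadingCoeff_mul, ih, pow_succ]

/-- `ℤ_(ℓ)((q))` is completely integrally closed in `ℚ((q))`: if `d ≠ 0` and all `d * y ^ k`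
have `ℓ`-integral coefficients, then so does `y`. -/
theorem mem_intSeries_of_forall_mul_pow_mem {ℓ : ℕ} [Fact ℓ.Prime] {y d : LaurentSeries ℚ}
    (hd0 : d ≠ 0) (h : ∀ k : ℕ, d * y ^ k ∈ intSeries ℓ) : y ∈ intSeries ℓ := by
  by_contra hy
  rw [mem_intSeries_iff] at hy
  simp only [not_forall] at hy
  -- the least index with a non-integral coefficient
  obtain ⟨n0, hn0, hmin⟩ := Int.exists_least_of_bdd
    (P := fun n => y.coeff n ∉ GaloisRep.ratLocalizedAt ℓ)
    ⟨y.order, fun z hz => by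
      by_contra hlt
      exact hz (by
        rw [HahnSeries.coeff_eq_zero_of_lt_order (not_le.mp hlt)]
        exact Subring.zero_mem _)⟩ hy
  set ylow : LaurentSeries ℚ := HahnSeries.truncLT n0 y with hylow
  have hlow : ylow ∈ intSeries ℓ := by
    intro i
    rw [hylow, HahnSeries.coeff_truncLT]
    split_ifs with hi
    · by_contra hcon
      exact absurd (hmin i hcon) (not_le.mpr hi)
    · exact Subring.zero_mem _
  set y' : LaurentSeries ℚ := y - ylow with hy'
  have hy'coeff : ∀ i, y'.coeff i = if i < n0 then 0 else y.coeff i := by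
    intro i
    rw [hy', HahnSeries.coeff_sub, hylow, HahnSeries.coeff_truncLT]
    split_ifs <;> simp
  have hc : y'.coeff n0 = y.coeff n0 := by rw [hy'coeff, if_neg (lt_irrefl _)]
  have hc0 : y'.coeff n0 ≠ 0 := by
    rw [hc]
    rintro h0
    exact hn0 (by rw [h0]; exact Subring.zero_mem _)
  have hy'0 : y' ≠ 0 := fun h0 => hc0 (by rw [h0, HahnSeries.coeff_zero])
  have hord : y'.order = n0 := by
    apply le_antisymm (HahnSeries.order_le_of_coeff_ne_zero hc0)
    by_contra hlt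
    have h1 : y'.coeff y'.order = 0 := by rw [hy'coeff, if_pos (not_le.mp hlt)]
    have h2 : y'.leadingCoeff ≠ 0 := HahnSeries.leadingCoeff_ne_zero.mpr hy'0
    rw [HahnSeries.leadingCoeff_eq] at h2
    exact h2 h1
  have hlead : y'.leadingCoeff = y.coeff n0 := by
    rw [HahnSeries.leadingCoeff_eq, hord, hc]
  -- `d * y' ^ k` is still integral
  have hmem : ∀ k : ℕ, d * y' ^ k ∈ intSeries ℓ := by
    intro k
    have hsub : y' = y + (-ylow) := by rw [hy', sub_eq_add_neg]
    rw [hsub, add_pow, Finset.mul_sum]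
    refine Subring.sum_mem _ fun m _ => ?_
    have : d * (y ^ m * (-ylow) ^ (k - m) * (k.choose m : LaurentSeries ℚ))
        = (d * y ^ m) * (-ylow) ^ (k - m) * (k.choose m : LaurentSeries ℚ) := by ring
    rw [this]
    exact Subring.mul_mem _ (Subring.mul_mem _ (h m)
      (Subring.pow_mem _ (Subring.neg_mem _ hlow) _)) (natCast_mem _ _)
  obtain ⟨k, hk⟩ := exists_mul_pow_not_mem (ℓ := ℓ)
    (HahnSeries.leadingCoeff_ne_zero.mpr hd0) hn0
  apply hk
  have h1 := hmem k (d * y' ^ k).order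
  rw [← HahnSeries.leadingCoeff_eq, HahnSeries.leadingCoeff_mul, leadingCoeff_pow', hlead] at h1
  exact h1

/-! ### Fractions of integral series -/

/-- The subfield of `ℚ((q))` of quotients of two series with `ℓ`-integral coefficients. -/
def fracSeries (ℓ : ℕ) : Subfield (LaurentSeries ℚ) where
  carrier := {x | ∃ Q ∈ intSeries ℓ, Q ≠ 0 ∧ Q * x ∈ intSeries ℓ}
  mul_mem' := by
    rintro x y ⟨Q, hQ, hQ0, hQx⟩ ⟨Q', hQ', hQ'0, hQ'y⟩
    refine ⟨Q * Q', Subring.mul_mem _ hQ hQ', mul_ne_zero hQ0 hQ'0, ?_⟩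
    have : Q * Q' * (x * y) = (Q * x) * (Q' * y) := by ring
    rw [this]
    exact Subring.mul_mem _ hQx hQ'y
  one_mem' := ⟨1, Subring.one_mem _, one_ne_zero, by rw [mul_one]; exact Subring.one_mem _⟩
  add_mem' := by
    rintro x y ⟨Q, hQ, hQ0, hQx⟩ ⟨Q', hQ', hQ'0, hQ'y⟩
    refine ⟨Q * Q', Subring.mul_mem _ hQ hQ', mul_ne_zero hQ0 hQ'0, ?_⟩
    have : Q * Q' * (x + y) = Q' * (Q * x) + Q * (Q' * y) := by ring
    rw [this]
    exact Subring.add_mem _ (Subring.mul_mem _ hQ' hQx) (Subring.mul_mem _ hQ hQ'y)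
  zero_mem' := ⟨1, Subring.one_mem _, one_ne_zero, by rw [mul_zero]; exact Subring.zero_mem _⟩
  neg_mem' := by
    rintro x ⟨Q, hQ, hQ0, hQx⟩
    refine ⟨Q, hQ, hQ0, ?_⟩
    rw [mul_neg]
    exact Subring.neg_mem _ hQx
  inv_mem' := by
    rintro x ⟨Q, hQ, hQ0, hQx⟩
    by_cases hx : x = 0
    · subst hx
      exact ⟨1, Subring.one_mem _, one_ne_zero, by
        rw [inv_zero, mul_zero]; exact Subring.zero_mem _⟩
    · refine ⟨Q * x, hQx, mul_ne_zero hQ0 hx, ?_⟩
      have : Q * x * x⁻¹ = Q := by field_simp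
      rw [this]
      exact hQ

theorem mem_fracSeries_iff {ℓ : ℕ} {x : LaurentSeries ℚ} :
    x ∈ fracSeries ℓ ↔ ∃ Q ∈ intSeries ℓ, Q ≠ 0 ∧ Q * x ∈ intSeries ℓ := Iff.rfl

theorem intSeries_le_fracSeries (ℓ : ℕ) {x : LaurentSeries ℚ} (hx : x ∈ intSeries ℓ) :
    x ∈ fracSeries ℓ :=
  ⟨1, Subring.one_mem _, one_ne_zero, by rwa [one_mul]⟩

/-- Integer constants are integral series. -/
theorem intCast_single_mem_intSeries (ℓ : ℕ) (m : ℤ) :
    (HahnSeries.single (0 : ℤ) (m : ℚ) : LaurentSeries ℚ) ∈ intSeries ℓ := by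
  intro n
  rw [HahnSeries.coeff_single]
  split_ifs
  · exact intCast_mem _ m
  · exact Subring.zero_mem _

/-- Rational constants are fractions of integral series. -/
theorem algebraMap_mem_fracSeries (ℓ : ℕ) (c : ℚ) :
    algebraMap ℚ (LaurentSeries ℚ) c ∈ fracSeries ℓ := by
  rw [ModularCurve.algebraMap_apply_eq_single]
  refine ⟨HahnSeries.single (0 : ℤ) ((c.den : ℤ) : ℚ), intCast_single_mem_intSeries ℓ _, ?_, ?_⟩
  · intro h
    have := congrArg (fun z => z.coeff 0) h
    simp at this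
  · have : (HahnSeries.single (0 : ℤ) ((c.den : ℤ) : ℚ) : LaurentSeries ℚ) *
        HahnSeries.single (0 : ℤ) c = HahnSeries.single (0 : ℤ) ((c.num : ℤ) : ℚ) := by
      rw [HahnSeries.single_mul_single, add_zero]
      congr 1
      push_cast
      rw [mul_comm]
      exact Rat.mul_den_eq_num c
    rw [this]
    exact intCast_single_mem_intSeries ℓ _

/-- `fracSeries ℓ` as an intermediate field of `ℚ((q)) / ℚ`. -/
def fracSeriesIF (ℓ : ℕ) : IntermediateField ℚ (LaurentSeries ℚ) :=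
  (fracSeries ℓ).toIntermediateField (algebraMap_mem_fracSeries ℓ)

theorem mem_fracSeriesIF_iff {ℓ : ℕ} {x : LaurentSeries ℚ} :
    x ∈ fracSeriesIF ℓ ↔ x ∈ fracSeries ℓ := Iff.rfl

/-! ### The generators of the modular function field are integral series -/

theorem single_one_mem_intSeries (ℓ : ℕ) (k : ℤ) :
    (HahnSeries.single k (1 : ℚ) : LaurentSeries ℚ) ∈ intSeries ℓ := by
  intro n
  rw [HahnSeries.coeff_single]
  split_ifs
  · exact Subring.one_mem _
  · exact Subring.zero_mem _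

theorem ofPowerSeries_map_mem_intSeries (ℓ : ℕ) (f : PowerSeries ℤ) :
    HahnSeries.ofPowerSeries ℤ ℚ (f.map (Int.castRingHom ℚ)) ∈ intSeries ℓ := by
  intro n
  by_cases hn : n < 0
  · rw [ModularCurve.ofPowerSeries_coeff_of_neg _ hn]
    exact Subring.zero_mem _
  · obtain ⟨m, rfl⟩ := Int.eq_ofNat_of_zero_le (not_lt.mp hn)
    rw [HahnSeries.ofPowerSeries_apply_coeff, PowerSeries.coeff_map]
    exact intCast_mem _ _

theorem jq_mem_intSeries (ℓ : ℕ) : jq ∈ intSeries ℓ :=
  Subring.mul_mem _ (single_one_mem_intSeries ℓ _) (ofPowerSeries_map_mem_intSeries ℓ _)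

theorem jq_inv_eq : jq⁻¹ = HahnSeries.single (1 : ℤ) (1 : ℚ) *
    HahnSeries.ofPowerSeries ℤ ℚ ((jNum.invOfUnit 1).map (Int.castRingHom ℚ)) := by
  apply inv_eq_of_mul_eq_one_right
  have h1 : jNum * jNum.invOfUnit 1 = 1 :=
    PowerSeries.mul_invOfUnit _ _ (by rw [constantCoeff_jNum]; rfl)
  have h2 : jNumQ * (jNum.invOfUnit 1).map (Int.castRingHom ℚ) = 1 := by
    rw [jNumQ, ← map_mul, h1, map_one]
  have hs : (HahnSeries.single (-1 : ℤ) (1 : ℚ) : LaurentSeries ℚ) *
      HahnSeries.single (1 : ℤ) (1 : ℚ) = 1 := by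
    rw [HahnSeries.single_mul_single]
    simp
  have hp : HahnSeries.ofPowerSeries ℤ ℚ jNumQ *
      HahnSeries.ofPowerSeries ℤ ℚ ((jNum.invOfUnit 1).map (Int.castRingHom ℚ)) = 1 := by
    rw [← map_mul, h2, map_one]
  rw [jq]
  calc HahnSeries.single (-1 : ℤ) (1 : ℚ) * HahnSeries.ofPowerSeries ℤ ℚ jNumQ *
        (HahnSeries.single (1 : ℤ) (1 : ℚ) *
          HahnSeries.ofPowerSeries ℤ ℚ ((jNum.invOfUnit 1).map (Int.castRingHom ℚ)))
      = (HahnSeries.single (-1 : ℤ) (1 : ℚ) * HahnSeries.single (1 : ℤ) (1 : ℚ)) *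
        (HahnSeries.ofPowerSeries ℤ ℚ jNumQ *
          HahnSeries.ofPowerSeries ℤ ℚ ((jNum.invOfUnit 1).map (Int.castRingHom ℚ))) := by ring
    _ = 1 := by rw [hs, hp, mul_one]

theorem jq_inv_mem_intSeries (ℓ : ℕ) : jq⁻¹ ∈ intSeries ℓ := by
  rw [jq_inv_eq]
  exact Subring.mul_mem _ (single_one_mem_intSeries ℓ _) (ofPowerSeries_map_mem_intSeries ℓ _)

theorem qExpand_mem_intSeries (ℓ : ℕ) (d : ℕ) [NeZero d] {x : LaurentSeries ℚ}
    (hx : x ∈ intSeries ℓ) : qExpand ℚ d x ∈ intSeries ℓ := by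
  intro n
  by_cases hn : (d : ℤ) ∣ n
  · obtain ⟨m, rfl⟩ := hn
    rw [qExpand_coeff_mul]
    exact hx m
  · rw [qExpand_coeff_of_not_dvd d x hn]
    exact Subring.zero_mem _

/-- Every element of the modular function field is a quotient of two integral series. -/
theorem modularFunctionFieldFull_le_fracSeriesIF (N : ℕ) (ℓ : ℕ) :
    modularFunctionFieldFull N ≤ fracSeriesIF ℓ := by
  rw [modularFunctionFieldFull, IntermediateField.adjoin_le_iff]
  rintro x ⟨d, hd, -, rfl⟩
  exact intSeries_le_fracSeries ℓ (qExpand_mem_intSeries ℓ d (jq_mem_intSeries ℓ))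

/-! ### (Q1): chart functions have integral `q`-expansions -/

/-- A finite set of fractions of integral series has a common denominator. -/
theorem exists_common_denominator (ℓ : ℕ) (G : Finset (LaurentSeries ℚ))
    (hG : ∀ g ∈ G, g ∈ fracSeries ℓ) :
    ∃ d ∈ intSeries ℓ, d ≠ 0 ∧ ∀ g ∈ G, d * g ∈ intSeries ℓ := by
  classical
  induction G using Finset.induction_on with
  | empty => exact ⟨1, Subring.one_mem _, one_ne_zero, by simp⟩
  | insert a s _ ih =>
    obtain ⟨d, hd, hd0, hds⟩ := ih fun g hg => hG g (Finset.mem_insert_of_mem hg)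
    obtain ⟨Q, hQ, hQ0, hQa⟩ := hG a (Finset.mem_insert_self a s)
    refine ⟨Q * d, Subring.mul_mem _ hQ hd, mul_ne_zero hQ0 hd0, fun g hg => ?_⟩
    rcases Finset.mem_insert.mp hg with rfl | hg
    · have : Q * d * g = d * (Q * g) := by ring
      rw [this]
      exact Subring.mul_mem _ hd hQa
    · have : Q * d * g = Q * (d * g) := by ring
      rw [this]
      exact Subring.mul_mem _ hQ (hds g hg)

/-- An element of `ℚ((q))` which is integral over `ℤ_(ℓ)((q))` and is a quotient of two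
integral series is an integral series. -/
theorem mem_intSeries_of_isIntegral {ℓ : ℕ} [Fact ℓ.Prime] {x : LaurentSeries ℚ}
    (hint : IsIntegral (intSeries ℓ) x) (hfrac : x ∈ fracSeries ℓ) : x ∈ intSeries ℓ := by
  classical
  obtain ⟨G, hG⟩ := hint.fg_adjoin_singleton
  have hMfrac : ∀ m ∈ Algebra.adjoin (intSeries ℓ) {x}, m ∈ fracSeries ℓ := by
    intro m hm
    induction hm using Algebra.adjoin_induction with
    | mem y hy =>
      rw [Set.mem_singleton_iff] at hy
      rw [hy]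
      exact hfrac
    | algebraMap r => exact intSeries_le_fracSeries ℓ r.2
    | add y z _ _ hy hz => exact (fracSeries ℓ).add_mem hy hz
    | mul y z _ _ hy hz => exact (fracSeries ℓ).mul_mem hy hz
  have hGfrac : ∀ g ∈ G, g ∈ fracSeries ℓ := by
    intro g hg
    apply hMfrac
    have : g ∈ Submodule.span (intSeries ℓ) (G : Set (LaurentSeries ℚ)) :=
      Submodule.subset_span hg
    rw [hG] at this
    exact this
  obtain ⟨d, hd, hd0, hdG⟩ := exists_common_denominator ℓ G hGfrac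
  have hdM : ∀ m ∈ Submodule.span (intSeries ℓ) (G : Set (LaurentSeries ℚ)),
      d * m ∈ intSeries ℓ := by
    intro m hm
    induction hm using Submodule.span_induction with
    | mem y hy => exact hdG y hy
    | zero => rw [mul_zero]; exact Subring.zero_mem _
    | add y z _ _ hy hz => rw [mul_add]; exact Subring.add_mem _ hy hz
    | smul r y _ hy =>
      have : d * (r • y) = (r : LaurentSeries ℚ) * (d * y) := by
        rw [Algebra.smul_def]
        show d * ((r : LaurentSeries ℚ) * y) = _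
        ring
      rw [this]
      exact Subring.mul_mem _ r.2 hy
  refine mem_intSeries_of_forall_mul_pow_mem hd0 fun k => hdM _ ?_
  rw [hG]
  exact pow_mem (Algebra.self_mem_adjoin_singleton _ x) k

section Chart

variable (N : ℕ) [NeZero N] (ℓ : ℕ) [Fact ℓ.Prime]

theorem coe_algebraMap_eq_single (r : ↥(GaloisRep.ratLocalizedAt ℓ)) :
    ((algebraMap ↥(GaloisRep.ratLocalizedAt ℓ) ↥(modularFunctionFieldFull N) r :
      ↥(modularFunctionFieldFull N)) : LaurentSeries ℚ) = HahnSeries.single (0 : ℤ) (r : ℚ) := by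
  have key : (algebraMap ↥(modularFunctionFieldFull N) (LaurentSeries ℚ)).comp
      (algebraMap ℚ ↥(modularFunctionFieldFull N)) = algebraMap ℚ (LaurentSeries ℚ) :=
    Subsingleton.elim _ _
  have h := congrArg (fun f : ℚ →+* LaurentSeries ℚ => f (r : ℚ)) key
  rw [← ModularCurve.algebraMap_apply_eq_single]
  exact h

theorem coe_algebraMap_mem_intSeries (r : ↥(GaloisRep.ratLocalizedAt ℓ)) :
    ((algebraMap ↥(GaloisRep.ratLocalizedAt ℓ) ↥(modularFunctionFieldFull N) r :
      ↥(modularFunctionFieldFull N)) : LaurentSeries ℚ) ∈ intSeries ℓ := by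
  rw [coe_algebraMap_eq_single]
  intro n
  rw [HahnSeries.coeff_single]
  split_ifs
  · exact r.2
  · exact Subring.zero_mem _

theorem coe_mem_intSeries_of_mem_adjoin {S : Set ↥(modularFunctionFieldFull N)}
    (hS : ∀ s ∈ S, (s : LaurentSeries ℚ) ∈ intSeries ℓ) {a : ↥(modularFunctionFieldFull N)}
    (ha : a ∈ Algebra.adjoin ↥(GaloisRep.ratLocalizedAt ℓ) S) :
    (a : LaurentSeries ℚ) ∈ intSeries ℓ := by
  induction ha using Algebra.adjoin_induction with
  | mem y hy => exact hS y hy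
  | algebraMap r => exact coe_algebraMap_mem_intSeries N ℓ r
  | add y z _ _ hy hz => exact Subring.add_mem _ hy hz
  | mul y z _ _ hy hz => exact Subring.mul_mem _ hy hz

/-- **(Q1)** Every element of a chart algebra generated by functions with `ℓ`-integral
`q`-expansions has an `ℓ`-integral `q`-expansion. -/
theorem coe_mem_intSeries_of_mem_chartAlg {S : Set ↥(modularFunctionFieldFull N)}
    (hS : ∀ s ∈ S, (s : LaurentSeries ℚ) ∈ intSeries ℓ) {x : ↥(modularFunctionFieldFull N)}
    (hx : x ∈ chartAlg N ℓ S) : (x : LaurentSeries ℚ) ∈ intSeries ℓ := by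
  refine mem_intSeries_of_isIntegral ?_ (modularFunctionFieldFull_le_fracSeriesIF N ℓ x.2)
  have hx' : IsIntegral (Algebra.adjoin ↥(GaloisRep.ratLocalizedAt ℓ) S) x := hx
  let φ : Algebra.adjoin ↥(GaloisRep.ratLocalizedAt ℓ) S →+* intSeries ℓ :=
    ((algebraMap ↥(modularFunctionFieldFull N) (LaurentSeries ℚ)).comp
      (Algebra.adjoin ↥(GaloisRep.ratLocalizedAt ℓ) S).val.toRingHom).codRestrict (intSeries ℓ)
      (fun a => coe_mem_intSeries_of_mem_adjoin N ℓ hS a.2)
  exact hx'.map_of_comp_eq φ (algebraMap ↥(modularFunctionFieldFull N) (LaurentSeries ℚ))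
    (by ext; rfl)

omit [Fact ℓ.Prime] in
theorem coe_jFull_mem_intSeries : ((jFull N : ↥(modularFunctionFieldFull N)) : LaurentSeries ℚ)
    ∈ intSeries ℓ := by
  rw [coe_jFull]
  exact jq_mem_intSeries ℓ

omit [Fact ℓ.Prime] in
theorem coe_jFull_inv_mem_intSeries :
    (((jFull N)⁻¹ : ↥(modularFunctionFieldFull N)) : LaurentSeries ℚ) ∈ intSeries ℓ := by
  have : (((jFull N)⁻¹ : ↥(modularFunctionFieldFull N)) : LaurentSeries ℚ) = jq⁻¹ := rfl
  rw [this]
  exact jq_inv_mem_intSeries ℓ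

/-- (Q1) for the finite chart. -/
theorem coe_mem_intSeries_of_mem_chartAlgFin {x : ↥(modularFunctionFieldFull N)}
    (hx : x ∈ chartAlgFin N ℓ) : (x : LaurentSeries ℚ) ∈ intSeries ℓ :=
  coe_mem_intSeries_of_mem_chartAlg N ℓ (by
    intro s hs
    rw [Set.mem_singleton_iff] at hs
    rw [hs]
    exact coe_jFull_mem_intSeries N ℓ) hx

/-- (Q1) for the chart at infinity. -/
theorem coe_mem_intSeries_of_mem_chartAlgInf {x : ↥(modularFunctionFieldFull N)}
    (hx : x ∈ chartAlgInf N ℓ) : (x : LaurentSeries ℚ) ∈ intSeries ℓ :=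
  coe_mem_intSeries_of_mem_chartAlg N ℓ (by
    intro s hs
    rw [Set.mem_singleton_iff] at hs
    rw [hs]
    exact coe_jFull_inv_mem_intSeries N ℓ) hx

/-- (Q1) for the middle chart. -/
theorem coe_mem_intSeries_of_mem_chartAlgMid {x : ↥(modularFunctionFieldFull N)}
    (hx : x ∈ chartAlgMid N ℓ) : (x : LaurentSeries ℚ) ∈ intSeries ℓ :=
  coe_mem_intSeries_of_mem_chartAlg N ℓ (by
    intro s hs
    rcases hs with rfl | hs
    · exact coe_jFull_mem_intSeries N ℓ
    · rw [Set.mem_singleton_iff] at hs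
      rw [hs]
      exact coe_jFull_inv_mem_intSeries N ℓ) hx

end Chart

end

end Fermat.Agent.S28
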