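import Mathlib
import Fermat.Prelude.Def_ModularCurve_IgusaScheme
import Fermat.Agent.S28.QExp

/-!
# S28, WP2 (part 2): reduction of `q`-expansions and the charts tensored with `K`

* `chartLS`: the `q`-expansion of a chart function as a Laurent series over `ℤ_(ℓ)`;
* `redHom`: its reduction, a ring hom `chartAlg N ℓ S →+* K((q))`;
* `tensorToLS`: the induced ring hom `chartAlg N ℓ S ⊗[ℤ_(ℓ)] K →+* K((q))`;
* `nontrivial_tensor`: the tensor product is nontrivial;
* `isDomain_tensor`: the tensor product is a domain, provided `K` has characteristic `ℓ` and the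
  `q`-expansion principle `hQ2` holds for the chart.
-/

set_option autoImplicit false

open HahnSeries ModularCurve ModularCurve.IgusaScheme TensorProduct

namespace Fermat.Agent.S28

noncomputable section

/-! ### `ℤ_(ℓ)((q))` as Laurent series over `ℤ_(ℓ)` -/

/-- The Laurent series over `ℤ_(ℓ)` attached to an element of `intSeries ℓ`. -/
def intSeriesLift (ℓ : ℕ) (x : intSeries ℓ) : LaurentSeries ↥(GaloisRep.ratLocalizedAt ℓ) where
  coeff n := ⟨(x : LaurentSeries ℚ).coeff n, x.2 n⟩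
  isPWO_support' := (x : LaurentSeries ℚ).isPWO_support.mono (by
    intro n hn
    rw [Function.mem_support] at hn
    rw [HahnSeries.mem_support]
    intro h0
    exact hn (Subtype.ext h0))

theorem lsMap_intSeriesLift (ℓ : ℕ) (x : intSeries ℓ) :
    lsMap (GaloisRep.ratLocalizedAt ℓ).subtype (intSeriesLift ℓ x) = (x : LaurentSeries ℚ) := by
  ext n
  rfl

/-- `intSeriesLift` as a ring homomorphism. -/
def intSeriesToLS (ℓ : ℕ) : intSeries ℓ →+* LaurentSeries ↥(GaloisRep.ratLocalizedAt ℓ) where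
  toFun := intSeriesLift ℓ
  map_one' := lsMap_injective (GaloisRep.ratLocalizedAt ℓ).subtype_injective (by
    rw [lsMap_intSeriesLift, map_one]; rfl)
  map_mul' x y := lsMap_injective (GaloisRep.ratLocalizedAt ℓ).subtype_injective (by
    rw [map_mul, lsMap_intSeriesLift, lsMap_intSeriesLift, lsMap_intSeriesLift]; rfl)
  map_zero' := lsMap_injective (GaloisRep.ratLocalizedAt ℓ).subtype_injective (by
    rw [lsMap_intSeriesLift, map_zero]; rfl)
  map_add' x y := lsMap_injective (GaloisRep.ratLocalizedAt ℓ).subtype_injective (by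
    rw [map_add, lsMap_intSeriesLift, lsMap_intSeriesLift, lsMap_intSeriesLift]; rfl)

section Chart

variable (N : ℕ) [NeZero N] (ℓ : ℕ) [Fact ℓ.Prime] {S : Set ↥(modularFunctionFieldFull N)}
  (hS : ∀ s ∈ S, (s : LaurentSeries ℚ) ∈ intSeries ℓ)

/-- The `q`-expansion of a chart function, as a Laurent series over `ℤ_(ℓ)`. -/
def chartLS : ↥(chartAlg N ℓ S) →+* LaurentSeries ↥(GaloisRep.ratLocalizedAt ℓ) :=
  (intSeriesToLS ℓ).comp
    (((algebraMap ↥(modularFunctionFieldFull N) (LaurentSeries ℚ)).comp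
      (chartAlg N ℓ S).val.toRingHom).codRestrict (intSeries ℓ)
      (fun x => coe_mem_intSeries_of_mem_chartAlg N ℓ hS x.2))

theorem chartLS_coeff (x : ↥(chartAlg N ℓ S)) (n : ℤ) :
    (((chartLS N ℓ hS x).coeff n : ↥(GaloisRep.ratLocalizedAt ℓ)) : ℚ) =
      ((x : ↥(modularFunctionFieldFull N)) : LaurentSeries ℚ).coeff n := rfl

theorem chartLS_algebraMap (r : ↥(GaloisRep.ratLocalizedAt ℓ)) :
    chartLS N ℓ hS (algebraMap ↥(GaloisRep.ratLocalizedAt ℓ) ↥(chartAlg N ℓ S) r) =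
      HahnSeries.C r := by
  ext n
  rw [chartLS_coeff]
  have h : (((algebraMap ↥(GaloisRep.ratLocalizedAt ℓ) ↥(chartAlg N ℓ S) r :
      ↥(chartAlg N ℓ S)) : ↥(modularFunctionFieldFull N)) : LaurentSeries ℚ) =
      HahnSeries.single (0 : ℤ) (r : ℚ) := coe_algebraMap_eq_single N ℓ r
  rw [h, HahnSeries.C_apply, HahnSeries.coeff_single, HahnSeries.coeff_single]
  split_ifs <;> rfl

variable (K : Type) [Field K] [Algebra ↥(GaloisRep.ratLocalizedAt ℓ) K]

/-- Reduction of the `q`-expansion of a chart function to `K((q))`. -/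
def redHom : ↥(chartAlg N ℓ S) →+* LaurentSeries K :=
  (lsMap (algebraMap ↥(GaloisRep.ratLocalizedAt ℓ) K)).comp (chartLS N ℓ hS)

theorem redHom_coeff (x : ↥(chartAlg N ℓ S)) (n : ℤ) :
    (redHom N ℓ hS K x).coeff n =
      algebraMap ↥(GaloisRep.ratLocalizedAt ℓ) K ((chartLS N ℓ hS x).coeff n) := rfl

theorem redHom_algebraMap (r : ↥(GaloisRep.ratLocalizedAt ℓ)) :
    redHom N ℓ hS K (algebraMap ↥(GaloisRep.ratLocalizedAt ℓ) ↥(chartAlg N ℓ S) r) =
      HahnSeries.C (algebraMap ↥(GaloisRep.ratLocalizedAt ℓ) K r) := by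
  ext n
  rw [redHom_coeff, chartLS_algebraMap, HahnSeries.C_apply, HahnSeries.C_apply,
    HahnSeries.coeff_single, HahnSeries.coeff_single]
  split_ifs
  · rfl
  · exact map_zero _

/-- The ring hom `chartAlg N ℓ S ⊗[ℤ_(ℓ)] K →+* K((q))`, `a ⊗ k ↦ k • (reduction of a)`. -/
def tensorToLS : (↥(chartAlg N ℓ S) ⊗[↥(GaloisRep.ratLocalizedAt ℓ)] K) →+* LaurentSeries K :=
  letI : Algebra ↥(GaloisRep.ratLocalizedAt ℓ) (LaurentSeries K) :=
    ((HahnSeries.C : K →+* LaurentSeries K).comp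
      (algebraMap ↥(GaloisRep.ratLocalizedAt ℓ) K)).toAlgebra
  (Algebra.TensorProduct.productMap
    ({ redHom N ℓ hS K with commutes' := fun r => redHom_algebraMap N ℓ hS K r } :
      ↥(chartAlg N ℓ S) →ₐ[↥(GaloisRep.ratLocalizedAt ℓ)] LaurentSeries K)
    ({ (HahnSeries.C : K →+* LaurentSeries K) with commutes' := fun _ => rfl } :
      K →ₐ[↥(GaloisRep.ratLocalizedAt ℓ)] LaurentSeries K)).toRingHom

theorem tensorToLS_tmul (a : ↥(chartAlg N ℓ S)) (k : K) :
    tensorToLS N ℓ hS K (a ⊗ₜ k) = redHom N ℓ hS K a * HahnSeries.C k := rfl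

include hS in
/-- The chart algebra tensored with a field is nontrivial. -/
theorem nontrivial_tensor :
    Nontrivial (↥(chartAlg N ℓ S) ⊗[↥(GaloisRep.ratLocalizedAt ℓ)] K) := by
  refine ⟨⟨0, 1, fun h => ?_⟩⟩
  have h1 := congrArg (tensorToLS N ℓ hS K) h
  rw [RingHom.map_zero, RingHom.map_one] at h1
  exact zero_ne_one h1

end Chart

/-! ### The structure map `ℤ_(ℓ) → K` in characteristic `ℓ` -/

section CharP

variable (ℓ : ℕ) [Fact ℓ.Prime] (K : Type) [Field K] [CharP K ℓ]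
  [Algebra ↥(GaloisRep.ratLocalizedAt ℓ) K]

omit [Fact ℓ.Prime] [CharP K ℓ] in
theorem algebraMap_mul_den (r : ↥(GaloisRep.ratLocalizedAt ℓ)) :
    algebraMap ↥(GaloisRep.ratLocalizedAt ℓ) K r * (((r : ℚ).den : ℕ) : K) =
      (((r : ℚ).num : ℤ) : K) := by
  have h : r * (((r : ℚ).den : ℕ) : ↥(GaloisRep.ratLocalizedAt ℓ)) =
      (((r : ℚ).num : ℤ) : ↥(GaloisRep.ratLocalizedAt ℓ)) := by
    apply Subtype.ext
    push_cast
    exact Rat.mul_den_eq_num _
  have h2 := congrArg (algebraMap ↥(GaloisRep.ratLocalizedAt ℓ) K) h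
  rwa [map_mul, map_natCast, map_intCast] at h2

omit [Algebra ↥(GaloisRep.ratLocalizedAt ℓ) K] in
theorem natCast_den_ne_zero (r : ↥(GaloisRep.ratLocalizedAt ℓ)) :
    (((r : ℚ).den : ℕ) : K) ≠ 0 := by
  intro h
  rw [CharP.cast_eq_zero_iff K ℓ] at h
  have hcop : (r : ℚ).den.Coprime ℓ := r.2
  have hℓ : ℓ.Prime := Fact.out
  exact (Nat.Prime.coprime_iff_not_dvd hℓ).mp (Nat.coprime_comm.mp hcop) h

theorem algebraMap_eq_zero_iff (r : ↥(GaloisRep.ratLocalizedAt ℓ)) :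
    algebraMap ↥(GaloisRep.ratLocalizedAt ℓ) K r = 0 ↔ (ℓ : ℤ) ∣ (r : ℚ).num := by
  rw [← CharP.intCast_eq_zero_iff K ℓ, ← algebraMap_mul_den ℓ K r]
  constructor
  · intro h
    rw [h, zero_mul]
  · intro h
    exact (mul_eq_zero.mp h).resolve_right (natCast_den_ne_zero ℓ K r)

theorem exists_eq_mul_of_algebraMap_eq_zero (r : ↥(GaloisRep.ratLocalizedAt ℓ))
    (h : algebraMap ↥(GaloisRep.ratLocalizedAt ℓ) K r = 0) :
    ∃ r' ∈ GaloisRep.ratLocalizedAt ℓ, (r : ℚ) = (ℓ : ℚ) * r' := by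
  obtain ⟨m, hm⟩ := (algebraMap_eq_zero_iff ℓ K r).mp h
  refine ⟨(m : ℚ) * (((r : ℚ).den : ℕ) : ℚ)⁻¹, Subring.mul_mem _ (intCast_mem _ m) ?_, ?_⟩
  · show ((((r : ℚ).den : ℕ) : ℚ)⁻¹).den.Coprime ℓ
    rw [Rat.inv_natCast_den_of_pos (r : ℚ).den_pos]
    exact r.2
  · calc (r : ℚ) = (((r : ℚ).num : ℤ) : ℚ) / (((r : ℚ).den : ℕ) : ℚ) :=
          (Rat.num_div_den _).symm
      _ = (((ℓ : ℤ) * m : ℤ) : ℚ) / (((r : ℚ).den : ℕ) : ℚ) := by rw [hm]
      _ = (ℓ : ℚ) * ((m : ℚ) * (((r : ℚ).den : ℕ) : ℚ)⁻¹) := by push_cast; ring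

theorem exists_inv_of_algebraMap_ne_zero (c : ↥(GaloisRep.ratLocalizedAt ℓ))
    (h : algebraMap ↥(GaloisRep.ratLocalizedAt ℓ) K c ≠ 0) :
    ∃ u : ↥(GaloisRep.ratLocalizedAt ℓ), u * c = 1 := by
  have hnd : ¬ (ℓ : ℤ) ∣ (c : ℚ).num := fun hd => h ((algebraMap_eq_zero_iff ℓ K c).mpr hd)
  have hc0 : (c : ℚ) ≠ 0 := by
    intro h0
    apply hnd
    rw [h0]
    simp
  have hmem : (c : ℚ)⁻¹ ∈ GaloisRep.ratLocalizedAt ℓ := by
    show ((c : ℚ)⁻¹).den.Coprime ℓ
    rw [Rat.den_inv_of_ne_zero hc0]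
    have hℓ : ℓ.Prime := Fact.out
    apply Nat.coprime_comm.mp
    rw [Nat.Prime.coprime_iff_not_dvd hℓ]
    intro hd
    exact hnd (Int.natCast_dvd.mpr hd)
  refine ⟨⟨(c : ℚ)⁻¹, hmem⟩, Subtype.ext ?_⟩
  show (c : ℚ)⁻¹ * (c : ℚ) = 1
  exact inv_mul_cancel₀ hc0

end CharP

/-! ### Injectivity of `tensorToLS` under the `q`-expansion principle -/

section Injective

variable (N : ℕ) [NeZero N] (ℓ : ℕ) [Fact ℓ.Prime] {S : Set ↥(modularFunctionFieldFull N)}
  (hS : ∀ s ∈ S, (s : LaurentSeries ℚ) ∈ intSeries ℓ)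
  (K : Type) [Field K] [CharP K ℓ] [Algebra ↥(GaloisRep.ratLocalizedAt ℓ) K]

/-- The `q`-expansion principle for the chart `chartAlg N ℓ S`: a chart function whose
`q`-expansion is divisible by `ℓ` is `ℓ` times a chart function. -/
def QExpPrinciple (N : ℕ) [NeZero N] (ℓ : ℕ) [Fact ℓ.Prime]
    (S : Set ↥(modularFunctionFieldFull N)) : Prop :=
  ∀ x ∈ chartAlg N ℓ S,
    (∀ n : ℤ, ∃ r ∈ GaloisRep.ratLocalizedAt ℓ,
      ((x : ↥(modularFunctionFieldFull N)) : LaurentSeries ℚ).coeff n = (ℓ : ℚ) * r) →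
    ∃ y ∈ chartAlg N ℓ S, x = (ℓ : ↥(modularFunctionFieldFull N)) * y

variable (hQ2 : QExpPrinciple N ℓ S)

include hQ2 in
/-- A pure tensor `a ⊗ k` vanishes if the `q`-expansion of `a` reduces to zero. -/
theorem tmul_eq_zero_of_coeff (a : ↥(chartAlg N ℓ S)) (k : K)
    (h : ∀ m : ℤ, algebraMap ↥(GaloisRep.ratLocalizedAt ℓ) K ((chartLS N ℓ hS a).coeff m) = 0) :
    a ⊗ₜ[↥(GaloisRep.ratLocalizedAt ℓ)] k = 0 := by
  obtain ⟨y, hy, hay⟩ := hQ2 (a : ↥(modularFunctionFieldFull N)) a.2 (fun n => by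
    obtain ⟨r', hr', hr⟩ := exists_eq_mul_of_algebraMap_eq_zero ℓ K _ (h n)
    exact ⟨r', hr', by rw [← hr]; rfl⟩)
  have ha : a = ((ℓ : ℕ) : ↥(GaloisRep.ratLocalizedAt ℓ)) • (⟨y, hy⟩ : ↥(chartAlg N ℓ S)) := by
    apply Subtype.ext
    rw [hay, Subalgebra.coe_smul, Algebra.smul_def, map_natCast]
  have hk : ((ℓ : ℕ) : ↥(GaloisRep.ratLocalizedAt ℓ)) • k = 0 := by
    rw [Algebra.smul_def, map_natCast, CharP.cast_eq_zero K ℓ, zero_mul]
  rw [ha, TensorProduct.smul_tmul, hk, TensorProduct.tmul_zero]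

include hQ2 in
/-- The key induction: a finite sum of pure tensors vanishes as soon as its image in `K((q))`
vanishes. -/
theorem sum_tmul_eq_zero {ι : Type*} [DecidableEq ι] :
    ∀ (n : ℕ) (s : Finset ι), s.card = n → ∀ (a : ι → ↥(chartAlg N ℓ S)) (k : ι → K),
      (∀ m : ℤ, ∑ i ∈ s,
        algebraMap ↥(GaloisRep.ratLocalizedAt ℓ) K ((chartLS N ℓ hS (a i)).coeff m) * k i = 0) →
      ∑ i ∈ s, a i ⊗ₜ[↥(GaloisRep.ratLocalizedAt ℓ)] k i = 0 := by
  intro n
  induction n with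
  | zero =>
    intro s hs a k _
    rw [Finset.card_eq_zero.mp hs, Finset.sum_empty]
  | succ n ih =>
    intro s hs a k hsum
    by_cases hind : ∀ c : ι → ↥(GaloisRep.ratLocalizedAt ℓ),
        ∑ i ∈ s, algebraMap ↥(GaloisRep.ratLocalizedAt ℓ) K (c i) * k i = 0 →
        ∀ i ∈ s, algebraMap ↥(GaloisRep.ratLocalizedAt ℓ) K (c i) = 0
    · refine Finset.sum_eq_zero fun i hi => ?_
      exact tmul_eq_zero_of_coeff N ℓ hS K hQ2 (a i) (k i) fun m =>
        hind (fun i => (chartLS N ℓ hS (a i)).coeff m) (hsum m) i hi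
    · simp only [not_forall] at hind
      obtain ⟨c, hc, j, hj, hcj⟩ := hind
      obtain ⟨u, hu⟩ := exists_inv_of_algebraMap_ne_zero ℓ K (c j) hcj
      set e : ι → ↥(GaloisRep.ratLocalizedAt ℓ) := fun i => u * c i with he
      have hej : e j = 1 := hu
      have he0 : ∑ i ∈ s, algebraMap ↥(GaloisRep.ratLocalizedAt ℓ) K (e i) * k i = 0 := by
        simp only [he, map_mul, mul_assoc]
        rw [← Finset.mul_sum, hc, mul_zero]
      have hE : ∑ i ∈ s.erase j, algebraMap ↥(GaloisRep.ratLocalizedAt ℓ) K (e i) * k i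
          = - k j := by
        rw [← Finset.add_sum_erase s _ hj, hej, map_one, one_mul] at he0
        exact eq_neg_of_add_eq_zero_right he0
      have hkj : k j = - ∑ i ∈ s.erase j,
          algebraMap ↥(GaloisRep.ratLocalizedAt ℓ) K (e i) * k i := by
        rw [hE, neg_neg]
      set a' : ι → ↥(chartAlg N ℓ S) := fun i => a i - e i • a j with ha'
      have hnew : ∑ i ∈ s, a i ⊗ₜ[↥(GaloisRep.ratLocalizedAt ℓ)] k i =
          ∑ i ∈ s.erase j, a' i ⊗ₜ[↥(GaloisRep.ratLocalizedAt ℓ)] k i := by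
        have h1 : a j ⊗ₜ[↥(GaloisRep.ratLocalizedAt ℓ)] k j +
            ∑ i ∈ s.erase j, (e i • a j) ⊗ₜ[↥(GaloisRep.ratLocalizedAt ℓ)] k i = 0 := by
          have h0 : k j + ∑ i ∈ s.erase j,
              algebraMap ↥(GaloisRep.ratLocalizedAt ℓ) K (e i) * k i = 0 := by
            rw [hE, add_neg_cancel]
          have h3 := congrArg (fun z => a j ⊗ₜ[↥(GaloisRep.ratLocalizedAt ℓ)] z) h0
          simp only [TensorProduct.tmul_add, TensorProduct.tmul_sum, TensorProduct.tmul_zero] at h3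
          rw [← h3]
          congr 1
          refine Finset.sum_congr rfl fun i _ => ?_
          rw [← Algebra.smul_def, TensorProduct.smul_tmul]
        have hR : ∑ i ∈ s.erase j, a' i ⊗ₜ[↥(GaloisRep.ratLocalizedAt ℓ)] k i +
            ∑ i ∈ s.erase j, (e i • a j) ⊗ₜ[↥(GaloisRep.ratLocalizedAt ℓ)] k i =
            ∑ i ∈ s.erase j, a i ⊗ₜ[↥(GaloisRep.ratLocalizedAt ℓ)] k i := by
          rw [← Finset.sum_add_distrib]
          refine Finset.sum_congr rfl fun i _ => ?_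
          rw [← TensorProduct.add_tmul, sub_add_cancel]
        rw [← Finset.add_sum_erase s _ hj, ← hR, add_left_comm, h1, add_zero]
      rw [hnew]
      apply ih (s.erase j) (by rw [Finset.card_erase_of_mem hj, hs]; rfl) a' k
      intro m
      have hcoef : ∀ i, (chartLS N ℓ hS (a' i)).coeff m =
          (chartLS N ℓ hS (a i)).coeff m - e i * (chartLS N ℓ hS (a j)).coeff m := by
        intro i
        show (chartLS N ℓ hS (a i - e i • a j)).coeff m = _
        rw [map_sub, Algebra.smul_def, map_mul, chartLS_algebraMap, HahnSeries.coeff_sub,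
          HahnSeries.C_mul_eq_smul, HahnSeries.coeff_smul, smul_eq_mul]
      simp only [hcoef, map_sub, map_mul, sub_mul]
      rw [Finset.sum_sub_distrib]
      have h2 : ∑ i ∈ s.erase j, algebraMap ↥(GaloisRep.ratLocalizedAt ℓ) K (e i) *
            algebraMap ↥(GaloisRep.ratLocalizedAt ℓ) K ((chartLS N ℓ hS (a j)).coeff m) * k i
          = algebraMap ↥(GaloisRep.ratLocalizedAt ℓ) K ((chartLS N ℓ hS (a j)).coeff m) *
            ∑ i ∈ s.erase j, algebraMap ↥(GaloisRep.ratLocalizedAt ℓ) K (e i) * k i := by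
        rw [Finset.mul_sum]
        exact Finset.sum_congr rfl fun i _ => by ring
      rw [h2, hE, mul_neg, sub_neg_eq_add, add_comm]
      rw [Finset.add_sum_erase s
        (fun i => algebraMap ↥(GaloisRep.ratLocalizedAt ℓ) K ((chartLS N ℓ hS (a i)).coeff m) * k i)
        hj]
      exact hsum m

omit [CharP K ℓ] in
theorem tensorToLS_sum_coeff {ι : Type*} [DecidableEq ι] (s : Finset ι)
    (a : ι → ↥(chartAlg N ℓ S)) (k : ι → K) (m : ℤ) :
    (tensorToLS N ℓ hS K (∑ i ∈ s, a i ⊗ₜ[↥(GaloisRep.ratLocalizedAt ℓ)] k i)).coeff m =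
      ∑ i ∈ s,
        algebraMap ↥(GaloisRep.ratLocalizedAt ℓ) K ((chartLS N ℓ hS (a i)).coeff m) * k i := by
  induction s using Finset.induction_on with
  | empty => simp
  | insert x s hx ih =>
    rw [Finset.sum_insert hx, Finset.sum_insert hx, RingHom.map_add, HahnSeries.coeff_add, ih,
      tensorToLS_tmul, mul_comm (redHom N ℓ hS K (a x)), HahnSeries.C_mul_eq_smul,
      HahnSeries.coeff_smul, smul_eq_mul, redHom_coeff, mul_comm]

include hQ2 in
/-- Under the `q`-expansion principle, the kernel of `chartAlg N ℓ S ⊗ K → K((q))` is trivial. -/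
theorem eq_zero_of_tensorToLS_eq_zero
    (t : ↥(chartAlg N ℓ S) ⊗[↥(GaloisRep.ratLocalizedAt ℓ)] K)
    (ht : tensorToLS N ℓ hS K t = 0) : t = 0 := by
  classical
  obtain ⟨s, rfl⟩ := TensorProduct.exists_finset t
  apply sum_tmul_eq_zero N ℓ hS K hQ2 s.card s rfl Prod.fst Prod.snd
  intro m
  rw [← tensorToLS_sum_coeff, ht, HahnSeries.coeff_zero]

include hQ2 in
/-- Under the `q`-expansion principle, `chartAlg N ℓ S ⊗ K → K((q))` is injective. -/
theorem tensorToLS_injective : Function.Injective (tensorToLS N ℓ hS K) := by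
  rw [RingHom.injective_iff_ker_eq_bot, eq_bot_iff]
  intro t ht
  rw [RingHom.mem_ker] at ht
  exact (Submodule.mem_bot _).mpr (eq_zero_of_tensorToLS_eq_zero N ℓ hS K hQ2 t ht)

include hS hQ2 in
/-- **(Dom)** Under the `q`-expansion principle, `chartAlg N ℓ S ⊗[ℤ_(ℓ)] K` is a domain for
every field `K` of characteristic `ℓ`. -/
theorem isDomain_tensor :
    IsDomain (↥(chartAlg N ℓ S) ⊗[↥(GaloisRep.ratLocalizedAt ℓ)] K) := by
  have h1 : Nontrivial (↥(chartAlg N ℓ S) ⊗[↥(GaloisRep.ratLocalizedAt ℓ)] K) :=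
    nontrivial_tensor N ℓ hS K
  have h2 : NoZeroDivisors (↥(chartAlg N ℓ S) ⊗[↥(GaloisRep.ratLocalizedAt ℓ)] K) :=
    Function.Injective.noZeroDivisors (M₀' := LaurentSeries K)
      (fun t => tensorToLS N ℓ hS K t) (tensorToLS_injective N ℓ hS K hQ2)
      (RingHom.map_zero _) (fun a b => RingHom.map_mul _ a b)
  exact NoZeroDivisors.to_isDomain (↥(chartAlg N ℓ S) ⊗[↥(GaloisRep.ratLocalizedAt ℓ)] K)

end Injective

/-! ### The three charts -/

section Final

variable (N : ℕ) [NeZero N] (ℓ : ℕ) [Fact ℓ.Prime]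
  (K : Type) [Field K] [Algebra ↥(GaloisRep.ratLocalizedAt ℓ) K]

omit [Fact ℓ.Prime] in
theorem subset_intSeries_fin :
    ∀ s ∈ ({jFull N} : Set ↥(modularFunctionFieldFull N)), (s : LaurentSeries ℚ) ∈ intSeries ℓ := by
  intro s hs
  rw [Set.mem_singleton_iff] at hs
  rw [hs]
  exact coe_jFull_mem_intSeries N ℓ

omit [Fact ℓ.Prime] in
theorem subset_intSeries_inf :
    ∀ s ∈ ({(jFull N)⁻¹} : Set ↥(modularFunctionFieldFull N)),
      (s : LaurentSeries ℚ) ∈ intSeries ℓ := by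
  intro s hs
  rw [Set.mem_singleton_iff] at hs
  rw [hs]
  exact coe_jFull_inv_mem_intSeries N ℓ

omit [Fact ℓ.Prime] in
theorem subset_intSeries_mid :
    ∀ s ∈ ({jFull N, (jFull N)⁻¹} : Set ↥(modularFunctionFieldFull N)),
      (s : LaurentSeries ℚ) ∈ intSeries ℓ := by
  intro s hs
  rcases hs with rfl | hs
  · exact coe_jFull_mem_intSeries N ℓ
  · rw [Set.mem_singleton_iff] at hs
    rw [hs]
    exact coe_jFull_inv_mem_intSeries N ℓ

/-- **(Mid)** `chartAlgMid N ℓ ⊗[ℤ_(ℓ)] K` is nontrivial, for every field `K`. -/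
theorem nontrivial_chartAlgMid_tensor :
    Nontrivial (↥(chartAlgMid N ℓ) ⊗[↥(GaloisRep.ratLocalizedAt ℓ)] K) :=
  nontrivial_tensor N ℓ (subset_intSeries_mid N ℓ) K

/-- **(Dom, finite chart)** Under the `q`-expansion principle for the finite chart,
`chartAlgFin N ℓ ⊗[ℤ_(ℓ)] K` is a domain for every field `K` of characteristic `ℓ`. -/
theorem isDomain_chartAlgFin_tensor [CharP K ℓ] (h : QExpPrinciple N ℓ {jFull N}) :
    IsDomain (↥(chartAlgFin N ℓ) ⊗[↥(GaloisRep.ratLocalizedAt ℓ)] K) :=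
  isDomain_tensor N ℓ (subset_intSeries_fin N ℓ) K h

/-- **(Dom, chart at infinity)** Under the `q`-expansion principle for the chart at infinity,
`chartAlgInf N ℓ ⊗[ℤ_(ℓ)] K` is a domain for every field `K` of characteristic `ℓ`. -/
theorem isDomain_chartAlgInf_tensor [CharP K ℓ] (h : QExpPrinciple N ℓ {(jFull N)⁻¹}) :
    IsDomain (↥(chartAlgInf N ℓ) ⊗[↥(GaloisRep.ratLocalizedAt ℓ)] K) :=
  isDomain_tensor N ℓ (subset_intSeries_inf N ℓ) K h

end Final

end

end Fermat.Agent.S28
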