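import Mathlib
import Fermat.Agent.S28.TensorRed
import Fermat.Agent.S28.TowerDefs
import Fermat.Agent.S28.RouteT.Induction
import Fermat.Agent.S28.RouteT.Gen
import Fermat.Agent.S28.Char0Bridge
import Fermat.Agent.S28.StepModL
import Fermat.Agent.S28.GaussBase
import Fermat.Agent.S28.GaussBaseE

/-!
# S28, route T: final assembly of the `q`-expansion principle for the two charts

From the modular equations `TD.ModEq r` and the base cases `TD.BaseCase r` of the primes
`r ∣ N`, the reversed tower (`RouteT.good_FF`) over the Gauss ring of `ℤ_(ℓ)` gives the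
`Tower.Good` invariant for the full modular function field of level `N`, hence (Q2) for the
charts `{j}` and `{j⁻¹}` (`GaussBase.hQ2_fin`, `GaussBase.hQ2_inf`).
-/

set_option autoImplicit false

open ModularCurve ModularCurve.IgusaScheme

namespace Fermat.Agent.S28.AssemblyT

open Fermat.Agent.S28

/-- The `Tower.Good` invariant at the top of the reversed tower, in the shape consumed by
`GaussBase.hQ2_fin` and `GaussBase.hQ2_inf`. -/
theorem good_full (N : ℕ) [NeZero N] (ℓ : ℕ) [Fact ℓ.Prime] (hℓN : ¬ ℓ ∣ N)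
    (K : Type) [Field K] [CharP K ℓ] [Algebra ↥(GaloisRep.ratLocalizedAt ℓ) K]
    (hME : ∀ r : ℕ, r.Prime → r ∣ N → Nonempty (TD.ModEq r))
    (hBC : ∀ r : ℕ, r.Prime → r ∣ N → TD.BaseCase r) :
    Tower.Good (GaussBase.gaussRing ℓ K) (ℓ : LaurentSeries ℚ) (GaussBase.red ℓ K)
      ((IntermediateField.adjoin ℚ ({jq} : Set (LaurentSeries ℚ))).toSubfield.toSubring ⊓
        GaussBase.gaussRing ℓ K)
      (modularFunctionFieldFull N).toSubfield (TD.FF K N 1).toSubfield := by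
  have hN : N ≠ 0 := NeZero.ne N
  have hNK : (N : K) ≠ 0 := fun h => hℓN ((CharP.cast_eq_zero_iff K ℓ N).mp h)
  have hG := RouteT.good_FF (K := K) (B := GaussBase.gaussRing ℓ K)
    (π := (ℓ : LaurentSeries ℚ)) (GaussBase.red ℓ K)
    (GaussBase.natCast_ell_mem_gaussRing ℓ K) (GaussBase.natCast_ell_ne_zero' ℓ)
    (GaussBase.red_eq_zero_iff ℓ K)
    (GaussBase.Jd_mem_gaussRing ℓ K) (GaussBase.red_Jd ℓ K)
    (fun e => (TD.FF ℚ 1 e).toSubfield.toSubring ⊓ GaussBase.gaussRing ℓ K)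
    (GaussBase.good_base_Jd ℓ K) N
    (by
      intro N' p m hp hdvd hm
      obtain ⟨D⟩ := hME p hp ((dvd_mul_left p N').trans hdvd)
      obtain ⟨a, -, ha, hrel⟩ := Char0Bridge.step_TD D hp.one_lt N' hm
      exact ⟨a, ha, hrel⟩)
    (StepModL.hind_of_level K N hN hNK hME hBC)
    (by
      intro N' p m hp hdvd hm
      have hN' : N' ≠ 0 := by
        rintro rfl
        rw [zero_mul] at hdvd
        exact hN (Nat.eq_zero_of_zero_dvd hdvd)
      exact RouteT.generation N' p m hN' hm hp (fun r hr hd => hME r hr (hd.trans hdvd)))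
    N hN dvd_rfl 1 one_ne_zero
  rw [one_mul] at hG
  exact GaussBase.good_full_of_good_FF ℓ K N hME hG

/-- **(Q2) for the finite chart.** -/
theorem qExpPrinciple_fin (N : ℕ) [NeZero N] (ℓ : ℕ) [Fact ℓ.Prime] (hℓN : ¬ ℓ ∣ N)
    (K : Type) [Field K] [CharP K ℓ] [Algebra ↥(GaloisRep.ratLocalizedAt ℓ) K]
    (hME : ∀ r : ℕ, r.Prime → r ∣ N → Nonempty (TD.ModEq r))
    (hBC : ∀ r : ℕ, r.Prime → r ∣ N → TD.BaseCase r) :
    QExpPrinciple N ℓ {jFull N} :=
  GaussBase.hQ2_fin ℓ N K (good_full N ℓ hℓN K hME hBC)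

/-- **(Q2) for the chart at infinity.** -/
theorem qExpPrinciple_inf (N : ℕ) [NeZero N] (ℓ : ℕ) [Fact ℓ.Prime] (hℓN : ¬ ℓ ∣ N)
    (K : Type) [Field K] [CharP K ℓ] [Algebra ↥(GaloisRep.ratLocalizedAt ℓ) K]
    (hME : ∀ r : ℕ, r.Prime → r ∣ N → Nonempty (TD.ModEq r))
    (hBC : ∀ r : ℕ, r.Prime → r ∣ N → TD.BaseCase r) :
    QExpPrinciple N ℓ {(jFull N)⁻¹} :=
  GaussBase.hQ2_inf ℓ N K (good_full N ℓ hℓN K hME hBC)

end Fermat.Agent.S28.AssemblyT
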