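import Fermat.Agent.S28.Glue
import Fermat.Agent.S28.TensorRed

/-!
# S28 — final assembly, conditional on the `q`-expansion principle for the two charts

After WP1 (`Glue.lean`) and WP2 (`QExp.lean`, `TensorRed.lean`) the whole statement S28 is
reduced to the two facts `QExpPrinciple N ℓ {jFull N}` and `QExpPrinciple N ℓ {(jFull N)⁻¹}`.
-/

set_option autoImplicit false

open AlgebraicGeometry CategoryTheory CategoryTheory.Limits ModularCurve ModularCurve.IgusaScheme

noncomputable section

namespace Fermat.Agent.S28

set_option maxHeartbeats 4000000 in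
set_option synthInstance.maxHeartbeats 400000 in
/-- S28 from the `q`-expansion principle for the finite chart and the chart at infinity. -/
theorem result_of_qExpPrinciple
    (N : ℕ) [NeZero N] (ℓ : ℕ) [Fact ℓ.Prime]
    (K : Type) [Field K] [CharP K ℓ] [Algebra ↥(GaloisRep.ratLocalizedAt ℓ) K]
    (hFin : QExpPrinciple N ℓ {jFull N}) (hInf : QExpPrinciple N ℓ {(jFull N)⁻¹}) :
    IsIntegral ↑(pullback (igusaTo N ℓ)
      (Spec.map (CommRingCat.ofHom (algebraMap ↥(GaloisRep.ratLocalizedAt ℓ) K)))) :=
  isIntegral_pullback_of_charts N ℓ K (isDomain_chartAlgFin_tensor N ℓ K hFin)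
    (isDomain_chartAlgInf_tensor N ℓ K hInf) (nontrivial_chartAlgMid_tensor N ℓ K)

end Fermat.Agent.S28
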