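import Fermat.Agent.S28.ModEq.Data
import Fermat.Agent.S28.TowerDefs

/-!
# S28: the base case `J(q^p) ∉ K(J(q))` (unit argument)

Input: the integral modular-equation package `ModEq.ModEqData p` (WP5).  Suppose
`J_p := J(q^p) ∈ K(J)`.  By `E6` the series `Φ'(J_p, J)` is non-zero, so by `E5` the modular unit
`y = p^12 Δ(q^p)/Δ(q)` equals `κ Φ'(J_p, J) / S(J_p, J) ∈ K(J)`.  By `E3` it is integral over
`K[J] ≅ K[X]`, which is integrally closed in `K(J)`; hence `y = P(J)` for a polynomial `P`.
But `y = p^12 q^(p-1) (1 + …)` has no pole, so `P` is constant, and `y` is a non-zero series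
without constant term: contradiction.
-/

set_option autoImplicit false

noncomputable section

namespace Fermat.Agent.S28

open ModularCurve HahnSeries Polynomial

namespace BaseCaseAux

/-- If `J` is transcendental over `F`, an element of `F(J)` that is integral over `F[J]` is a
polynomial in `J` (`F[J] ≅ F[X]` is integrally closed). -/
theorem exists_aeval_eq_of_isIntegral {F E : Type*} [Field F] [Field E] [Algebra F E] {J y : E}
    (hJ : Function.Injective (Polynomial.aeval (R := F) J))
    (hy : y ∈ IntermediateField.adjoin F {J})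
    (hint : IsIntegral (Algebra.adjoin F {J}) y) : ∃ P : F[X], Polynomial.aeval J P = y := by
  open IntermediateField.algebraAdjoinAdjoin in
  classical
  have hrange : Algebra.adjoin F {J} = (Polynomial.aeval (R := F) J).range :=
    Algebra.adjoin_singleton_eq_range_aeval F J
  let e : F[X] ≃ₐ[F] Algebra.adjoin F {J} :=
    (AlgEquiv.ofInjective _ hJ).trans (Subalgebra.equivOfEq _ _ hrange.symm)
  have h2 : IsIntegrallyClosed (Algebra.adjoin F {J}) :=
    IsIntegrallyClosed.of_equiv e.toRingEquiv
  have hint' : IsIntegral (Algebra.adjoin F {J}) (⟨y, hy⟩ : IntermediateField.adjoin F {J}) := by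
    have hinj : Function.Injective
        (algebraMap (IntermediateField.adjoin F {J}) E) := Subtype.val_injective
    refine (isIntegral_algebraMap_iff (R := Algebra.adjoin F {J}) hinj).mp ?_
    exact hint
  obtain ⟨z, hz⟩ := IsIntegrallyClosed.isIntegral_iff.mp hint'
  have hzE : (z : E) = y := by
    have := congrArg (Subtype.val) hz
    simpa using this
  have hzmem : (z : E) ∈ (Polynomial.aeval (R := F) J).range := by
    rw [← hrange]; exact z.2
  obtain ⟨P, hP⟩ := hzmem
  exact ⟨P, hP.trans hzE⟩

variable {A B : Type*} [CommRing A] [CommRing B]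

/-- Change of coefficients commutes with `evalAt`. -/
theorem coeffMap_comp_evalAt (φ : A →+* B) (J : LaurentSeries A) :
    (coeffMap φ).comp (ModEq.evalAt (RingHom.id A) J) = ModEq.evalAt φ (coeffMap φ J) := by
  refine Polynomial.ringHom_ext (fun a => ?_) ?_
  · simp [HahnSeries.C_apply]
  · simp

theorem coeffMap_eval₂_evalAt (φ : A →+* B) (J x : LaurentSeries A)
    (Q : Polynomial (Polynomial A)) :
    coeffMap φ (Q.eval₂ (ModEq.evalAt (RingHom.id A) J) x) =
      Q.eval₂ (ModEq.evalAt φ (coeffMap φ J)) (coeffMap φ x) := by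
  rw [Polynomial.hom_eval₂, coeffMap_comp_evalAt]

/-- `aeval` at a Laurent series is `evalAt` along the identity. -/
theorem aeval_eq_evalAt (K : Type*) [Field K] (J : LaurentSeries K) (P : K[X]) :
    Polynomial.aeval J P = ModEq.evalAt (RingHom.id K) J P := by
  rw [Polynomial.aeval_def, ModEq.evalAt, Polynomial.coe_eval₂RingHom]
  congr 1
  ext c : 1
  rw [algebraMap_laurentSeries_eq_single]
  rfl

end BaseCaseAux

open BaseCaseAux

/-- **Base case** (unit argument): `J(q^p) ∉ K(J(q))` for every field `K` with `p ≠ 0`. -/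
theorem not_mem_adjoin_of_modEqData {p : ℕ} [NeZero p] (hp : p.Prime) (D : ModEq.ModEqData p)
    (K : Type*) [Field K] (hpK : (p : K) ≠ 0) :
    jqNModC K p ∉ IntermediateField.adjoin K {jqModC K} := by
  intro hmem
  have hJ : ModEq.IsLead (jqModC K) (-((1 : ℕ) : ℤ)) 1 := by
    simpa using ModEq.isLead_jqModC (A := K)
  have hyLead := ModEq.isLead_yInf K p
  -- the relations over `K`
  have e3 : D.Ψ.eval₂ (ModEq.evalAt (Int.castRingHom K) (jqModC K)) (ModEq.yInf K p) = 0 := by
    have h := congrArg (coeffMap (Int.castRingHom K)) D.E3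
    rwa [coeffMap_eval₂_evalAt, coeffMap_jqModC, ModEq.coeffMap_yInf, map_zero] at h
  have e5 : ModEq.yInf K p *
      D.S.eval₂ (ModEq.evalAt (Int.castRingHom K) (jqModC K)) (jqNModC K p) =
      HahnSeries.C ((D.κ : ℤ) : K) *
        (Polynomial.derivative D.Φ).eval₂ (ModEq.evalAt (Int.castRingHom K) (jqModC K))
          (jqNModC K p) := by
    have h := congrArg (coeffMap (Int.castRingHom K)) D.E5
    rwa [map_mul, map_mul, coeffMap_eval₂_evalAt, coeffMap_eval₂_evalAt, coeffMap_jqModC,
      coeffMap_jqNModC, ModEq.coeffMap_yInf, HahnSeries.C_apply, coeffMap_single,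
      ← HahnSeries.C_apply, eq_intCast] at h
  have e6 : ((Polynomial.derivative D.Φ).eval₂ (ModEq.evalAt (Int.castRingHom K) (jqModC K))
      (jqNModC K p)).coeff (-((p : ℤ) * p)) = 1 := by
    have h := congrArg (Int.castRingHom K) D.E6
    rwa [← coeffMap_coeff, coeffMap_eval₂_evalAt, coeffMap_jqModC, coeffMap_jqNModC,
      map_one] at h
  set ev := ModEq.evalAt (Int.castRingHom K) (jqModC K) with hev
  -- `κ ≠ 0` in `K`
  have hκ : ((D.κ : ℤ) : K) ≠ 0 := by
    intro h0
    have h := congrArg (Int.castRingHom K) D.κ_sq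
    rw [map_pow, map_pow, eq_intCast, h0, eq_intCast, Int.cast_natCast] at h
    exact pow_ne_zero 24 hpK (by rw [← h]; simp)
  have hΦ' : (Polynomial.derivative D.Φ).eval₂ ev (jqNModC K p) ≠ 0 := by
    intro h0
    rw [h0, HahnSeries.coeff_zero] at e6
    exact zero_ne_one e6
  have hCκ : (HahnSeries.C ((D.κ : ℤ) : K) : LaurentSeries K) ≠ 0 := by
    rw [HahnSeries.C_apply]
    exact HahnSeries.single_ne_zero hκ
  have hS : D.S.eval₂ ev (jqNModC K p) ≠ 0 := by
    intro h0
    rw [h0, mul_zero] at e5
    exact mul_ne_zero hCκ hΦ' e5.symm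
  have hy_eq : ModEq.yInf K p =
      HahnSeries.C ((D.κ : ℤ) : K) * (Polynomial.derivative D.Φ).eval₂ ev (jqNModC K p) /
        D.S.eval₂ ev (jqNModC K p) := eq_div_of_mul_eq hS e5
  -- membership in `K(J)`
  have hJL : jqModC K ∈ IntermediateField.adjoin K {jqModC K} :=
    IntermediateField.subset_adjoin K _ (Set.mem_singleton _)
  have hCL : ∀ c : K, (HahnSeries.C c : LaurentSeries K) ∈
      IntermediateField.adjoin K {jqModC K} := by
    intro c
    rw [HahnSeries.C_apply, ← algebraMap_laurentSeries_eq_single]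
    exact (IntermediateField.adjoin K {jqModC K}).algebraMap_mem c
  have hevL : ∀ P : Polynomial ℤ, ev P ∈ IntermediateField.adjoin K {jqModC K} := by
    intro P
    rw [hev, ModEq.evalAt_apply]
    exact sum_mem fun i _ => mul_mem (hCL _) (pow_mem hJL i)
  have hev2L : ∀ Q : Polynomial (Polynomial ℤ),
      Q.eval₂ ev (jqNModC K p) ∈ IntermediateField.adjoin K {jqModC K} := by
    intro Q
    rw [Polynomial.eval₂_eq_sum_range]
    exact sum_mem fun i _ => mul_mem (hevL _) (pow_mem hmem i)
  have hyL : ModEq.yInf K p ∈ IntermediateField.adjoin K {jqModC K} := by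
    rw [hy_eq]
    exact div_mem (mul_mem (hCL _) (hev2L _)) (hev2L _)
  -- integrality over `K[J]`
  have hCA : ∀ c : K, (HahnSeries.C c : LaurentSeries K) ∈ Algebra.adjoin K {jqModC K} := by
    intro c
    rw [HahnSeries.C_apply, ← algebraMap_laurentSeries_eq_single]
    exact (Algebra.adjoin K {jqModC K}).algebraMap_mem c
  have hevA : ∀ P : Polynomial ℤ, ev P ∈ Algebra.adjoin K {jqModC K} := by
    intro P
    rw [hev, ModEq.evalAt_apply]
    exact sum_mem fun i _ =>
      mul_mem (hCA _) (pow_mem (Algebra.self_mem_adjoin_singleton K _) i)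
  have hint : IsIntegral (Algebra.adjoin K {jqModC K}) (ModEq.yInf K p) := by
    let g : Polynomial ℤ →+* Algebra.adjoin K {jqModC K} :=
      RingHom.codRestrict ev (Algebra.adjoin K {jqModC K}) hevA
    refine ⟨D.Ψ.map g, D.Ψ_monic.map g, ?_⟩
    rw [Polynomial.eval₂_map]
    have hcomp : (algebraMap (Algebra.adjoin K {jqModC K}) (LaurentSeries K)).comp g = ev :=
      RingHom.ext fun P => rfl
    rw [hcomp]
    exact e3
  -- `y` is a polynomial in `J`
  have hinj : Function.Injective (Polynomial.aeval (R := K) (jqModC K)) := by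
    intro P Q hPQ
    rw [aeval_eq_evalAt, aeval_eq_evalAt] at hPQ
    exact ModEq.evalAt_injective one_pos hJ (RingHom.id K) Function.injective_id hPQ
  obtain ⟨P, hP⟩ := exists_aeval_eq_of_isIntegral hinj hyL hint
  -- no pole, hence constant
  have hp1 : (1 : ℤ) ≤ (p : ℤ) - 1 := by
    have := hp.two_le
    omega
  have hdeg : P.natDegree = 0 := by
    refine ModEq.natDegree_eq_zero_of_coeff_neg one_pos hJ (RingHom.id K)
      Function.injective_id P fun k hk => ?_
    rw [← aeval_eq_evalAt, hP]
    exact hyLead.coeff_lt (by omega)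
  obtain ⟨c, rfl⟩ := Polynomial.natDegree_eq_zero.mp hdeg
  have hc : ModEq.yInf K p = HahnSeries.single 0 c := by
    rw [← hP, Polynomial.aeval_C, algebraMap_laurentSeries_eq_single]
  have hcoeff := hyLead.coeff_eq
  rw [hc, HahnSeries.coeff_single_of_ne (by omega)] at hcoeff
  exact pow_ne_zero 12 hpK hcoeff.symm

/-- The base case in the `TD.BaseCase` form used by the tower (WP4). -/
theorem baseCase {p : ℕ} [NeZero p] (hp : p.Prime) (D : ModEq.ModEqData p) : TD.BaseCase p := by
  intro K _ hpK
  rw [TD.Jd_eq_jqNModC K p, TD.Jd_one]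
  exact not_mem_adjoin_of_modEqData hp D K hpK

end Fermat.Agent.S28
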