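import Mathlib
import Fermat.Prelude.Def_ModularCurve_X0ModL

/-!
# S28 — characteristic-zero generation of the full modular function field (gcd trick)

`modularFunctionFieldFull N = ℚ(j(q^d) : d ∣ N)` is already generated by the `j(q^(p^k))` for the
prime powers `p^k ∣ N`: if two distinct primes `p`, `p'` divide `d`, then `j(q^d)` is the unique
common root of `Φ_p(X, j(q^(d/p)))` and `Φ_p'(X, j(q^(d/p')))`, hence lies in the field generated
by `j(q^(d/p))` and `j(q^(d/p'))`.

The only input is, for each prime `p ∣ N`, the modular equation with its list of roots over some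
field `K` of characteristic zero (`HasRoots K p`): only the pole orders of the other roots are
used.
-/

set_option autoImplicit false

open Polynomial ModularCurve

namespace Fermat.Agent.S28.Char0Gen

noncomputable section

/-! ### Evaluating the inner variable of a two-variable integer polynomial -/

/-- Evaluation `ℤ[Y] → S`, `Y ↦ y`. -/
def evalY {S : Type*} [CommRing S] (y : S) : Polynomial ℤ →+* S :=
  Polynomial.eval₂RingHom (Int.castRingHom S) y

theorem comp_evalY {S S' : Type*} [CommRing S] [CommRing S'] (f : S →+* S') (y : S) :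
    f.comp (evalY y) = evalY (f y) := by
  apply Polynomial.ringHom_ext
  · intro a
    simp [evalY]
  · simp [evalY]

theorem map_map_evalY {S S' : Type*} [CommRing S] [CommRing S'] (Φ : Polynomial (Polynomial ℤ))
    (f : S →+* S') (y : S) : (Φ.map (evalY y)).map f = Φ.map (evalY (f y)) := by
  rw [Polynomial.map_map, comp_evalY]

/-! ### The unique common root lemma -/

theorem isCoprime_multiset_prod_left {R : Type*} [CommRing R] (s : Multiset R) (x : R)
    (h : ∀ a ∈ s, IsCoprime a x) : IsCoprime s.prod x := by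
  induction s using Multiset.induction_on with
  | empty => simpa using isCoprime_one_left
  | cons a s ih =>
    rw [Multiset.prod_cons]
    exact IsCoprime.mul_left (h a (Multiset.mem_cons_self a s))
      (ih fun b hb => h b (Multiset.mem_cons_of_mem hb))

/-- If `P`, `Q` are polynomials over a field `E`, and over an extension `Ω` the polynomial `P`
splits with a root `r` such that `r` is a root of `Q` and none of the other roots of `P` is a root
of `Q`, then `r` comes from `E`. -/
theorem mem_range_of_unique_common_root {E Ω : Type*} [Field E] [Field Ω] (i : E →+* Ω)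
    (P Q : Polynomial E) (r : Ω) (m : Multiset Ω)
    (hP : P.map i = (X - C r) * (m.map fun x => X - C x).prod)
    (hQ : (Q.map i).IsRoot r)
    (hm : ∀ x ∈ m, ¬ (Q.map i).IsRoot x) :
    r ∈ Set.range i := by
  classical
  have hcop : IsCoprime ((m.map fun x => X - C x).prod) (Q.map i) := by
    apply isCoprime_multiset_prod_left
    intro f hf
    obtain ⟨x, hx, rfl⟩ := Multiset.mem_map.mp hf
    exact (Polynomial.irreducible_X_sub_C x).coprime_iff_not_dvd.mpr
      (fun hdvd => hm x hx (Polynomial.dvd_iff_isRoot.mp hdvd))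
  have hgmap : (EuclideanDomain.gcd P Q).map i = EuclideanDomain.gcd (P.map i) (Q.map i) :=
    (Polynomial.gcd_map i).symm
  have h1 : (X - C r) ∣ (EuclideanDomain.gcd P Q).map i := by
    rw [hgmap]
    exact EuclideanDomain.dvd_gcd (hP ▸ dvd_mul_right _ _) (Polynomial.dvd_iff_isRoot.mpr hQ)
  have h2 : (EuclideanDomain.gcd P Q).map i ∣ (X - C r) := by
    have hd1 : (EuclideanDomain.gcd P Q).map i ∣ (X - C r) * (m.map fun x => X - C x).prod := by
      rw [hgmap, ← hP]
      exact EuclideanDomain.gcd_dvd_left _ _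
    have hd2 : (EuclideanDomain.gcd P Q).map i ∣ Q.map i := by
      rw [hgmap]
      exact EuclideanDomain.gcd_dvd_right _ _
    exact (hcop.symm.of_isCoprime_of_dvd_left hd2).dvd_of_dvd_mul_right hd1
  have hne : (EuclideanDomain.gcd P Q).map i ≠ 0 :=
    ne_zero_of_dvd_ne_zero (Polynomial.X_sub_C_ne_zero r) h2
  have hdeg : ((EuclideanDomain.gcd P Q).map i).natDegree = 1 := by
    apply le_antisymm
    · have := Polynomial.natDegree_le_of_dvd h2 (Polynomial.X_sub_C_ne_zero r)
      rwa [Polynomial.natDegree_X_sub_C] at this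
    · have := Polynomial.natDegree_le_of_dvd h1 hne
      rwa [Polynomial.natDegree_X_sub_C] at this
  rw [Polynomial.natDegree_map] at hdeg
  have hdeg' : (EuclideanDomain.gcd P Q).degree = 1 := by
    rw [Polynomial.degree_eq_natDegree (fun h0 => by rw [h0] at hdeg; simp at hdeg), hdeg]
    rfl
  obtain ⟨e, he⟩ := Polynomial.exists_root_of_degree_eq_one hdeg'
  have he' : ((EuclideanDomain.gcd P Q).map i).IsRoot (i e) := he.map
  have he'' : (X - C r : Polynomial Ω).IsRoot (i e) := he'.dvd h2
  refine ⟨e, ?_⟩
  simpa [sub_eq_zero] using he''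

/-! ### Pole orders of Laurent series -/

/-- `x` has its lowest nonzero coefficient in degree `n`. -/
def HasOrd {R : Type*} [CommRing R] (x : LaurentSeries R) (n : ℤ) : Prop :=
  x.coeff n ≠ 0 ∧ ∀ k < n, x.coeff k = 0

theorem HasOrd.unique {R : Type*} [CommRing R] {x : LaurentSeries R} {n n' : ℤ}
    (h : HasOrd x n) (h' : HasOrd x n') : n = n' := by
  rcases lt_trichotomy n n' with hlt | heq | hgt
  · exact absurd (h'.2 n hlt) h.1
  · exact heq
  · exact absurd (h.2 n' hgt) h'.1

theorem HasOrd.qExpand {R : Type*} [CommRing R] {x : LaurentSeries R} {n : ℤ} (h : HasOrd x n)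
    (e : ℕ) [NeZero e] : HasOrd (qExpand R e x) ((e : ℤ) * n) := by
  refine ⟨by rw [qExpand_coeff_mul]; exact h.1, fun k hk => ?_⟩
  by_cases hdvd : (e : ℤ) ∣ k
  · obtain ⟨k', rfl⟩ := hdvd
    rw [qExpand_coeff_mul]
    apply h.2
    have he : (0 : ℤ) < e := by exact_mod_cast Nat.pos_of_ne_zero (NeZero.ne e)
    exact lt_of_mul_lt_mul_left hk he.le
  · exact qExpand_coeff_of_not_dvd e x hdvd

theorem hasOrd_jqModC (R : Type*) [CommRing R] [Nontrivial R] : HasOrd (jqModC R) (-1) :=
  ⟨by rw [coeff_jqModC_neg_one]; exact one_ne_zero, fun _ hk => coeff_jqModC_of_lt R hk⟩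

/-! ### The modular equation with its roots -/

/-- The modular equation of level `p` over the field `K`, with its list of roots:
`Φ(X, J(t^p)) = (X - J(t^(p²))) * ∏ (X - r)`, where every other root `r` has a simple pole
(in fact `r = J(ζ^b t)`, `b < p`). -/
def HasRoots (K : Type*) [Field K] (p : ℕ) [NeZero p] : Prop :=
  ∃ (Φ : Polynomial (Polynomial ℤ)) (m : Multiset (LaurentSeries K)),
    (∀ x ∈ m, HasOrd x (-1)) ∧
    Φ.map (evalY (qExpand K p (jqModC K))) =
      (X - C (qExpand K (p * p) (jqModC K))) * (m.map fun x => X - C x).prod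

/-- The modular equation after the substitution `t ↦ t^e`. -/
theorem expand_roots {K : Type*} [Field K] {p : ℕ} [NeZero p] (Φ : Polynomial (Polynomial ℤ))
    (m : Multiset (LaurentSeries K))
    (h : Φ.map (evalY (qExpand K p (jqModC K))) =
      (X - C (qExpand K (p * p) (jqModC K))) * (m.map fun x => X - C x).prod)
    (e : ℕ) [NeZero e] :
    Φ.map (evalY (qExpand K (e * p) (jqModC K))) =
      (X - C (qExpand K (e * (p * p)) (jqModC K))) *
        ((m.map (qExpand K e)).map fun x => X - C x).prod := by
  have h1 := congrArg (Polynomial.map (qExpand K e)) h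
  rw [map_map_evalY, qExpand_qExpand] at h1
  rw [h1, Polynomial.map_mul, Polynomial.map_sub, Polynomial.map_X, Polynomial.map_C,
    qExpand_qExpand, Polynomial.map_multiset_prod, Multiset.map_map, Multiset.map_map]
  congr 2
  apply Multiset.map_congr rfl
  intro x _
  simp

theorem isRoot_factored_iff {Ω : Type*} [Field Ω] (r : Ω) (m : Multiset Ω) (z : Ω) :
    ((X - C r) * (m.map fun x => X - C x).prod : Polynomial Ω).IsRoot z ↔ z = r ∨ z ∈ m := by
  rw [Polynomial.IsRoot, Polynomial.eval_mul, Polynomial.eval_multiset_prod, mul_eq_zero,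
    Multiset.prod_eq_zero_iff, Multiset.map_map]
  simp only [eval_sub, eval_X, eval_C, sub_eq_zero, Multiset.mem_map, Function.comp_apply]
  constructor
  · rintro (h | ⟨x, hx, hzx⟩)
    · exact Or.inl h
    · exact Or.inr (hzx ▸ hx)
  · rintro (h | h)
    · exact Or.inl h
    · exact Or.inr ⟨z, h, rfl⟩

/-! ### The gcd trick -/

/-- The embedding `ℚ((q)) → K((t))`, `q ↦ t^n`. -/
def emb (K : Type*) [Field K] [CharZero K] (n : ℕ) [NeZero n] :
    LaurentSeries ℚ →+* LaurentSeries K :=
  (qExpand K n).comp (coeffMap (algebraMap ℚ K))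

theorem emb_qExpand_jq (K : Type*) [Field K] [CharZero K] (n : ℕ) [NeZero n] (e : ℕ)
    [NeZero e] : emb K n (qExpand ℚ e jq) = qExpand K (n * e) (jqModC K) := by
  rw [emb, RingHom.comp_apply, coeffMap_qExpand, ← jqModC_rat, coeffMap_jqModC, qExpand_qExpand]

/-- **The gcd trick**: for distinct primes `p`, `p'`, the series `j(q^(p p' c))` lies in the field
generated by `j(q^(p' c))` and `j(q^(p c))`. -/
theorem qExpand_mem_adjoin_pair {K : Type*} [Field K] [CharZero K] {p p' : ℕ} [NeZero p]
    [NeZero p'] (hp : p.Prime) (hne : p ≠ p') (h : HasRoots K p) (h' : HasRoots K p')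
    (c : ℕ) [NeZero c] :
    qExpand ℚ (p * p' * c) jq ∈
      IntermediateField.adjoin ℚ {qExpand ℚ (p' * c) jq, qExpand ℚ (p * c) jq} := by
  classical
  obtain ⟨Φ, m, hm, hΦ⟩ := h
  obtain ⟨Φ', m', hm', hΦ'⟩ := h'
  set E := IntermediateField.adjoin ℚ {qExpand ℚ (p' * c) jq, qExpand ℚ (p * c) jq} with hE
  have hx1 : qExpand ℚ (p' * c) jq ∈ E :=
    IntermediateField.subset_adjoin ℚ _ (Set.mem_insert _ _)
  have hx2 : qExpand ℚ (p * c) jq ∈ E :=
    IntermediateField.subset_adjoin ℚ _ (Set.mem_insert_of_mem _ rfl)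
  -- the embedding `q ↦ t^(p p')`
  let i : LaurentSeries ℚ →+* LaurentSeries K := emb K (p * p')
  let iE : E →+* LaurentSeries K := i.comp (algebraMap E (LaurentSeries ℚ))
  -- the common root
  set r : LaurentSeries K := qExpand K (p * p' * (p * p' * c)) (jqModC K) with hr
  have hir : i (qExpand ℚ (p * p' * c) jq) = r := emb_qExpand_jq K (p * p') (p * p' * c)
  have hrord : HasOrd r (((p * p' * (p * p' * c) : ℕ) : ℤ) * (-1)) :=
    (hasOrd_jqModC K).qExpand _
  -- the two polynomials over `E`
  let P : Polynomial E := Φ.map (evalY (⟨qExpand ℚ (p' * c) jq, hx1⟩ : E))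
  let Q : Polynomial E := Φ'.map (evalY (⟨qExpand ℚ (p * c) jq, hx2⟩ : E))
  have hPmap : P.map iE = (X - C r) *
      ((m.map (qExpand K (p' * p' * c))).map fun x => X - C x).prod := by
    have e1 : iE (⟨qExpand ℚ (p' * c) jq, hx1⟩ : E) =
        qExpand K (p' * p' * c * p) (jqModC K) := by
      show i (qExpand ℚ (p' * c) jq) = _
      rw [emb_qExpand_jq K (p * p') (p' * c)]
      exact qExpand_congr (by ring) _
    have e2 : qExpand K (p' * p' * c * (p * p)) (jqModC K) = r :=
      qExpand_congr (by ring) _
    rw [map_map_evalY, e1, expand_roots Φ m hΦ (p' * p' * c), e2]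
  have hQmap : Q.map iE = (X - C r) *
      ((m'.map (qExpand K (p * p * c))).map fun x => X - C x).prod := by
    have e1 : iE (⟨qExpand ℚ (p * c) jq, hx2⟩ : E) =
        qExpand K (p * p * c * p') (jqModC K) := by
      show i (qExpand ℚ (p * c) jq) = _
      rw [emb_qExpand_jq K (p * p') (p * c)]
      exact qExpand_congr (by ring) _
    have e2 : qExpand K (p * p * c * (p' * p')) (jqModC K) = r :=
      qExpand_congr (by ring) _
    rw [map_map_evalY, e1, expand_roots Φ' m' hΦ' (p * p * c), e2]
  have hp2 : 2 ≤ p := hp.two_le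
  have hp0 : 0 < p := Nat.pos_of_ne_zero (NeZero.ne p)
  have hp'0 : 0 < p' := Nat.pos_of_ne_zero (NeZero.ne p')
  have hc0 : 0 < c := Nat.pos_of_ne_zero (NeZero.ne c)
  have hmem : r ∈ Set.range iE := by
    refine mem_range_of_unique_common_root iE P Q r _ hPmap ?_ ?_
    · rw [hQmap, isRoot_factored_iff]
      exact Or.inl rfl
    · intro x hx
      rw [hQmap, isRoot_factored_iff]
      obtain ⟨x0, hx0, rfl⟩ := Multiset.mem_map.mp hx
      have hxord : HasOrd (qExpand K (p' * p' * c) x0) (((p' * p' * c : ℕ) : ℤ) * (-1)) :=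
        (hm x0 hx0).qExpand _
      rintro (heq | hmem')
      · have := hxord.unique (heq ▸ hrord)
        have h3 : p' * p' * c = p * p' * (p * p' * c) := by exact_mod_cast (by linarith : ((p' * p' * c : ℕ) : ℤ) = ((p * p' * (p * p' * c) : ℕ) : ℤ))
        have h4 : p' * p' * c * 1 < p' * p' * c * (p * p) := by
          apply Nat.mul_lt_mul_of_pos_left
          · nlinarith
          · positivity
        nlinarith
      · obtain ⟨y0, hy0, hy⟩ := Multiset.mem_map.mp hmem'
        have hyord : HasOrd (qExpand K (p * p * c) y0) (((p * p * c : ℕ) : ℤ) * (-1)) :=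
          (hm' y0 hy0).qExpand _
        have := hxord.unique (hy ▸ hyord)
        have h3 : p' * p' * c = p * p * c := by exact_mod_cast (by linarith : ((p' * p' * c : ℕ) : ℤ) = ((p * p * c : ℕ) : ℤ))
        have h4 : p' * p' = p * p := Nat.eq_of_mul_eq_mul_right hc0 h3
        exact hne (Nat.mul_self_inj.mp h4).symm
  obtain ⟨e, he⟩ := hmem
  have he' : i (e : LaurentSeries ℚ) = i (qExpand ℚ (p * p' * c) jq) := by
    rw [hir]; exact he
  have := i.injective he'
  rw [← this]
  exact e.2

/-! ### Generation by prime powers -/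

/-- The series `j(q^d)` for `d ∣ N` with `d = 1` or `d` a prime power. -/
def primePowerExpansions (N : ℕ) : Set (LaurentSeries ℚ) :=
  {x | ∃ (d : ℕ) (_ : NeZero d), d ∣ N ∧ (d = 1 ∨ IsPrimePow d) ∧ x = qExpand ℚ d jq}

theorem primePowerExpansions_mono {M N : ℕ} (h : M ∣ N) :
    primePowerExpansions M ⊆ primePowerExpansions N := by
  rintro x ⟨d, hd, hdM, hpp, rfl⟩
  exact ⟨d, hd, hdM.trans h, hpp, rfl⟩

theorem primePowerExpansions_subset (N : ℕ) : primePowerExpansions N ⊆ divisorExpansions N := by
  rintro x ⟨d, hd, hdN, -, rfl⟩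
  exact ⟨d, hd, hdN, rfl⟩

theorem qExpand_mem_adjoin_primePowers (K : Type*) [Field K] [CharZero K] (d : ℕ) :
    ∀ [NeZero d], (∀ (p : ℕ) [NeZero p], p.Prime → p ∣ d → HasRoots K p) →
      qExpand ℚ d jq ∈ IntermediateField.adjoin ℚ (primePowerExpansions d) := by
  induction d using Nat.strong_induction_on with
  | _ d ih =>
    intro hd H
    have hd0 : d ≠ 0 := NeZero.ne d
    by_cases hcard : d.primeFactors.card ≤ 1
    · -- `d = 1` or `d` is a prime power
      apply IntermediateField.subset_adjoin
      refine ⟨d, hd, dvd_rfl, ?_, rfl⟩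
      rcases Nat.lt_or_ge d.primeFactors.card 1 with h0 | h1
      · left
        have : d.primeFactors = ∅ := Finset.card_eq_zero.mp (by omega)
        rcases Nat.primeFactors_eq_empty.mp this with h | h
        · exact absurd h hd0
        · exact h
      · right
        exact isPrimePow_iff_card_primeFactors_eq_one.mpr (le_antisymm hcard h1)
    · -- two distinct prime factors
      obtain ⟨p, hpm, p', hpm', hne⟩ := Finset.one_lt_card.mp (not_le.mp hcard)
      have hp := Nat.prime_of_mem_primeFactors hpm
      have hp' := Nat.prime_of_mem_primeFactors hpm'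
      have hpd := Nat.dvd_of_mem_primeFactors hpm
      have hpd' := Nat.dvd_of_mem_primeFactors hpm'
      obtain ⟨c, rfl⟩ : p * p' ∣ d :=
        Nat.Coprime.mul_dvd_of_dvd_of_dvd ((Nat.coprime_primes hp hp').mpr hne) hpd hpd'
      have hc0 : c ≠ 0 := fun h => hd0 (by rw [h, mul_zero])
      have : NeZero p := ⟨hp.ne_zero⟩
      have : NeZero p' := ⟨hp'.ne_zero⟩
      have : NeZero c := ⟨hc0⟩
      have hmem := qExpand_mem_adjoin_pair hp hne (H p hp hpd) (H p' hp' hpd') c
      refine (IntermediateField.adjoin_le_iff.mpr ?_) hmem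
      rintro x (rfl | rfl)
      · have hlt : p' * c < p * p' * c := by
          have : 1 * (p' * c) < p * (p' * c) :=
            Nat.mul_lt_mul_of_pos_right hp.one_lt (Nat.mul_pos hp'.pos (Nat.pos_of_ne_zero hc0))
          nlinarith
        have hdvd : p' * c ∣ p * p' * c := ⟨p, by ring⟩
        exact IntermediateField.adjoin.mono ℚ _ _ (primePowerExpansions_mono hdvd)
          (ih (p' * c) hlt (fun q _ hq hqd => H q hq (hqd.trans hdvd)))
      · have hlt : p * c < p * p' * c := by
          have : 1 * (p * c) < p' * (p * c) :=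
            Nat.mul_lt_mul_of_pos_right hp'.one_lt (Nat.mul_pos hp.pos (Nat.pos_of_ne_zero hc0))
          nlinarith
        have hdvd : p * c ∣ p * p' * c := ⟨p', by ring⟩
        exact IntermediateField.adjoin.mono ℚ _ _ (primePowerExpansions_mono hdvd)
          (ih (p * c) hlt (fun q _ hq hqd => H q hq (hqd.trans hdvd)))

/-- **Generation by prime powers**: the full modular function field of level `N` is generated
over `ℚ` by the `j(q^(p^k))` for the prime powers `p^k ∣ N` (including `j(q)` itself). -/
theorem modularFunctionFieldFull_eq_adjoin_primePowers (K : Type*) [Field K] [CharZero K]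
    (N : ℕ) [NeZero N] (H : ∀ (p : ℕ) [NeZero p], p.Prime → p ∣ N → HasRoots K p) :
    modularFunctionFieldFull N = IntermediateField.adjoin ℚ (primePowerExpansions N) := by
  apply le_antisymm
  · rw [modularFunctionFieldFull, IntermediateField.adjoin_le_iff]
    rintro x ⟨d, hd, hdN, rfl⟩
    have := hd
    exact IntermediateField.adjoin.mono ℚ _ _ (primePowerExpansions_mono hdN)
      (qExpand_mem_adjoin_primePowers K d (fun q _ hq hqd => H q hq (hqd.trans hdN)))
  · exact IntermediateField.adjoin.mono ℚ _ _ (primePowerExpansions_subset N)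

end

end Fermat.Agent.S28.Char0Gen
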