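import Mathlib

/-!
# S28 — conjugates of elements of a finitely generated algebraic extension

Pure field theory.  Let `E = K(S)` be generated by integral elements, `A` an algebraically closed
extension of `K` and `T` a subfield of `A` containing `K`.  If every `K`-embedding of `E` into `A`
maps the generators into `T`, then every conjugate (in `A`) of every element of `E` lies in `T`.
Contrapositive use: an element one of whose conjugates is outside `T` is not in `E`.
-/

set_option autoImplicit false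

namespace Fermat.Agent.S28.ConjMem

open Polynomial IntermediateField

/-- The image of `K(S)` under a `K`-embedding lies in any subfield containing `K` and the images
of the generators. -/
theorem algHom_mem {K L A : Type*} [Field K] [Field L] [Field A] [Algebra K L] [Algebra K A]
    (S : Set L) (T : Subfield A) (hKT : ∀ a : K, algebraMap K A a ∈ T)
    (φ : adjoin K S →ₐ[K] A)
    (hT : ∀ (s : L) (hs : s ∈ S), φ ⟨s, subset_adjoin K S hs⟩ ∈ T)
    (z : L) (hz : z ∈ adjoin K S) : φ ⟨z, hz⟩ ∈ T := by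
  induction hz using IntermediateField.adjoin_induction with
  | mem x hx => exact hT x hx
  | algebraMap x =>
    have h : φ (algebraMap K (adjoin K S) x) = algebraMap K A x := φ.commutes x
    exact h ▸ hKT x
  | add x y hx hy ihx ihy =>
    have h : φ ⟨x + y, add_mem hx hy⟩ = φ ⟨x, hx⟩ + φ ⟨y, hy⟩ := map_add φ ⟨x, hx⟩ ⟨y, hy⟩
    rw [h]
    exact T.add_mem ihx ihy
  | inv x hx ih =>
    have h : φ ⟨x⁻¹, inv_mem hx⟩ = (φ ⟨x, hx⟩)⁻¹ := map_inv₀ φ ⟨x, hx⟩
    rw [h]
    exact T.inv_mem ih
  | mul x y hx hy ihx ihy =>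
    have h : φ ⟨x * y, mul_mem hx hy⟩ = φ ⟨x, hx⟩ * φ ⟨y, hy⟩ := map_mul φ ⟨x, hx⟩ ⟨y, hy⟩
    rw [h]
    exact T.mul_mem ihx ihy

/-- **Conjugates stay in `T`.** -/
theorem conj_mem {K L A : Type*} [Field K] [Field L] [Field A] [Algebra K L] [Algebra K A]
    [IsAlgClosed A] (S : Set L) (hS : ∀ s ∈ S, IsIntegral K s) (T : Subfield A)
    (hKT : ∀ a : K, algebraMap K A a ∈ T)
    (hT : ∀ (φ : adjoin K S →ₐ[K] A) (s : L) (hs : s ∈ S), φ ⟨s, subset_adjoin K S hs⟩ ∈ T)
    (y : L) (hy : y ∈ adjoin K S) (y' : A) (hy' : aeval y' (minpoly K y) = 0) : y' ∈ T := by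
  obtain ⟨φ, hφ⟩ := exists_algHom_adjoin_of_splits_of_aeval (F := K) (E := L) (K := A) (S := S)
    (fun s hs => ⟨hS s hs, IsAlgClosed.splits _⟩) hy hy'
  rw [← hφ]
  exact algHom_mem S T hKT φ (hT φ) y hy

/-- **New-generator criterion.** An element with a conjugate outside `T` is not in `K(S)`. -/
theorem not_mem_adjoin_of_conj_not_mem {K L A : Type*} [Field K] [Field L] [Field A]
    [Algebra K L] [Algebra K A] [IsAlgClosed A] (S : Set L) (hS : ∀ s ∈ S, IsIntegral K s)
    (T : Subfield A) (hKT : ∀ a : K, algebraMap K A a ∈ T)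
    (hT : ∀ (φ : adjoin K S →ₐ[K] A) (s : L) (hs : s ∈ S), φ ⟨s, subset_adjoin K S hs⟩ ∈ T)
    (y : L) (y' : A) (hy' : aeval y' (minpoly K y) = 0) (hy'T : y' ∉ T) : y ∉ adjoin K S :=
  fun hy => hy'T (conj_mem S hS T hKT hT y hy y' hy')

/-- A root of a product of linear factors is one of the listed roots. -/
theorem exists_eq_of_eval_prod_eq_zero {A ι : Type*} [Field A] (s : Finset ι) (r : ι → A)
    (a : A) (h : (∏ i ∈ s, (X - C (r i))).eval a = 0) : ∃ i ∈ s, a = r i := by
  rw [eval_prod, Finset.prod_eq_zero_iff] at h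
  obtain ⟨i, hi, h0⟩ := h
  refine ⟨i, hi, ?_⟩
  rw [eval_sub, eval_X, eval_C, sub_eq_zero] at h0
  exact h0

end Fermat.Agent.S28.ConjMem
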