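import Mathlib
import Fermat.Prelude.Def_ModularCurve_X0ModL

/-!
# S28 — shared interface definitions (architect file)

`HasModEq p` is the ζ-free integral export of the modular-equation package (WP5) and the
only input of the field-theory package (WP4).  Everything lives in `LaurentSeries ℤ`.
-/

set_option autoImplicit false

noncomputable section

namespace Fermat.Agent.S28

open ModularCurve

/-- The integral `j`-expansion `q⁻¹ + 744 + …` in `ℤ((q))`. -/
abbrev jZ : LaurentSeries ℤ := jqModC ℤ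

/-- Evaluation of the inner variable of `ℤ[Y]` at an element of a commutative ring. -/
def evalZ {S : Type*} [CommRing S] (y : S) : Polynomial ℤ →+* S :=
  Polynomial.eval₂RingHom (Int.castRingHom S) y

@[simp] theorem evalZ_X {S : Type*} [CommRing S] (y : S) : evalZ y Polynomial.X = y := by
  simp [evalZ]

@[simp] theorem evalZ_C {S : Type*} [CommRing S] (y : S) (n : ℤ) :
    evalZ y (Polynomial.C n) = (n : S) := by
  simp [evalZ]

theorem evalZ_apply {S : Type*} [CommRing S] (y : S) (P : Polynomial ℤ) :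
    evalZ y P = Polynomial.eval₂ (Int.castRingHom S) y P := rfl

theorem map_evalZ {S T : Type*} [CommRing S] [CommRing T] (f : S →+* T) (y : S)
    (P : Polynomial ℤ) : f (evalZ y P) = evalZ (f y) P := by
  rw [evalZ_apply, evalZ_apply, Polynomial.hom_eval₂]
  congr 1
  exact RingHom.ext_int _ _

/-- `Δ(q) = q ∏ (1 - qⁿ)²⁴` as an integral Laurent series. -/
def DeltaZ : LaurentSeries ℤ :=
  HahnSeries.single (1 : ℤ) (1 : ℤ) * HahnSeries.ofPowerSeries ℤ ℤ dedekindEtaUnit

/-- `Δ(q)⁻¹` as an integral Laurent series. -/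
def DeltaZinv : LaurentSeries ℤ :=
  HahnSeries.single (-1 : ℤ) (1 : ℤ) * HahnSeries.ofPowerSeries ℤ ℤ dedekindEtaUnitInv

/-- The modular unit `u_p = p¹² Δ(q^p) / Δ(q) = p¹² q^(p-1) (1 + …)`. -/
def uZ (p : ℕ) [NeZero p] : LaurentSeries ℤ :=
  (p : LaurentSeries ℤ) ^ 12 * qExpand ℤ p DeltaZ * DeltaZinv

/-- The integral, ζ-free modular-equation package for the prime `p`
(outer variable `X`, inner variable `Y = j`):
* `rel₁ : Φ(j(q^p); j(q)) = 0`, `rel₂ : Φ(j(q); j(q^p)) = 0`,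
* `relΨ : Ψ(u_p; j(q)) = 0` with `Ψ` monic and constant coefficient a divisor of a power of `p`,
* `relS : u_p · S(j(q^p); j(q)) = κ' · (∂Φ/∂X)(j(q^p); j(q))`. -/
structure ModEqData (p : ℕ) [NeZero p] : Type where
  Φ : Polynomial (Polynomial ℤ)
  Ψ : Polynomial (Polynomial ℤ)
  S : Polynomial (Polynomial ℤ)
  κ : ℤ
  κ' : ℤ
  Φ_monic : Φ.Monic
  Φ_natDegree : Φ.natDegree = p + 1
  Ψ_monic : Ψ.Monic
  Ψ_coeff_zero : Ψ.coeff 0 = Polynomial.C κ
  κ_dvd : κ ∣ (p : ℤ) ^ 24
  κ'_dvd : κ' ∣ (p : ℤ) ^ 24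
  rel₁ : Φ.eval₂ (evalZ jZ) (qExpand ℤ p jZ) = 0
  rel₂ : Φ.eval₂ (evalZ (qExpand ℤ p jZ)) jZ = 0
  relΨ : Ψ.eval₂ (evalZ jZ) (uZ p) = 0
  relS : uZ p * S.eval₂ (evalZ jZ) (qExpand ℤ p jZ)
      = (κ' : LaurentSeries ℤ) * (Polynomial.derivative Φ).eval₂ (evalZ jZ) (qExpand ℤ p jZ)

/-- Existence of the modular-equation package at `p` (a `Prop`, no instance arguments). -/
def HasModEq (p : ℕ) : Prop := ∃ _ : NeZero p, Nonempty (ModEqData p)

end Fermat.Agent.S28
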