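import Mathlib
import Fermat.Prelude.Def_ModularCurve_X0
import Fermat.Prelude.Thm_ModularForm_mdifferentiable_heckeT
import Fermat.Prelude.Thm_ModularForm_isBoundedAtImInfty_heckeT
import Fermat.Prelude.Thm_ModularForm_heckeT_slash_eq_self_of_mem_Gamma0
import Fermat.Prelude.Thm_ModularFormClass_qCoeff_heckeT
import Fermat.Prelude.Thm_ModularForm_levelOne_eq_zero_of_lt_order_qExpansion
import Fermat.Agent.S28.DeltaBridge

/-!
# S28 (WP6, (AN3)): formal Hecke stability of level-one forms of weight `12 m`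

With `E4Q`, `DQ` the formal `E₄` and `Δ = q ∏ (1 - qⁿ)²⁴` over `ℚ`, the formal Hecke operator
`U_p + p^(12m-1) V_p` preserves the `ℚ`-span of `E4Q ^ (3 b) * DQ ^ (m - b)`, `b ≤ m`.
-/

set_option autoImplicit false

open UpperHalfPlane ModularForm EisensteinSeries
open scoped MatrixGroups ModularForm Manifold

namespace Fermat.Agent.S28.FormalHecke

noncomputable section

/-! ### The Hecke operator on level-one forms -/

theorem mem_Gamma0_one_GL (γ : SL(2, ℤ)) :
    (Matrix.SpecialLinearGroup.mapGL ℝ γ) ∈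
      (CongruenceSubgroup.Gamma0 1 : Subgroup (Matrix.GeneralLinearGroup (Fin 2) ℝ)) := by
  refine ⟨γ, ?_, rfl⟩
  rw [SetLike.mem_coe, CongruenceSubgroup.Gamma0_mem]
  exact Subsingleton.elim _ _

/-- `T_p` of a level-one modular form, as a level-one modular form. -/
def heckeForm (k : ℤ) (p : ℕ) (hp : p.Prime) (f : ModularForm 𝒮ℒ k) : ModularForm 𝒮ℒ k where
  toFun := ModularForm.heckeT k p f
  slash_action_eq' := by
    rintro γ ⟨γ', rfl⟩
    refine ModularForm.heckeT_slash_eq_self_of_mem_Gamma0 (N := 1) k hp (by simpa using hp.one_lt.ne')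
      ?_ _ (mem_Gamma0_one_GL γ')
    rintro δ ⟨δ', -, rfl⟩
    exact f.slash_action_eq' _ ⟨δ', rfl⟩
  holo' := ModularForm.mdifferentiable_heckeT f.holo' k p
  bdd_at_cusps' := by
    have hinv : ∀ γ : SL(2, ℤ), (ModularForm.heckeT k p f) ∣[k] γ = ModularForm.heckeT k p f := by
      intro γ'
      refine ModularForm.heckeT_slash_eq_self_of_mem_Gamma0 (N := 1) k hp (by simpa using hp.one_lt.ne')
        ?_ _ (mem_Gamma0_one_GL γ')
      rintro δ ⟨δ', -, rfl⟩
      exact f.slash_action_eq' _ ⟨δ', rfl⟩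
    intro c hc
    rw [OnePoint.isBoundedAt_iff_forall_SL2Z hc]
    intro γ _
    rw [hinv γ]
    exact ModularForm.isBoundedAtImInfty_heckeT (ModularFormClass.bdd_at_infty f) k p

theorem coe_heckeForm (k : ℤ) (p : ℕ) (hp : p.Prime) (f : ModularForm 𝒮ℒ k) :
    (⇑(heckeForm k p hp f) : ℍ → ℂ) = ModularForm.heckeT k p f := rfl

theorem qExpansion_heckeForm_coeff (k : ℤ) (p : ℕ) (hp : p.Prime) (f : ModularForm 𝒮ℒ k) (n : ℕ) :
    (qExpansion 1 (heckeForm k p hp f)).coeff n =
      ModularForm.coeffHeckeT k p (fun i => (qExpansion 1 f).coeff i) n := by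
  have h := ModularFormClass.qCoeff_heckeT f one_mem_strictPeriods_SL hp.ne_zero n
  exact h

/-! ### `q`-expansion as a linear map, the basis forms -/

/-- The `q`-expansion as a `ℂ`-linear map on level-one forms. -/
def qExpL (k : ℤ) : ModularForm 𝒮ℒ k →ₗ[ℂ] PowerSeries ℂ where
  toFun f := qExpansion 1 f
  map_add' f g := ModularForm.qExpansion_add one_pos one_mem_strictPeriods_SL f g
  map_smul' a f := ModularForm.qExpansion_smul one_pos one_mem_strictPeriods_SL a f

theorem qExpL_apply (k : ℤ) (f : ModularForm 𝒮ℒ k) : qExpL k f = qExpansion 1 f := rfl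

/-- The formal `E₄` over `ℚ`. -/
def E4Q : PowerSeries ℚ := ModularCurve.eisenstein4.map (Int.castRingHom ℚ)

/-- The formal `Δ = q ∏ (1 - qⁿ)²⁴` over `ℚ`. -/
def DQ : PowerSeries ℚ :=
  (PowerSeries.X * ModularCurve.dedekindEtaUnit).map (Int.castRingHom ℚ)

/-- Coefficientwise `ℚ → ℂ`. -/
abbrev ι : PowerSeries ℚ →+* PowerSeries ℂ := PowerSeries.map (algebraMap ℚ ℂ)

theorem ι_injective : Function.Injective ι := by
  intro f g h
  ext n
  have := congrArg (PowerSeries.coeff n) h
  simpa using this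

theorem ι_map_int (f : PowerSeries ℤ) :
    ι (f.map (Int.castRingHom ℚ)) = f.map (Int.castRingHom ℂ) := by
  ext n
  simp

theorem qExpansion_E4 : qExpansion 1 E₄ = ι E4Q := by
  rw [E4Q, ι_map_int, DeltaBridge.qExpansion_E4]

/-- `Δ` as a level-one modular form. -/
def Δm : ModularForm 𝒮ℒ 12 := CuspForm.toModularFormₗ CuspForm.discriminant

theorem qExpansion_Δm : qExpansion 1 Δm = ι DQ := by
  rw [DQ, ι_map_int, ← DeltaBridge.qExpansion_cuspForm_discriminant]
  rfl

/-- `E₄ ^ (3 a) * Δ ^ c` as a level-one form of weight `12 m`, `a + c = m`. -/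
def gForm (m a c : ℕ) (h : a + c = m) : ModularForm 𝒮ℒ (12 * (m : ℤ)) :=
  ModularForm.mcast (by subst h; push_cast; ring) ((E₄.pow (3 * a)).mul (Δm.pow c))

theorem qExpansion_gForm (m a c : ℕ) (h : a + c = m) :
    qExpansion 1 (gForm m a c h) = ι (E4Q ^ (3 * a) * DQ ^ c) := by
  have : qExpansion 1 (gForm m a c h) = qExpansion 1 ((E₄.pow (3 * a)).mul (Δm.pow c)) := rfl
  rw [this, ModularForm.qExpansion_mul one_pos one_mem_strictPeriods_SL,
    ModularForm.qExpansion_pow one_pos one_mem_strictPeriods_SL,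
    ModularForm.qExpansion_pow one_pos one_mem_strictPeriods_SL, qExpansion_E4, qExpansion_Δm,
    map_mul, map_pow, map_pow]

/-! ### Formal triangular elimination -/

/-- Triangular elimination: if `e j` has order `≥ j` and `j`-th coefficient `1`, then any
power series agrees up to order `n` with a combination of `e 0, …, e (n-1)`. -/
theorem exists_coeff_sub_sum_eq_zero (e : ℕ → PowerSeries ℚ)
    (he0 : ∀ j i, i < j → (e j).coeff i = 0) (he1 : ∀ j, (e j).coeff j = 1)
    (φ : PowerSeries ℚ) (n : ℕ) :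
    ∃ c : ℕ → ℚ, ∀ i < n, (φ - ∑ j ∈ Finset.range n, c j • e j).coeff i = 0 := by
  induction n with
  | zero => exact ⟨0, fun i hi => absurd hi (Nat.not_lt_zero i)⟩
  | succ n ih =>
    obtain ⟨c, hc⟩ := ih
    set r : ℚ := (φ - ∑ j ∈ Finset.range n, c j • e j).coeff n with hr
    refine ⟨Function.update c n r, fun i hi => ?_⟩
    have hsum : ∑ j ∈ Finset.range (n + 1), Function.update c n r j • e j =
        ∑ j ∈ Finset.range n, c j • e j + r • e n := by
      rw [Finset.sum_range_succ, Function.update_self]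
      congr 1
      refine Finset.sum_congr rfl fun j hj => ?_
      rw [Function.update_of_ne (Finset.mem_range.mp hj).ne]
    rw [hsum, ← sub_sub, map_sub, PowerSeries.coeff_smul]
    rcases Nat.lt_succ_iff_lt_or_eq.mp hi with h | h
    · rw [hc i h, he0 n i h, smul_zero, sub_zero]
    · rw [h, he1, ← hr, smul_eq_mul, mul_one, sub_self]

theorem constantCoeff_E4Q : PowerSeries.constantCoeff E4Q = 1 := by
  rw [E4Q, ← PowerSeries.coeff_zero_eq_constantCoeff_apply, PowerSeries.coeff_map,
    PowerSeries.coeff_zero_eq_constantCoeff_apply, ModularCurve.constantCoeff_eisenstein4]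
  simp

/-- `DQ = X * (unit with constant coefficient 1)`. -/
theorem DQ_eq : DQ = PowerSeries.X * ModularCurve.dedekindEtaUnit.map (Int.castRingHom ℚ) := by
  rw [DQ, map_mul, PowerSeries.map_X]

theorem constantCoeff_etaQ :
    PowerSeries.constantCoeff (ModularCurve.dedekindEtaUnit.map (Int.castRingHom ℚ)) = 1 := by
  rw [← PowerSeries.coeff_zero_eq_constantCoeff_apply, PowerSeries.coeff_map,
    PowerSeries.coeff_zero_eq_constantCoeff_apply, ModularCurve.constantCoeff_dedekindEtaUnit]
  simp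

/-- `E4Q ^ a * DQ ^ c = X ^ c * w` with `w` of constant coefficient `1`. -/
theorem exists_eq_X_pow_mul (a c : ℕ) :
    ∃ w : PowerSeries ℚ, PowerSeries.constantCoeff w = 1 ∧ E4Q ^ a * DQ ^ c = PowerSeries.X ^ c * w := by
  refine ⟨E4Q ^ a * (ModularCurve.dedekindEtaUnit.map (Int.castRingHom ℚ)) ^ c, ?_, ?_⟩
  · rw [map_mul, map_pow, map_pow, constantCoeff_E4Q, constantCoeff_etaQ, one_pow, one_pow, one_mul]
  · rw [DQ_eq, mul_pow]
    ring

theorem coeff_E4Q_pow_mul_DQ_pow_of_lt (a c i : ℕ) (hi : i < c) :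
    (E4Q ^ a * DQ ^ c).coeff i = 0 := by
  obtain ⟨w, -, hw⟩ := exists_eq_X_pow_mul a c
  rw [hw, PowerSeries.coeff_X_pow_mul', if_neg (by omega)]

theorem coeff_E4Q_pow_mul_DQ_pow_self (a c : ℕ) :
    (E4Q ^ a * DQ ^ c).coeff c = 1 := by
  obtain ⟨w, hw1, hw⟩ := exists_eq_X_pow_mul a c
  rw [hw, PowerSeries.coeff_X_pow_mul', if_pos le_rfl, Nat.sub_self,
    PowerSeries.coeff_zero_eq_constantCoeff_apply, hw1]

/-! ### Rational level-one forms of weight `12 m` are in the span -/

/-- The basis elements `E4Q ^ (3 b) * DQ ^ (m - b)`. -/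
def basisQ (m b : ℕ) : PowerSeries ℚ := E4Q ^ (3 * b) * DQ ^ (m - b)

theorem ι_smul (c : ℚ) (x : PowerSeries ℚ) : ι (c • x) = (c : ℂ) • ι x := by
  ext n
  simp

/-- `gForm` indexed by the exponent of `Δ`, total in `j`. -/
def gForm' (m j : ℕ) : ModularForm 𝒮ℒ (12 * (m : ℤ)) :=
  if h : j ≤ m then gForm m (m - j) j (by omega) else 0

theorem qExpansion_gForm' (m j : ℕ) (hj : j ≤ m) :
    qExpansion 1 (gForm' m j) = ι (E4Q ^ (3 * (m - j)) * DQ ^ j) := by
  rw [gForm', dif_pos hj, qExpansion_gForm]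

theorem mem_span_of_qExpansion_eq (m : ℕ) (F : ModularForm 𝒮ℒ (12 * (m : ℤ)))
    (φ : PowerSeries ℚ) (hF : qExpansion 1 F = ι φ) :
    φ ∈ Submodule.span ℚ (Set.range fun b : Fin (m + 1) => basisQ m b) := by
  set e : ℕ → PowerSeries ℚ := fun j => E4Q ^ (3 * (m - j)) * DQ ^ j with he
  obtain ⟨c, hc⟩ := exists_coeff_sub_sum_eq_zero e
    (fun j i hi => coeff_E4Q_pow_mul_DQ_pow_of_lt _ j i hi)
    (fun j => coeff_E4Q_pow_mul_DQ_pow_self _ j) φ (m + 1)
  set G : ModularForm 𝒮ℒ (12 * (m : ℤ)) :=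
    F - ∑ j ∈ Finset.range (m + 1), (c j : ℂ) • gForm' m j with hG
  have hqG : qExpansion 1 G = ι (φ - ∑ j ∈ Finset.range (m + 1), c j • e j) := by
    have h1 : qExpL _ G = qExpL _ F - ∑ j ∈ Finset.range (m + 1), (c j : ℂ) • qExpL _ (gForm' m j) := by
      rw [hG, map_sub, map_sum]
      simp only [map_smul]
    rw [← qExpL_apply, h1, qExpL_apply, hF, map_sub, map_sum]
    congr 1
    refine Finset.sum_congr rfl fun j hj => ?_
    rw [qExpL_apply, qExpansion_gForm' m j (by simpa [Nat.lt_succ_iff] using hj), ι_smul]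
  have hG0 : G = 0 := by
    refine ModularForm.levelOne_eq_zero_of_lt_order_qExpansion 1 one_pos G ?_
    have h12 : (12 * (m : ℤ)).toNat / 12 = m := by omega
    rw [h12, Nat.cast_one, one_mul, hqG]
    refine lt_of_lt_of_le ?_ (PowerSeries.nat_le_order _ (m + 1) fun i hi => ?_)
    · exact_mod_cast Nat.lt_succ_self m
    · rw [PowerSeries.coeff_map, hc i hi, map_zero]
  have hφ : φ = ∑ j ∈ Finset.range (m + 1), c j • e j := by
    have h0 : ι (φ - ∑ j ∈ Finset.range (m + 1), c j • e j) = 0 := by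
      rw [← hqG, hG0]
      exact qExpansion_zero 1
    exact sub_eq_zero.mp (ι_injective (by rw [h0, map_zero]))
  rw [hφ]
  refine Submodule.sum_mem _ fun j hj => Submodule.smul_mem _ _ (Submodule.subset_span ?_)
  have hj' : j ≤ m := by simpa [Nat.lt_succ_iff] using hj
  refine ⟨⟨m - j, by omega⟩, ?_⟩
  simp only [basisQ, he]
  congr 2
  omega

/-! ### The formal Hecke operator -/

/-- The formal Hecke operator `U_p + p^(k-1) V_p` on `ℚ⟦X⟧`. -/
def formalHecke (k p : ℕ) (f : PowerSeries ℚ) : PowerSeries ℚ :=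
  PowerSeries.mk fun n =>
    PowerSeries.coeff (p * n) f + if p ∣ n then (p : ℚ) ^ (k - 1) * PowerSeries.coeff (n / p) f else 0

theorem coeff_formalHecke (k p : ℕ) (f : PowerSeries ℚ) (n : ℕ) :
    (formalHecke k p f).coeff n =
      PowerSeries.coeff (p * n) f + if p ∣ n then (p : ℚ) ^ (k - 1) * PowerSeries.coeff (n / p) f else 0 := by
  rw [formalHecke, PowerSeries.coeff_mk]

theorem formalHecke_add (k p : ℕ) (f g : PowerSeries ℚ) :
    formalHecke k p (f + g) = formalHecke k p f + formalHecke k p g := by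
  ext n
  simp only [coeff_formalHecke, map_add]
  split_ifs <;> ring

theorem formalHecke_smul (k p : ℕ) (c : ℚ) (f : PowerSeries ℚ) :
    formalHecke k p (c • f) = c • formalHecke k p f := by
  ext n
  simp only [coeff_formalHecke, PowerSeries.coeff_smul, smul_eq_mul]
  split_ifs <;> ring

/-- The formal Hecke operator as a `ℚ`-linear map. -/
def formalHeckeL (k p : ℕ) : PowerSeries ℚ →ₗ[ℚ] PowerSeries ℚ where
  toFun := formalHecke k p
  map_add' := formalHecke_add k p
  map_smul' := formalHecke_smul k p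

theorem formalHeckeL_apply (k p : ℕ) (f : PowerSeries ℚ) :
    formalHeckeL k p f = formalHecke k p f := rfl

/-- The `q`-expansion of `T_p F` is the formal Hecke image (weight `12 m`, `m ≥ 1`). -/
theorem qExpansion_heckeForm_eq (m : ℕ) (hm : 0 < m) (p : ℕ) (hp : p.Prime)
    (F : ModularForm 𝒮ℒ (12 * (m : ℤ))) (φ : PowerSeries ℚ) (hF : qExpansion 1 F = ι φ) :
    qExpansion 1 (heckeForm (12 * (m : ℤ)) p hp F) = ι (formalHecke (12 * m) p φ) := by
  ext n
  rw [qExpansion_heckeForm_coeff, ModularForm.coeffHeckeT_apply, hF, PowerSeries.coeff_map,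
    PowerSeries.coeff_map, PowerSeries.coeff_map, coeff_formalHecke, mul_comm n p]
  have hexp : (12 * (m : ℤ) - 1) = ((12 * m - 1 : ℕ) : ℤ) := by omega
  rw [hexp, zpow_natCast]
  split_ifs with h
  · push_cast
    rfl
  · simp

/-- **(AN)**: formal Hecke stability of the span of `E4Q ^ (3 b) * DQ ^ (m - b)`, `b ≤ m`. -/
theorem formalHecke_mem_span (p : ℕ) (hp : p.Prime) (m a : ℕ) (ha : a ≤ m) :
    formalHecke (12 * m) p (basisQ m a) ∈
      Submodule.span ℚ (Set.range fun b : Fin (m + 1) => basisQ m b) := by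
  rcases Nat.eq_zero_or_pos m with rfl | hm
  · have ha0 : a = 0 := by omega
    subst ha0
    have h1 : basisQ 0 0 = 1 := by simp [basisQ]
    have h2 : formalHecke (12 * 0) p (1 : PowerSeries ℚ) = (2 : ℚ) • (1 : PowerSeries ℚ) := by
      ext n
      rw [coeff_formalHecke, PowerSeries.coeff_smul, PowerSeries.coeff_one, PowerSeries.coeff_one,
        PowerSeries.coeff_one]
      rcases Nat.eq_zero_or_pos n with rfl | hn
      · simp
        norm_num
      · have h3 : p * n ≠ 0 := Nat.mul_ne_zero hp.ne_zero hn.ne'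
        rw [if_neg h3, if_neg hn.ne']
        split_ifs with h4 h5
        · exact absurd h5 (Nat.div_pos (Nat.le_of_dvd hn h4) hp.pos).ne'
        · simp
        · simp
    rw [h1, h2]
    exact Submodule.smul_mem _ _ (Submodule.subset_span ⟨⟨0, by omega⟩, h1⟩)
  · have hq : qExpansion 1 (gForm m a (m - a) (by omega)) = ι (basisQ m a) := by
      rw [qExpansion_gForm, basisQ]
    exact mem_span_of_qExpansion_eq m _ _
      (qExpansion_heckeForm_eq m hm p hp (gForm m a (m - a) (by omega)) (basisQ m a) hq)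

/-- Linear version: the whole span is stable. -/
theorem formalHecke_mem_span_of_mem (p : ℕ) (hp : p.Prime) (m : ℕ) (f : PowerSeries ℚ)
    (hf : f ∈ Submodule.span ℚ (Set.range fun b : Fin (m + 1) => basisQ m b)) :
    formalHecke (12 * m) p f ∈ Submodule.span ℚ (Set.range fun b : Fin (m + 1) => basisQ m b) := by
  have hle : Submodule.map (formalHeckeL (12 * m) p)
      (Submodule.span ℚ (Set.range fun b : Fin (m + 1) => basisQ m b)) ≤
      Submodule.span ℚ (Set.range fun b : Fin (m + 1) => basisQ m b) := by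
    rw [Submodule.map_span_le]
    rintro _ ⟨b, rfl⟩
    exact formalHecke_mem_span p hp m b (by omega)
  exact hle (Submodule.mem_map_of_mem hf)

/-- Coefficient form. -/
theorem exists_formalHecke_eq_sum (p : ℕ) (hp : p.Prime) (m a : ℕ) (ha : a ≤ m) :
    ∃ c : Fin (m + 1) → ℚ,
      formalHecke (12 * m) p (basisQ m a) = ∑ b : Fin (m + 1), c b • basisQ m b := by
  obtain ⟨c, hc⟩ := (Submodule.mem_span_range_iff_exists_fun ℚ).mp (formalHecke_mem_span p hp m a ha)
  exact ⟨c, hc.symm⟩

/-- The statement in fully unfolded form (no definitions of this file in the statement). -/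
theorem formalHecke_mem_span_unfolded (p : ℕ) (hp : p.Prime) (m a : ℕ) (ha : a ≤ m) :
    (PowerSeries.mk fun n =>
        PowerSeries.coeff (p * n)
            ((ModularCurve.eisenstein4.map (Int.castRingHom ℚ)) ^ (3 * a) *
              ((PowerSeries.X * ModularCurve.dedekindEtaUnit).map (Int.castRingHom ℚ)) ^ (m - a)) +
          if p ∣ n then (p : ℚ) ^ (12 * m - 1) *
            PowerSeries.coeff (n / p)
              ((ModularCurve.eisenstein4.map (Int.castRingHom ℚ)) ^ (3 * a) *
                ((PowerSeries.X * ModularCurve.dedekindEtaUnit).map (Int.castRingHom ℚ)) ^ (m - a))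
          else 0) ∈
      Submodule.span ℚ (Set.range fun b : Fin (m + 1) =>
        (ModularCurve.eisenstein4.map (Int.castRingHom ℚ)) ^ (3 * (b : ℕ)) *
          ((PowerSeries.X * ModularCurve.dedekindEtaUnit).map (Int.castRingHom ℚ)) ^ (m - (b : ℕ))) :=
  formalHecke_mem_span p hp m a ha

end

end Fermat.Agent.S28.FormalHecke
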