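import Mathlib
import Fermat.Prelude.Def_ModularCurve_IgusaScheme

/-!
# S28, work package 1: scheme plumbing

The Igusa scheme is glued from the two affine charts `Spec (chartAlgFin)` and `Spec (chartAlgInf)`
along `Spec (chartAlgMid)`.  We show that its base change along `ℤ_(ℓ) → K` is an integral scheme
as soon as `chartAlgFin ⊗ K` and `chartAlgInf ⊗ K` are domains and `chartAlgMid ⊗ K` is nontrivial
(`isIntegral_pullback_of_charts`).  This reduces S28 to three purely ring-theoretic facts.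
-/

set_option autoImplicit false

open CategoryTheory CategoryTheory.Limits AlgebraicGeometry TopologicalSpace
open ModularCurve ModularCurve.IgusaScheme TensorProduct

namespace Fermat.Agent.S28

universe u

/-- A scheme covered by integral open subschemes that pairwise meet is integral. -/
theorem isIntegral_of_openCover {X : Scheme.{u}} (𝒰 : X.OpenCover) [Nonempty 𝒰.I₀]
    (h : ∀ i, IsIntegral (𝒰.X i))
    (hn : ∀ i j, ((Set.range (𝒰.f i)) ∩ (Set.range (𝒰.f j))).Nonempty) :
    IsIntegral X := by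
  have hred : IsReduced X := IsReduced.of_openCover X 𝒰
  have hpre : PreirreducibleSpace X := by
    refine PreirreducibleSpace.of_isOpenCover (U := fun i => (𝒰.f i).opensRange) ?_ ?_ ?_
    · intro i j _ hd
      obtain ⟨x, hx1, hx2⟩ := hn i j
      exact hd.le_bot (show x ∈ (𝒰.f i).opensRange ⊓ (𝒰.f j).opensRange from ⟨hx1, hx2⟩)
    · exact 𝒰.iSup_opensRange
    · intro i
      have h1 : IsIrreducible (Set.range (𝒰.f i)) := by
        rw [← Set.image_univ]
        exact (IrreducibleSpace.isIrreducible_univ (𝒰.X i)).image _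
          (𝒰.f i).continuous.continuousOn
      exact Subtype.preirreducibleSpace (s := ((𝒰.f i).opensRange : Set X)) h1.isPreirreducible
  have hne : Nonempty X := by
    obtain ⟨i⟩ := ‹Nonempty 𝒰.I₀›
    obtain ⟨x, -⟩ := hn i i
    exact ⟨x⟩
  have : IrreducibleSpace X := { hpre with toNonempty := hne }
  exact isIntegral_of_irreducibleSpace_of_isReduced X

/-- A point of a fibre product whose first projection factors through `j` lies in the range of
the base change of `j`. -/
theorem mem_range_pullback_map {X Y Z T U : Scheme.{u}} (j : U ⟶ X) (f : X ⟶ Z)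
    (g : Y ⟶ Z) (m : T ⟶ pullback f g) (a : T ⟶ U)
    (ha : a ≫ j = m ≫ pullback.fst f g) (t : T) :
    m t ∈ Set.range (pullback.map (j ≫ f) g f g j (𝟙 Y) (𝟙 Z) (by simp) (by simp)) := by
  have h : a ≫ j ≫ f = (m ≫ pullback.snd f g) ≫ g := by
    rw [← Category.assoc, ha, Category.assoc, Category.assoc, pullback.condition]
  have hm : m = pullback.lift a (m ≫ pullback.snd f g) h ≫
      pullback.map (j ≫ f) g f g j (𝟙 Y) (𝟙 Z) (by simp) (by simp) := by
    apply pullback.hom_ext
    · rw [Category.assoc, pullback.lift_fst, pullback.lift_fst_assoc, ha]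
    · rw [Category.assoc, pullback.lift_snd, pullback.lift_snd_assoc, Category.comp_id]
  refine ⟨pullback.lift a (m ≫ pullback.snd f g) h t, ?_⟩
  rw [← Scheme.Hom.comp_apply, ← hm]

variable (N : ℕ) [NeZero N] (ℓ : ℕ) [Fact ℓ.Prime]

/-- The objects of the two-chart cover of the Igusa scheme. -/
noncomputable def igusaCoverObj : Bool → Scheme.{0}
  | true => XFin N ℓ
  | false => XInf N ℓ

/-- The maps of the two-chart cover of the Igusa scheme. -/
noncomputable def igusaCoverMap : (b : Bool) → igusaCoverObj N ℓ b ⟶ ModularCurve.IgusaScheme N ℓ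
  | true => ιFin N ℓ
  | false => ιInf N ℓ

instance (b : Bool) : IsOpenImmersion (igusaCoverMap N ℓ b) := by
  cases b
  · exact isOpenImmersion_ιInf N ℓ
  · exact isOpenImmersion_ιFin N ℓ

/-- The two-chart cover of the Igusa scheme. -/
noncomputable def igusaOpenCover : (ModularCurve.IgusaScheme N ℓ).OpenCover :=
  Scheme.Cover.mkOfCovers Bool (igusaCoverObj N ℓ) (igusaCoverMap N ℓ)
    (fun x => by
      rcases mem_range_ιFin_or_mem_range_ιInf N ℓ x with ⟨y, hy⟩ | ⟨y, hy⟩
      · exact ⟨true, y, hy⟩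
      · exact ⟨false, y, hy⟩)
    (fun b => inferInstance)

variable (K : Type) [Field K] [Algebra ↥(GaloisRep.ratLocalizedAt ℓ) K]

/-- **Scheme plumbing for S28.** The base change of the Igusa scheme to `K` is integral as soon as
the two chart algebras stay domains after tensoring with `K` and the overlap algebra stays
nontrivial. -/
theorem isIntegral_pullback_of_charts
    (hFin : IsDomain (chartAlgFin N ℓ ⊗[↥(GaloisRep.ratLocalizedAt ℓ)] K))
    (hInf : IsDomain (chartAlgInf N ℓ ⊗[↥(GaloisRep.ratLocalizedAt ℓ)] K))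
    (hMid : Nontrivial (chartAlgMid N ℓ ⊗[↥(GaloisRep.ratLocalizedAt ℓ)] K)) :
    IsIntegral ↑(pullback (igusaTo N ℓ)
      (Spec.map (CommRingCat.ofHom (algebraMap ↥(GaloisRep.ratLocalizedAt ℓ) K)))) := by
  set g := Spec.map (CommRingCat.ofHom (algebraMap ↥(GaloisRep.ratLocalizedAt ℓ) K)) with hg
  let 𝒱 := Scheme.Pullback.openCoverOfLeft (igusaOpenCover N ℓ) (igusaTo N ℓ) g
  have hI : Nonempty 𝒱.I₀ := ⟨true⟩
  refine isIntegral_of_openCover 𝒱 ?_ ?_
  · intro b
    cases b
    · have e : 𝒱.X false ≅ Spec (.of (chartAlgInf N ℓ ⊗[↥(GaloisRep.ratLocalizedAt ℓ)] K)) :=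
        pullback.congrHom (ιInf_igusaTo N ℓ) rfl ≪≫
          pullbackSpecIso ↥(GaloisRep.ratLocalizedAt ℓ) (chartAlgInf N ℓ) K
      exact IsIntegral.of_isIso e.inv
    · have e : 𝒱.X true ≅ Spec (.of (chartAlgFin N ℓ ⊗[↥(GaloisRep.ratLocalizedAt ℓ)] K)) :=
        pullback.congrHom (ιFin_igusaTo N ℓ) rfl ≪≫
          pullbackSpecIso ↥(GaloisRep.ratLocalizedAt ℓ) (chartAlgFin N ℓ) K
      exact IsIntegral.of_isIso e.inv
  · have hne : Nonempty (Spec (CommRingCat.of
        (chartAlgMid N ℓ ⊗[↥(GaloisRep.ratLocalizedAt ℓ)] K))) := inferInstance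
    obtain ⟨z⟩ := hne
    let incL : Spec (CommRingCat.of (chartAlgMid N ℓ ⊗[↥(GaloisRep.ratLocalizedAt ℓ)] K)) ⟶
        XMid N ℓ :=
      Spec.map (CommRingCat.ofHom Algebra.TensorProduct.includeLeftRingHom)
    let incR : Spec (CommRingCat.of (chartAlgMid N ℓ ⊗[↥(GaloisRep.ratLocalizedAt ℓ)] K)) ⟶
        Spec (CommRingCat.of K) :=
      Spec.map (CommRingCat.ofHom
        (Algebra.TensorProduct.includeRight (R := ↥(GaloisRep.ratLocalizedAt ℓ))
          (A := chartAlgMid N ℓ) (B := K)).toRingHom)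
    have hFinBase : fFin N ℓ ≫
        Spec.map (CommRingCat.ofHom (algebraMap ↥(GaloisRep.ratLocalizedAt ℓ) (chartAlgFin N ℓ))) =
        Spec.map (CommRingCat.ofHom
          (algebraMap ↥(GaloisRep.ratLocalizedAt ℓ) (chartAlgMid N ℓ))) := by
      rw [← Spec.map_comp, ← CommRingCat.ofHom_comp]
      congr 2
    have hcomm : incL ≫ Spec.map (CommRingCat.ofHom
          (algebraMap ↥(GaloisRep.ratLocalizedAt ℓ) (chartAlgMid N ℓ))) = incR ≫ g := by
      simp only [incL, incR, hg, ← Spec.map_comp, ← CommRingCat.ofHom_comp]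
      congr 2
      ext a
      simp [Algebra.TensorProduct.algebraMap_apply]
    have h0 : (incL ≫ fFin N ℓ ≫ ιFin N ℓ) ≫ igusaTo N ℓ = incR ≫ g := by
      rw [Category.assoc, Category.assoc, ιFin_igusaTo, hFinBase, hcomm]
    have hgl : incL ≫ fInf N ℓ ≫ ιInf N ℓ = incL ≫ fFin N ℓ ≫ ιFin N ℓ := by
      rw [glue_condition]
    have key : ∀ b : Bool, pullback.lift (incL ≫ fFin N ℓ ≫ ιFin N ℓ) incR h0 z ∈
        Set.range (𝒱.f b) := by
      intro b
      cases b
      · refine mem_range_pullback_map (ιInf N ℓ) (igusaTo N ℓ) g _ (incL ≫ fInf N ℓ) ?_ z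
        rw [pullback.lift_fst, Category.assoc, hgl]
      · refine mem_range_pullback_map (ιFin N ℓ) (igusaTo N ℓ) g _ (incL ≫ fFin N ℓ) ?_ z
        rw [pullback.lift_fst, Category.assoc]
    intro i j
    exact ⟨_, key i, key j⟩

/-- Variant of `isIntegral_pullback_of_charts` with the tensor factors in the other order. -/
theorem isIntegral_pullback_of_charts'
    (hFin : IsDomain (K ⊗[↥(GaloisRep.ratLocalizedAt ℓ)] chartAlgFin N ℓ))
    (hInf : IsDomain (K ⊗[↥(GaloisRep.ratLocalizedAt ℓ)] chartAlgInf N ℓ))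
    (hMid : Nontrivial (K ⊗[↥(GaloisRep.ratLocalizedAt ℓ)] chartAlgMid N ℓ)) :
    IsIntegral ↑(pullback (igusaTo N ℓ)
      (Spec.map (CommRingCat.ofHom (algebraMap ↥(GaloisRep.ratLocalizedAt ℓ) K)))) := by
  refine isIntegral_pullback_of_charts N ℓ K ?_ ?_ ?_
  · exact (Algebra.TensorProduct.comm ↥(GaloisRep.ratLocalizedAt ℓ)
      (chartAlgFin N ℓ) K).toMulEquiv.isDomain _
  · exact (Algebra.TensorProduct.comm ↥(GaloisRep.ratLocalizedAt ℓ)
      (chartAlgInf N ℓ) K).toMulEquiv.isDomain _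
  · exact (Algebra.TensorProduct.comm ↥(GaloisRep.ratLocalizedAt ℓ)
      (chartAlgMid N ℓ) K).toEquiv.nontrivial

/-- Variant: all three tensor products are domains. -/
theorem isIntegral_pullback_of_isDomain
    (hFin : IsDomain (chartAlgFin N ℓ ⊗[↥(GaloisRep.ratLocalizedAt ℓ)] K))
    (hInf : IsDomain (chartAlgInf N ℓ ⊗[↥(GaloisRep.ratLocalizedAt ℓ)] K))
    (hMid : IsDomain (chartAlgMid N ℓ ⊗[↥(GaloisRep.ratLocalizedAt ℓ)] K)) :
    IsIntegral ↑(pullback (igusaTo N ℓ)
      (Spec.map (CommRingCat.ofHom (algebraMap ↥(GaloisRep.ratLocalizedAt ℓ) K)))) :=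
  isIntegral_pullback_of_charts N ℓ K hFin hInf hMid.toNontrivial

end Fermat.Agent.S28
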