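/-
S28, WP6 (AN2): level-one modular forms of weight `12 m` are spanned by `E₄^(3a) Δ^(m-a)`,
`a ≤ m`, stated for `q`-expansions and the formal series of the prelude; descent of span
membership from `ℂ` to `ℚ`.
-/
import Mathlib
import Fermat.Prelude.Def_ModularCurve_X0
import Fermat.Agent.S28.EtaBridge

set_option autoImplicit false

open UpperHalfPlane ModularForm
open scoped MatrixGroups ModularForm

namespace Fermat.Agent.S28.AN

noncomputable section

/-- The formal series `E₄^(3a) Δ^(m-a)` over `ℤ` (of "weight `12 m`"). -/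
def basisZ (m a : ℕ) : PowerSeries ℤ :=
  ModularCurve.eisenstein4 ^ (3 * a) * (PowerSeries.X * ModularCurve.dedekindEtaUnit) ^ (m - a)

theorem constantCoeff_basisZ_self (m : ℕ) : PowerSeries.constantCoeff (basisZ m m) = 1 := by
  simp [basisZ]

theorem mul_basisZ (m a : ℕ) (ha : a ≤ m) :
    (PowerSeries.X * ModularCurve.dedekindEtaUnit) * basisZ m a = basisZ (m + 1) a := by
  rw [basisZ, basisZ, Nat.succ_sub ha, pow_succ]
  ring

/-- `Δ` as a modular form of weight `12`. -/
def deltaForm : ModularForm 𝒮ℒ 12 := (CuspForm.discriminant : ModularForm 𝒮ℒ 12)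

theorem qExpansion_deltaForm :
    qExpansion 1 deltaForm =
      (PowerSeries.X * ModularCurve.dedekindEtaUnit).map (Int.castRingHom ℂ) :=
  AnBridge.qExpansion_discriminant_eq

theorem weight_eq (m a : ℕ) (ha : a ≤ m) :
    ((3 * a : ℕ) : ℤ) * 4 + ((m - a : ℕ) : ℤ) * 12 = ((12 * m : ℕ) : ℤ) := by
  rw [Nat.cast_sub ha]
  push_cast
  ring

/-- `E₄^(3a) Δ^(m-a)` as a modular form of weight `12 m`. -/
def formBasis (m a : ℕ) (ha : a ≤ m) : ModularForm 𝒮ℒ ((12 * m : ℕ) : ℤ) :=
  ModularForm.mcast (weight_eq m a ha) ((E₄.pow (3 * a)).mul (deltaForm.pow (m - a)))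

theorem qExpansion_formBasis (m a : ℕ) (ha : a ≤ m) :
    qExpansion 1 (formBasis m a ha) = (basisZ m a).map (Int.castRingHom ℂ) := by
  rw [formBasis, ModularForm.qExpansion_mcast,
    ModularForm.qExpansion_mul one_pos one_mem_strictPeriods_SL,
    ModularForm.qExpansion_pow one_pos one_mem_strictPeriods_SL,
    ModularForm.qExpansion_pow one_pos one_mem_strictPeriods_SL,
    qExpansion_deltaForm, AnBridge.qExpansion_E4_eq, basisZ]
  simp only [map_mul, map_pow]

/-- **(AN2a)** Every formal basis element is the `q`-expansion of a level-one form of weight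
`12 m`. -/
theorem exists_form_qExpansion (m a : ℕ) (ha : a ≤ m) :
    ∃ F : ModularForm 𝒮ℒ ((12 * m : ℕ) : ℤ),
      qExpansion 1 F = (basisZ m a).map (Int.castRingHom ℂ) :=
  ⟨formBasis m a ha, qExpansion_formBasis m a ha⟩

theorem coeff_zero_formBasis_self (m : ℕ) :
    (qExpansion 1 (formBasis m m le_rfl)).coeff 0 = 1 := by
  rw [qExpansion_formBasis, PowerSeries.coeff_map, PowerSeries.coeff_zero_eq_constantCoeff_apply,
    constantCoeff_basisZ_self]
  simp

/-- Subtracting the constant term times a form with constant term `1` leaves a multiple of `Δ`. -/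
theorem exists_eq_smul_add_delta_mul {k : ℤ} (F G : ModularForm 𝒮ℒ k)
    (hG : (qExpansion 1 G).coeff 0 = 1) :
    ∃ F' : ModularForm 𝒮ℒ (k - 12),
      qExpansion 1 F = (qExpansion 1 F).coeff 0 • qExpansion 1 G +
        qExpansion 1 ModularForm.discriminant * qExpansion 1 F' := by
  have hcusp := sub_smul_isCuspForm F G hG
  have hH := (isCuspForm_iff_coeffZero_eq_zero _).1 hcusp
  refine ⟨CuspForm.discriminantEquiv (toCuspForm _ hH), ?_⟩
  have h1 := qExpansion_eq_qExpansion_discriminant_mul _ hH
  rw [FunLike.coe_sub, ModularForm.qExpansion_sub one_pos one_mem_strictPeriods_SL,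
    FunLike.coe_smul, ModularForm.qExpansion_smul one_pos one_mem_strictPeriods_SL] at h1
  rw [← h1]
  exact (add_sub_cancel _ _).symm

/-- **(AN2b)** The `q`-expansion of every level-one modular form of weight `12 m` lies in the
`ℂ`-span of the formal series `E₄^(3a) Δ^(m-a)`, `a ≤ m`. -/
theorem qExpansion_mem_span (m : ℕ) (F : ModularForm 𝒮ℒ ((12 * m : ℕ) : ℤ)) :
    qExpansion 1 F ∈ Submodule.span ℂ
      (Set.range fun a : Fin (m + 1) => (basisZ m a).map (Int.castRingHom ℂ)) := by
  induction m with
  | zero =>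
    obtain ⟨F', hF'⟩ := exists_eq_smul_add_delta_mul F (formBasis 0 0 le_rfl)
      (coeff_zero_formBasis_self 0)
    have h0 : (⇑F' : ℍ → ℂ) = 0 :=
      ModularFormClass.levelOne_neg_weight_eq_zero (by norm_num) F'
    have h1 : qExpansion 1 (⇑F' : ℍ → ℂ) = 0 := by rw [h0, qExpansion_zero]
    rw [hF', h1, mul_zero (qExpansion 1 ModularForm.discriminant), add_zero, qExpansion_formBasis]
    exact Submodule.smul_mem _ _ (Submodule.subset_span ⟨0, rfl⟩)
  | succ m ih =>
    obtain ⟨F', hF'⟩ := exists_eq_smul_add_delta_mul F (formBasis (m + 1) (m + 1) le_rfl)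
      (coeff_zero_formBasis_self (m + 1))
    have hw : ((12 * (m + 1) : ℕ) : ℤ) - 12 = ((12 * m : ℕ) : ℤ) := by
      push_cast
      ring
    have ih' := ih (ModularForm.mcast hw F')
    rw [ModularForm.qExpansion_mcast] at ih'
    rw [hF']
    refine add_mem (Submodule.smul_mem _ _ ?_) ?_
    · rw [qExpansion_formBasis]
      exact Submodule.subset_span ⟨Fin.last (m + 1), rfl⟩
    · rw [AnBridge.qExpansion_discriminant_eq]
      generalize qExpansion 1 (⇑F' : ℍ → ℂ) = x at ih' ⊢
      induction ih' using Submodule.span_induction with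
      | mem x hx =>
        obtain ⟨a, rfl⟩ := hx
        rw [← map_mul, mul_basisZ m a (Nat.lt_succ_iff.mp a.2)]
        exact Submodule.subset_span ⟨a.castSucc, rfl⟩
      | zero => rw [mul_zero]; exact Submodule.zero_mem _
      | add x y _ _ hx hy => rw [mul_add]; exact add_mem hx hy
      | smul c x _ hx => rw [mul_smul_comm]; exact Submodule.smul_mem _ c hx

/-- **Descent `ℂ → ℚ`.** If the base change of a rational power series lies in the `ℂ`-span of
the base changes of rational power series `g i`, then it lies in their `ℚ`-span. -/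
theorem mem_span_rat_of_map_mem_span {ι : Type*} (g : ι → PowerSeries ℚ) (h : PowerSeries ℚ)
    (hh : h.map (algebraMap ℚ ℂ) ∈
      Submodule.span ℂ (Set.range fun i => (g i).map (algebraMap ℚ ℂ))) :
    h ∈ Submodule.span ℚ (Set.range g) := by
  have key : ∀ x ∈ Submodule.span ℂ (Set.range fun i => (g i).map (algebraMap ℚ ℂ)),
      ∀ μ : ℂ →ₗ[ℚ] ℚ, (PowerSeries.mk fun n => μ (PowerSeries.coeff n x)) ∈
        Submodule.span ℚ (Set.range g) := by
    intro x hx
    induction hx using Submodule.span_induction with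
    | mem x hx =>
      obtain ⟨i, rfl⟩ := hx
      intro μ
      have h1 : (PowerSeries.mk fun n => μ (PowerSeries.coeff n ((g i).map (algebraMap ℚ ℂ)))) =
          μ 1 • g i := by
        ext n
        rw [PowerSeries.coeff_mk, PowerSeries.coeff_map, PowerSeries.coeff_smul,
          Algebra.algebraMap_eq_smul_one, map_smul, smul_eq_mul, smul_eq_mul, mul_comm]
      rw [h1]
      exact Submodule.smul_mem _ _ (Submodule.subset_span ⟨i, rfl⟩)
    | zero =>
      intro μ
      have h1 : (PowerSeries.mk fun n => μ (PowerSeries.coeff n (0 : PowerSeries ℂ))) = 0 := by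
        ext n
        simp
      rw [h1]
      exact Submodule.zero_mem _
    | add x y _ _ hx hy =>
      intro μ
      have h1 : (PowerSeries.mk fun n => μ (PowerSeries.coeff n (x + y))) =
          (PowerSeries.mk fun n => μ (PowerSeries.coeff n x)) +
            (PowerSeries.mk fun n => μ (PowerSeries.coeff n y)) := by
        ext n
        simp
      rw [h1]
      exact add_mem (hx μ) (hy μ)
    | smul c x _ hx =>
      intro μ
      have h1 : (PowerSeries.mk fun n => μ (PowerSeries.coeff n (c • x))) =
          (PowerSeries.mk fun n => (μ.comp (LinearMap.mulLeft ℚ c)) (PowerSeries.coeff n x)) := by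
        ext n
        simp
      rw [h1]
      exact hx _
  obtain ⟨lam, hlam⟩ := LinearMap.exists_leftInverse_of_injective (Algebra.linearMap ℚ ℂ)
    (LinearMap.ker_eq_bot.2 (algebraMap ℚ ℂ).injective)
  have h2 := key _ hh lam
  have h3 : (PowerSeries.mk fun n => lam (PowerSeries.coeff n (h.map (algebraMap ℚ ℂ)))) = h := by
    ext n
    rw [PowerSeries.coeff_mk, PowerSeries.coeff_map]
    exact LinearMap.congr_fun hlam (PowerSeries.coeff n h)
  rwa [h3] at h2

end

end Fermat.Agent.S28.AN
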