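/-
S28, WP6 (AN3): the formal Hecke operator `U_p + p^(k-1) V_p` preserves the `ℚ`-span of the
formal series `E₄^(3a) Δ^(m-a)`, `a ≤ m` (weight `k = 12 m`).
-/
import Mathlib
import Fermat.Prelude.Def_ModularCurve_X0
import Fermat.Prelude.Def_FLTPrelim_Modularity
import Fermat.Prelude.Def_ModularForm_HeckeOperatorForms
import Fermat.Prelude.Thm_ModularFormClass_qCoeff_heckeT
import Fermat.Agent.S28.LevelOneBasis

set_option autoImplicit false

open UpperHalfPlane ModularForm
open scoped MatrixGroups ModularForm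

namespace Fermat.Agent.S28.AN

noncomputable section

theorem gamma0_one_coe_eq_SL :
    ((CongruenceSubgroup.Gamma0 1 : Subgroup SL(2, ℤ)) : Subgroup (GL (Fin 2) ℝ)) = 𝒮ℒ := by
  have h : CongruenceSubgroup.Gamma0 1 = ⊤ := by
    ext A
    simp only [CongruenceSubgroup.Gamma0_mem, Subgroup.mem_top, iff_true]
    exact Subsingleton.elim _ _
  rw [h]
  simp [MonoidHom.range_eq_map]

/-- The Hecke operator `T_p` on level-one modular forms. -/
def heckeOne (k : ℤ) {p : ℕ} (hp : p.Prime) (F : ModularForm 𝒮ℒ k) : ModularForm 𝒮ℒ k :=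
  ModularForm.mcast rfl
    (ModularForm.heckeTLin (N := 1) k hp (by simpa using hp.one_lt.ne')
      (ModularForm.mcast rfl F gamma0_one_coe_eq_SL))
    gamma0_one_coe_eq_SL.symm

theorem coe_heckeOne (k : ℤ) {p : ℕ} (hp : p.Prime) (F : ModularForm 𝒮ℒ k) :
    (⇑(heckeOne k hp F) : ℍ → ℂ) = ModularForm.heckeT k p ⇑F := rfl

theorem coeff_qExpansion_heckeOne (k : ℤ) {p : ℕ} (hp : p.Prime) (F : ModularForm 𝒮ℒ k) (n : ℕ) :
    (qExpansion 1 (heckeOne k hp F)).coeff n =
      (qExpansion 1 F).coeff (n * p) +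
        if p ∣ n then (p : ℂ) ^ (k - 1) * (qExpansion 1 F).coeff (n / p) else 0 := by
  have h := ModularFormClass.qCoeff_heckeT (k := k) F one_mem_strictPeriods_SL hp.ne_zero n
  rw [coe_heckeOne]
  exact h

/-- The formal `E₄` over `ℚ`. -/
def E4Q : PowerSeries ℚ := ModularCurve.eisenstein4.map (Int.castRingHom ℚ)

/-- The formal `Δ = q ∏ (1 - qⁿ)^24` over `ℚ`. -/
def DQ : PowerSeries ℚ :=
  (PowerSeries.X * ModularCurve.dedekindEtaUnit).map (Int.castRingHom ℚ)

/-- The formal Hecke operator `U_p + p^(k-1) V_p` of weight `k` on rational power series. -/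
def formalHecke (k p : ℕ) (f : PowerSeries ℚ) : PowerSeries ℚ :=
  PowerSeries.mk fun n =>
    PowerSeries.coeff (p * n) f + if p ∣ n then (p : ℚ) ^ (k - 1) * PowerSeries.coeff (n / p) f else 0

theorem coeff_formalHecke (k p : ℕ) (f : PowerSeries ℚ) (n : ℕ) :
    PowerSeries.coeff n (formalHecke k p f) =
      PowerSeries.coeff (p * n) f +
        if p ∣ n then (p : ℚ) ^ (k - 1) * PowerSeries.coeff (n / p) f else 0 := by
  rw [formalHecke, PowerSeries.coeff_mk]

theorem formalHecke_add (k p : ℕ) (f g : PowerSeries ℚ) :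
    formalHecke k p (f + g) = formalHecke k p f + formalHecke k p g := by
  ext n
  simp only [coeff_formalHecke, map_add]
  split_ifs <;> ring

theorem formalHecke_smul (k p : ℕ) (c : ℚ) (f : PowerSeries ℚ) :
    formalHecke k p (c • f) = c • formalHecke k p f := by
  ext n
  simp only [coeff_formalHecke, PowerSeries.coeff_smul, smul_eq_mul]
  split_ifs <;> ring

theorem formalHecke_zero (k p : ℕ) : formalHecke k p 0 = 0 := by
  ext n
  simp [coeff_formalHecke]

theorem basisZ_map_rat (m a : ℕ) :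
    (basisZ m a).map (Int.castRingHom ℚ) = E4Q ^ (3 * a) * DQ ^ (m - a) := by
  simp only [basisZ, E4Q, DQ, map_mul, map_pow]

theorem map_map_basisZ (m a : ℕ) :
    ((basisZ m a).map (Int.castRingHom ℚ)).map (algebraMap ℚ ℂ) =
      (basisZ m a).map (Int.castRingHom ℂ) := by
  ext n
  simp [PowerSeries.coeff_map]

/-- The base change to `ℂ` of the formal Hecke image of a basis element is the `q`-expansion of
the Hecke image of the corresponding level-one form. -/
theorem map_formalHecke_basis {p : ℕ} (hp : p.Prime) (m a : ℕ) (hm : 0 < m) (ha : a ≤ m) :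
    (formalHecke (12 * m) p ((basisZ m a).map (Int.castRingHom ℚ))).map (algebraMap ℚ ℂ) =
      qExpansion 1 (heckeOne ((12 * m : ℕ) : ℤ) hp (formBasis m a ha)) := by
  ext n
  rw [coeff_qExpansion_heckeOne, qExpansion_formBasis, PowerSeries.coeff_map, coeff_formalHecke]
  have hk : (((12 * m : ℕ) : ℤ) - 1) = ((12 * m - 1 : ℕ) : ℤ) := by
    have : 1 ≤ 12 * m := by omega
    rw [Nat.cast_sub this]
    simp
  rw [hk, zpow_natCast]
  simp only [PowerSeries.coeff_map, map_add, mul_comm n p]
  split_ifs with h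
  · simp
  · simp

/-- **(AN3)** Formal Hecke stability, on basis elements. -/
theorem formalHecke_mem_span (p : ℕ) (hp : p.Prime) (m a : ℕ) (ha : a ≤ m) :
    formalHecke (12 * m) p (E4Q ^ (3 * a) * DQ ^ (m - a)) ∈
      Submodule.span ℚ (Set.range fun b : Fin (m + 1) => E4Q ^ (3 * (b : ℕ)) * DQ ^ (m - (b : ℕ))) := by
  rcases Nat.eq_zero_or_pos m with rfl | hm
  · -- weight `0`: only constants
    have ha0 : a = 0 := Nat.le_zero.mp ha
    subst ha0
    have h1 : formalHecke (12 * 0) p (E4Q ^ (3 * 0) * DQ ^ (0 - 0)) = (2 : ℚ) • (1 : PowerSeries ℚ) := by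
      ext n
      rw [coeff_formalHecke]
      rcases Nat.eq_zero_or_pos n with rfl | hn
      · simp
        norm_num
      · have h2 : p * n ≠ 0 := Nat.mul_ne_zero hp.ne_zero hn.ne'
        have h3 : ∀ h : p ∣ n, n / p ≠ 0 := fun h =>
          (Nat.div_pos (Nat.le_of_dvd hn h) hp.pos).ne'
        simp only [pow_zero, Nat.sub_self, mul_one, PowerSeries.coeff_one, h2,
          if_false, zero_add, PowerSeries.coeff_smul, smul_eq_mul, hn.ne', mul_zero]
        split_ifs with h h'
        · exact absurd h' (h3 h)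
        · simp
        · rfl
    rw [h1]
    refine Submodule.smul_mem _ _ (Submodule.subset_span ⟨0, ?_⟩)
    simp
  · have h1 := qExpansion_mem_span m (heckeOne ((12 * m : ℕ) : ℤ) hp (formBasis m a ha))
    rw [← map_formalHecke_basis hp m a hm ha] at h1
    have h2 : (fun b : Fin (m + 1) => (basisZ m b).map (Int.castRingHom ℂ)) =
        fun b : Fin (m + 1) => ((basisZ m b).map (Int.castRingHom ℚ)).map (algebraMap ℚ ℂ) := by
      funext b
      exact (map_map_basisZ m b).symm
    rw [h2] at h1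
    have h3 := mem_span_rat_of_map_mem_span _ _ h1
    simp only [basisZ_map_rat] at h3
    exact h3

/-- **(AN3)** Formal Hecke stability: the formal Hecke operator of weight `12 m` preserves the
`ℚ`-span of `E₄^(3b) Δ^(m-b)`, `b ≤ m`. -/
theorem formalHecke_mem_span_of_mem (p : ℕ) (hp : p.Prime) (m : ℕ) (f : PowerSeries ℚ)
    (hf : f ∈ Submodule.span ℚ
      (Set.range fun b : Fin (m + 1) => E4Q ^ (3 * (b : ℕ)) * DQ ^ (m - (b : ℕ)))) :
    formalHecke (12 * m) p f ∈ Submodule.span ℚ
      (Set.range fun b : Fin (m + 1) => E4Q ^ (3 * (b : ℕ)) * DQ ^ (m - (b : ℕ))) := by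
  induction hf using Submodule.span_induction with
  | mem x hx =>
    obtain ⟨b, rfl⟩ := hx
    exact formalHecke_mem_span p hp m b (Nat.lt_succ_iff.mp b.2)
  | zero => rw [formalHecke_zero]; exact Submodule.zero_mem _
  | add x y _ _ hx hy => rw [formalHecke_add]; exact add_mem hx hy
  | smul c x _ hx => rw [formalHecke_smul]; exact Submodule.smul_mem _ c hx

/-- **(AN3)**, fully unfolded (no definitions from this file in the statement). -/
theorem formalHecke_mem_span' (p : ℕ) (hp : p.Prime) (m a : ℕ) (ha : a ≤ m) :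
    (PowerSeries.mk fun n =>
      PowerSeries.coeff (p * n)
          ((ModularCurve.eisenstein4.map (Int.castRingHom ℚ)) ^ (3 * a) *
            ((PowerSeries.X * ModularCurve.dedekindEtaUnit).map (Int.castRingHom ℚ)) ^ (m - a)) +
        if p ∣ n then (p : ℚ) ^ (12 * m - 1) *
          PowerSeries.coeff (n / p)
            ((ModularCurve.eisenstein4.map (Int.castRingHom ℚ)) ^ (3 * a) *
              ((PowerSeries.X * ModularCurve.dedekindEtaUnit).map (Int.castRingHom ℚ)) ^ (m - a))
        else 0) ∈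
      Submodule.span ℚ (Set.range fun b : Fin (m + 1) =>
        (ModularCurve.eisenstein4.map (Int.castRingHom ℚ)) ^ (3 * (b : ℕ)) *
          ((PowerSeries.X * ModularCurve.dedekindEtaUnit).map (Int.castRingHom ℚ)) ^ (m - (b : ℕ))) :=
  formalHecke_mem_span p hp m a ha

end

end Fermat.Agent.S28.AN
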