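import Mathlib
import Fermat.Agent.S28.TowerDefs
import Fermat.Agent.S28.Kummer.Bridge
import Fermat.Agent.S28.ConjMem

/-!
# S28, task D5: `J(q^p) ∉ K(J(q^d) : d ∣ M)` for a prime `p ∤ M`

Main results (interface types of `TowerDefs.lean`):

* `Lin.Jd_not_mem_FF` : `K` algebraically closed, `p` prime, `p ∤ M`, `p M ≠ 0` in `K`, modular
  equations for the primes dividing `p M`, base case for `p`  ⟹  `TD.Jd K p ∉ TD.FF K M 1`;
* `Lin.Jd_not_mem_FF_of_field` (and `Jd_not_mem_FF_of_field'` with `N' * p`) : the same over an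
  arbitrary field `κ` (descent along `κ → AlgebraicClosure κ`).

Proof.  Substitute `q = w^(M p)`.  By the base case `x = J(w^(M p²))` is not in
`K1 = K(J(w^(M p)))`, and `Φ_p(X, J(w^(M p)))` has `p + 1` distinct roots in `K((w))` (root list),
so the minimal polynomial of `x` over `K1` has a second root `ρ = J(ζ^b w^M)` (root counting).
Every `K1`-embedding of `K1(J(w^(M p d)) : d ∣ M)` into an algebraic closure of `K((w))` sends
`J(w^(M p d))` to some `J(c w^m)` with `M p ∣ m d` (induction along the least prime factor, root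
lists again), hence into the image of the series in `w^p`; but `ρ` is not such a series since
`p ∤ M`.  So `x` is not in that field (`ConjMem.not_mem_adjoin_of_conj_not_mem`).
-/

set_option autoImplicit false

namespace Fermat.Agent.S28.Lin

open ModularCurve Polynomial IntermediateField

noncomputable section

/-! ### Adapters -/

/-- The interface type `TD.ModEq` gives the root-list input `Kummer.ModEqData`. -/
def kummerOfTD {r : ℕ} [NeZero r] (D : TD.ModEq r) : Kummer.ModEqData r where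
  Φ := D.Φ
  monic := D.monic
  natDegree_eq := D.natDegree_eq
  rel₁ := by
    have h := D.rel₂
    rw [TD.Jd_one, TD.Jd_eq_jqNModC] at h
    rw [← Kummer.eval_specialize]
    exact h
  rel₂ := by
    have h := D.rel₁
    rw [TD.Jd_one, TD.Jd_eq_jqNModC] at h
    rw [← Kummer.eval_specialize]
    exact h

theorem polyAt_eq_specialize {S : Type*} [CommRing S] (Φ : Polynomial (Polynomial ℤ)) (y : S) :
    TD.polyAt Φ y = Kummer.specialize Φ y := rfl

/-! ### Transport along `q ↦ q ^ m` -/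

/-- `q ↦ q ^ m` maps `FF K N 1` into `FF K N m`. -/
theorem qExpand_mem_FF (K : Type*) [Field K] {N : ℕ} (hN : N ≠ 0) (m : ℕ) [NeZero m]
    {x : LaurentSeries K} (hx : x ∈ TD.FF K N 1) : qExpand K m x ∈ TD.FF K N m := by
  have h1 : (TD.FF K N 1).map (qExpandAlgHomC K m) ≤ TD.FF K N m := by
    unfold TD.FF
    rw [IntermediateField.adjoin_map]
    apply IntermediateField.adjoin.mono
    rintro _ ⟨_, ⟨d, hd, rfl⟩, rfl⟩
    have hd0 : d ≠ 0 := fun h => hN (by rw [h] at hd; exact zero_dvd_iff.1 hd)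
    refine ⟨d, hd, ?_⟩
    simp only [one_mul, qExpandAlgHomC_apply]
    exact (TD.qExpand_Jd K m d hd0).symm
  exact h1 ((IntermediateField.mem_map _).2 ⟨x, hx, rfl⟩)

/-- The base case transported by `q ↦ q ^ n`. -/
theorem not_mem_of_baseCase (K : Type) [Field K] {p : ℕ} (hp : p ≠ 0) (hpK : (p : K) ≠ 0)
    (hBC : TD.BaseCase p) (n : ℕ) [NeZero n] :
    TD.Jd K (n * p) ∉ IntermediateField.adjoin K {TD.Jd K n} := by
  intro h
  have h1 : IntermediateField.adjoin K {TD.Jd K n} =
      (IntermediateField.adjoin K {TD.Jd K 1}).map (qExpandAlgHomC K n) := by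
    rw [IntermediateField.adjoin_map, Set.image_singleton, qExpandAlgHomC_apply,
      TD.qExpand_Jd K n 1 one_ne_zero, mul_one]
  rw [h1] at h
  obtain ⟨z, hz, hzx⟩ := (IntermediateField.mem_map _).1 h
  have hzp : z = TD.Jd K p := by
    apply qExpand_injective (R := K) n
    rw [TD.qExpand_Jd K n p hp]
    exact hzx
  exact hBC K hpK (hzp ▸ hz)

/-! ### A root-counting lemma -/

/-- A divisor of degree at least two of a product of distinct linear factors has a root (among
the listed ones) different from any prescribed element. -/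
theorem exists_root_ne {L : Type*} [Field L] {ι : Type*} [Fintype ι] (ρ : ι → L)
    (hρ : Function.Injective ρ) (f : L[X]) (hf : f ∣ ∏ i, (X - C (ρ i)))
    (hdeg : 2 ≤ f.natDegree) (x : L) : ∃ i, f.eval (ρ i) = 0 ∧ ρ i ≠ x := by
  classical
  set P : L[X] := ∏ i, (X - C (ρ i)) with hP
  have hP0 : P ≠ 0 := Finset.prod_ne_zero_iff.2 fun i _ => X_sub_C_ne_zero _
  have hsep : P.Separable := separable_prod_X_sub_C_iff.2 hρ
  have hsplit : P.Splits := Splits.prod fun i _ => Splits.X_sub_C _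
  have hfsep : f.Separable := hsep.of_dvd hf
  have hfsplit : f.Splits := hsplit.of_dvd hP0 hf
  have hcard : f.roots.card = f.natDegree := hfsplit.natDegree_eq_card_roots.symm
  have hnodup : f.roots.Nodup := nodup_roots hfsep
  have hf0 : f ≠ 0 := fun h => hP0 (by rw [h] at hf; exact zero_dvd_iff.1 hf)
  -- an element of `f.roots` different from `x`
  obtain ⟨r, hr, hrx⟩ : ∃ r ∈ f.roots, r ≠ x := by
    by_contra hcon
    push Not at hcon
    have hle : f.roots ≤ {x} := by
      rw [Multiset.le_iff_subset hnodup]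
      intro r hr
      rw [Multiset.mem_singleton]
      exact hcon r hr
    have := Multiset.card_le_card hle
    rw [Multiset.card_singleton, hcard] at this
    omega
  have hr0 : f.eval r = 0 := (mem_roots hf0).1 hr
  have hPr : P.eval r = 0 := by
    obtain ⟨g, hg⟩ := hf
    rw [hg, eval_mul, hr0, zero_mul]
  rw [hP, eval_prod, Finset.prod_eq_zero_iff] at hPr
  obtain ⟨i, -, hi⟩ := hPr
  rw [eval_sub, eval_X, eval_C, sub_eq_zero] at hi
  exact ⟨i, by rw [← hi]; exact hr0, by rw [← hi]; exact hrx⟩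

/-! ### Integrality of the generators -/

/-- All `J(q^(n d))`, `d ∣ M`, are integral over any field containing the constants and
`J(q^n)`. -/
theorem isIntegral_Jd (K : Type*) [Field K] (M n : ℕ) (hM : M ≠ 0) (hn : n ≠ 0)
    (hME : ∀ r : ℕ, r.Prime → r ∣ M → Nonempty (TD.ModEq r))
    (K1 : IntermediateField K (LaurentSeries K)) (hJn : TD.Jd K n ∈ K1) :
    ∀ d, d ∣ M → IsIntegral K1 (TD.Jd K (n * d)) := by
  intro d
  induction d using Nat.strong_induction_on with
  | _ d ih =>
    intro hd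
    rcases eq_or_ne d 1 with rfl | hd1
    · rw [mul_one]
      exact isIntegral_algebraMap (R := K1) (x := ⟨TD.Jd K n, hJn⟩)
    · have hd0 : d ≠ 0 := fun h => hM (by rw [h] at hd; exact zero_dvd_iff.1 hd)
      have hrp : d.minFac.Prime := Nat.minFac_prime hd1
      obtain ⟨d0, hd0eq⟩ := Nat.minFac_dvd d
      set r := d.minFac with hr
      have hd0pos : d0 ≠ 0 := by
        rintro rfl
        exact hd0 (by rw [hd0eq, mul_zero])
      have hd0lt : d0 < d := by
        conv_rhs => rw [hd0eq]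
        exact lt_mul_of_one_lt_left (Nat.pos_of_ne_zero hd0pos) hrp.one_lt
      have hd0M : d0 ∣ M := (Dvd.intro_left r hd0eq.symm).trans hd
      have hrM : r ∣ M := (Dvd.intro d0 hd0eq.symm).trans hd
      obtain ⟨D⟩ := hME r hrp hrM
      have ih0 := ih d0 hd0lt hd0M
      have hrel := D.rel₂' hrp.ne_zero K (n * d0) (Nat.mul_ne_zero hn hd0pos)
      have hnd : n * d0 * r = n * d := by rw [hd0eq]; ring
      rw [hnd] at hrel
      let y : integralClosure K1 (LaurentSeries K) := ⟨TD.Jd K (n * d0), ih0⟩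
      have hA : IsIntegral (integralClosure K1 (LaurentSeries K)) (TD.Jd K (n * d)) := by
        refine ⟨TD.polyAt D.Φ y, TD.polyAt_monic D.monic y, ?_⟩
        rw [Polynomial.eval₂_eq_eval_map, TD.polyAt_map]
        exact hrel
      exact isIntegral_trans _ hA

/-! ### Images of the generators under an embedding -/

/-- Let `ι : E → K((w))` be injective and `φ : E → Ω` a ring homomorphism into an extension
`i : K((w)) → Ω` which agrees with `i` on (the preimage of) `J(w^n)`, where `M ∣ n`.  Then `φ`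
maps (the preimage of) every `J(w^(n d))`, `d ∣ M`, to some `i (J(c w^m))` with `n ∣ m d`. -/
theorem map_eq_JJ (K : Type*) [Field K] [IsAlgClosed K] (M n : ℕ) (hM : M ≠ 0) (hMn : M ∣ n)
    [NeZero n] (hchar : (M : K) ≠ 0)
    (hME : ∀ r : ℕ, r.Prime → r ∣ M → Nonempty (TD.ModEq r))
    {E Ω : Type*} [CommRing E] [Field Ω] (ι : E →+* LaurentSeries K)
    (hι : Function.Injective ι) (φ : E →+* Ω) (i : LaurentSeries K →+* Ω)
    (hbase : ∀ z : E, ι z = TD.Jd K n → φ z = i (TD.Jd K n))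
    (hgen : ∀ d, d ∣ M → ∃ z : E, ι z = TD.Jd K (n * d)) :
    ∀ d, d ∣ M → ∀ z : E, ι z = TD.Jd K (n * d) →
      ∃ (c : Kˣ) (m : ℕ) (_ : NeZero m), φ z = i (Kummer.JJ c m) ∧ n ∣ m * d := by
  intro d
  induction d using Nat.strong_induction_on with
  | _ d ih =>
    intro hd z hz
    rcases eq_or_ne d 1 with rfl | hd1
    · rw [mul_one] at hz
      refine ⟨1, n, inferInstance, ?_, by rw [mul_one]⟩
      rw [hbase z hz, Kummer.JJ_one, TD.Jd_eq_jqNModC]
    · have hd0 : d ≠ 0 := fun h => hM (by rw [h] at hd; exact zero_dvd_iff.1 hd)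
      have hrp : d.minFac.Prime := Nat.minFac_prime hd1
      obtain ⟨d0, hd0eq⟩ := Nat.minFac_dvd d
      set r := d.minFac with hr
      have hd0pos : d0 ≠ 0 := by
        rintro rfl
        exact hd0 (by rw [hd0eq, mul_zero])
      have hd0lt : d0 < d := by
        conv_rhs => rw [hd0eq]
        exact lt_mul_of_one_lt_left (Nat.pos_of_ne_zero hd0pos) hrp.one_lt
      have hd0M : d0 ∣ M := (Dvd.intro_left r hd0eq.symm).trans hd
      have hrM : r ∣ M := (Dvd.intro d0 hd0eq.symm).trans hd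
      obtain ⟨D⟩ := hME r hrp hrM
      obtain ⟨z0, hz0⟩ := hgen d0 hd0M
      obtain ⟨c0, m0, hm0, hφ0, hdiv0⟩ := ih d0 hd0lt hd0M z0 hz0
      have hrel := D.rel₂' hrp.ne_zero K (n * d0) (Nat.mul_ne_zero (NeZero.ne n) hd0pos)
      have hnd : n * d0 * r = n * d := by rw [hd0eq]; ring
      rw [hnd, ← hz, ← hz0, ← TD.map_eval_polyAt] at hrel
      have hrelE : (TD.polyAt D.Φ z0).eval z = 0 := hι (by rw [hrel, map_zero])
      have hrelΩ : (TD.polyAt D.Φ (φ z0)).eval (φ z) = 0 := by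
        rw [← TD.map_eval_polyAt, hrelE, map_zero]
      rw [hφ0] at hrelΩ
      have : NeZero r := ⟨hrp.ne_zero⟩
      have hev : Kummer.ev (kummerOfTD D).Φ (φ z) (i (Kummer.JJ c0 m0)) = 0 := by
        rw [← Kummer.eval_specialize]
        exact hrelΩ
      have hrK : (r : K) ≠ 0 := by
        intro h
        obtain ⟨k, hk⟩ := hrM
        apply hchar
        rw [hk, Nat.cast_mul, h, zero_mul]
      -- `r ∣ m0`
      have hrm0 : r ∣ m0 := by
        obtain ⟨k, hk⟩ := hd
        obtain ⟨k', hk'⟩ := hMn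
        obtain ⟨e, he⟩ := hdiv0
        have h1 : d0 * m0 = d0 * (r * (k * k' * e)) := by
          calc d0 * m0 = m0 * d0 := mul_comm _ _
            _ = n * e := he
            _ = d0 * (r * (k * k' * e)) := by rw [hk', hk, hd0eq]; ring
        exact ⟨k * k' * e, Nat.eq_of_mul_eq_mul_left (Nat.pos_of_ne_zero hd0pos) h1⟩
      obtain ⟨c', m', hm', hφ', hmm⟩ :=
        (kummerOfTD D).exists_JJ_of_root hrp hrK c0 m0 hrm0 i hev
      refine ⟨c', m', hm', hφ', ?_⟩
      obtain ⟨e, he⟩ := hdiv0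
      rcases hmm with hmm | hmm
      · refine ⟨e * r * r, ?_⟩
        rw [hmm, hd0eq]
        calc m0 * r * (r * d0) = (m0 * d0) * r * r := by ring
          _ = n * (e * r * r) := by rw [he]; ring
      · refine ⟨e, ?_⟩
        rw [hd0eq, ← he, ← hmm]
        ring

/-! ### A second root of the minimal polynomial of `J(w^(M p²))` over `K(J(w^(M p)))` -/

theorem exists_twisted_root (K : Type*) [Field K] (p M : ℕ) (hp : p.Prime) [NeZero M] [NeZero p]
    (ζ : Kˣ) (hζ : IsPrimitiveRoot ζ p) (D : TD.ModEq p)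
    (K1 : IntermediateField K (LaurentSeries K)) (hJn : TD.Jd K (M * p) ∈ K1)
    (hx : TD.Jd K (M * p * p) ∉ K1) :
    IsIntegral K1 (TD.Jd K (M * p * p)) ∧
      ∃ b : Fin p, ((minpoly K1 (TD.Jd K (M * p * p))).map
        (algebraMap K1 (LaurentSeries K))).eval (Kummer.JJ (ζ ^ (b : ℕ) * 1) M) = 0 := by
  set x : LaurentSeries K := TD.Jd K (M * p * p) with hxdef
  set y1 : K1 := ⟨TD.Jd K (M * p), hJn⟩ with hy1
  set P1 : Polynomial K1 := TD.polyAt D.Φ y1 with hP1
  have hP1monic : P1.Monic := TD.polyAt_monic D.monic y1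
  have hP1map : P1.map (algebraMap K1 (LaurentSeries K)) = TD.polyAt D.Φ (TD.Jd K (M * p)) :=
    TD.polyAt_map _ _ _
  have hP1x : Polynomial.aeval x P1 = 0 := by
    rw [Polynomial.aeval_def, Polynomial.eval₂_eq_eval_map, hP1map]
    exact D.rel₂' hp.ne_zero K (M * p) (NeZero.ne (M * p))
  have hxint : IsIntegral K1 x := ⟨P1, hP1monic, hP1x⟩
  refine ⟨hxint, ?_⟩
  have hfdvd : minpoly K1 x ∣ P1 := minpoly.dvd K1 x hP1x
  have hfdeg : 2 ≤ (minpoly K1 x).natDegree := by
    rw [minpoly.two_le_natDegree_iff hxint]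
    rintro ⟨a, ha⟩
    exact hx (ha ▸ a.2)
  have hroot : TD.polyAt D.Φ (TD.Jd K (M * p)) =
      ∏ i : Option (Fin p), (X - C (Kummer.rootFam ζ (1 : Kˣ) M i)) := by
    have h := (kummerOfTD D).specialize_eq_prod hp.one_lt hζ (1 : Kˣ) M
    rw [one_pow, Kummer.JJ_one] at h
    rw [polyAt_eq_specialize, TD.Jd_eq_jqNModC]
    exact h
  have hfmapdvd : (minpoly K1 x).map (algebraMap K1 (LaurentSeries K)) ∣
      ∏ i : Option (Fin p), (X - C (Kummer.rootFam ζ (1 : Kˣ) M i)) := by
    rw [← hroot, ← hP1map]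
    exact Polynomial.map_dvd _ hfdvd
  obtain ⟨j, hj0, hjx⟩ := exists_root_ne (Kummer.rootFam ζ (1 : Kˣ) M)
    (Kummer.rootFam_injective hp.one_lt hζ 1 M) _ hfmapdvd
    (by rw [Polynomial.natDegree_map]; exact hfdeg) x
  rcases j with _ | b
  · exfalso
    apply hjx
    show Kummer.JJ (((1 : Kˣ) ^ p) ^ p) (M * p * p) = x
    rw [one_pow, one_pow, Kummer.JJ_one, hxdef, TD.Jd_eq_jqNModC]
  · exact ⟨b, hj0⟩

/-! ### The theorem -/

/-- **(Lin)** For `K` algebraically closed, `p` a prime not dividing `M`, and `p M ≠ 0` in `K`: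
`J(q^p)` does not lie in `K(J(q^d) : d ∣ M)`. -/
theorem Jd_not_mem_FF (K : Type) [Field K] [IsAlgClosed K] (p M : ℕ) (hp : p.Prime) (hM : M ≠ 0)
    (hpM : ¬ p ∣ M) (hchar : ((p * M : ℕ) : K) ≠ 0)
    (hME : ∀ r : ℕ, r.Prime → r ∣ p * M → Nonempty (TD.ModEq r)) (hBC : TD.BaseCase p) :
    TD.Jd K p ∉ TD.FF K M 1 := by
  intro hmem
  have : NeZero p := ⟨hp.ne_zero⟩
  have : NeZero M := ⟨hM⟩
  have hpK : (p : K) ≠ 0 := fun h => hchar (by rw [Nat.cast_mul, h, zero_mul])
  have hMK : (M : K) ≠ 0 := fun h => hchar (by rw [Nat.cast_mul, h, mul_zero])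
  -- a primitive `p`-th root of unity
  have : NeZero (p : K) := ⟨hpK⟩
  obtain ⟨ζ₀, hζ₀⟩ := HasEnoughRootsOfUnity.exists_primitiveRoot K p
  have hζ₀ne : ζ₀ ≠ 0 := hζ₀.ne_zero hp.ne_zero
  have hζ : IsPrimitiveRoot (Units.mk0 ζ₀ hζ₀ne) p := IsPrimitiveRoot.coe_units_iff.mp hζ₀
  -- the change of variable `q = w ^ (M p)`
  have hxFF : TD.Jd K (M * p * p) ∈ TD.FF K M (M * p) := by
    have h := qExpand_mem_FF K hM (M * p) hmem
    rwa [TD.qExpand_Jd K (M * p) p hp.ne_zero] at h
  -- the field `K1 = K(J(w^(M p)))`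
  let K1 : IntermediateField K (LaurentSeries K) :=
    IntermediateField.adjoin K {TD.Jd K (M * p)}
  have hxK1 : TD.Jd K (M * p * p) ∉ K1 := not_mem_of_baseCase K hp.ne_zero hpK hBC (M * p)
  have hJn : TD.Jd K (M * p) ∈ K1 := IntermediateField.subset_adjoin K _ (Set.mem_singleton _)
  obtain ⟨Dp⟩ := hME p hp (dvd_mul_right p M)
  obtain ⟨hxint, b, hb⟩ := exists_twisted_root K p M hp (Units.mk0 ζ₀ hζ₀ne) hζ Dp K1 hJn hxK1
  -- the generators
  let S : Set (LaurentSeries K) := (fun d => TD.Jd K (M * p * d)) '' {d | d ∣ M}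
  have hx1 : TD.Jd K (M * p * p) ∈ IntermediateField.adjoin K1 S := by
    have hle : TD.FF K M (M * p) ≤ (IntermediateField.adjoin K1 S).restrictScalars K :=
      IntermediateField.adjoin_le_iff.2 (IntermediateField.subset_adjoin K1 S)
    exact hle hxFF
  have hME' : ∀ r : ℕ, r.Prime → r ∣ M → Nonempty (TD.ModEq r) :=
    fun r hr hrM => hME r hr (hrM.trans (dvd_mul_left M p))
  let i : LaurentSeries K →+* AlgebraicClosure (LaurentSeries K) := algebraMap _ _
  let T : Subfield (AlgebraicClosure (LaurentSeries K)) := (qExpand K p).fieldRange.map i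
  refine ConjMem.not_mem_adjoin_of_conj_not_mem (K := K1) (L := LaurentSeries K)
    (A := AlgebraicClosure (LaurentSeries K)) S ?_ T ?_ ?_ (TD.Jd K (M * p * p))
    (i (Kummer.JJ (Units.mk0 ζ₀ hζ₀ne ^ (b : ℕ) * 1) M)) ?_ ?_ hx1
  · -- integrality of the generators
    rintro _ ⟨d, hd, rfl⟩
    exact isIntegral_Jd K M (M * p) hM (NeZero.ne _) hME' K1 hJn d hd
  · -- `K1` maps into `T`
    intro a
    have hle : K1 ≤ (qExpandAlgHomC K p).fieldRange := by
      apply IntermediateField.adjoin_le_iff.2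
      rintro _ rfl
      refine ⟨TD.Jd K M, ?_⟩
      show qExpand K p (TD.Jd K M) = TD.Jd K (M * p)
      rw [TD.qExpand_Jd K p M hM, mul_comm]
    obtain ⟨z, hz⟩ := hle a.2
    exact Subfield.mem_map.2 ⟨(a : LaurentSeries K), ⟨z, hz⟩, rfl⟩
  · -- the generators map into `T`
    intro φ s hs
    obtain ⟨d, hd, rfl⟩ := hs
    obtain ⟨c, m, hm, hφ, hdiv⟩ := map_eq_JJ K M (M * p) hM (dvd_mul_right M p) hMK hME'
      (algebraMap (IntermediateField.adjoin K1 S) (LaurentSeries K)) Subtype.val_injective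
      (φ : IntermediateField.adjoin K1 S →+* AlgebraicClosure (LaurentSeries K)) i
      (by
        intro z hz
        have h1 : z = algebraMap K1 (IntermediateField.adjoin K1 S) ⟨TD.Jd K (M * p), hJn⟩ :=
          Subtype.ext hz
        rw [h1]
        exact φ.commutes _)
      (fun d hd => ⟨⟨TD.Jd K (M * p * d), IntermediateField.subset_adjoin K1 S ⟨d, hd, rfl⟩⟩, rfl⟩)
      d hd ⟨TD.Jd K (M * p * d), IntermediateField.subset_adjoin K1 S ⟨d, hd, rfl⟩⟩ rfl
    have hpm : p ∣ m := by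
      obtain ⟨k, hk⟩ := hd
      obtain ⟨e, he⟩ := hdiv
      have hd0 : d ≠ 0 := by
        rintro rfl
        exact hM (by rw [hk, zero_mul])
      have h1 : d * m = d * (p * (k * e)) := by
        calc d * m = m * d := mul_comm _ _
          _ = M * p * e := he
          _ = d * (p * (k * e)) := by rw [hk]; ring
      exact ⟨k * e, Nat.eq_of_mul_eq_mul_left (Nat.pos_of_ne_zero hd0) h1⟩
    obtain ⟨m1, rfl⟩ := hpm
    have : NeZero m1 := ⟨fun h => NeZero.ne (p * m1) (by rw [h, mul_zero])⟩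
    have hφ' : φ ⟨TD.Jd K (M * p * d), IntermediateField.subset_adjoin K1 S ⟨d, hd, rfl⟩⟩ =
        i (Kummer.JJ c (p * m1)) := hφ
    rw [hφ']
    exact Subfield.mem_map.2 ⟨Kummer.JJ c (p * m1), ⟨Kummer.JJ c m1, Kummer.qExpand_JJ p c m1⟩, rfl⟩
  · -- the twisted root is a conjugate
    have h1 : Polynomial.aeval (Kummer.JJ (Units.mk0 ζ₀ hζ₀ne ^ (b : ℕ) * 1) M)
        (minpoly K1 (TD.Jd K (M * p * p))) = 0 := by
      rw [Polynomial.aeval_def, Polynomial.eval₂_eq_eval_map]
      exact hb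
    show Polynomial.aeval (algebraMap (LaurentSeries K) (AlgebraicClosure (LaurentSeries K))
      (Kummer.JJ (Units.mk0 ζ₀ hζ₀ne ^ (b : ℕ) * 1) M)) (minpoly K1 (TD.Jd K (M * p * p))) = 0
    rw [Polynomial.aeval_algebraMap_apply, h1, map_zero]
  · -- the twisted root is not a series in `w ^ p`
    intro hT
    obtain ⟨z, ⟨u, hu⟩, hz⟩ := Subfield.mem_map.1 hT
    have hzeq : z = Kummer.JJ (Units.mk0 ζ₀ hζ₀ne ^ (b : ℕ) * 1) M := i.injective hz
    rw [hzeq] at hu
    have hcoeff := congrArg (fun f : LaurentSeries K => f.coeff (-(M : ℤ))) hu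
    simp only [Kummer.JJ_coeff_neg] at hcoeff
    rw [qExpand_coeff_of_not_dvd p u (by
      rw [dvd_neg, Int.natCast_dvd_natCast]
      exact hpM)] at hcoeff
    exact (Units.ne_zero _) hcoeff.symm

/-! ### Descent to an arbitrary field -/

/-- Extension of the constants maps `FF κ N m` into `FF K N m`. -/
theorem coeffMap_mem_FF {κ K : Type*} [Field κ] [Field K] (f : κ →+* K) (N m : ℕ)
    {x : LaurentSeries κ} (hx : x ∈ TD.FF κ N m) : coeffMap f x ∈ TD.FF K N m := by
  unfold TD.FF at hx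
  induction hx using IntermediateField.adjoin_induction with
  | mem x hx =>
    obtain ⟨d, hd, rfl⟩ := hx
    rw [TD.coeffMap_Jd]
    exact TD.Jd_mem_FF K hd
  | algebraMap a =>
    have h : coeffMap f (algebraMap κ (LaurentSeries κ) a) =
        algebraMap K (LaurentSeries K) (f a) := by
      rw [algebraMap_laurentSeries_eq_single, algebraMap_laurentSeries_eq_single, coeffMap_single]
    rw [h]
    exact (TD.FF K N m).algebraMap_mem _
  | add x y hx hy ihx ihy =>
    rw [map_add]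
    exact add_mem ihx ihy
  | inv x hx ih =>
    rw [map_inv₀]
    exact inv_mem ih
  | mul x y hx hy ihx ihy =>
    rw [map_mul]
    exact mul_mem ihx ihy

/-- **(Lin), arbitrary field.** For a field `κ`, `p` a prime not dividing `M`, and `p M ≠ 0`
in `κ`: `J(q^p)` does not lie in `κ(J(q^d) : d ∣ M)`. -/
theorem Jd_not_mem_FF_of_field (κ : Type) [Field κ] (p M : ℕ) (hp : p.Prime) (hM : M ≠ 0)
    (hpM : ¬ p ∣ M) (hchar : ((p * M : ℕ) : κ) ≠ 0)
    (hME : ∀ r : ℕ, r.Prime → r ∣ p * M → Nonempty (TD.ModEq r)) (hBC : TD.BaseCase p) :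
    TD.Jd κ p ∉ TD.FF κ M 1 := by
  intro hmem
  have hchar' : ((p * M : ℕ) : AlgebraicClosure κ) ≠ 0 := by
    intro h
    apply hchar
    apply (algebraMap κ (AlgebraicClosure κ)).injective
    rw [map_natCast, h, map_zero]
  have h := coeffMap_mem_FF (algebraMap κ (AlgebraicClosure κ)) M 1 hmem
  rw [TD.coeffMap_Jd] at h
  exact Jd_not_mem_FF (AlgebraicClosure κ) p M hp hM hpM hchar' hME hBC h

/-- The same with the hypotheses in the order used by the step lemmas (`N' * p`). -/
theorem Jd_not_mem_FF_of_field' (κ : Type) [Field κ] (N' p : ℕ) (hp : p.Prime) (hN' : N' ≠ 0)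
    (hpN' : ¬ p ∣ N') (hchar : ((N' * p : ℕ) : κ) ≠ 0)
    (hME : ∀ r : ℕ, r.Prime → r ∣ N' * p → Nonempty (TD.ModEq r)) (hBC : TD.BaseCase p) :
    TD.Jd κ p ∉ TD.FF κ N' 1 :=
  Jd_not_mem_FF_of_field κ p N' hp hN' hpN' (by rwa [mul_comm]) (fun r hr hd => hME r hr (by rwa [mul_comm])) hBC

end

end Fermat.Agent.S28.Lin
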