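import Mathlib

/-!
# S28 (Igusa): abstract field theory of the modular equations

Abstract setting (`Setup`): fields `k ⊆ E` (model: `E = K((q))`), substitutions
`ρ d : q ↦ q ^ d`, `τ c : q ↦ c * q`, an element `J` (the `j`-function), `x d = ρ d J`.
`PrimeData S p`: a two-variable integer polynomial `Φ_p` with
`Φ_p(X, x p) = (X - x (p²)) ∏_{b < p} (X - τ (ζ^b) J)`.

Results:
* `x_mem_of_two_primes` (gcd trick) and `x_mem_of_primePowers`: every subfield containing `J`
  and the prime-power levels `x (p ^ i)`, `p ^ i ∣ N`, contains all `x d`, `d ∣ N`;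
* relations `PrimeData.eval_up`, `eval_down`, `eval_up'`;
* tools for degrees over subfields (`natDegree_minpoly_eq_succ`, `natDegree_minpoly_eq_card`,
  `card_le_natDegree_minpoly`, `relfinrank_sup_closure_singleton`).
-/

set_option autoImplicit false

namespace Fermat.Agent.S28.ModEqField

open Polynomial

section Prelim

variable {E : Type*} [Field E]

/-- All coefficients of `f` lie in the subfield `L`. -/
def CoeffIn (L : Subfield E) (f : E[X]) : Prop := ∀ n, f.coeff n ∈ L

theorem CoeffIn.exists_lift {L : Subfield E} {f : E[X]} (h : CoeffIn L f) :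
    ∃ f' : (↥L)[X], f'.map L.subtype = f := by
  have : f ∈ Polynomial.lifts L.subtype := by
    rw [Polynomial.lifts_iff_coeff_lifts]
    intro n
    exact ⟨⟨f.coeff n, h n⟩, rfl⟩
  exact (Polynomial.mem_lifts f).mp this

theorem coeffIn_map (L : Subfield E) (f' : (↥L)[X]) : CoeffIn L (f'.map L.subtype) := by
  intro n
  rw [Polynomial.coeff_map]
  exact (f'.coeff n).2

theorem CoeffIn.mono {L L' : Subfield E} (h : L ≤ L') {f : E[X]} (hf : CoeffIn L f) :
    CoeffIn L' f := fun n => h (hf n)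

/-- Division by a monic polynomial stays inside the subfield. -/
theorem CoeffIn.of_mul {L : Subfield E} {d g : E[X]} (hdg : CoeffIn L (d * g)) (hd : CoeffIn L d)
    (hm : d.Monic) : CoeffIn L g := by
  obtain ⟨f', hf'⟩ := hdg.exists_lift
  obtain ⟨d', hd'⟩ := hd.exists_lift
  have hm' : d'.Monic := by
    apply Polynomial.monic_of_injective L.subtype.injective
    rw [hd']; exact hm
  have h1 : g = (d * g) /ₘ d := (Polynomial.mul_divByMonic_cancel_left g hm).symm
  rw [h1, ← hf', ← hd', ← Polynomial.map_divByMonic _ hm']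
  exact coeffIn_map L _

theorem coeffIn_X_sub_C {L : Subfield E} {a : E} (ha : a ∈ L) : CoeffIn L (X - C a) := by
  have : (X - C a : E[X]) = (X - C (⟨a, ha⟩ : ↥L) : (↥L)[X]).map L.subtype := by
    simp
  rw [this]
  exact coeffIn_map L _

theorem mem_of_coeffIn_X_sub_C {L : Subfield E} {a : E} (h : CoeffIn L (X - C a)) : a ∈ L := by
  have := h 0
  simpa using this

theorem isIntegral_of_coeffIn {L : Subfield E} {f : E[X]} (hf : CoeffIn L f) (hm : f.Monic)
    {x : E} (hx : f.eval x = 0) : IsIntegral ↥L x := by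
  obtain ⟨f', hf'⟩ := hf.exists_lift
  refine ⟨f', ?_, ?_⟩
  · apply Polynomial.monic_of_injective L.subtype.injective
    rw [hf']; exact hm
  · have : Polynomial.eval₂ (algebraMap ↥L E) x f' = (f'.map L.subtype).eval x := by
      rw [Polynomial.eval_map]; rfl
    rw [this, hf', hx]

theorem minpoly_map_dvd {L : Subfield E} {f : E[X]} (hf : CoeffIn L f) {x : E}
    (hx : f.eval x = 0) : (minpoly ↥L x).map L.subtype ∣ f := by
  obtain ⟨f', hf'⟩ := hf.exists_lift
  have h0 : Polynomial.aeval x f' = 0 := by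
    have : Polynomial.aeval x f' = (f'.map L.subtype).eval x := by
      rw [Polynomial.eval_map]; rfl
    rw [this, hf', hx]
  rw [← hf']
  exact Polynomial.map_dvd _ (minpoly.dvd ↥L x h0)

theorem natDegree_minpoly_le {L : Subfield E} {f : E[X]} (hf : CoeffIn L f) (hm : f.Monic)
    {x : E} (hx : f.eval x = 0) : (minpoly ↥L x).natDegree ≤ f.natDegree := by
  have h := minpoly_map_dvd hf hx
  have h2 := Polynomial.natDegree_le_of_dvd h hm.ne_zero
  rwa [Polynomial.natDegree_map] at h2

theorem minpoly_map_eval {L : Subfield E} {x : E} (T : E →+* E) (hT : ∀ a ∈ L, T a = a) :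
    ((minpoly ↥L x).map L.subtype).eval (T x) = 0 := by
  have h1 : ((minpoly ↥L x).map L.subtype).map T = (minpoly ↥L x).map L.subtype := by
    rw [Polynomial.map_map]
    congr 1
    ext a
    exact hT a a.2
  have h2 : ((minpoly ↥L x).map L.subtype).eval x = 0 := by
    have := minpoly.aeval ↥L x
    rw [Polynomial.aeval_def, Polynomial.eval₂_eq_eval_map] at this
    exact this
  rw [← h1, Polynomial.eval_map, Polynomial.eval₂_at_apply, h2, map_zero]

/-- **Orbit lower bound**: if `x` has `#R` distinct images under ring endomorphisms fixing `L`,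
its degree over `L` is at least `#R`. -/
theorem card_le_natDegree_minpoly {L : Subfield E} {x : E} (hx : IsIntegral ↥L x) (R : Finset E)
    (hR : ∀ y ∈ R, ∃ T : E →+* E, (∀ a ∈ L, T a = a) ∧ T x = y) :
    R.card ≤ (minpoly ↥L x).natDegree := by
  classical
  set M := (minpoly ↥L x).map L.subtype with hM
  have hM0 : M ≠ 0 := by
    rw [hM]
    exact (Polynomial.map_ne_zero_iff L.subtype.injective).mpr (minpoly.ne_zero hx)
  have hsub : R ⊆ M.roots.toFinset := by
    intro y hy
    obtain ⟨T, hT, rfl⟩ := hR y hy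
    rw [Multiset.mem_toFinset, Polynomial.mem_roots hM0]
    exact minpoly_map_eval T hT
  calc R.card ≤ M.roots.toFinset.card := Finset.card_le_card hsub
    _ ≤ Multiset.card M.roots := Multiset.toFinset_card_le _
    _ ≤ M.natDegree := Polynomial.card_roots' M
    _ = (minpoly ↥L x).natDegree := by rw [hM, Polynomial.natDegree_map]

theorem monic_prod_X_sub_C (R : Finset E) : (∏ y ∈ R, (X - C y) : E[X]).Monic :=
  Polynomial.monic_prod_of_monic _ _ fun y _ => Polynomial.monic_X_sub_C y

theorem natDegree_prod_X_sub_C (R : Finset E) : (∏ y ∈ R, (X - C y) : E[X]).natDegree = R.card := by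
  rw [Polynomial.natDegree_prod_of_monic _ _ fun y _ => Polynomial.monic_X_sub_C y]
  simp

theorem eval_prod_X_sub_C_of_mem (R : Finset E) {x : E} (hx : x ∈ R) :
    (∏ y ∈ R, (X - C y) : E[X]).eval x = 0 := by
  rw [Polynomial.eval_prod]
  exact Finset.prod_eq_zero hx (by simp)

/-- The product of `X - y` over the orbit divides the minimal polynomial. -/
theorem prod_dvd_minpoly_map {L : Subfield E} {x : E} (hx : IsIntegral ↥L x) (R : Finset E)
    (hR : ∀ y ∈ R, ∃ T : E →+* E, (∀ a ∈ L, T a = a) ∧ T x = y) :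
    (∏ y ∈ R, (X - C y) : E[X]) ∣ (minpoly ↥L x).map L.subtype := by
  classical
  set M := (minpoly ↥L x).map L.subtype with hM
  have hM0 : M ≠ 0 := by
    rw [hM]
    exact (Polynomial.map_ne_zero_iff L.subtype.injective).mpr (minpoly.ne_zero hx)
  have h1 : (R.val.map fun a => X - C a).prod ∣ M := by
    rw [Multiset.prod_X_sub_C_dvd_iff_le_roots hM0, Multiset.le_iff_subset R.nodup]
    intro y hy
    obtain ⟨T, hT, rfl⟩ := hR y (Finset.mem_val.mp hy)
    rw [Polynomial.mem_roots hM0]
    exact minpoly_map_eval T hT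
  exact h1

/-- **Exact degree `#R + 1`**: `f = (X - r) ∏_{y ∈ R} (X - y)` over `L`, the roots in `R` are
conjugate to `x ∈ R` under `L`-fixing endomorphisms, and `r ∉ L`. Then `f` is the minimal
polynomial over `L` of `x`, and `r` has the same degree. -/
theorem natDegree_minpoly_eq_succ {L : Subfield E} {x r : E} {f : E[X]} (R : Finset E)
    (hf : CoeffIn L f) (hfac : f = (X - C r) * ∏ y ∈ R, (X - C y)) (hxR : x ∈ R)
    (hR : ∀ y ∈ R, ∃ T : E →+* E, (∀ a ∈ L, T a = a) ∧ T x = y) (hr : r ∉ L) :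
    (minpoly ↥L x).natDegree = R.card + 1 ∧ (minpoly ↥L x).map L.subtype = f ∧
      (minpoly ↥L r).natDegree = R.card + 1 := by
  have hfm : f.Monic := by
    rw [hfac]; exact (Polynomial.monic_X_sub_C r).mul (monic_prod_X_sub_C R)
  have hfd : f.natDegree = R.card + 1 := by
    rw [hfac, Polynomial.Monic.natDegree_mul (Polynomial.monic_X_sub_C r) (monic_prod_X_sub_C R),
      Polynomial.natDegree_X_sub_C, natDegree_prod_X_sub_C, add_comm]
  have hfx : f.eval x = 0 := by
    rw [hfac, Polynomial.eval_mul, eval_prod_X_sub_C_of_mem R hxR, mul_zero]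
  have hfr : f.eval r = 0 := by
    rw [hfac, Polynomial.eval_mul]; simp
  have hx : IsIntegral ↥L x := isIntegral_of_coeffIn hf hfm hfx
  set M := (minpoly ↥L x).map L.subtype with hM
  have hMm : M.Monic := (minpoly.monic hx).map _
  have hMf : M ∣ f := minpoly_map_dvd hf hfx
  have hPM : (∏ y ∈ R, (X - C y) : E[X]) ∣ M := prod_dvd_minpoly_map hx R hR
  have hle : M.natDegree ≤ R.card + 1 := by
    rw [← hfd]; exact Polynomial.natDegree_le_of_dvd hMf hfm.ne_zero
  have hge : R.card ≤ M.natDegree := by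
    rw [← natDegree_prod_X_sub_C R]; exact Polynomial.natDegree_le_of_dvd hPM hMm.ne_zero
  have hne : M.natDegree ≠ R.card := by
    intro h
    have hMP : M = ∏ y ∈ R, (X - C y) :=
      Polynomial.eq_of_monic_of_dvd_of_natDegree_le (monic_prod_X_sub_C R) hMm hPM
        (by rw [h, natDegree_prod_X_sub_C])
    have h2 : CoeffIn L (M * (X - C r)) := by
      rw [mul_comm, hMP, ← hfac]; exact hf
    exact hr (mem_of_coeffIn_X_sub_C (h2.of_mul (coeffIn_map L _) hMm))
  have hdeg : M.natDegree = R.card + 1 := by omega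
  have hMeq : f = M :=
    Polynomial.eq_of_monic_of_dvd_of_natDegree_le hMm hfm hMf (by rw [hdeg, hfd])
  have hnat : (minpoly ↥L x).natDegree = R.card + 1 := by
    rw [← hdeg, hM, Polynomial.natDegree_map]
  refine ⟨hnat, hMeq.symm, ?_⟩
  have hirr : Irreducible (minpoly ↥L x) := minpoly.irreducible hx
  have hr0 : Polynomial.aeval r (minpoly ↥L x) = 0 := by
    rw [Polynomial.aeval_def, Polynomial.eval₂_eq_eval_map]
    show M.eval r = 0
    rw [← hMeq]; exact hfr
  rw [← minpoly.eq_of_irreducible_of_monic hirr hr0 (minpoly.monic hx), hnat]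

/-- **Exact degree `#R`**: `∏_{y ∈ R} (X - y)` has coefficients in `L` and its roots are conjugate
to `x ∈ R` under `L`-fixing endomorphisms. -/
theorem natDegree_minpoly_eq_card {L : Subfield E} {x : E} (R : Finset E)
    (hg : CoeffIn L (∏ y ∈ R, (X - C y))) (hxR : x ∈ R)
    (hR : ∀ y ∈ R, ∃ T : E →+* E, (∀ a ∈ L, T a = a) ∧ T x = y) :
    (minpoly ↥L x).natDegree = R.card := by
  have hx : IsIntegral ↥L x :=
    isIntegral_of_coeffIn hg (monic_prod_X_sub_C R) (eval_prod_X_sub_C_of_mem R hxR)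
  refine le_antisymm ?_ (card_le_natDegree_minpoly hx R hR)
  have := natDegree_minpoly_le hg (monic_prod_X_sub_C R) (eval_prod_X_sub_C_of_mem R hxR)
  rwa [natDegree_prod_X_sub_C] at this

/-- Degree over `L` of a simple extension, as a relative rank of subfields. -/
theorem relfinrank_sup_closure_singleton {L : Subfield E} {x : E} (hx : IsIntegral ↥L x) :
    L.relfinrank (L ⊔ Subfield.closure {x}) = (minpoly ↥L x).natDegree := by
  rw [Subfield.relfinrank_eq_finrank_of_le le_sup_left, ← IntermediateField.adjoin.finrank hx]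
  have h : Subfield.extendScalars (le_sup_left : L ≤ L ⊔ Subfield.closure {x})
      = IntermediateField.adjoin ↥L {x} := by
    apply IntermediateField.toSubfield_injective
    rw [Subfield.extendScalars_toSubfield, IntermediateField.adjoin_toSubfield,
      Subfield.closure_union]
    congr 1
    have : Set.range (algebraMap ↥L E) = (L : Set E) := Subtype.range_coe
    rw [this, Subfield.closure_eq]
  rw [h]

end Prelim

/-! ### The abstract setup -/

section SetupSec

variable {k E : Type*} [Field k] [Field E] [Algebra k E]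

/-- `Φ(X, y)`: evaluate the inner variable of a two-variable integer polynomial at `y`. -/
noncomputable def ev (Φ : (ℤ[X])[X]) (y : E) : E[X] :=
  Φ.map (Polynomial.eval₂RingHom (Int.castRingHom E) y)

theorem ev_map (Φ : (ℤ[X])[X]) (y : E) (f : E →+* E) : (ev Φ y).map f = ev Φ (f y) := by
  unfold ev
  rw [Polynomial.map_map]
  congr 1
  apply Polynomial.ringHom_ext
  · intro a
    simp
  · simp

theorem coeffIn_ev (Φ : (ℤ[X])[X]) {L : Subfield E} {y : E} (hy : y ∈ L) : CoeffIn L (ev Φ y) := by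
  intro n
  unfold ev
  rw [Polynomial.coeff_map]
  have h : Polynomial.eval₂RingHom (Int.castRingHom E) y (Φ.coeff n)
      = L.subtype (Polynomial.eval₂ (Int.castRingHom ↥L) ⟨y, hy⟩ (Φ.coeff n)) := by
    rw [Polynomial.hom_eval₂]
    rfl
  rw [h]
  exact (Polynomial.eval₂ (Int.castRingHom ↥L) ⟨y, hy⟩ (Φ.coeff n)).2

theorem ev_eval_map (Φ : (ℤ[X])[X]) (y z : E) (f : E →+* E) :
    (ev Φ (f y)).eval (f z) = f ((ev Φ y).eval z) := by
  rw [← ev_map, Polynomial.eval_map, Polynomial.eval₂_at_apply]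

variable (k) in
/-- The subfield generated by `k` and a set. -/
noncomputable def K (s : Set E) : Subfield E := Subfield.closure (Set.range (algebraMap k E) ∪ s)

theorem K_mono {s t : Set E} (h : s ⊆ t) : K k s ≤ K k t :=
  Subfield.closure_mono (Set.union_subset_union_right _ h)

theorem subset_K (s : Set E) : s ⊆ K k s := fun _ hy =>
  Subfield.subset_closure (Set.mem_union_right _ hy)

theorem algebraMap_mem_K (s : Set E) (c : k) : algebraMap k E c ∈ K k s :=
  Subfield.subset_closure (Set.mem_union_left _ ⟨c, rfl⟩)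

theorem K_le {s : Set E} {L : Subfield E} (hk : ∀ c : k, algebraMap k E c ∈ L) (hs : s ⊆ L) :
    K k s ≤ L := by
  refine (Subfield.closure_le).mpr ?_
  rintro y (⟨c, rfl⟩ | hy)
  · exact hk c
  · exact hs hy

theorem K_insert (y : E) (s : Set E) : K k (insert y s) = K k s ⊔ Subfield.closure {y} := by
  unfold K
  rw [← Subfield.closure_union]
  congr 1
  ext z
  simp only [Set.mem_union, Set.mem_insert_iff, Set.mem_singleton_iff]
  tauto

theorem K_union (s t : Set E) : K k (s ∪ t) = K k s ⊔ Subfield.closure t := by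
  unfold K
  rw [← Subfield.closure_union, Set.union_assoc]

/-- A ring endomorphism fixing `k` and `s` fixes `K s`. -/
theorem fixes_K (T : E →+* E) (hk : ∀ c : k, T (algebraMap k E c) = algebraMap k E c) {s : Set E}
    (hs : ∀ y ∈ s, T y = y) : ∀ a ∈ K k s, T a = a := by
  have h : K k s ≤ RingHom.eqLocusField T (RingHom.id E) := by
    refine K_le (fun c => hk c) ?_
    intro y hy
    exact hs y hy
  intro a ha
  exact h ha

variable (k E) in
/-- Abstract substitution structure on a field `E ⊇ k` (model: `E = K((q))`, `ρ d : q ↦ q^d`,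
`τ c : q ↦ c q`, `J` a series `q⁻¹ + …`). -/
structure Setup where
  /-- substitution `q ↦ q ^ d` -/
  ρ : ℕ → E →+* E
  /-- substitution `q ↦ c * q` -/
  τ : k → E →+* E
  /-- the `j`-function -/
  J : E
  ρ_one : ρ 1 = RingHom.id E
  ρ_mul : ∀ a b : ℕ, 0 < a → 0 < b → ρ (a * b) = (ρ a).comp (ρ b)
  ρ_algebraMap : ∀ (d : ℕ) (c : k), ρ d (algebraMap k E c) = algebraMap k E c
  τ_one : τ 1 = RingHom.id E
  τ_algebraMap : ∀ (c a : k), τ c (algebraMap k E a) = algebraMap k E a
  τ_ρ : ∀ (c : k) (d : ℕ) (y : E), c ≠ 0 → 0 < d → τ c (ρ d y) = ρ d (τ (c ^ d) y)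
  inj : ∀ (m m' : ℕ) (c c' : k), 0 < m → 0 < m' → c ≠ 0 → c' ≠ 0 →
    ρ m (τ c J) = ρ m' (τ c' J) → m = m' ∧ c = c'

namespace Setup

variable (S : Setup k E)

/-- `x d = J(q^d)`. -/
noncomputable def x (d : ℕ) : E := S.ρ d S.J

theorem x_one : S.x 1 = S.J := by
  unfold x; rw [S.ρ_one]; rfl

theorem ρ_x {a b : ℕ} (ha : 0 < a) (hb : 0 < b) : S.ρ a (S.x b) = S.x (a * b) := by
  unfold x; rw [S.ρ_mul a b ha hb]; rfl

theorem ρ_injective (d : ℕ) : Function.Injective (S.ρ d) := (S.ρ d).injective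

theorem τ_x {c : k} {d : ℕ} (hc : c ≠ 0) (hd : 0 < d) (h : c ^ d = 1) : S.τ c (S.x d) = S.x d := by
  unfold x
  rw [S.τ_ρ c d _ hc hd, h, S.τ_one]; rfl

theorem τ_x_eq {c : k} {d : ℕ} (hc : c ≠ 0) (hd : 0 < d) :
    S.τ c (S.x d) = S.ρ d (S.τ (c ^ d) S.J) := S.τ_ρ c d _ hc hd

theorem K_map_ρ (d : ℕ) (s : Set E) : (K k s).map (S.ρ d) = K k (S.ρ d '' s) := by
  unfold K
  rw [RingHom.map_field_closure, Set.image_union]
  congr 2
  ext z
  constructor
  · rintro ⟨_, ⟨c, rfl⟩, rfl⟩
    exact ⟨c, (S.ρ_algebraMap d c).symm⟩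
  · rintro ⟨c, rfl⟩
    exact ⟨algebraMap k E c, ⟨c, rfl⟩, S.ρ_algebraMap d c⟩

theorem mem_K_of_ρ_mem {d : ℕ} {s : Set E} {y : E} (h : S.ρ d y ∈ K k (S.ρ d '' s)) :
    y ∈ K k s := by
  rw [← S.K_map_ρ] at h
  obtain ⟨z, hz, hzy⟩ := h
  rwa [← S.ρ_injective d hzy]

end Setup

/-- Modular equation data at a prime `p`. -/
structure PrimeData (S : Setup k E) (p : ℕ) where
  /-- the modular polynomial `Φ_p(X, Y)`, outer variable `X` -/
  Φ : (ℤ[X])[X]
  /-- a primitive `p`-th root of unity -/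
  ζ : k
  hζ : IsPrimitiveRoot ζ p
  factor : ev Φ (S.ρ p S.J) =
    (X - C (S.ρ (p * p) S.J)) * ∏ b ∈ Finset.range p, (X - C (S.τ (ζ ^ b) S.J))

namespace PrimeData

variable {S : Setup k E} {p : ℕ} (D : PrimeData S p)

/-- The `p` "twisted" roots of `Φ_p(X, x (m p))`. -/
noncomputable def roots (m : ℕ) : Finset E :=
  open Classical in (Finset.range p).image fun b => S.ρ m (S.τ (D.ζ ^ b) S.J)

theorem ζ_ne_zero (hp : 0 < p) : D.ζ ≠ 0 := D.hζ.ne_zero hp.ne'

theorem ζ_pow_ne_zero (hp : 0 < p) (b : ℕ) : D.ζ ^ b ≠ 0 := pow_ne_zero _ (D.ζ_ne_zero hp)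

theorem root_injOn (hp : 0 < p) {m : ℕ} (hm : 0 < m) :
    Set.InjOn (fun b => S.ρ m (S.τ (D.ζ ^ b) S.J)) (Finset.range p : Set ℕ) := by
  intro b hb b' hb' h
  have h2 := (S.inj m m _ _ hm hm (D.ζ_pow_ne_zero hp b) (D.ζ_pow_ne_zero hp b') h).2
  exact D.hζ.pow_inj (Finset.mem_range.mp hb) (Finset.mem_range.mp hb') h2

theorem card_roots (hp : 0 < p) {m : ℕ} (hm : 0 < m) : (D.roots m).card = p := by
  classical
  unfold roots
  rw [Finset.card_image_of_injOn (D.root_injOn hp hm), Finset.card_range]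

theorem x_mem_roots (hp : 0 < p) (m : ℕ) : S.x m ∈ D.roots m := by
  classical
  unfold roots
  refine Finset.mem_image.mpr ⟨0, Finset.mem_range.mpr hp, ?_⟩
  rw [pow_zero, S.τ_one]; rfl

theorem mem_roots {m : ℕ} {y : E} :
    y ∈ D.roots m ↔ ∃ b < p, S.ρ m (S.τ (D.ζ ^ b) S.J) = y := by
  classical
  unfold roots
  simp [Finset.mem_image]

theorem factor_shift (hp : 0 < p) {m : ℕ} (hm : 0 < m) :
    ev D.Φ (S.x (m * p)) = (X - C (S.x (m * p * p))) * ∏ y ∈ D.roots m, (X - C y) := by
  classical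
  have h := congrArg (Polynomial.map (S.ρ m)) D.factor
  rw [ev_map, Polynomial.map_mul, Polynomial.map_sub, Polynomial.map_X, Polynomial.map_C,
    Polynomial.map_prod] at h
  have h1 : S.ρ m (S.ρ p S.J) = S.x (m * p) := S.ρ_x hm hp
  have h2 : S.ρ m (S.ρ (p * p) S.J) = S.x (m * p * p) := by
    rw [mul_assoc]; exact S.ρ_x hm (Nat.mul_pos hp hp)
  rw [h1, h2] at h
  rw [h]
  congr 1
  unfold roots
  rw [Finset.prod_image (D.root_injOn hp hm)]
  refine Finset.prod_congr rfl fun b _ => ?_
  simp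

theorem ev_monic (hp : 0 < p) {m : ℕ} (hm : 0 < m) : (ev D.Φ (S.x (m * p))).Monic := by
  rw [D.factor_shift hp hm]
  exact (Polynomial.monic_X_sub_C _).mul (monic_prod_X_sub_C _)

theorem ev_natDegree (hp : 0 < p) {m : ℕ} (hm : 0 < m) :
    (ev D.Φ (S.x (m * p))).natDegree = p + 1 := by
  rw [D.factor_shift hp hm,
    Polynomial.Monic.natDegree_mul (Polynomial.monic_X_sub_C _) (monic_prod_X_sub_C _),
    Polynomial.natDegree_X_sub_C, natDegree_prod_X_sub_C, D.card_roots hp hm, add_comm]

/-- `Φ_p(x (m p²), x (m p)) = 0`. -/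
theorem eval_up (hp : 0 < p) {m : ℕ} (hm : 0 < m) :
    (ev D.Φ (S.x (m * p))).eval (S.x (m * p * p)) = 0 := by
  rw [D.factor_shift hp hm, Polynomial.eval_mul]; simp

/-- `Φ_p(x m, x (m p)) = 0`. -/
theorem eval_down (hp : 0 < p) {m : ℕ} (hm : 0 < m) :
    (ev D.Φ (S.x (m * p))).eval (S.x m) = 0 := by
  rw [D.factor_shift hp hm, Polynomial.eval_mul, eval_prod_X_sub_C_of_mem _ (D.x_mem_roots hp m),
    mul_zero]

/-- `Φ_p(x (m p), x m) = 0`. -/
theorem eval_up' (hp : 0 < p) {m : ℕ} (hm : 0 < m) :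
    (ev D.Φ (S.x m)).eval (S.x (m * p)) = 0 := by
  apply S.ρ_injective p
  rw [← ev_eval_map, map_zero, S.ρ_x hp hm, S.ρ_x hp (Nat.mul_pos hm hp),
    show p * m = m * p from mul_comm _ _, show p * (m * p) = m * p * p by ring]
  exact D.eval_up hp hm

end PrimeData

end SetupSec

/-! ### Generation: levels with two distinct prime factors (the gcd trick) -/

section Generation

variable {k E : Type*} [Field k] [Field E] [Algebra k E]

/-- **gcd trick.** For distinct primes `p ≠ p'`, `x (d p p')` lies in every subfield containing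
`x (d p')` and `x (d p)`. -/
theorem x_mem_of_two_primes (S : Setup k E) {p p' : ℕ} (hp : p.Prime) (hp' : p'.Prime)
    (hne : p ≠ p') (D : PrimeData S p) (D' : PrimeData S p') (L : Subfield E) {d : ℕ} (hd : 0 < d)
    (h1 : S.x (d * p') ∈ L) (h2 : S.x (d * p) ∈ L) : S.x (d * p * p') ∈ L := by
  have hp0 := hp.pos
  have hp0' := hp'.pos
  have hs0 : 0 < p * p' := Nat.mul_pos hp0 hp0'
  have hdpp : 0 < d * p * p' := by positivity
  suffices h : S.x (p * p' * (d * p * p')) ∈ L.map (S.ρ (p * p')) by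
    obtain ⟨z, hz, hzy⟩ := h
    have : z = S.x (d * p * p') := S.ρ_injective (p * p') (by rw [hzy, S.ρ_x hs0 hdpp])
    rwa [← this]
  set L' := L.map (S.ρ (p * p')) with hL'
  have hm0 : 0 < d * p' * p' := by positivity
  have hm0' : 0 < d * p * p := by positivity
  have hu : S.x (d * p' * p' * p) ∈ L' := by
    refine ⟨S.x (d * p'), h1, ?_⟩
    rw [S.ρ_x hs0 (by positivity)]; congr 1; ring
  have hv : S.x (d * p * p * p') ∈ L' := by
    refine ⟨S.x (d * p), h2, ?_⟩
    rw [S.ρ_x hs0 (by positivity)]; congr 1; ring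
  have hα1 : S.x (p * p' * (d * p * p')) = S.x (d * p' * p' * p * p) := by congr 1; ring
  have hα2 : S.x (p * p' * (d * p * p')) = S.x (d * p * p * p' * p') := by congr 1; ring
  set α := S.x (p * p' * (d * p * p')) with hα
  have hffac := D.factor_shift hp0 hm0
  have hgfac := D'.factor_shift hp0' hm0'
  have hfL : CoeffIn L' (ev D.Φ (S.x (d * p' * p' * p))) := coeffIn_ev _ hu
  have hgL : CoeffIn L' (ev D'.Φ (S.x (d * p * p * p'))) := coeffIn_ev _ hv
  have hfα : (ev D.Φ (S.x (d * p' * p' * p))).eval α = 0 := by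
    rw [hα1]; exact D.eval_up hp0 hm0
  have hgα : (ev D'.Φ (S.x (d * p * p * p'))).eval α = 0 := by
    rw [hα2]; exact D'.eval_up hp0' hm0'
  have hint : IsIntegral ↥L' α := isIntegral_of_coeffIn hfL (D.ev_monic hp0 hm0) hfα
  have hMf := minpoly_map_dvd hfL hfα
  have hMg := minpoly_map_dvd hgL hgα
  have hcop : IsCoprime (∏ y ∈ D.roots (d * p' * p'), (X - C y))
      (ev D'.Φ (S.x (d * p * p * p'))) := by
    refine IsCoprime.prod_left fun y hy => ?_
    rw [(Polynomial.irreducible_X_sub_C y).coprime_iff_not_dvd, Polynomial.dvd_iff_isRoot,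
      Polynomial.IsRoot]
    obtain ⟨b, hb, rfl⟩ := D.mem_roots.mp hy
    rw [hgfac, Polynomial.eval_mul, Polynomial.eval_prod]
    refine mul_ne_zero ?_ (Finset.prod_ne_zero_iff.mpr fun z hz => ?_)
    · simp only [Polynomial.eval_sub, Polynomial.eval_X, Polynomial.eval_C]
      intro h
      have h' : S.ρ (d * p' * p') (S.τ (D.ζ ^ b) S.J)
          = S.ρ (d * p * p * p' * p') (S.τ 1 S.J) := by
        rw [sub_eq_zero.mp h, S.τ_one]; rfl
      have h3 := (S.inj _ _ _ _ hm0 (by positivity) (D.ζ_pow_ne_zero hp0 b) one_ne_zero h').1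
      have h4 : d * p' * p' * (p * p) = d * p' * p' * 1 := by
        rw [mul_one, show d * p' * p' * (p * p) = d * p * p * p' * p' by ring]; exact h3.symm
      have h5 := Nat.eq_of_mul_eq_mul_left hm0 h4
      have h6 := hp.two_le
      nlinarith
    · obtain ⟨c, hc, rfl⟩ := D'.mem_roots.mp hz
      simp only [Polynomial.eval_sub, Polynomial.eval_X, Polynomial.eval_C]
      intro h
      have h3 := (S.inj _ _ _ _ hm0 hm0' (D.ζ_pow_ne_zero hp0 b) (D'.ζ_pow_ne_zero hp0' c)
        (sub_eq_zero.mp h)).1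
      have h4 : d * (p' * p') = d * (p * p) := by rw [← mul_assoc, ← mul_assoc]; exact h3
      have h5 := Nat.eq_of_mul_eq_mul_left hd h4
      exact hne (Nat.mul_self_inj.mp h5).symm
  have hMdvd : (minpoly ↥L' α).map L'.subtype ∣ (X - C (S.x (d * p' * p' * p * p))) := by
    rw [hffac] at hMf
    exact (hcop.of_isCoprime_of_dvd_right hMg).symm.dvd_of_dvd_mul_right hMf
  have hdeg : (minpoly ↥L' α).natDegree = 1 := by
    have h1 := Polynomial.natDegree_le_of_dvd hMdvd (Polynomial.X_sub_C_ne_zero _)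
    rw [Polynomial.natDegree_X_sub_C, Polynomial.natDegree_map] at h1
    have h2 := minpoly.natDegree_pos hint
    omega
  obtain ⟨z, hz⟩ := minpoly.natDegree_eq_one_iff.mp hdeg
  rw [← hz]; exact z.2

/-- All `x d`, `d ∣ N`, lie in any subfield containing `J` and the prime-power levels. -/
theorem x_mem_of_primePowers (S : Setup k E) {N : ℕ} (hN : 0 < N)
    (D : ∀ p, p.Prime → p ∣ N → PrimeData S p) (L : Subfield E) (hJ : S.J ∈ L)
    (hpp : ∀ p i, p.Prime → 0 < i → p ^ i ∣ N → S.x (p ^ i) ∈ L) :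
    ∀ d, d ∣ N → S.x d ∈ L := by
  intro d
  induction d using Nat.strong_induction_on with
  | _ d ih =>
    intro hdN
    have hd0 : 0 < d := Nat.pos_of_dvd_of_pos hdN hN
    by_cases hd1 : d = 1
    · rw [hd1, S.x_one]; exact hJ
    by_cases hpow : IsPrimePow d
    · obtain ⟨p, i, hp, hi, rfl⟩ := (isPrimePow_nat_iff d).mp hpow
      exact hpp p i hp hi hdN
    · -- two distinct prime factors
      obtain ⟨q, hq, hqd⟩ : ∃ q, q.Prime ∧ q ∣ d :=
        ⟨d.minFac, Nat.minFac_prime hd1, Nat.minFac_dvd d⟩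
      have hex : ∃ p', p'.Prime ∧ p' ∣ d ∧ p' ≠ q := by
        by_contra hcon
        have hcon' : ∀ r, r.Prime → r ∣ d → r = q := by
          intro r hr hrd
          by_contra hne
          exact hcon ⟨r, hr, hrd, hne⟩
        apply hpow
        rw [isPrimePow_nat_iff]
        have h3 := Nat.eq_prime_pow_of_unique_prime_dvd hd0.ne' (fun {r} hr hrd => hcon' r hr hrd)
        refine ⟨q, d.primeFactorsList.length, hq, ?_, h3.symm⟩
        rcases Nat.eq_zero_or_pos d.primeFactorsList.length with h0 | h0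
        · rw [h0, pow_zero] at h3; exact absurd h3 hd1
        · exact h0
      obtain ⟨p', hp', hp'd, hne⟩ := hex
      have hcop : Nat.Coprime q p' := (Nat.coprime_primes hq hp').mpr (Ne.symm hne)
      obtain ⟨d₀, hd₀⟩ := hcop.mul_dvd_of_dvd_of_dvd hqd hp'd
      have hd₀pos : 0 < d₀ := by
        rcases Nat.eq_zero_or_pos d₀ with h | h
        · rw [h, mul_zero] at hd₀; omega
        · exact h
      have e1 : d = d₀ * q * p' := by rw [hd₀]; ring
      have hlt1 : d₀ * p' < d := by
        have := hq.two_le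
        have hpos : 0 < d₀ * p' := Nat.mul_pos hd₀pos hp'.pos
        calc d₀ * p' < d₀ * p' * q := by nlinarith
          _ = d := by rw [e1]; ring
      have hlt2 : d₀ * q < d := by
        have := hp'.two_le
        have hpos : 0 < d₀ * q := Nat.mul_pos hd₀pos hq.pos
        calc d₀ * q < d₀ * q * p' := by nlinarith
          _ = d := by rw [e1]
      have hdvd1 : d₀ * p' ∣ N := Dvd.dvd.trans ⟨q, by rw [e1]; ring⟩ hdN
      have hdvd2 : d₀ * q ∣ N := Dvd.dvd.trans ⟨p', by rw [e1]⟩ hdN
      have m1 := ih _ hlt1 hdvd1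
      have m2 := ih _ hlt2 hdvd2
      rw [e1]
      exact x_mem_of_two_primes S hq hp' (Ne.symm hne) (D _ hq (hqd.trans hdN))
        (D _ hp' (hp'd.trans hdN)) L hd₀pos m1 m2

end Generation

end Fermat.Agent.S28.ModEqField
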