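/-
S28 helper (field theory, Mathlib only): "no new elements" lemma.

If `x` is a root of a polynomial over `K` that splits into distinct linear factors with all roots
in a subring `L₁`, and `y ∈ K(x)` is a root of a polynomial `g` over `K` whose only root in `L₁`
is `y`, then `y ∈ K`.  Iterated along a finite tower.  Used for the "new prime" step of the
mod-`ℓ` degree count for the modular function field: `J(q^p) ∉ K₀(J(q^d) : d ∣ M)` for `p ∤ M`.
-/
import Mathlib

set_option autoImplicit false

namespace Fermat.Agent.S28.NoNew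

open Polynomial

variable {K L : Type*} [Field K] [Field L] [Algebra K L]

/-- A divisor of a product of distinct linear factors has as many roots among them as its
degree. -/
theorem card_roots_of_dvd_prod {d : ℕ} (r : Fin d → L) (hr : Function.Injective r)
    {f h : L[X]} (hfh : f * h = ∏ j, (X - C (r j))) :
    ∃ A : Finset (Fin d), (∀ j ∈ A, f.eval (r j) = 0) ∧ f.natDegree ≤ A.card := by
  classical
  have hprod_ne : (∏ j, (X - C (r j)) : L[X]) ≠ 0 :=
    Finset.prod_ne_zero_iff.mpr fun j _ => X_sub_C_ne_zero (r j)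
  have hf0 : f ≠ 0 := by rintro rfl; rw [zero_mul] at hfh; exact hprod_ne hfh.symm
  have hh0 : h ≠ 0 := by rintro rfl; rw [mul_zero] at hfh; exact hprod_ne hfh.symm
  have hdeg : f.natDegree + h.natDegree = d := by
    rw [← natDegree_mul hf0 hh0, hfh, natDegree_prod _ _ fun j _ => X_sub_C_ne_zero (r j)]
    simp
  set A := Finset.univ.filter fun j => f.eval (r j) = 0 with hA
  set B := Finset.univ.filter fun j => h.eval (r j) = 0 with hB
  refine ⟨A, fun j hj => by simpa [hA] using hj, ?_⟩
  have hcover : (Finset.univ : Finset (Fin d)) ⊆ A ∪ B := by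
    intro j _
    have hj : (f * h).eval (r j) = 0 := by
      rw [hfh, eval_prod]
      exact Finset.prod_eq_zero (Finset.mem_univ j) (by simp)
    rw [eval_mul, mul_eq_zero] at hj
    rcases hj with hj | hj
    · exact Finset.mem_union_left _ (by simp [hA, hj])
    · exact Finset.mem_union_right _ (by simp [hB, hj])
  have hBcard : B.card ≤ h.natDegree := by
    have himg : (B.image r).val ⊆ h.roots := by
      intro z hz
      rw [Finset.mem_val, Finset.mem_image] at hz
      obtain ⟨j, hj, rfl⟩ := hz
      rw [mem_roots hh0]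
      simpa [hB] using hj
    have := card_le_degree_of_subset_roots himg
    rwa [Finset.card_image_of_injective _ hr] at this
  have hd : d ≤ A.card + B.card := by
    calc d = (Finset.univ : Finset (Fin d)).card := by simp
      _ ≤ (A ∪ B).card := Finset.card_le_card hcover
      _ ≤ A.card + B.card := Finset.card_union_le _ _
  omega

/-- **Lemma N** ("no new elements").  Let `x` be a root of `F ∈ K[X]`, where `F` splits over `L`
into distinct linear factors with all roots in the subring `L₁ ⊇ K`.  If `y ∈ K(x)` is a root of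
`g ∈ K[X]` and `y` is the only root of `g` in `L₁`, then `y ∈ K`. -/
theorem mem_range_of_mem_adjoin_simple (L₁ : Subring L) (hK : ∀ e : K, algebraMap K L e ∈ L₁)
    {x y : L} {F g : K[X]} {d : ℕ} (r : Fin d → L) (hr : Function.Injective r)
    (hr₁ : ∀ j, r j ∈ L₁) (hF : F.map (algebraMap K L) = ∏ j, (X - C (r j)))
    (hx : aeval x F = 0) (hy : y ∈ IntermediateField.adjoin K {x}) (hgy : aeval y g = 0)
    (huniq : ∀ z ∈ L₁, aeval z g = 0 → z = y) :
    y ∈ Set.range (algebraMap K L) := by
  classical
  have hprod_ne : (∏ j, (X - C (r j)) : L[X]) ≠ 0 :=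
    Finset.prod_ne_zero_iff.mpr fun j _ => X_sub_C_ne_zero (r j)
  have hF0 : F ≠ 0 := by
    rintro rfl
    rw [Polynomial.map_zero] at hF
    exact hprod_ne hF.symm
  have hxalg : IsAlgebraic K x := ⟨F, hF0, hx⟩
  have hxint : IsIntegral K x := hxalg.isIntegral
  set f := minpoly K x with hf
  have hfmonic : f.Monic := minpoly.monic hxint
  have hfF : f ∣ F := minpoly.dvd K x hx
  -- write `y = P(x)`
  have hy' : y ∈ Algebra.adjoin K {x} := by
    have := IntermediateField.adjoin_simple_toSubalgebra_of_isAlgebraic hxalg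
    rw [← this]
    exact hy
  rw [Algebra.adjoin_singleton_eq_range_aeval] at hy'
  obtain ⟨P₀, hP₀⟩ := hy'
  set P := P₀ %ₘ f with hP
  have hPx : aeval x P = y := by
    have h1 := modByMonic_add_div P₀ f
    have h2 : aeval x P₀ = aeval x (P₀ %ₘ f + f * (P₀ /ₘ f)) := by rw [h1]
    rw [map_add, map_mul, minpoly.aeval, zero_mul, add_zero] at h2
    rw [hP, ← h2]
    exact hP₀
  have hf1 : f ≠ 1 := fun h1 => by
    have := minpoly.aeval K x
    rw [← hf, h1] at this
    simp at this
  have hPdeg : P.natDegree < f.natDegree := natDegree_modByMonic_lt P₀ hfmonic hf1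
  -- `f ∣ g ∘ P`
  have hcomp : f ∣ g.comp P := by
    apply minpoly.dvd K x
    rw [aeval_comp, hPx, hgy]
  -- roots of `f` among the `r j`
  obtain ⟨h, hh⟩ := hfF
  have hfh : f.map (algebraMap K L) * h.map (algebraMap K L) = ∏ j, (X - C (r j)) := by
    rw [← Polynomial.map_mul, ← hh, hF]
  obtain ⟨A, hAroot, hcard⟩ := card_roots_of_dvd_prod r hr hfh
  rw [natDegree_map] at hcard
  -- `P(r j) = y` for `j ∈ A`
  have hval : ∀ j ∈ A, (P.map (algebraMap K L)).eval (r j) = y := by
    intro j hj
    have hj' : (f.map (algebraMap K L)).eval (r j) = 0 := hAroot j hj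
    have hfr : aeval (r j) f = 0 := by rwa [aeval_def, ← eval_map]
    obtain ⟨c, hc⟩ := hcomp
    have hgr : aeval (aeval (r j) P) g = 0 := by
      rw [← aeval_comp, hc, map_mul, hfr, zero_mul]
    have hmem : aeval (r j) P ∈ L₁ := by
      rw [aeval_def, eval₂_eq_sum_range]
      exact Subring.sum_mem _ fun i _ => Subring.mul_mem _ (hK _) (Subring.pow_mem _ (hr₁ j) i)
    have := huniq _ hmem hgr
    rwa [aeval_def, ← eval_map] at this
  -- the polynomial `P - y` has too many roots
  set Q : L[X] := P.map (algebraMap K L) - C y with hQ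
  have hQ0 : Q = 0 := by
    by_contra hne
    have himg : (A.image r).val ⊆ Q.roots := by
      intro z hz
      rw [Finset.mem_val, Finset.mem_image] at hz
      obtain ⟨j, hj, rfl⟩ := hz
      rw [mem_roots hne, IsRoot.def, hQ, eval_sub, eval_C, hval j hj, sub_self]
    have h1 := card_le_degree_of_subset_roots himg
    rw [Finset.card_image_of_injective _ hr] at h1
    have h2 : Q.natDegree ≤ P.natDegree := by
      rw [hQ]
      refine (natDegree_sub_le _ _).trans ?_
      rw [natDegree_C, max_eq_left (Nat.zero_le _)]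
      exact natDegree_map_le
    omega
  refine ⟨P.coeff 0, ?_⟩
  have h0 := congrArg (fun q : L[X] => q.coeff 0) hQ0
  simp only [hQ, coeff_sub, coeff_map, coeff_C_zero, coeff_zero] at h0
  exact sub_eq_zero.mp h0

/-- **Descent along a finite tower.**  Let `J a`, `a ∈ S`, be elements of `L` such that each
`J a` is a root of a product of distinct linear factors with roots in the intermediate field `L₁`
and coefficients in `K(J e : e ∈ S, e < a)`.  If `y ∈ K(J a : a ∈ S)` is a root of `g ∈ K[X]`
and `y` is the only root of `g` in `L₁`, then `y ∈ K`. -/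
theorem mem_range_of_mem_adjoin_image {ι : Type*} [LinearOrder ι] (L₁ : IntermediateField K L)
    (J : ι → L) (S : Finset ι)
    (hS : ∀ a ∈ S, ∃ (d : ℕ) (r : Fin d → L), Function.Injective r ∧ (∀ j, r j ∈ L₁) ∧
        (∀ i, (∏ j, (X - C (r j)) : L[X]).coeff i ∈
          IntermediateField.adjoin K (J '' {e | e ∈ S ∧ e < a})) ∧ ∃ j, r j = J a)
    {y : L} (hy : y ∈ IntermediateField.adjoin K (J '' (S : Set ι)))
    {g : K[X]} (hgy : aeval y g = 0) (huniq : ∀ z ∈ L₁, aeval z g = 0 → z = y) :
    y ∈ Set.range (algebraMap K L) := by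
  classical
  induction S using Finset.induction_on_max generalizing y with
  | empty =>
    rw [Finset.coe_empty, Set.image_empty, IntermediateField.adjoin_empty] at hy
    exact IntermediateField.mem_bot.mp hy
  | insert a s has ih =>
    -- the hypothesis restricted to `s`
    have hs : ∀ b ∈ s, ∃ (d : ℕ) (r : Fin d → L), Function.Injective r ∧ (∀ j, r j ∈ L₁) ∧
        (∀ i, (∏ j, (X - C (r j)) : L[X]).coeff i ∈
          IntermediateField.adjoin K (J '' {e | e ∈ s ∧ e < b})) ∧ ∃ j, r j = J b := by
      intro b hb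
      obtain ⟨d, r, hr, hr₁, hcoef, hj⟩ := hS b (Finset.mem_insert_of_mem hb)
      refine ⟨d, r, hr, hr₁, fun i => ?_, hj⟩
      refine IntermediateField.adjoin.mono K _ _ (Set.image_mono ?_) (hcoef i)
      rintro e ⟨he, heb⟩
      rcases Finset.mem_insert.mp he with rfl | he
      · exact absurd (has b hb) (not_lt.mpr heb.le)
      · exact ⟨he, heb⟩
    set E : IntermediateField K L := IntermediateField.adjoin K (J '' (s : Set ι)) with hE
    -- `E ≤ L₁`
    have hEL : E ≤ L₁ := by
      rw [hE, IntermediateField.adjoin_le_iff]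
      rintro _ ⟨b, hb, rfl⟩
      obtain ⟨d, r, -, hr₁, -, j, hj⟩ := hs b hb
      rw [← hj]
      exact hr₁ j
    -- the data at `a`
    obtain ⟨d, r, hr, hr₁, hcoef, j₀, hj₀⟩ := hS a (Finset.mem_insert_self a s)
    have hcoefE : ∀ i, (∏ j, (X - C (r j)) : L[X]).coeff i ∈ E := by
      intro i
      refine IntermediateField.adjoin.mono K _ _ (Set.image_mono ?_) (hcoef i)
      rintro e ⟨he, hea⟩
      rcases Finset.mem_insert.mp he with rfl | he
      · exact absurd hea (lt_irrefl _)
      · exact he
    have hlift : (∏ j, (X - C (r j)) : L[X]) ∈ lifts (algebraMap E L) := by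
      rw [lifts_iff_coeff_lifts]
      intro i
      exact ⟨⟨_, hcoefE i⟩, rfl⟩
    rw [mem_lifts] at hlift
    obtain ⟨F, hF⟩ := hlift
    have hFa : aeval (J a) F = 0 := by
      rw [aeval_def, ← eval_map, hF, eval_prod]
      exact Finset.prod_eq_zero (Finset.mem_univ j₀) (by simp [hj₀])
    -- `y ∈ E(J a)`
    have hyE : y ∈ IntermediateField.adjoin E {J a} := by
      have h1 := IntermediateField.adjoin_adjoin_left K (J '' (s : Set ι)) ({J a} : Set L)
      have h2 : J '' ((insert a s : Finset ι) : Set ι) = J '' (s : Set ι) ∪ {J a} := by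
        rw [Finset.coe_insert, Set.image_insert_eq, Set.union_singleton]
      rw [h2, ← h1] at hy
      exact hy
    have hgyE : aeval y (g.map (algebraMap K E)) = 0 := by
      rw [aeval_map_algebraMap]; exact hgy
    have huniqE : ∀ z ∈ L₁.toSubring, aeval z (g.map (algebraMap K E)) = 0 → z = y := by
      intro z hz hgz
      rw [aeval_map_algebraMap] at hgz
      exact huniq z hz hgz
    obtain ⟨e, he⟩ := mem_range_of_mem_adjoin_simple (K := E) L₁.toSubring
      (fun e => hEL e.2) r hr hr₁ hF hFa hyE hgyE huniqE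
    have hyE' : y ∈ E := by rw [← he]; exact e.2
    exact ih hs hyE' hgy huniq

/-- **Orbit dichotomy.**  Let `g ∈ E[X]` split over `L` as `(X - y) ∏ (X - ρ j)` with the
`ρ j` pairwise distinct and different from `y`, such that any `ρ j` can be moved to any `ρ k` by a
ring endomorphism of `L` fixing `E`.  If `y ∉ E` then `g` is the minimal polynomial of `y`:
the minimal polynomial of `y` over `E` has degree `n + 1`. -/
theorem natDegree_minpoly_of_orbit {E : Type*} [Field E] [Algebra E L] {y : L} {n : ℕ}
    (ρ : Fin n → L) (hρ : Function.Injective ρ) (hρy : ∀ j, ρ j ≠ y) {g : E[X]}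
    (hg : g.map (algebraMap E L) = (X - C y) * ∏ j, (X - C (ρ j)))
    (hyE : y ∉ Set.range (algebraMap E L))
    (hσ : ∀ j k, ∃ σ : L →+* L, (∀ e : E, σ (algebraMap E L e) = algebraMap E L e) ∧
      σ (ρ j) = ρ k) :
    (minpoly E y).natDegree = n + 1 := by
  classical
  -- all roots together
  set r : Fin (n + 1) → L := Fin.cons y ρ with hr
  have hrinj : Function.Injective r := by
    rw [hr, Fin.cons_injective_iff]
    exact ⟨fun ⟨j, hj⟩ => hρy j hj, hρ⟩
  have hgr : g.map (algebraMap E L) = ∏ j, (X - C (r j)) := by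
    rw [hg, Fin.prod_univ_succ]
    simp [hr]
  have hprod_ne : (∏ j, (X - C (r j)) : L[X]) ≠ 0 :=
    Finset.prod_ne_zero_iff.mpr fun j _ => X_sub_C_ne_zero (r j)
  have hg0 : g ≠ 0 := by
    rintro rfl
    rw [Polynomial.map_zero] at hgr
    exact hprod_ne hgr.symm
  have hgy : aeval y g = 0 := by
    rw [aeval_def, ← eval_map, hg]
    simp
  have hyalg : IsAlgebraic E y := ⟨g, hg0, hgy⟩
  have hyint : IsIntegral E y := hyalg.isIntegral
  set m := minpoly E y with hm
  have hmg : m ∣ g := minpoly.dvd E y hgy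
  have hgdeg : g.natDegree = n + 1 := by
    rw [← natDegree_map (algebraMap E L), hgr,
      natDegree_prod _ _ fun j _ => X_sub_C_ne_zero (r j)]
    simp
  have hle : m.natDegree ≤ n + 1 := hgdeg ▸ natDegree_le_of_dvd hmg hg0
  have h2 : 2 ≤ m.natDegree := (minpoly.two_le_natDegree_iff hyint).mpr hyE
  obtain ⟨h, hh⟩ := hmg
  have hfh : m.map (algebraMap E L) * h.map (algebraMap E L) = ∏ j, (X - C (r j)) := by
    rw [← Polynomial.map_mul, ← hh, hgr]
  obtain ⟨A, hAroot, hcard⟩ := card_roots_of_dvd_prod r hrinj hfh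
  rw [natDegree_map] at hcard
  -- some `ρ j₁` is a root of `m`
  have hex : ∃ j₁ : Fin n, (m.map (algebraMap E L)).eval (ρ j₁) = 0 := by
    have hA2 : 1 < A.card := lt_of_lt_of_le h2 hcard
    obtain ⟨a, ha, b, hb, hab⟩ := Finset.one_lt_card.mp hA2
    -- one of `a`, `b` is not `0`
    rcases Fin.eq_zero_or_eq_succ a with rfl | ⟨a', rfl⟩
    · rcases Fin.eq_zero_or_eq_succ b with rfl | ⟨b', rfl⟩
      · exact absurd rfl hab
      · exact ⟨b', by simpa [hr] using hAroot _ hb⟩
    · exact ⟨a', by simpa [hr] using hAroot _ ha⟩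
  obtain ⟨j₁, hj₁⟩ := hex
  have hall : ∀ k, (m.map (algebraMap E L)).eval (ρ k) = 0 := by
    intro k
    obtain ⟨σ, hσE, hσρ⟩ := hσ j₁ k
    have h1 : σ ((m.map (algebraMap E L)).eval (ρ j₁)) = 0 := by rw [hj₁, map_zero]
    rw [eval_map, hom_eval₂, hσρ] at h1
    have h3 : σ.comp (algebraMap E L) = algebraMap E L := RingHom.ext hσE
    rw [h3] at h1
    rw [eval_map]
    exact h1
  have hmy : (m.map (algebraMap E L)).eval y = 0 := by
    rw [eval_map, ← aeval_def]
    exact minpoly.aeval E y
  have hm0 : m.map (algebraMap E L) ≠ 0 :=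
    (Polynomial.map_ne_zero_iff (algebraMap E L).injective).mpr (minpoly.ne_zero hyint)
  have himg : ((Finset.univ : Finset (Fin (n + 1))).image r).val ⊆
      (m.map (algebraMap E L)).roots := by
    intro z hz
    rw [Finset.mem_val, Finset.mem_image] at hz
    obtain ⟨j, -, rfl⟩ := hz
    rw [mem_roots hm0, IsRoot.def]
    rcases Fin.eq_zero_or_eq_succ j with rfl | ⟨j', rfl⟩
    · simpa [hr] using hmy
    · simpa [hr] using hall j'
  have h3 := card_le_degree_of_subset_roots himg
  rw [Finset.card_image_of_injective _ hrinj, natDegree_map] at h3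
  simp only [Finset.card_univ, Fintype.card_fin] at h3
  omega

/-- **New prime step (abstract form).**  `K ⊆ L` fields, `E := K(J a : a ∈ S)` a finite tower as
in `mem_range_of_mem_adjoin_image` with all splitting roots in `L₁`.  Let `g ∈ K[X]` split over
`L` as `(X - y) ∏ (X - ρ j)` with distinct roots, `ρ j ∉ L₁`, `y ∉ K`, and suppose the `ρ j`
form one orbit under ring endomorphisms of `L` fixing `K` and all `J a`.  Then `y` has degree
`n + 1` over `E`. -/
theorem natDegree_minpoly_adjoin_image {ι : Type*} [LinearOrder ι] (L₁ : IntermediateField K L)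
    (J : ι → L) (S : Finset ι)
    (hS : ∀ a ∈ S, ∃ (d : ℕ) (r : Fin d → L), Function.Injective r ∧ (∀ j, r j ∈ L₁) ∧
        (∀ i, (∏ j, (X - C (r j)) : L[X]).coeff i ∈
          IntermediateField.adjoin K (J '' {e | e ∈ S ∧ e < a})) ∧ ∃ j, r j = J a)
    {y : L} {n : ℕ} (ρ : Fin n → L) (hρ : Function.Injective ρ) (hρy : ∀ j, ρ j ≠ y)
    (hρL₁ : ∀ j, ρ j ∉ L₁) {g : K[X]}
    (hg : g.map (algebraMap K L) = (X - C y) * ∏ j, (X - C (ρ j)))
    (hyK : y ∉ Set.range (algebraMap K L))
    (hσ : ∀ j k, ∃ σ : L →+* L, (∀ c : K, σ (algebraMap K L c) = algebraMap K L c) ∧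
      (∀ a ∈ S, σ (J a) = J a) ∧ σ (ρ j) = ρ k) :
    (minpoly (IntermediateField.adjoin K (J '' (S : Set ι))) y).natDegree = n + 1 := by
  classical
  set E : IntermediateField K L := IntermediateField.adjoin K (J '' (S : Set ι)) with hE
  have hgy : aeval y g = 0 := by
    rw [aeval_def, ← eval_map, hg]
    simp
  have huniq : ∀ z ∈ L₁, aeval z g = 0 → z = y := by
    intro z hz hgz
    rw [aeval_def, ← eval_map, hg, eval_mul, eval_prod, mul_eq_zero] at hgz
    rcases hgz with h | h
    · simpa [sub_eq_zero] using h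
    · rw [Finset.prod_eq_zero_iff] at h
      obtain ⟨j, -, hj⟩ := h
      have : z = ρ j := by simpa [sub_eq_zero] using hj
      exact absurd (this ▸ hz) (hρL₁ j)
  have hyE : y ∉ Set.range (algebraMap E L) := by
    rintro ⟨e, rfl⟩
    exact hyK (mem_range_of_mem_adjoin_image L₁ J S hS e.2 hgy huniq)
  have hgE : (g.map (algebraMap K E)).map (algebraMap E L) = (X - C y) * ∏ j, (X - C (ρ j)) := by
    rw [Polynomial.map_map, ← IsScalarTower.algebraMap_eq, hg]
  refine natDegree_minpoly_of_orbit ρ hρ hρy hgE hyE fun j k => ?_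
  obtain ⟨σ, hσK, hσJ, hσρ⟩ := hσ j k
  refine ⟨σ, ?_, hσρ⟩
  -- `σ` fixes `E` pointwise
  have hfix : E ≤ (IntermediateField.adjoin K {x : L | σ x = x}) := by
    rw [hE]
    apply IntermediateField.adjoin.mono
    rintro _ ⟨a, ha, rfl⟩
    exact hσJ a ha
  have hfixed : ∀ x ∈ IntermediateField.adjoin K {x : L | σ x = x}, σ x = x := by
    intro x hx
    induction hx using IntermediateField.adjoin_induction with
    | mem x hx => exact hx
    | algebraMap c => exact hσK c
    | add x z _ _ hx hz => rw [map_add, hx, hz]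
    | inv x _ hx => rw [map_inv₀, hx]
    | mul x z _ _ hx hz => rw [map_mul, hx, hz]
  intro e
  exact hfixed _ (hfix e.2)

end Fermat.Agent.S28.NoNew
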