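import Mathlib

/-!
# S28 — orbit criteria for the degree of an element over a subfield

Pure field theory (no modular forms).  If an element `x` of a field `Ω` has `n` pairwise distinct
images under ring endomorphisms of `Ω` fixing a set `B` pointwise, then `1, x, …, x ^ (n - 1)` are
linearly independent over `B` (stated as: no nontrivial relation with coefficients in `B`).
A variant treats a polynomial of degree `n + 1` having one extra root outside `B`.
-/

set_option autoImplicit false

namespace Fermat.Agent.S28.OrbitIrred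

open Polynomial

/-- The polynomial `∑ c t X ^ t` attached to a coefficient family. -/
noncomputable def relPoly {R : Type*} [CommRing R] {n : ℕ} (c : Fin n → R) : R[X] :=
  ∑ t : Fin n, monomial (t : ℕ) (c t)

theorem relPoly_eval {R : Type*} [CommRing R] {n : ℕ} (c : Fin n → R) (x : R) :
    (relPoly c).eval x = ∑ t : Fin n, c t * x ^ (t : ℕ) := by
  simp [relPoly, eval_finsetSum, eval_monomial]

theorem relPoly_coeff {R : Type*} [CommRing R] {n : ℕ} (c : Fin n → R) (t : Fin n) :
    (relPoly c).coeff (t : ℕ) = c t := by
  classical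
  rw [relPoly, finsetSum_coeff, Finset.sum_eq_single t]
  · simp
  · intro b _ hb
    rw [coeff_monomial, if_neg]
    exact fun h => hb (Fin.ext h)
  · intro h
    exact absurd (Finset.mem_univ t) h

theorem relPoly_degree_lt {R : Type*} [CommRing R] {n : ℕ} (c : Fin n → R) :
    (relPoly c).degree < n := by
  rw [degree_lt_iff_coeff_zero]
  intro m hm
  rw [relPoly, finsetSum_coeff]
  refine Finset.sum_eq_zero fun t _ => ?_
  rw [coeff_monomial, if_neg]
  have := t.2
  omega

theorem relPoly_map {R S : Type*} [CommRing R] [CommRing S] (f : R →+* S) {n : ℕ}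
    (c : Fin n → R) : (relPoly c).map f = relPoly (fun t => f (c t)) := by
  simp [relPoly, Polynomial.map_sum, map_monomial]

theorem relPoly_eq_zero_iff {R : Type*} [CommRing R] {n : ℕ} (c : Fin n → R) :
    relPoly c = 0 ↔ ∀ t, c t = 0 := by
  constructor
  · intro h t
    rw [← relPoly_coeff c t, h, coeff_zero]
  · intro h
    simp [relPoly, h]

/-- Every polynomial of degree `< n` is a `relPoly`. -/
theorem eq_relPoly_of_degree_lt {R : Type*} [CommRing R] {n : ℕ} (P : R[X])
    (hP : P.degree < n) : P = relPoly (fun t : Fin n => P.coeff (t : ℕ)) := by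
  ext m
  by_cases hm : m < n
  · exact (relPoly_coeff (fun t : Fin n => P.coeff (t : ℕ)) ⟨m, hm⟩).symm
  · have h1 : P.coeff m = 0 :=
      coeff_eq_zero_of_degree_lt (hP.trans_le (by exact_mod_cast not_lt.mp hm))
    have h2 : (relPoly (fun t : Fin n => P.coeff (t : ℕ))).coeff m = 0 :=
      coeff_eq_zero_of_degree_lt
        ((relPoly_degree_lt _).trans_le (by exact_mod_cast not_lt.mp hm))
    rw [h1, h2]

/-- A ring endomorphism fixing the coefficients maps roots to roots. -/
theorem eval_relPoly_conj {Ω : Type*} [Field Ω] {n : ℕ} (c : Fin n → Ω) (x : Ω) (σ : Ω →+* Ω)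
    (hσ : ∀ t, σ (c t) = c t) : (relPoly c).eval (σ x) = σ ((relPoly c).eval x) := by
  rw [relPoly_eval, relPoly_eval, map_sum]
  refine Finset.sum_congr rfl fun t _ => ?_
  rw [map_mul, map_pow, hσ t]

/-- **Orbit criterion.** If `x` has `n` pairwise distinct conjugates `r i` under ring
endomorphisms of `Ω` fixing `B` pointwise, then there is no nontrivial relation
`∑_{t < n} c t * x ^ t = 0` with coefficients in `B`. -/
theorem eq_zero_of_sum_pow_eq_zero_of_conj {Ω : Type*} [Field Ω] (B : Set Ω) (x : Ω) {n : ℕ}
    (r : Fin n → Ω) (hr : Function.Injective r)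
    (hconj : ∀ i, ∃ σ : Ω →+* Ω, (∀ b ∈ B, σ b = b) ∧ σ x = r i)
    (c : Fin n → Ω) (hc : ∀ t, c t ∈ B) (h : ∑ t, c t * x ^ (t : ℕ) = 0) : ∀ t, c t = 0 := by
  rw [← relPoly_eq_zero_iff]
  refine Polynomial.eq_zero_of_degree_lt_of_eval_index_eq_zero (v := r) Finset.univ
    (fun i _ j _ hij => hr hij) (by simpa using relPoly_degree_lt c) fun i _ => ?_
  obtain ⟨σ, hσB, hσx⟩ := hconj i
  rw [← hσx, eval_relPoly_conj c x σ fun t => hσB _ (hc t), relPoly_eval, h, map_zero]

/-- **Orbit criterion, base-step variant.** Let `G` be a monic polynomial of degree `n + 1` over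
a subfield `B`, with roots `w` and `y`.  If `w` has `n` pairwise distinct conjugates `r i` under
ring endomorphisms fixing `B`, and `y` is not in `B` and is none of the `r i`, then there is no
nontrivial relation `∑_{t ≤ n} c t * w ^ t = 0` with coefficients in `B`. -/
theorem eq_zero_of_sum_pow_eq_zero_of_conj_succ {Ω : Type*} [Field Ω] (B : Subfield Ω)
    (w y : Ω) {n : ℕ} (r : Fin n → Ω) (hr : Function.Injective r)
    (hconj : ∀ i, ∃ σ : Ω →+* Ω, (∀ b ∈ B, σ b = b) ∧ σ w = r i)
    (G : Polynomial B) (hG : G.Monic) (hdeg : G.natDegree = n + 1)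
    (hGw : (G.map B.subtype).eval w = 0) (hGy : (G.map B.subtype).eval y = 0)
    (hyB : y ∉ B) (hyr : ∀ i, y ≠ r i)
    (c : Fin (n + 1) → Ω) (hc : ∀ t, c t ∈ B) (h : ∑ t, c t * w ^ (t : ℕ) = 0) :
    ∀ t, c t = 0 := by
  classical
  rw [← relPoly_eq_zero_iff]
  by_contra hP0
  -- the relation polynomial over `B`
  set cB : Fin (n + 1) → B := fun t => ⟨c t, hc t⟩ with hcB
  set PB : Polynomial B := relPoly cB with hPB
  have hPmap : PB.map B.subtype = relPoly c := by
    rw [hPB, relPoly_map]
    rfl
  have hPB0 : PB ≠ 0 := by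
    intro h0
    apply hP0
    rw [← hPmap, h0, Polynomial.map_zero]
  -- every conjugate is a root of `relPoly c` and of `G`
  have hrootP : ∀ i, (relPoly c).eval (r i) = 0 := by
    intro i
    obtain ⟨σ, hσB, hσx⟩ := hconj i
    rw [← hσx, eval_relPoly_conj c w σ fun t => hσB _ (hc t), relPoly_eval, h, map_zero]
  have hrootG : ∀ i, (G.map B.subtype).eval (r i) = 0 := by
    intro i
    obtain ⟨σ, hσB, hσx⟩ := hconj i
    have hcomp : σ.comp B.subtype = B.subtype := by
      ext b
      exact hσB b b.2
    rw [← hσx, eval_map, ← hcomp, ← hom_eval₂, ← eval_map, hGw, map_zero]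
  -- `y` is not a root of the relation polynomial (too many roots otherwise)
  have hPy : (relPoly c).eval y ≠ 0 := by
    intro hy0
    apply hP0
    refine Polynomial.eq_zero_of_degree_lt_of_eval_index_eq_zero
      (v := fun o : Option (Fin n) => o.elim y r) Finset.univ ?_ ?_ ?_
    · intro a _ b _ hab
      cases a with
      | none =>
        cases b with
        | none => rfl
        | some j => exact absurd hab (hyr j)
      | some i =>
        cases b with
        | none => exact absurd hab.symm (hyr i)
        | some j => exact congrArg some (hr hab)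
    · simpa using relPoly_degree_lt c
    · intro o _
      cases o with
      | none => exact hy0
      | some i => exact hrootP i
  -- Euclidean division of `G` by `PB` over `B`
  have hdivmod : PB * (G / PB) + G % PB = G := EuclideanDomain.div_add_mod G PB
  have hRdeg : (G % PB).degree < PB.degree := degree_mod_lt G hPB0  -- remainder degree
  have hPBdeg : PB.degree < (n + 1 : ℕ) := relPoly_degree_lt cB
  -- the remainder vanishes at the `n` conjugates and has degree `< n`
  have hR0 : G % PB = 0 := by
    have hmapinj : Function.Injective (Polynomial.map B.subtype) :=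
      Polynomial.map_injective _ B.subtype.injective
    apply hmapinj
    rw [Polynomial.map_zero]
    refine Polynomial.eq_zero_of_degree_lt_of_eval_index_eq_zero (v := r) Finset.univ
      (fun i _ j _ hij => hr hij) ?_ fun i _ => ?_
    · rw [degree_map]
      have h1 : (G % PB).degree < (n + 1 : ℕ) := hRdeg.trans hPBdeg
      have h2 : (G % PB).degree < PB.degree := hRdeg
      -- `PB.degree ≤ n`, so the remainder has degree `< n`
      have h3 : PB.degree ≤ (n : ℕ) := by
        rw [degree_eq_natDegree hPB0]
        have := (natDegree_lt_iff_degree_lt hPB0).mpr hPBdeg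
        exact_mod_cast Nat.lt_succ_iff.mp this
      simpa using h2.trans_le h3
    · have hmapeq := congrArg (fun Q : Polynomial B => (Q.map B.subtype).eval (r i)) hdivmod
      simp only [Polynomial.map_add, Polynomial.map_mul, eval_add, eval_mul, hPmap, hrootP i,
        zero_mul, zero_add, hrootG i] at hmapeq
      exact hmapeq
  rw [hR0, add_zero] at hdivmod
  -- the quotient `A` has degree one and vanishes at `y`
  set A : Polynomial B := G / PB with hA
  have hA0 : A ≠ 0 := by
    intro h0
    rw [h0, mul_zero] at hdivmod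
    exact hG.ne_zero hdivmod.symm
  have hAy : (A.map B.subtype).eval y = 0 := by
    have hmapeq := congrArg (fun Q : Polynomial B => (Q.map B.subtype).eval y) hdivmod
    simp only [Polynomial.map_mul, eval_mul, hPmap, hGy] at hmapeq
    exact (mul_eq_zero.mp hmapeq).resolve_left hPy
  have hnat : PB.natDegree + A.natDegree = n + 1 := by
    rw [← natDegree_mul hPB0 hA0, hdivmod, hdeg]
  have hPBnat : PB.natDegree ≤ n := by
    have := (natDegree_lt_iff_degree_lt hPB0).mpr hPBdeg
    omega
  -- `A` is not constant, since `y ∉ B` is a root; so `A` has degree exactly one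
  have hA1 : A.natDegree = 1 := by
    have hle : 1 ≤ A.natDegree := by omega
    by_contra hne
    have h2 : 2 ≤ A.natDegree := by omega
    -- then `PB` has degree `≤ n - 1` but `n` distinct roots
    apply hP0
    refine Polynomial.eq_zero_of_degree_lt_of_eval_index_eq_zero (v := r) Finset.univ
      (fun i _ j _ hij => hr hij) ?_ fun i _ => hrootP i
    rw [← hPmap, degree_map]
    have h3 : PB.natDegree < n := by omega
    have := (natDegree_lt_iff_degree_lt hPB0).mp h3
    simpa using this
  obtain ⟨a, ha, b, hab⟩ := natDegree_eq_one.mp hA1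
  rw [← hab] at hAy
  simp only [Polynomial.map_add, Polynomial.map_mul, map_C, map_X, eval_add, eval_mul, eval_C,
    eval_X, Subfield.coe_subtype] at hAy
  apply hyB
  have hane : (a : Ω) ≠ 0 := fun h0 => ha (Subtype.ext h0)
  have hyeq : y = ((-b / a : B) : Ω) := by
    push_cast
    field_simp
    linear_combination hAy
  rw [hyeq]
  exact (-b / a : B).2

/-- Under the hypotheses of the base-step variant, `G` is the minimal polynomial of `y` over `B`
and `w` is a root of it: `w` is a conjugate of `y` over `B`. -/
theorem aeval_minpoly_eq_zero_of_conj_succ {Ω : Type*} [Field Ω] (B : Subfield Ω)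
    (w y : Ω) {n : ℕ} (r : Fin n → Ω) (hr : Function.Injective r)
    (hconj : ∀ i, ∃ σ : Ω →+* Ω, (∀ b ∈ B, σ b = b) ∧ σ w = r i)
    (G : Polynomial B) (hG : G.Monic) (hdeg : G.natDegree = n + 1)
    (hGw : (G.map B.subtype).eval w = 0) (hGy : (G.map B.subtype).eval y = 0)
    (hyB : y ∉ B) (hyr : ∀ i, y ≠ r i) :
    minpoly B y = G ∧ Irreducible G ∧ Polynomial.aeval w (minpoly B y) = 0 := by
  have hLI := eq_zero_of_sum_pow_eq_zero_of_conj_succ B w y r hr hconj G hG hdeg hGw hGy hyB hyr
  have hGw' : Polynomial.aeval w G = 0 := by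
    rw [aeval_def, eval₂_eq_eval_map]
    exact hGw
  have hGy' : Polynomial.aeval y G = 0 := by
    rw [aeval_def, eval₂_eq_eval_map]
    exact hGy
  have hwint : IsIntegral B w := ⟨G, hG, hGw'⟩
  -- the minimal polynomial of `w` has degree `≥ n + 1`
  have hmdeg : n + 1 ≤ (minpoly B w).natDegree := by
    by_contra hlt
    have hlt' : (minpoly B w).degree < ((n + 1 : ℕ) : WithBot ℕ) :=
      (natDegree_lt_iff_degree_lt (minpoly.ne_zero hwint)).mp (not_le.mp hlt)
    have hrep := eq_relPoly_of_degree_lt (minpoly B w) hlt'
    have hz := hLI (fun t => ((minpoly B w).coeff (t : ℕ) : Ω)) (fun t => SetLike.coe_mem _) (by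
      have h0 : Polynomial.aeval w (minpoly B w) = 0 := minpoly.aeval B w
      rw [aeval_def, eval₂_eq_eval_map, hrep, relPoly_map, relPoly_eval] at h0
      exact h0)
    apply minpoly.ne_zero hwint
    rw [hrep, relPoly_eq_zero_iff]
    intro t
    exact Subtype.ext (hz t)
  have hdvd : minpoly B w ∣ G := minpoly.dvd B w hGw'
  have hGeq : G = minpoly B w :=
    eq_of_monic_of_dvd_of_natDegree_le (minpoly.monic hwint) hG hdvd (by omega)
  have hirr : Irreducible G := hGeq ▸ minpoly.irreducible hwint
  have hy : minpoly B y = G := (minpoly.eq_of_irreducible_of_monic hirr hGy' hG).symm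
  exact ⟨hy, hirr, by rw [hy]; exact hGw'⟩

/-- A ring endomorphism that fixes the base field and a set of generators fixes the generated
subalgebra pointwise. -/
theorem fixes_adjoin {E Ω : Type*} [CommRing E] [CommRing Ω] [Algebra E Ω] (σ : Ω →+* Ω)
    (hE : ∀ e : E, σ (algebraMap E Ω e) = algebraMap E Ω e) (S : Set Ω) (hS : ∀ s ∈ S, σ s = s)
    (z : Ω) (hz : z ∈ Algebra.adjoin E S) : σ z = z := by
  induction hz using Algebra.adjoin_induction with
  | mem x hx => exact hS x hx
  | algebraMap r => exact hE r
  | add x y _ _ hx hy => rw [map_add, hx, hy]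
  | mul x y _ _ hx hy => rw [map_mul, hx, hy]

end Fermat.Agent.S28.OrbitIrred
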