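/-
S28, route T: adapter between `GaussBase.polyRing ℓ x` (helper72) and `RJClosed.RJ ℓ e` /
`Algebra.adjoin ℤ_(ℓ) {x}`, and the mutual-integrality statement (`h1N`, `hN1` of
`RouteT.integral_over_O1`) in `polyRing` form.
-/
import Mathlib
import Fermat.Agent.S28.GaussBase
import Fermat.Agent.S28.RJClosed

set_option autoImplicit false

noncomputable section

open Polynomial

namespace Fermat.Agent.S28.RJPoly

open Fermat.Agent.S28

/-- `polyRing ℓ x` is the subalgebra `ℤ_(ℓ)[x]`. -/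
theorem polyRing_eq_adjoin (ℓ : ℕ) (x : LaurentSeries ℚ) :
    GaussBase.polyRing ℓ x =
      (Algebra.adjoin ↥(GaloisRep.ratLocalizedAt ℓ) ({x} : Set (LaurentSeries ℚ))).toSubring := by
  ext y
  rw [Subalgebra.mem_toSubring, Algebra.adjoin_singleton_eq_range_aeval]
  unfold GaussBase.polyRing
  have hEq : ∀ p : (↥(GaloisRep.ratLocalizedAt ℓ))[X],
      Polynomial.eval₂RingHom ((HahnSeries.C : ℚ →+* LaurentSeries ℚ).comp
        (GaloisRep.ratLocalizedAt ℓ).subtype) x p = Polynomial.aeval x p := by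
    intro p
    rw [Polynomial.coe_eval₂RingHom, Polynomial.aeval_def]
    congr 1
    ext r : 1
    rw [RJClosed.algebraMap_ratLocalizedAt]
    rfl
  constructor
  · rintro ⟨p, rfl⟩
    exact ⟨p, (hEq p).symm⟩
  · rintro ⟨p, rfl⟩
    exact ⟨p, hEq p⟩

/-- `polyRing ℓ (J(q^e))` is `RJ ℓ e`. -/
theorem polyRing_Jd_eq_RJ (ℓ e : ℕ) : GaussBase.polyRing ℓ (TD.Jd ℚ e) = RJClosed.RJ ℓ e := by
  rw [polyRing_eq_adjoin, RJClosed.RJ_eq_adjoin]

/-- `polyRing ℓ x` as a ring closure. -/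
theorem polyRing_eq_closure (ℓ : ℕ) (x : LaurentSeries ℚ) :
    GaussBase.polyRing ℓ x = Subring.closure
      (Set.range (algebraMap ↥(GaloisRep.ratLocalizedAt ℓ) (LaurentSeries ℚ)) ∪ {x}) := by
  rw [polyRing_eq_adjoin]
  exact Algebra.adjoin_eq_ring_closure _

/-- **`h1N` / `hN1` in `polyRing` form**: the rings `ℤ_(ℓ)[J(q^(m·N))]` and `ℤ_(ℓ)[J(q^m)]`
have the same integral elements. -/
theorem isIntegral_polyRing_Jd_iff (ℓ N : ℕ) (hN : N ≠ 0)
    (hME : ∀ r : ℕ, r.Prime → r ∣ N → Nonempty (TD.ModEq r)) (m : ℕ) (hm : m ≠ 0)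
    (x : LaurentSeries ℚ) :
    IsIntegral (GaussBase.polyRing ℓ (TD.Jd ℚ (m * N))) x ↔
      IsIntegral (GaussBase.polyRing ℓ (TD.Jd ℚ m)) x := by
  rw [polyRing_Jd_eq_RJ, polyRing_Jd_eq_RJ]
  exact RJClosed.isIntegral_RJ_mul_iff ℓ N hN hME m hm x

/-- The special case `m = 1`: `ℤ_(ℓ)[J(q^N)]` and `ℤ_(ℓ)[J(q)]`. -/
theorem isIntegral_polyRing_Jd_one_iff (ℓ N : ℕ) (hN : N ≠ 0)
    (hME : ∀ r : ℕ, r.Prime → r ∣ N → Nonempty (TD.ModEq r)) (x : LaurentSeries ℚ) :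
    IsIntegral (GaussBase.polyRing ℓ (TD.Jd ℚ N)) x ↔
      IsIntegral (GaussBase.polyRing ℓ (TD.Jd ℚ 1)) x := by
  have h := isIntegral_polyRing_Jd_iff ℓ N hN hME 1 one_ne_zero x
  rwa [one_mul] at h

end Fermat.Agent.S28.RJPoly
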