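import Fermat.Agent.S28.OrbitIrred

/-!
# S28 — comparison of two towers of simple extensions

Pure field theory.  Let `E` be a field and `Ω₁`, `Ω₂` two field extensions, with sequences
`w k ∈ Ω₁`, `x k ∈ Ω₂`.  The *graph* `graph E w x k ⊆ Ω₁ × Ω₂` is the `E`-subalgebra generated by
the pairs `(w i, x i)`, `i < k`.  If at every step there is a monic polynomial over the graph
whose two projections kill `w k` and `x k`, and if `w k` has the full degree over
`E[w 0, …, w (k-1)]`, then every graph is a field (the graph of an isomorphism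
`E[w 0, …, w (k-1)] ≃ E[x 0, …, x (k-1)]`) and `x k` has the full degree over
`E[x 0, …, x (k-1)]`.
-/

set_option autoImplicit false

namespace Fermat.Agent.S28.TowerCompare

open Polynomial Fermat.Agent.S28.OrbitIrred

variable {E Ω₁ Ω₂ : Type*} [Field E] [Field Ω₁] [Field Ω₂] [Algebra E Ω₁] [Algebra E Ω₂]

/-- First projection restricted to a subalgebra of the product. -/
def p1 (D : Subalgebra E (Ω₁ × Ω₂)) : D →+* Ω₁ :=
  (RingHom.fst Ω₁ Ω₂).comp (algebraMap D (Ω₁ × Ω₂))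

/-- Second projection restricted to a subalgebra of the product. -/
def p2 (D : Subalgebra E (Ω₁ × Ω₂)) : D →+* Ω₂ :=
  (RingHom.snd Ω₁ Ω₂).comp (algebraMap D (Ω₁ × Ω₂))

theorem p1_apply (D : Subalgebra E (Ω₁ × Ω₂)) (d : D) : p1 D d = (d : Ω₁ × Ω₂).1 := rfl

theorem p2_apply (D : Subalgebra E (Ω₁ × Ω₂)) (d : D) : p2 D d = (d : Ω₁ × Ω₂).2 := rfl

theorem aeval_fst (D : Subalgebra E (Ω₁ × Ω₂)) (u : Ω₁ × Ω₂) (Q : Polynomial D) :
    (aeval u Q).1 = (Q.map (p1 D)).eval u.1 := by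
  rw [aeval_def, eval_map, p1]
  exact hom_eval₂ Q (algebraMap D (Ω₁ × Ω₂)) (RingHom.fst Ω₁ Ω₂) u

theorem aeval_snd (D : Subalgebra E (Ω₁ × Ω₂)) (u : Ω₁ × Ω₂) (Q : Polynomial D) :
    (aeval u Q).2 = (Q.map (p2 D)).eval u.2 := by
  rw [aeval_def, eval_map, p2]
  exact hom_eval₂ Q (algebraMap D (Ω₁ × Ω₂)) (RingHom.snd Ω₁ Ω₂) u

theorem p1_injective (D : Subalgebra E (Ω₁ × Ω₂)) (hD : IsField D) :
    Function.Injective (p1 D) := by
  rw [injective_iff_map_eq_zero]
  intro d hd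
  by_contra hne
  obtain ⟨d', h⟩ := hD.mul_inv_cancel hne
  have h1 := congrArg (p1 D) h
  rw [map_mul, hd, zero_mul, map_one] at h1
  exact zero_ne_one h1

theorem p2_injective (D : Subalgebra E (Ω₁ × Ω₂)) (hD : IsField D) :
    Function.Injective (p2 D) := by
  rw [injective_iff_map_eq_zero]
  intro d hd
  by_contra hne
  obtain ⟨d', h⟩ := hD.mul_inv_cancel hne
  have h1 := congrArg (p2 D) h
  rw [map_mul, hd, zero_mul, map_one] at h1
  exact zero_ne_one h1

theorem aeval_mem_sup (D : Subalgebra E (Ω₁ × Ω₂)) (u : Ω₁ × Ω₂) (Q : Polynomial D) :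
    aeval u Q ∈ D ⊔ Algebra.adjoin E {u} := by
  rw [aeval_eq_sum_range]
  refine Subalgebra.sum_mem _ fun i _ => ?_
  rw [Algebra.smul_def]
  refine Subalgebra.mul_mem _ ?_ (Subalgebra.pow_mem _ ?_ i)
  · exact (le_sup_left : D ≤ D ⊔ Algebra.adjoin E {u}) (Q.coeff i).2
  · exact (le_sup_right : Algebra.adjoin E {u} ≤ D ⊔ Algebra.adjoin E {u})
      (Algebra.subset_adjoin rfl)

theorem exists_aeval_of_mem_sup (D : Subalgebra E (Ω₁ × Ω₂)) (u : Ω₁ × Ω₂) (d : Ω₁ × Ω₂)
    (hd : d ∈ D ⊔ Algebra.adjoin E {u}) : ∃ Q : Polynomial D, d = aeval u Q := by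
  have hd' : d ∈ Algebra.adjoin E ((D : Set (Ω₁ × Ω₂)) ∪ {u}) := by
    rw [Algebra.adjoin_union, Algebra.adjoin_eq]
    exact hd
  induction hd' using Algebra.adjoin_induction with
  | mem y hy =>
    rcases hy with hy | hy
    · exact ⟨C ⟨y, hy⟩, by rw [aeval_C]; rfl⟩
    · rw [Set.mem_singleton_iff] at hy
      exact ⟨X, by rw [aeval_X, hy]⟩
  | algebraMap r => exact ⟨C (algebraMap E D r), by rw [aeval_C]; rfl⟩
  | add y z _ _ hy hz =>
    obtain ⟨Q1, rfl⟩ := hy (by
      rw [Algebra.adjoin_union, Algebra.adjoin_eq] at *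
      assumption)
    obtain ⟨Q2, rfl⟩ := hz (by
      rw [Algebra.adjoin_union, Algebra.adjoin_eq] at *
      assumption)
    exact ⟨Q1 + Q2, by rw [map_add]⟩
  | mul y z _ _ hy hz =>
    obtain ⟨Q1, rfl⟩ := hy (by
      rw [Algebra.adjoin_union, Algebra.adjoin_eq] at *
      assumption)
    obtain ⟨Q2, rfl⟩ := hz (by
      rw [Algebra.adjoin_union, Algebra.adjoin_eq] at *
      assumption)
    exact ⟨Q1 * Q2, by rw [map_mul]⟩

/-- **One step of the comparison.** -/
theorem step (D : Subalgebra E (Ω₁ × Ω₂)) (hD : IsField D) (w : Ω₁) (x : Ω₂) (n : ℕ)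
    (G : Polynomial D) (hG : G.Monic) (hdeg : G.natDegree = n)
    (hGw : (G.map (p1 D)).eval w = 0) (hGx : (G.map (p2 D)).eval x = 0)
    (hw : ∀ P : Polynomial D, P.degree < n → (P.map (p1 D)).eval w = 0 → P = 0) :
    IsField (D ⊔ Algebra.adjoin E {(w, x)} : Subalgebra E (Ω₁ × Ω₂)) ∧
    (∀ P : Polynomial D, P.degree < n → (P.map (p2 D)).eval x = 0 → P = 0) := by
  set u : Ω₁ × Ω₂ := (w, x) with hu
  set D' : Subalgebra E (Ω₁ × Ω₂) := D ⊔ Algebra.adjoin E {u} with hD'
  have hle : D ≤ D' := le_sup_left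
  have : Nontrivial D := by
    obtain ⟨a, b, hab⟩ := hD.exists_pair_ne
    exact ⟨⟨a, b, hab⟩⟩
  have hGu : aeval u G = 0 :=
    Prod.ext (by rw [aeval_fst]; exact hGw) (by rw [aeval_snd]; exact hGx)
  have hrep' : ∀ d ∈ D', ∃ R : Polynomial D, R.degree < n ∧ d = aeval u R := by
    intro d hd
    obtain ⟨Q, rfl⟩ := exists_aeval_of_mem_sup D u d hd
    refine ⟨Q %ₘ G, ?_, ?_⟩
    · have := degree_modByMonic_lt Q hG
      rwa [degree_eq_natDegree hG.ne_zero, hdeg] at this
    · conv_lhs => rw [← modByMonic_add_div Q G]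
      rw [map_add, map_mul, hGu, zero_mul, add_zero]
  have hinj1 : ∀ d ∈ D', d.1 = 0 → d = 0 := by
    intro d hd h1
    obtain ⟨R, hR, rfl⟩ := hrep' d hd
    rw [aeval_fst] at h1
    rw [hw R hR h1, map_zero]
  have hfield : IsField D' := by
    have hdom : IsDomain D' := by
      refine Function.Injective.isDomain (p1 D') ?_
      rw [injective_iff_map_eq_zero]
      intro d hd
      exact Subtype.ext (hinj1 d d.2 hd)
    let _ : Algebra D D' := (Subalgebra.inclusion hle).toRingHom.toAlgebra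
    have hint : Algebra.IsIntegral D D' := by
      refine ⟨fun s => ?_⟩
      obtain ⟨Q, hQ⟩ := exists_aeval_of_mem_sup D u s s.2
      have hu_int : IsIntegral D u := ⟨G, hG, hGu⟩
      have hs_int : IsIntegral D (s : Ω₁ × Ω₂) := by
        rw [hQ]
        exact adjoin_le_integralClosure hu_int (aeval_mem_adjoin_singleton D u)
      obtain ⟨p, hp, hps⟩ := hs_int
      refine ⟨p, hp, ?_⟩
      apply Subtype.ext
      have := hom_eval₂ p (algebraMap D D') (algebraMap D' (Ω₁ × Ω₂)) s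
      exact this.trans hps
    exact isField_of_isIntegral_of_isField' hD
  refine ⟨hfield, fun P hP hPx => ?_⟩
  by_contra hP0
  have hne : aeval u P ≠ 0 := by
    intro h0
    apply hP0
    apply hw P hP
    have h1 := aeval_fst D u P
    rw [h0] at h1
    exact h1.symm
  have hd : aeval u P ∈ D' := aeval_mem_sup D u P
  obtain ⟨d', hd'⟩ := hfield.mul_inv_cancel (a := ⟨aeval u P, hd⟩)
    (fun h => hne (congrArg Subtype.val h))
  have h2 : (aeval u P).2 * (d' : Ω₁ × Ω₂).2 = 1 := congrArg (fun z : D' => (z : Ω₁ × Ω₂).2) hd'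
  have h3 : (aeval u P).2 = 0 := (aeval_snd D u P).trans hPx
  rw [h3, zero_mul] at h2
  exact zero_ne_one h2

variable (E)

/-- The graph subalgebra generated by the first `k` pairs `(w i, x i)`. -/
def graph (w : ℕ → Ω₁) (x : ℕ → Ω₂) (k : ℕ) : Subalgebra E (Ω₁ × Ω₂) :=
  Algebra.adjoin E ((fun i => (w i, x i)) '' Set.Iio k)

/-- The pair `(w i, x i)` as an element of the graph, for `i < k`. -/
def gen (w : ℕ → Ω₁) (x : ℕ → Ω₂) {k i : ℕ} (hi : i < k) : graph E w x k :=
  ⟨(w i, x i), Algebra.subset_adjoin ⟨i, hi, rfl⟩⟩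

variable {E}

@[simp] theorem p1_gen (w : ℕ → Ω₁) (x : ℕ → Ω₂) {k i : ℕ} (hi : i < k) :
    p1 (graph E w x k) (gen E w x hi) = w i := rfl

@[simp] theorem p2_gen (w : ℕ → Ω₁) (x : ℕ → Ω₂) {k i : ℕ} (hi : i < k) :
    p2 (graph E w x k) (gen E w x hi) = x i := rfl

@[simp] theorem p1_algebraMap (D : Subalgebra E (Ω₁ × Ω₂)) (r : E) :
    p1 D (algebraMap E D r) = algebraMap E Ω₁ r := rfl

@[simp] theorem p2_algebraMap (D : Subalgebra E (Ω₁ × Ω₂)) (r : E) :
    p2 D (algebraMap E D r) = algebraMap E Ω₂ r := rfl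

theorem graph_succ (w : ℕ → Ω₁) (x : ℕ → Ω₂) (k : ℕ) :
    graph E w x (k + 1) = graph E w x k ⊔ Algebra.adjoin E {(w k, x k)} := by
  rw [graph, graph, ← Algebra.adjoin_union]
  congr 1
  ext z
  simp only [Set.mem_image, Set.mem_Iio, Set.mem_union, Set.mem_singleton_iff]
  constructor
  · rintro ⟨i, hi, rfl⟩
    rcases Nat.lt_succ_iff_lt_or_eq.mp hi with h | h
    · exact Or.inl ⟨i, h, rfl⟩
    · subst h
      exact Or.inr rfl
  · rintro (⟨i, hi, rfl⟩ | rfl)
    · exact ⟨i, by omega, rfl⟩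
    · exact ⟨k, by omega, rfl⟩

theorem isField_graph_zero (w : ℕ → Ω₁) (x : ℕ → Ω₂) : IsField (graph E w x 0) := by
  have h0 : graph E w x 0 = ⊥ := by
    simp [graph]
  rw [h0]
  exact (Algebra.botEquivOfInjective
    (algebraMap E (Ω₁ × Ω₂)).injective).toMulEquiv.isField (Field.toIsField E)

/-- First components of elements of the graph lie in `E[w 0, …, w (k-1)]`. -/
theorem fst_mem_adjoin (w : ℕ → Ω₁) (x : ℕ → Ω₂) (k : ℕ) (d : graph E w x k) :
    p1 _ d ∈ Algebra.adjoin E (w '' Set.Iio k) := by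
  have h : Subalgebra.map (AlgHom.fst E Ω₁ Ω₂)
      (Algebra.adjoin E ((fun i => (w i, x i)) '' Set.Iio k)) =
      Algebra.adjoin E (w '' Set.Iio k) := by
    rw [AlgHom.map_adjoin, Set.image_image]
    rfl
  rw [← h]
  exact ⟨d, d.2, rfl⟩

/-- Every element of `E[x 0, …, x (k-1)]` is the second component of an element of the graph. -/
theorem exists_snd_eq (w : ℕ → Ω₁) (x : ℕ → Ω₂) (k : ℕ) (c : Ω₂)
    (hc : c ∈ Algebra.adjoin E (x '' Set.Iio k)) : ∃ d : graph E w x k, p2 _ d = c := by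
  have h : Subalgebra.map (AlgHom.snd E Ω₁ Ω₂)
      (Algebra.adjoin E ((fun i => (w i, x i)) '' Set.Iio k)) =
      Algebra.adjoin E (x '' Set.Iio k) := by
    rw [AlgHom.map_adjoin, Set.image_image]
    rfl
  rw [← h] at hc
  obtain ⟨d, hd, rfl⟩ := hc
  exact ⟨⟨d, hd⟩, rfl⟩

/-- Every element of `E[w 0, …, w (k-1)]` is the first component of an element of the graph. -/
theorem exists_fst_eq (w : ℕ → Ω₁) (x : ℕ → Ω₂) (k : ℕ) (c : Ω₁)
    (hc : c ∈ Algebra.adjoin E (w '' Set.Iio k)) : ∃ d : graph E w x k, p1 _ d = c := by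
  have h : Subalgebra.map (AlgHom.fst E Ω₁ Ω₂)
      (Algebra.adjoin E ((fun i => (w i, x i)) '' Set.Iio k)) =
      Algebra.adjoin E (w '' Set.Iio k) := by
    rw [AlgHom.map_adjoin, Set.image_image]
    rfl
  rw [← h] at hc
  obtain ⟨d, hd, rfl⟩ := hc
  exact ⟨⟨d, hd⟩, rfl⟩

/-- Supplier form of the degree hypothesis on the `w` side. -/
theorem hw_of_forall (w : ℕ → Ω₁) (x : ℕ → Ω₂) (k n : ℕ) (hfield : IsField (graph E w x k))
    (h : ∀ c : Fin n → Ω₁, (∀ t, c t ∈ Algebra.adjoin E (w '' Set.Iio k)) →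
      ∑ t, c t * w k ^ (t : ℕ) = 0 → ∀ t, c t = 0) :
    ∀ P : Polynomial (graph E w x k), P.degree < n →
      (P.map (p1 _)).eval (w k) = 0 → P = 0 := by
  intro P hP hPw
  rw [eq_relPoly_of_degree_lt P hP, relPoly_map, relPoly_eval] at hPw
  have hz := h (fun t => p1 _ (P.coeff (t : ℕ))) (fun t => fst_mem_adjoin w x k _) hPw
  rw [eq_relPoly_of_degree_lt P hP, relPoly_eq_zero_iff]
  intro t
  exact p1_injective _ hfield ((hz t).trans (map_zero _).symm)

/-- Consumer form of the degree conclusion on the `x` side. -/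
theorem forall_of_hx (w : ℕ → Ω₁) (x : ℕ → Ω₂) (k n : ℕ)
    (h : ∀ P : Polynomial (graph E w x k), P.degree < n →
      (P.map (p2 _)).eval (x k) = 0 → P = 0) :
    ∀ c : Fin n → Ω₂, (∀ t, c t ∈ Algebra.adjoin E (x '' Set.Iio k)) →
      ∑ t, c t * x k ^ (t : ℕ) = 0 → ∀ t, c t = 0 := by
  intro c hc hsum
  choose d hd using fun t => exists_snd_eq w x k (c t) (hc t)
  have hP := h (relPoly d) (relPoly_degree_lt d) (by
    rw [relPoly_map, relPoly_eval]
    simpa [hd] using hsum)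
  rw [relPoly_eq_zero_iff] at hP
  intro t
  rw [← hd t, hP t, map_zero]

/-- **Tower comparison.**  If at each step `k < e` there is a monic polynomial of degree `n k`
over the graph killing `w k` and `x k` (through the two projections), and `w k` satisfies no
nontrivial relation of degree `< n k` over `E[w 0, …, w (k-1)]`, then all graphs are fields and
`x k` satisfies no nontrivial relation of degree `< n k` over `E[x 0, …, x (k-1)]`. -/
theorem tower_compare (w : ℕ → Ω₁) (x : ℕ → Ω₂) (n : ℕ → ℕ) (e : ℕ)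
    (hG : ∀ k < e, ∃ G : Polynomial (graph E w x k), G.Monic ∧ G.natDegree = n k ∧
      (G.map (p1 _)).eval (w k) = 0 ∧ (G.map (p2 _)).eval (x k) = 0)
    (hw : ∀ k < e, ∀ c : Fin (n k) → Ω₁, (∀ t, c t ∈ Algebra.adjoin E (w '' Set.Iio k)) →
      ∑ t, c t * w k ^ (t : ℕ) = 0 → ∀ t, c t = 0) :
    (∀ k ≤ e, IsField (graph E w x k)) ∧
    (∀ k < e, ∀ c : Fin (n k) → Ω₂, (∀ t, c t ∈ Algebra.adjoin E (x '' Set.Iio k)) →
      ∑ t, c t * x k ^ (t : ℕ) = 0 → ∀ t, c t = 0) := by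
  have hfield : ∀ k ≤ e, IsField (graph E w x k) := by
    intro k
    induction k with
    | zero => exact fun _ => isField_graph_zero w x
    | succ k ih =>
      intro hk
      have hk' : k < e := hk
      obtain ⟨G, hGm, hGd, hGw, hGx⟩ := hG k hk'
      rw [graph_succ]
      exact (step _ (ih hk'.le) (w k) (x k) (n k) G hGm hGd hGw hGx
        (hw_of_forall w x k (n k) (ih hk'.le) (hw k hk'))).1
  refine ⟨hfield, fun k hk => ?_⟩
  obtain ⟨G, hGm, hGd, hGw, hGx⟩ := hG k hk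
  exact forall_of_hx w x k (n k) (step _ (hfield k hk.le) (w k) (x k) (n k) G hGm hGd hGw hGx
    (hw_of_forall w x k (n k) (hfield k hk.le) (hw k hk))).2

/-- In a graph that is a field, the two projections have the same kernel: the graph is the graph
of an isomorphism. -/
theorem fst_eq_zero_iff_snd_eq_zero (D : Subalgebra E (Ω₁ × Ω₂)) (hD : IsField D)
    (d : Ω₁ × Ω₂) (hd : d ∈ D) : d.1 = 0 ↔ d.2 = 0 := by
  constructor
  · intro h
    have : (⟨d, hd⟩ : D) = 0 := p1_injective D hD (by rw [map_zero]; exact h)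
    have h2 := congrArg (p2 D) this
    rwa [map_zero] at h2
  · intro h
    have : (⟨d, hd⟩ : D) = 0 := p2_injective D hD (by rw [map_zero]; exact h)
    have h2 := congrArg (p1 D) this
    rwa [map_zero] at h2

end Fermat.Agent.S28.TowerCompare
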